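import Fermat.Agent.PicTorsion.Torsion

/-!
# Divisibility of the group of divisor classes of degree zero

One class is fixed; the existence of an `ℓ`-th part of it is a polynomial system over a finitely
generated ring, solvable over the algebraic closures of finite fields.
-/

set_option autoImplicit false

noncomputable section

open AlgebraicCurve Polynomial

namespace FLTAgent.PicTorsion

open FLTAgent.FunctionField

universe u v

/-- A torsion group with `ℓ ^ (d k)` elements killed by `ℓ ^ k` is divisible by `ℓ`. -/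
theorem exists_smul_eq_of_ncard {C : Type*} [AddCommGroup C] (ℓ : ℕ) [hℓ : Fact ℓ.Prime] (d : ℕ)
    (htors : ∀ x : C, ∃ n, 0 < n ∧ n • x = 0)
    (hcard : ∀ k, {x : C | ℓ ^ k • x = 0}.ncard = ℓ ^ (d * k) ∧ {x : C | ℓ ^ k • x = 0}.Finite)
    (x : C) : ∃ y, ℓ • y = x := by
  classical
  obtain ⟨n, hn, hnx⟩ := htors x
  obtain ⟨a, o, ho, rfl⟩ := Nat.exists_eq_pow_mul_and_not_dvd hn.ne' ℓ hℓ.out.ne_one
  -- multiplication by `ℓ` from level `a + 1` onto level `a`
  let T : ℕ → AddSubgroup C := fun k => AddSubgroup.torsionBy C ((ℓ ^ k : ℕ) : ℤ)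
  have hmem : ∀ k (z : C), z ∈ T k ↔ ℓ ^ k • z = 0 := fun k z => by
    rw [show z ∈ T k ↔ ((ℓ ^ k : ℕ) : ℤ) • z = 0 from Iff.rfl, natCast_zsmul]
  have hT : ∀ k, Nat.card (T k) = ℓ ^ (d * k) ∧ Finite (T k) := fun k => by
    have he : (T k : Set C) = {z : C | ℓ ^ k • z = 0} := Set.ext (hmem k)
    refine ⟨?_, ?_⟩
    · rw [← (hcard k).1, ← he]
      exact Nat.card_coe_set_eq _
    · have := (hcard k).2.to_subtype
      rw [← he] at this
      exact this
  let φ : T (a + 1) →+ T a :=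
    { toFun := fun z => ⟨ℓ • z.1, (hmem a _).2 (by
        rw [smul_smul, ← pow_succ]; exact (hmem (a + 1) _).1 z.2)⟩
      map_zero' := Subtype.ext (smul_zero _)
      map_add' := fun z w => Subtype.ext (smul_add _ _ _) }
  have := (hT (a + 1)).2
  have := (hT a).2
  have := (hT 1).2
  have hker : Nat.card φ.ker ≤ Nat.card (T 1) :=
    Nat.card_le_card_of_injective (fun z => (⟨z.1.1, (hmem 1 _).2 (by
      rw [pow_one]; exact congrArg Subtype.val z.2)⟩ : T 1))
      fun z w h => Subtype.ext (Subtype.ext (congrArg (fun t : T 1 => (t : C)) h))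
  have hrange : Nat.card φ.range = Nat.card (T a) := by
    refine le_antisymm (Nat.card_le_card_of_injective _ Subtype.val_injective) ?_
    have h1 := φ.ker.card_eq_card_quotient_mul_card_addSubgroup
    rw [Nat.card_congr (QuotientAddGroup.quotientKerEquivRange φ).toEquiv, (hT (a + 1)).1,
      Nat.mul_add, mul_one, pow_add] at h1
    rw [(hT 1).1, mul_one] at hker
    rw [(hT a).1]
    refine Nat.le_of_mul_le_mul_right ?_ (pow_pos hℓ.out.pos d)
    rw [h1]
    exact Nat.mul_le_mul_left _ hker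
  have hox : o • x ∈ T a := (hmem a _).2 (by rw [smul_smul]; exact hnx)
  obtain ⟨z, hz⟩ : ∃ z : T (a + 1), φ z = ⟨o • x, hox⟩ := by
    have : φ.range = ⊤ := AddSubgroup.eq_top_of_card_eq _ hrange
    exact AddMonoidHom.mem_range.1 (this ▸ AddSubgroup.mem_top _)
  obtain ⟨s, t, hst⟩ := Int.isCoprime_iff_gcd_eq_one.2
    (by rw [Int.gcd_natCast_natCast]; exact (hℓ.out.coprime_iff_not_dvd).2 ho :
      Int.gcd (ℓ : ℤ) (o : ℤ) = 1)
  refine ⟨s • x + t • (z : C), ?_⟩
  have hz' : ℓ • (z : C) = o • x := congrArg Subtype.val hz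
  calc ℓ • (s • x + t • (z : C)) = s • (ℓ • x) + t • (ℓ • (z : C)) := by
        rw [smul_add, smul_comm ℓ s, smul_comm ℓ t]
    _ = (s * ℓ + t * o) • x := by
        rw [hz', add_smul, ← natCast_zsmul x ℓ, ← natCast_zsmul x o, smul_smul, smul_smul]
    _ = x := by rw [hst, one_smul]

namespace Model

variable {R : Type u} [CommRing R] {M : Model R} {ℓ D : ℕ} {k : Type*} [CommRing k] [Algebra R k]

variable (M ℓ D) in
/-- The unknowns: powers of the unknown ideal, the product, coordinates of the products. -/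
abbrev DVar : Type :=
  (Option (Fin (ℓ + 1)) × Fin M.a × Fin D) ⊕
    ((Option (Fin (ℓ + 1)) × Fin M.a × Fin M.a × Fin M.a × Fin D) ⊕
      (Option (Fin ℓ) × Fin M.a × Fin M.a × Fin M.a × Fin D))

variable (M ℓ) in
/-- The equations. -/
abbrev DEq : Type :=
  (Option (Fin (ℓ + 1)) × Fin M.a × Fin M.a) ⊕ (Option (Fin ℓ) × Fin M.a × Fin M.a)

/-- The three ideals of a product; `none` is the fixed ideal on the right. -/
def dTrip : Option (Fin ℓ) → Option (Fin (ℓ + 1)) × Option (Fin (ℓ + 1)) × Option (Fin (ℓ + 1))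
  | some e => (some e.castSucc, some ⟨1, Nat.succ_lt_succ (Nat.pos_of_ne_zero (by
      rintro rfl; exact e.elim0))⟩, some e.succ)
  | none => (some (Fin.last ℓ), none, none)

/-- The generators of the unknown ideals. -/
def dU (v : Option (Fin (ℓ + 1)) → Fin M.a → ℕ) (x : M.DVar ℓ D → k)
    (p : Option (Fin (ℓ + 1))) : Fin M.a → M.Alg k :=
  cfgGen (v p) fun i n => x (Sum.inl (p, i, n))

/-- The right factor of a product. -/
def dRight (v : Option (Fin (ℓ + 1)) → Fin M.a → ℕ) (uJ : Fin M.a → M.Alg k)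
    (x : M.DVar ℓ D → k) : Option (Fin ℓ) → Fin M.a → M.Alg k
  | some e => dU v x (dTrip (some e)).2.1
  | none => uJ

/-- The equations of an `ℓ`-th part of the class of the fixed ideal. -/
def dEq (v : Option (Fin (ℓ + 1)) → Fin M.a → ℕ) (uJ : Fin M.a → M.Alg k)
    (x : M.DVar ℓ D → k) : M.DEq ℓ → M.Alg k
  | Sum.inl (p, l, i) => M.eel k l * dU v x p i
      - ∑ j, qPoly (fun n => x (Sum.inr (Sum.inl (p, l, i, j, n)))) • dU v x p j
  | Sum.inr (t, i, j) => dU v x (dTrip t).1 i * dRight v uJ x t j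
      - ∑ l, qPoly (fun n => x (Sum.inr (Sum.inr (t, i, j, l, n)))) • dU v x (dTrip t).2.2 l

/-- The conditions on the types: `vJ` is the type of the fixed ideal. -/
def DCond (v : Option (Fin (ℓ + 1)) → Fin M.a → ℕ) (vJ : Fin M.a → ℕ) : Prop :=
  (∀ p i, v p i % M.a = i ∧ M.w i ≤ v p i) ∧
  (∀ e : Fin ℓ, M.typeColength (v (dTrip (some e)).1) + M.typeColength (v (dTrip (some e)).2.1)
    = M.typeColength (v (dTrip (some e)).2.2)) ∧
  M.typeColength (v (some (Fin.last ℓ))) + M.typeColength vJ = M.typeColength (v none) ∧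
  v (some 0) = M.w ∧ M.TypePrincipal (v none)

theorem mapAlg_dEq {k' : Type*} [CommRing k'] [Algebra R k'] (φ : k →ₐ[R] k')
    (v : Option (Fin (ℓ + 1)) → Fin M.a → ℕ) (uJ : Fin M.a → M.Alg k) (x : M.DVar ℓ D → k)
    (e : M.DEq ℓ) :
    M.mapAlg φ (dEq v uJ x e) = dEq v (fun i => M.mapAlg φ (uJ i)) (fun s => φ (x s)) e := by
  have hU : ∀ p i, M.mapAlg φ (dU v x p i) = dU v (fun s => φ (x s)) p i :=
    fun p i => mapAlg_cfgGen φ _ _ i
  have hR : ∀ t i, M.mapAlg φ (dRight v uJ x t i)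
      = dRight v (fun i => M.mapAlg φ (uJ i)) (fun s => φ (x s)) t i := by
    rintro (_ | e) i
    · rfl
    · exact hU _ i
  rcases e with ⟨p, l, i⟩ | ⟨t, i, j⟩ <;>
    simp only [dEq, map_sub, map_mul, map_sum, mapAlg_polySmul, mapAlg_eel, hU, hR, map_qPoly]

section Field

variable {k : Type*} [Field k] [Algebra R k] [IsDedekindDomain (M.Alg k)]

theorem exists_part_of_solution (hℓ : 0 < ℓ) {v : Option (Fin (ℓ + 1)) → Fin M.a → ℕ}
    {vJ : Fin M.a → ℕ} (hv : DCond v vJ) {uJ : Fin M.a → M.Alg k} {J : Ideal (M.Alg k)}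
    (hJ : J ≠ ⊥) (hJv : ∀ i, M.minDeg J i = vJ i)
    (hJr : ∀ f ∈ J, ∃ h : Fin M.a → k[X], f = ∑ i, h i • uJ i) {x : M.DVar ℓ D → k}
    (hx : ∀ e, dEq v uJ x e = 0) : ∃ y : ClassGroup (M.Alg k), y ^ ℓ * cl J = 1 := by
  classical
  obtain ⟨hmod, htr, hlast, hzero, hprin⟩ := hv
  have hS : ∀ p i, M.InS (v p i) := fun p i => by
    unfold InS
    rw [show M.cls (v p i) = i from Fin.ext (hmod p i).1]
    exact (hmod p i).2
  have hI := fun p => exists_ideal_of_closed (fun i => (hmod p i).1)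
    (fun i => (below_cfgGen (hS p) (fun i n => x (Sum.inl (p, i, n))) i).1)
    (fun i => (below_cfgGen (hS p) (fun i n => x (Sum.inl (p, i, n))) i).2)
    (fun l i => ⟨_, sub_eq_zero.1 (hx (Sum.inl (p, l, i)))⟩)
  choose I hI0 hIv hIu hIr using hI
  have hcol : ∀ p, M.colength (I p) = M.typeColength (v p) :=
    fun p => colength_eq_typeColength (hIv p)
  have hprod : ∀ (t : Option (Fin ℓ)) (Q : Ideal (M.Alg k)), Q ≠ ⊥ →
      (∀ f ∈ Q, ∃ h : Fin M.a → k[X], f = ∑ i, h i • dRight v uJ x t i) →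
      M.colength (I (dTrip t).1) + M.colength Q = M.colength (I (dTrip t).2.2) →
      cl (I (dTrip t).1) * cl Q = cl (I (dTrip t).2.2) := by
    intro t Q hQ hQr hc
    have hle : I (dTrip t).1 * Q ≤ I (dTrip t).2.2 := by
      refine Ideal.mul_le.2 fun f hf g hg => ?_
      obtain ⟨h, rfl⟩ := hIr _ f hf
      obtain ⟨h', rfl⟩ := hQr g hg
      simp only [Finset.sum_mul, Finset.mul_sum, smul_mul_smul_comm]
      refine sum_mem fun j _ => sum_mem fun i _ => Submodule.smul_of_tower_mem _ _ ?_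
      rw [show cfgGen (v (dTrip t).1) (fun i n => x (Sum.inl ((dTrip t).1, i, n))) i
          * dRight v uJ x t j = _ from sub_eq_zero.1 (hx (Sum.inr (t, i, j)))]
      exact sum_mem fun l _ => Submodule.smul_of_tower_mem _ _ (hIu _ l)
    rw [← cl_mul (hI0 _) hQ]
    exact congrArg cl (M.eq_of_le_of_colength_eq (mul_ne_zero (hI0 _) hQ) hle
      (by rw [colength_mul (hI0 _) hQ, hc]))
  have hone : (⟨1, Nat.succ_lt_succ hℓ⟩ : Fin (ℓ + 1)).1 = 1 := rfl
  set y := cl (I (some ⟨1, Nat.succ_lt_succ hℓ⟩))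
  have hpow : ∀ e (he : e ≤ ℓ), cl (I (some ⟨e, Nat.lt_succ_of_le he⟩)) = y ^ e := by
    intro e
    induction e with
    | zero =>
      intro _
      rw [show (⟨0, _⟩ : Fin (ℓ + 1)) = 0 from rfl,
        M.eq_top_of_colength_eq_zero (hI0 _) (by rw [hcol, hzero]; simp [typeColength]), cl_top,
        pow_zero]
    | succ e ih =>
      intro he
      rw [pow_succ, ← ih (by omega)]
      refine (hprod (some ⟨e, he⟩) (I (dTrip (some ⟨e, he⟩)).2.1) (hI0 _) (hIr _) ?_).symm
      rw [hcol, hcol, hcol]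
      exact htr _
  refine ⟨y, ?_⟩
  rw [← hpow ℓ le_rfl]
  refine (hprod none J hJ hJr ?_).trans
    ((cl_eq_one_iff (hI0 none)).2 ((isPrincipal_iff_typePrincipal (hI0 none) (hIv none)).2 hprin))
  rw [hcol, hcol, colength_eq_typeColength hJv]
  exact hlast

theorem exists_solution_of_part (hℓ : 0 < ℓ) {J : Ideal (M.Alg k)} (hJ : J ≠ ⊥)
    (hJg : M.colength J ≤ M.genus) {vJ : Fin M.a → ℕ} (hJv : ∀ i, M.minDeg J i = vJ i)
    {uJ : Fin M.a → M.Alg k} (hJu : ∀ i, uJ i ∈ J) (hJb : ∀ i, M.Below (uJ i) (vJ i))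
    (y : ClassGroup (M.Alg k)) (hy : y ^ ℓ * cl J = 1) :
    ∃ v : Option (Fin (ℓ + 1)) → Fin M.a → Fin (M.cfgBound (ℓ + 1)),
      DCond (fun p i => (v p i : ℕ)) vJ ∧ ∃ x : M.DVar ℓ (M.cfgBound (ℓ + 1)) → k,
        ∀ e, dEq (fun p i => (v p i : ℕ)) uJ x e = 0 := by
  classical
  obtain ⟨Y, hY, rfl, hYg⟩ := exists_isReduced (M := M) y
  let I : Option (Fin (ℓ + 1)) → Ideal (M.Alg k) := fun p => match p with
    | some e => Y ^ (e : ℕ)
    | none => Y ^ ℓ * J
  have hI : ∀ p, I p ≠ ⊥ := by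
    rintro (_ | e)
    · exact mul_ne_zero (pow_ne_zero _ hY.1) hJ
    · exact pow_ne_zero _ hY.1
  have hcol : ∀ p, M.colength (I p) ≤ (ℓ + 1) * M.genus := by
    rintro (_ | e)
    · rw [show I none = Y ^ ℓ * J from rfl, colength_mul (pow_ne_zero _ hY.1) hJ,
        colength_pow hY.1, Nat.succ_mul]
      exact Nat.add_le_add (Nat.mul_le_mul_left ℓ hYg) hJg
    · rw [show I (some e) = Y ^ (e : ℕ) from rfl, colength_pow hY.1]
      exact Nat.mul_le_mul (Nat.le_of_lt e.isLt) hYg
  have htrip : ∀ t : Option (Fin ℓ),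
      I (dTrip t).1 * (match t with | some e => I (dTrip (some e)).2.1 | none => J)
        = I (dTrip t).2.2 := by
    rintro (_ | e)
    · rfl
    · show Y ^ (e : ℕ) * Y ^ 1 = Y ^ ((e : ℕ) + 1)
      rw [pow_one, ← pow_succ]
  obtain ⟨D, hD⟩ : ∃ D, D = M.cfgBound (ℓ + 1) := ⟨_, rfl⟩
  rw [← hD]
  have hB : ∀ p i, M.minDeg (I p) i ≤ (ℓ + 1) * M.genus + 2 * M.genus + M.a :=
    fun p i => minDeg_le_of_colength_le (hI p) (hcol p) i
  have hlt : ∀ p i, M.minDeg (I p) i < D := fun p i => by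
    have := hB p i; simp only [hD, cfgBound]; omega
  have hS : ∀ p i, M.InS (M.minDeg (I p) i) :=
    fun p i => M.inS_of_mem_degSet (M.minDeg_spec (hI p) i).1
  have hJB : ∀ i, vJ i ≤ (ℓ + 1) * M.genus + 2 * M.genus + M.a := fun i => by
    rw [← hJv]
    exact minDeg_le_of_colength_le hJ (hJg.trans (Nat.le_mul_of_pos_left _ (by omega : 0 < ℓ + 1))) i
  have e : ∀ p, M.colength (I p) = M.typeColength fun i => M.minDeg (I p) i :=
    fun p => colength_eq_typeColength (fun _ => rfl)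
  refine ⟨fun p i => ⟨M.minDeg (I p) i, hlt p i⟩, ⟨fun p i =>
    ⟨congrArg Fin.val (M.minDeg_spec (hI p) i).2, M.w_le_minDeg (hI p) i⟩, fun t => ?_, ?_,
    ?_, ?_⟩, ?_⟩
  · show M.typeColength (fun i => M.minDeg (I (dTrip (some t)).1) i)
      + M.typeColength (fun i => M.minDeg (I (dTrip (some t)).2.1) i)
      = M.typeColength (fun i => M.minDeg (I (dTrip (some t)).2.2) i)
    rw [← e, ← e, ← e, ← htrip (some t), colength_mul (hI _) (hI _)]
  · show M.typeColength (fun i => M.minDeg (I (some (Fin.last ℓ))) i) + M.typeColength vJ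
      = M.typeColength (fun i => M.minDeg (I none) i)
    rw [← e (some (Fin.last ℓ)), ← e none, ← colength_eq_typeColength hJv]
    exact (colength_mul (hI (some (Fin.last ℓ))) hJ).symm
  · funext i
    show M.minDeg (I (some 0)) i = M.w i
    rw [show I (some 0) = ⊤ by rw [show I (some 0) = Y ^ 0 from rfl, pow_zero, Ideal.one_eq_top]]
    refine le_antisymm ?_ (M.w_le_minDeg top_ne_bot i)
    have hdeg : M.w i ∈ M.degSet (M.sub (⊤ : Ideal (M.Alg k))) :=
      ⟨M.mon (M.w i), trivial, M.mon_ne_zero (M.inS_w i), M.deg_mon (M.inS_w i)⟩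
    simpa [cls_w] using M.minDeg_le hdeg
  · show M.TypePrincipal (fun i => M.minDeg (I none) i)
    refine (isPrincipal_iff_typePrincipal (hI none) (fun _ => rfl)).1
      ((cl_eq_one_iff (hI none)).1 ?_)
    rw [show I none = Y ^ ℓ * J from rfl, cl_mul (pow_ne_zero _ hY.1) hJ, cl_pow hY.1, hy]
  have hu : ∀ p i, bas (hI p) i = cfgGen (fun j => M.minDeg (I p) j)
      (fun j (n : Fin D) => M.coef (n : ℕ) (bas (hI p) j)) i := fun p i =>
    eq_cfgGen (hS p) (hlt p i) (below_bas (hI p) i) (coef_bas (hI p) i)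
  have hc : ∀ p l i, ∃ q : Fin M.a → Fin D → k,
      M.eel k l * bas (hI p) i = ∑ j, qPoly (q j) • bas (hI p) j := fun p l i => by
    have he : M.Below (M.eel k l) (M.w l) := fun n hn => by
      by_cases hnS : M.InS n
      · obtain ⟨j, s, rfl⟩ := M.inS_iff_exists.1 hnS
        rw [coef_add_mul, eel_apply]
        split_ifs with hj
        · subst hj
          rw [coeff_one, if_neg]
          rintro rfl
          omega
        · exact coeff_zero s
      · exact M.coef_of_not_inS hnS _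
    refine exists_coords_qPoly (hI p) ((I p).mul_mem_left _ (bas_mem _ i))
      (he.mul M (below_bas (hI p) i)) ?_
    have := hB p i
    have := Finset.single_le_sum (f := M.w) (fun j _ => Nat.zero_le _) (Finset.mem_univ l)
    simp only [hD, cfgBound]
    omega
  let right : Option (Fin ℓ) → Fin M.a → M.Alg k := fun t => match t with
    | some e => fun j => bas (hI (dTrip (some e)).2.1) j
    | none => uJ
  have hp : ∀ t i j, ∃ q : Fin M.a → Fin D → k,
      bas (hI (dTrip t).1) i * right t j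
        = ∑ l, qPoly (q l) • bas (hI (dTrip t).2.2) l := by
    rintro (_ | e) i j
    · show ∃ q : Fin M.a → Fin D → k, bas (hI (some (Fin.last ℓ))) i * uJ j
        = ∑ l, qPoly (q l) • bas (hI none) l
      refine exists_coords_qPoly (hI none) ?_
        ((below_bas (hI (some (Fin.last ℓ))) i).mul M (hJb j)) ?_
      · show _ ∈ Y ^ ℓ * J
        exact Ideal.mul_mem_mul (bas_mem (hI (some (Fin.last ℓ))) i) (hJu j)
      have := hB (some (Fin.last ℓ)) i
      have := hJB j
      simp only [hD, cfgBound]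
      omega
    · show ∃ q : Fin M.a → Fin D → k, bas (hI (dTrip (some e)).1) i * bas (hI (dTrip (some e)).2.1) j
        = ∑ l, qPoly (q l) • bas (hI (dTrip (some e)).2.2) l
      refine exists_coords_qPoly (hI (dTrip (some e)).2.2) ?_
        ((below_bas (hI (dTrip (some e)).1) i).mul M (below_bas (hI (dTrip (some e)).2.1) j)) ?_
      · rw [← htrip (some e)]
        exact Ideal.mul_mem_mul (bas_mem (hI (dTrip (some e)).1) i)
          (bas_mem (hI (dTrip (some e)).2.1) j)
      have := hB (dTrip (some e)).1 i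
      have := hB (dTrip (some e)).2.1 j
      simp only [hD, cfgBound]
      omega
  choose qc hqc using hc
  choose qp hqp using hp
  refine ⟨fun s => match s with
    | Sum.inl (p, i, n) => M.coef (n : ℕ) (bas (hI p) i)
    | Sum.inr (Sum.inl (p, l, i, j, n)) => qc p l i j n
    | Sum.inr (Sum.inr (t, i, j, l, n)) => qp t i j l n, ?_⟩
  rintro (⟨p, l, i⟩ | ⟨_ | t, i, j⟩)
  · simp only [dEq, dU, ← hu]
    exact sub_eq_zero.2 (hqc p l i)
  · simp only [dEq, dRight, dU, ← hu]
    exact sub_eq_zero.2 (hqp none i j)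
  · simp only [dEq, dRight, dU, ← hu]
    exact sub_eq_zero.2 (hqp (some t) i j)

end Field

variable {K : Type u} [Field K] [IsAlgClosed K] [CharZero K] [Algebra R K] [FaithfulSMul R K]
  [IsDomain R] [Algebra.FiniteType ℤ R] [IsDedekindDomain (M.Alg K)]

theorem exists_pow_eq (hN : M.Normal K) (ℓ : ℕ) [hℓ : Fact ℓ.Prime] (c : ClassGroup (M.Alg K)) :
    ∃ y, y ^ ℓ = c := by
  classical
  obtain ⟨J, hJ, hJc, hJg⟩ := exists_isReduced (M := M) c⁻¹
  obtain ⟨D, hD⟩ : ∃ D, D = M.cfgBound (ℓ + 1) := ⟨_, rfl⟩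
  have hJS : ∀ i, M.InS (M.minDeg J i) := fun i => M.inS_of_mem_degSet (M.minDeg_spec hJ.1 i).1
  have hJB := fun i => minDeg_le_of_colength_le hJ.1
    (hJg.trans (Nat.le_mul_of_pos_left _ (by omega : 0 < ℓ + 1))) i
  have hJlt : ∀ i, M.minDeg J i < D := fun i => by
    have := hJB i; simp only [hD, cfgBound]; omega
  have hq : ∀ l i, ∃ q : Fin M.a → Fin D → K,
      M.eel K l * bas hJ.1 i = ∑ j, qPoly (q j) • bas hJ.1 j := fun l i => by
    have he : M.Below (M.eel K l) (M.w l) := fun n hn => by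
      by_cases hnS : M.InS n
      · obtain ⟨j, s, rfl⟩ := M.inS_iff_exists.1 hnS
        rw [coef_add_mul, eel_apply]
        split_ifs with hj
        · subst hj
          rw [coeff_one, if_neg]
          rintro rfl
          omega
        · exact coeff_zero s
      · exact M.coef_of_not_inS hnS _
    refine exists_coords_qPoly hJ.1 (J.mul_mem_left _ (bas_mem _ i))
      (he.mul M (below_bas hJ.1 i)) ?_
    have := hJB i
    have := Finset.single_le_sum (f := M.w) (fun j _ => Nat.zero_le _) (Finset.mem_univ l)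
    simp only [hD, cfgBound]
    omega
  choose q hq using hq
  -- the ring of definition of the fixed ideal
  let S : Finset K :=
    (Finset.univ.image fun p : Fin M.a × Fin D => M.coef (p.2 : ℕ) (bas hJ.1 p.1)) ∪
      (Finset.univ.image fun p : Fin M.a × Fin M.a × Fin M.a × Fin D =>
        q p.1 p.2.1 p.2.2.1 p.2.2.2)
  let R' : Subalgebra R K := Algebra.adjoin R (S : Set K)
  have : Algebra.FiniteType ℤ R' :=
    (inferInstance : Algebra.FiniteType ℤ R).trans
      ((Subalgebra.fg_iff_finiteType _).1 (Subalgebra.fg_adjoin_finset S))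
  let cJ : Fin M.a → Fin D → R' := fun i n => ⟨M.coef (n : ℕ) (bas hJ.1 i),
    Algebra.subset_adjoin (Finset.mem_union_left _
      (Finset.mem_image_of_mem _ (Finset.mem_univ (i, n))))⟩
  let qJ : Fin M.a → Fin M.a → Fin M.a → Fin D → R' := fun l i j n => ⟨q l i j n,
    Algebra.subset_adjoin (Finset.mem_union_right _ (Finset.mem_image.2
      ⟨(l, i, j, n), Finset.mem_univ _, rfl⟩))⟩
  let vJ : Fin M.a → ℕ := fun i => M.minDeg J i
  let uR : Fin M.a → M.Alg R' := cfgGen vJ cJ
  have huK : ∀ i, M.mapAlg R'.val (uR i) = bas hJ.1 i := fun i => by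
    refine (mapAlg_cfgGen R'.val vJ cJ i).trans ?_
    exact (eq_cfgGen hJS (hJlt i) (below_bas hJ.1 i) (coef_bas hJ.1 i)).symm
  have hclR : ∀ l i, M.eel R' l * uR i = ∑ j, qPoly (qJ l i j) • uR j := fun l i => by
    apply M.mapAlg_injective R'.val Subtype.val_injective
    simp only [map_mul, map_sum, mapAlg_polySmul, mapAlg_eel, huK, map_qPoly]
    exact hq l i
  -- transfer
  obtain ⟨b₁, hb₁, hnormal⟩ := M.exists_normal_transfer K
  have key : ∀ (L : Type u) [Field L] [Algebra R L] [Algebra R' L] [IsScalarTower R R' L]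
      (v : Option (Fin (ℓ + 1)) → Fin M.a → ℕ) (x : M.DVar ℓ D → L),
      (∀ e, dEq v (fun i => M.mapAlg (IsScalarTower.toAlgHom R R' L) (uR i)) x e = 0) ↔
        ∀ p : Σ e, ↥(M.supp (dEq v (fun i => M.mapAlg
          (IsScalarTower.toAlgHom R R' (MvPolynomial (M.DVar ℓ D) R')) (uR i))
          (fun s => MvPolynomial.X s) e)),
          MvPolynomial.aeval x (M.coef p.2.1 (dEq v (fun i => M.mapAlg
            (IsScalarTower.toAlgHom R R' (MvPolynomial (M.DVar ℓ D) R')) (uR i))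
            (fun s => MvPolynomial.X s) p.1)) = 0 := by
    intro L _ _ _ _ v x
    set φ := (MvPolynomial.aeval x : MvPolynomial (M.DVar ℓ D) R' →ₐ[R'] L).restrictScalars R
    have hcomp : ∀ i, M.mapAlg φ (M.mapAlg
        (IsScalarTower.toAlgHom R R' (MvPolynomial (M.DVar ℓ D) R')) (uR i))
        = M.mapAlg (IsScalarTower.toAlgHom R R' L) (uR i) := fun i => M.ext_coef fun n => by
      simp only [coef_mapAlg, φ, AlgHom.restrictScalars_apply, IsScalarTower.toAlgHom_apply,
        AlgHom.commutes]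
    have hE : ∀ e, M.mapAlg φ (dEq v (fun i => M.mapAlg
        (IsScalarTower.toAlgHom R R' (MvPolynomial (M.DVar ℓ D) R')) (uR i))
        (fun s => MvPolynomial.X s) e)
        = dEq v (fun i => M.mapAlg (IsScalarTower.toAlgHom R R' L) (uR i)) x e := fun e => by
      rw [mapAlg_dEq]
      simp only [hcomp, φ, AlgHom.restrictScalars_apply, MvPolynomial.aeval_X]
    constructor
    · intro h p
      have h1 := congrArg (M.coef p.2.1) (hE p.1)
      rw [coef_mapAlg, h, coef_zero] at h1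
      exact h1
    · intro h e
      rw [← hE]
      refine M.ext_coef fun n => ?_
      rw [coef_mapAlg, coef_zero]
      by_cases hn : n ∈ M.supp (dEq v (fun i => M.mapAlg
        (IsScalarTower.toAlgHom R R' (MvPolynomial (M.DVar ℓ D) R')) (uR i))
        (fun s => MvPolynomial.X s) e)
      · exact h ⟨e, n, hn⟩
      · rw [not_not.1 (mt M.mem_supp.2 hn), map_zero]
  have hP := fun v : Option (Fin (ℓ + 1)) → Fin M.a → Fin D => exists_transfer (R := R') K
    fun p : Σ e, ↥(M.supp (dEq (fun p i => (v p i : ℕ)) (fun i => M.mapAlg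
      (IsScalarTower.toAlgHom R R' (MvPolynomial (M.DVar ℓ D) R')) (uR i))
      (fun s => MvPolynomial.X s) e)) =>
      M.coef p.2.1 (dEq (fun p i => (v p i : ℕ)) (fun i => M.mapAlg
        (IsScalarTower.toAlgHom R R' (MvPolynomial (M.DVar ℓ D) R')) (uR i))
        (fun s => MvPolynomial.X s) p.1)
  choose b hb htr using hP
  have hℓ0 : (ℓ : R') ≠ 0 := fun h => hℓ.out.ne_zero (by
    have := congrArg R'.val h
    simpa using this)
  have hb₁' : algebraMap R R' b₁ ≠ 0 := fun h => hb₁ (FaithfulSMul.algebraMap_injective R K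
    (by rw [map_zero, IsScalarTower.algebraMap_apply R R' K, h, map_zero]))
  obtain ⟨k₀, _, _, hfin, hne⟩ := exists_finite_field_point (R := R')
    (b := (ℓ : R') * algebraMap R R' b₁ * ∏ v, b v)
    (mul_ne_zero (mul_ne_zero hℓ0 hb₁') (Finset.prod_ne_zero_iff.2 fun v _ => hb v))
  simp only [map_mul, map_natCast, map_prod, mul_ne_zero_iff, Finset.prod_ne_zero_iff] at hne
  obtain ⟨⟨hℓ₀, h₁⟩, h₂⟩ := hne
  let _ : Algebra R k₀ := ((algebraMap R' k₀).comp (algebraMap R R')).toAlgebra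
  have : IsScalarTower R R' k₀ := IsScalarTower.of_algebraMap_eq fun _ => rfl
  let Ω := AlgebraicClosure k₀
  have : IsScalarTower R R' Ω := IsScalarTower.of_algebraMap_eq fun z => by
    rw [IsScalarTower.algebraMap_apply R k₀ Ω, IsScalarTower.algebraMap_apply R' k₀ Ω]
    rfl
  have hmap : ∀ z : R', algebraMap R' k₀ z ≠ 0 → algebraMap R' Ω z ≠ 0 := fun z hz => by
    rw [IsScalarTower.algebraMap_apply R' k₀ Ω]
    exact (_root_.map_ne_zero _).2 hz
  have : IsDedekindDomain (M.Alg Ω) := (hnormal Ω (by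
    rw [IsScalarTower.algebraMap_apply R R' Ω]; exact hmap _ h₁) hN).isDedekindDomain
  have hcard : ¬ ℓ ∣ Nat.card k₀ := fun h => by
    have := Fintype.ofFinite k₀
    obtain ⟨n, hq, hn⟩ := FiniteField.card k₀ (ringChar k₀)
    rw [Nat.card_eq_fintype_card, hn] at h
    have hℓq := (Nat.prime_dvd_prime_iff_eq Fact.out hq).1 ((Fact.out : ℓ.Prime).dvd_of_dvd_pow h)
    exact hℓ₀ (by rw [hℓq]; exact ringChar.Nat.cast_ringChar)
  -- the fixed ideal in the fibre
  set uΩ : Fin M.a → M.Alg Ω := fun i => M.mapAlg (IsScalarTower.toAlgHom R R' Ω) (uR i) with huΩ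
  have hgen : uΩ = cfgGen vJ (fun i n => algebraMap R' Ω (cJ i n)) :=
    funext fun i => mapAlg_cfgGen _ vJ cJ i
  have hvJ : ∀ i, vJ i % M.a = i := fun i => congrArg Fin.val (M.minDeg_spec hJ.1 i).2
  obtain ⟨J', hJ'0, hJ'v, hJ'u, -⟩ := exists_ideal_of_closed hvJ
    (fun i => hgen ▸ (below_cfgGen hJS _ i).1) (fun i => hgen ▸ (below_cfgGen hJS _ i).2)
    fun l i => ⟨_, by
      have := congrArg (M.mapAlg (IsScalarTower.toAlgHom R R' Ω)) (hclR l i)
      simp only [map_mul, map_sum, mapAlg_polySmul, mapAlg_eel] at this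
      exact this⟩
  have hJ'g : M.colength J' ≤ M.genus := by
    rw [colength_eq_typeColength hJ'v, ← colength_eq_typeColength (J := J) fun _ => rfl]
    exact hJg
  obtain ⟨y₀, hy₀⟩ : ∃ y : Additive (ClassGroup (M.Alg Ω)), ℓ • y = -Additive.ofMul (cl J') := by
    refine exists_smul_eq_of_ncard ℓ (2 * M.genus) (fun x => ?_)
      (fun k => Model.ncard_torsion_finite_fibre (k₀ := k₀) ℓ hcard k) _
    obtain ⟨n, hn, hx⟩ := exists_mem_fixedSub (k₀ := k₀) x
    have := finite_fixedSub (M := M) (k₀ := k₀) (Ω := Ω) hn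
    refine ⟨Nat.card (fixedSub (frobEnd M k₀ Ω) n), Nat.card_pos, ?_⟩
    exact congrArg Subtype.val (card_nsmul_eq_zero' (x := (⟨x, hx⟩ : fixedSub (frobEnd M k₀ Ω) n)))
  have hy : (Additive.toMul y₀) ^ ℓ * cl J' = 1 := by
    rw [← toMul_nsmul, hy₀, toMul_neg, toMul_ofMul, inv_mul_cancel]
  obtain ⟨v, hv, x, hx⟩ := hD ▸ exists_solution_of_part hℓ.out.pos hJ'0 hJ'g hJ'v hJ'u
    (fun i => hgen ▸ (below_cfgGen hJS _ i).1) _ hy
  obtain ⟨z, hz⟩ := (htr v Ω (hmap _ (h₂ v (Finset.mem_univ v)))).2 ⟨x, (key Ω _ x).1 hx⟩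
  have hK := (key K _ z).2 hz
  have huK' : (fun i => M.mapAlg (IsScalarTower.toAlgHom R R' K) (uR i)) = bas hJ.1 :=
    funext fun i => (M.ext_coef fun n => by rw [coef_mapAlg, coef_mapAlg]; rfl :
      M.mapAlg (IsScalarTower.toAlgHom R R' K) (uR i) = M.mapAlg R'.val (uR i)).trans (huK i)
  rw [huK'] at hK
  obtain ⟨y, hy'⟩ := exists_part_of_solution hℓ.out.pos hv hJ.1 (fun _ => rfl)
    (fun f hf => by obtain ⟨h, hh⟩ := exists_basMap_eq hJ.1 hf; exact ⟨h, hh.symm⟩) hK
  exact ⟨y, by rwa [hJc, mul_inv_eq_one] at hy'⟩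

end Model

variable {K : Type u} {F : Type v} [Field K] [Field F] [Algebra K F] [IsFunctionField K F]
  [IsAlgClosed K] [CharZero K]

/-- In characteristic zero the divisor classes of degree zero form a divisible group. -/
theorem exists_nsmul_eq (ℓ : ℕ) [Fact ℓ.Prime] (x : Pic0 K F) : ∃ y : Pic0 K F, ℓ • y = x := by
  obtain ⟨P⟩ := exists_place (K := K) (F := F)
  obtain ⟨t, ⟨B⟩⟩ := exists_monBasis P
  have : Algebra.FiniteType ℤ B.base := (Subalgebra.fg_iff_finiteType _).1 B.base_fg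
  have : FaithfulSMul B.base K :=
    (faithfulSMul_iff_algebraMap_injective _ _).2 Subtype.val_injective
  obtain ⟨y, hy⟩ := Model.exists_pow_eq (M := B.model) B.normal ℓ (Additive.toMul (B.picEquiv x))
  refine ⟨B.picEquiv.symm (Additive.ofMul y), B.picEquiv.injective ?_⟩
  rw [map_nsmul, AddEquiv.apply_symm_apply, ← ofMul_pow, hy, ofMul_toMul]

end FLTAgent.PicTorsion
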