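import Mathlib.GroupTheory.Perm.Cycle.Type
import Mathlib.GroupTheory.Coset.Card
import Mathlib.GroupTheory.QuotientGroup.Basic
import Mathlib.GroupTheory.Index
import Mathlib.NumberTheory.Padics.PadicVal.Basic
import Mathlib.Algebra.Polynomial.AlgebraMap
import Mathlib.Algebra.Module.Basic
import Mathlib.Data.Nat.Choose.Sum
import Mathlib.Algebra.CharP.Lemmas
import Mathlib.RingTheory.Coprime.Lemmas

/-!
# The `ℓ`-power torsion in a tower of fixed subgroups

`S` is an endomorphism of `C`, `H j` the fixed subgroup of `S ^ ℓ ^ j`.  Finiteness, linear growth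
of the `ℓ`-parts and surjectivity of the norms modulo `ℓ` force the `ℓ`-power torsion of the union
to be divisible of corank equal to the slope.
-/

set_option autoImplicit false

noncomputable section

open Polynomial

namespace FLTAgent.PicTorsion

variable {C : Type*} [AddCommGroup C]

/-- Fixed points of an endomorphism power. -/
def fixedSub (S : AddMonoid.End C) (n : ℕ) : AddSubgroup C where
  carrier := {x | (S ^ n) x = x}
  zero_mem' := map_zero _
  add_mem' := fun {x y} hx hy => by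
    show (S ^ n) (x + y) = x + y
    rw [map_add, hx, hy]
  neg_mem' := fun {x} hx => by
    show (S ^ n) (-x) = -x
    rw [map_neg, hx]

theorem mem_fixedSub {S : AddMonoid.End C} {n : ℕ} {x : C} : x ∈ fixedSub S n ↔ (S ^ n) x = x :=
  Iff.rfl

theorem fixedSub_le_of_dvd (S : AddMonoid.End C) {m n : ℕ} (h : m ∣ n) :
    fixedSub S m ≤ fixedSub S n := by
  intro x hx
  obtain ⟨t, rfl⟩ := h
  rw [mem_fixedSub, pow_mul]
  induction t with
  | zero => rfl
  | succ t ih =>
    rw [pow_succ, AddMonoid.End.coe_mul, Function.comp_apply, mem_fixedSub.1 hx]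
    exact ih

/-- The elements of `ℓ`-power order. -/
def primarySub (C : Type*) [AddCommGroup C] (ℓ : ℕ) : AddSubgroup C where
  carrier := {x | ∃ i : ℕ, ℓ ^ i • x = 0}
  zero_mem' := ⟨0, smul_zero _⟩
  add_mem' := by
    rintro x y ⟨i, hi⟩ ⟨j, hj⟩
    refine ⟨i + j, ?_⟩
    rw [smul_add, pow_add, mul_comm, mul_smul, hi, smul_zero, mul_comm, mul_smul, hj, smul_zero,
      add_zero]
  neg_mem' := fun {x} ⟨i, hi⟩ => ⟨i, by rw [smul_neg, hi, neg_zero]⟩

theorem mem_primarySub {ℓ : ℕ} {x : C} : x ∈ primarySub C ℓ ↔ ∃ i : ℕ, ℓ ^ i • x = 0 := Iff.rfl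

theorem end_pow_apply (T : AddMonoid.End C) (m n : ℕ) (x : C) :
    (T ^ m) ((T ^ n) x) = (T ^ (m + n)) x := by
  rw [pow_add]; rfl

theorem end_commute_apply {T U : AddMonoid.End C} (h : Commute T U) (x : C) :
    T (U x) = U (T x) :=
  congrArg (fun f : AddMonoid.End C => f x) h.eq

variable (ℓ : ℕ) [hℓ : Fact ℓ.Prime]

/-- The order of the `ℓ`-primary part of a finite subgroup. -/
theorem natCard_inf_primarySub (H : AddSubgroup C) [Finite H] :
    Nat.card (H ⊓ primarySub C ℓ : AddSubgroup C) = ℓ ^ padicValNat ℓ (Nat.card H) := by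
  set P := (primarySub C ℓ).addSubgroupOf H
  have hcard : Nat.card P = Nat.card (H ⊓ primarySub C ℓ : AddSubgroup C) :=
    Nat.card_congr
      { toFun := fun x => ⟨((x : H) : C), (x : H).2, x.2⟩
        invFun := fun x => ⟨⟨(x : C), x.2.1⟩, x.2.2⟩
        left_inv := fun _ => rfl
        right_inv := fun _ => rfl }
  rw [← hcard]
  have hindex : ¬ ℓ ∣ P.index := by
    intro hd
    obtain ⟨x, hx⟩ := exists_prime_addOrderOf_dvd_card' (G := H ⧸ P) ℓ hd
    obtain ⟨x, rfl⟩ := QuotientAddGroup.mk'_surjective P x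
    have h0 : ℓ • x ∈ P := by
      rw [← QuotientAddGroup.eq_zero_iff, QuotientAddGroup.mk_nsmul]
      have h2 := addOrderOf_nsmul_eq_zero (QuotientAddGroup.mk' P x)
      rwa [hx] at h2
    obtain ⟨i, hi⟩ := h0
    have hxP : x ∈ P := ⟨i + 1, by
      rw [pow_succ, mul_smul]; exact hi⟩
    have : (QuotientAddGroup.mk' P x) = 0 := (QuotientAddGroup.eq_zero_iff x).2 hxP
    rw [this, addOrderOf_zero] at hx
    exact hℓ.out.one_lt.ne hx
  have hpow : ∀ p, p.Prime → p ∣ Nat.card P → p = ℓ := by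
    intro p hp hd
    have := Fact.mk hp
    obtain ⟨x, hx⟩ := exists_prime_addOrderOf_dvd_card' (G := P) p hd
    obtain ⟨i, hi⟩ := x.2
    have h1 : ℓ ^ i • x = 0 := by
      apply Subtype.ext
      apply Subtype.ext
      exact hi
    have h2 := addOrderOf_dvd_of_nsmul_eq_zero h1
    rw [hx] at h2
    exact (Nat.prime_dvd_prime_iff_eq hp hℓ.out).1 (hp.dvd_of_dvd_pow h2)
  have h := AddSubgroup.card_mul_index P
  have hPpos : Nat.card P ≠ 0 := Nat.card_pos.ne'
  have hi0 : P.index ≠ 0 := AddSubgroup.index_ne_zero_of_finite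
  rw [← h, padicValNat.mul hPpos hi0, padicValNat.eq_zero_of_not_dvd hindex, add_zero]
  obtain ⟨e, he⟩ : ∃ e, Nat.card P = ℓ ^ e := by
    refine ⟨(Nat.card P).primeFactorsList.length, ?_⟩
    conv_lhs => rw [← Nat.prod_primeFactorsList hPpos]
    rw [List.eq_replicate_iff.2 ⟨rfl, fun p hp => hpow p (Nat.prime_of_mem_primeFactorsList hp)
      (Nat.dvd_of_mem_primeFactorsList hp)⟩, List.prod_replicate, List.length_replicate]
  rw [he, padicValNat.prime_pow]

/-- Freshman's dream for polynomials in one endomorphism. -/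
theorem exists_one_add_pow_prime_pow (j : ℕ) :
    ∃ r : ℤ[X], (1 + X) ^ (ℓ ^ j) = 1 + X ^ (ℓ ^ j) + (ℓ : ℤ[X]) * r := by
  obtain ⟨r, hr⟩ := exists_add_pow_prime_pow_eq hℓ.out (1 : ℤ[X]) X j
  refine ⟨r * X, ?_⟩
  rw [hr, one_pow]
  ring

theorem pow_apply_eq_iff_of_torsion (S : AddMonoid.End C) {x : C} (hx : ℓ • x = 0) (j : ℕ) :
    (S ^ (ℓ ^ j)) x = x ↔ ((S - 1) ^ (ℓ ^ j)) x = 0 := by
  obtain ⟨r, hr⟩ := exists_one_add_pow_prime_pow ℓ j
  have h := congrArg (fun p : ℤ[X] => (aeval (S - 1) p) x) hr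
  simp only [map_pow, map_add, map_one, map_mul, map_natCast, aeval_X, add_sub_cancel] at h
  rw [h]
  change x + ((S - 1) ^ (ℓ ^ j)) x + (ℓ : AddMonoid.End C) (aeval (S - 1) r x) = x ↔ _
  have h0 : ((ℓ : AddMonoid.End C)) (aeval (S - 1) r x) = 0 := by
    rw [AddMonoid.End.natCast_apply, ← map_nsmul, hx, map_zero]
  rw [h0, add_zero]
  exact add_eq_left

section Tower

variable (S : AddMonoid.End C) (D v₀ : ℕ)

/-- The hypotheses on the tower. -/
structure TowerData : Prop where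
  finite : ∀ j, Finite (fixedSub S (ℓ ^ j))
  growth : ∀ j, padicValNat ℓ (Nat.card (fixedSub S (ℓ ^ j))) = D * j + v₀
  norm : ∀ j, ∀ x ∈ fixedSub S (ℓ ^ j), ∃ y ∈ fixedSub S (ℓ ^ (j + 1)),
    ∃ z ∈ fixedSub S (ℓ ^ j), x = (∑ i ∈ Finset.range ℓ, (S ^ (ℓ ^ j * i)) y) + ℓ • z

/-- The `ℓ`-power torsion of the union of the tower. -/
def towerSub : AddSubgroup C where
  carrier := {x | x ∈ primarySub C ℓ ∧ ∃ j, x ∈ fixedSub S (ℓ ^ j)}
  zero_mem' := ⟨zero_mem _, 0, zero_mem _⟩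
  add_mem' := by
    rintro x y ⟨hx, i, hi⟩ ⟨hy, j, hj⟩
    exact ⟨add_mem hx hy, max i j,
      add_mem (fixedSub_le_of_dvd S (pow_dvd_pow ℓ (le_max_left i j)) hi)
        (fixedSub_le_of_dvd S (pow_dvd_pow ℓ (le_max_right i j)) hj)⟩
  neg_mem' := fun {x} ⟨hx, i, hi⟩ => ⟨neg_mem hx, i, neg_mem hi⟩

/-- Torsion of level `k` in the tower. -/
def towerTors (k : ℕ) : AddSubgroup C := towerSub ℓ S ⊓ (nsmulAddMonoidHom (ℓ ^ k)).ker

variable {ℓ S D v₀}

theorem mem_towerTors {k : ℕ} {x : C} :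
    x ∈ towerTors ℓ S k ↔ (∃ j, x ∈ fixedSub S (ℓ ^ j)) ∧ ℓ ^ k • x = 0 :=
  ⟨fun h => ⟨h.1.2, h.2⟩, fun h => ⟨⟨⟨k, h.2⟩, h.1⟩, h.2⟩⟩

theorem smul_eq_zero_of_mem {x : C} (hx : x ∈ towerTors ℓ S 1) : ℓ • x = 0 := by
  have h1 : ℓ ^ 1 • x = 0 := hx.2
  rwa [pow_one] at h1

theorem exists_one_add_X_pow (n : ℕ) :
    ∃ y : ℤ[X], (1 + X) ^ n = 1 + (n : ℤ[X]) * X + X ^ 2 * y := by
  induction n with
  | zero => exact ⟨0, by simp⟩
  | succ a ih =>
    obtain ⟨y, hy⟩ := ih
    exact ⟨(a : ℤ[X]) + y * (1 + X), by rw [pow_succ, hy]; push_cast; ring⟩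

namespace TowerData

variable (h : TowerData ℓ S D v₀)

include h

omit h in
theorem exists_lt_pow : ∃ j, D * j + v₀ < ℓ ^ j := by
  refine ⟨2 * (D + v₀ + 1), lt_of_lt_of_le ?_ (Nat.pow_le_pow_left hℓ.out.two_le _)⟩
  set w := D + v₀ + 1 with hw
  have h1 : w < 2 ^ w := Nat.lt_two_pow_self
  have h10 : 2 * w ≤ 2 ^ w := by
    obtain ⟨v, hv⟩ := Nat.exists_eq_succ_of_ne_zero (show w ≠ 0 by omega)
    rw [hv, pow_succ']
    have := Nat.lt_two_pow_self (n := v)
    omega
  calc D * (2 * w) + v₀ ≤ (2 * w) * w := by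
        have : (2 * D + 1) * w ≤ (2 * w) * w := Nat.mul_le_mul_right _ (by omega)
        linarith [show v₀ ≤ w by omega]
    _ < 2 ^ w * 2 ^ w := Nat.mul_lt_mul_of_le_of_lt h10 h1 (by positivity)
    _ = 2 ^ (2 * w) := by rw [← pow_add, two_mul]

theorem exists_torsion_fixed : ∃ j, ∀ x ∈ towerTors ℓ S 1, x ∈ fixedSub S (ℓ ^ j) := by
  obtain ⟨j, hj⟩ := exists_lt_pow (ℓ := ℓ) (D := D) (v₀ := v₀)
  refine ⟨j, fun x hx => ?_⟩
  obtain ⟨⟨j', hj'⟩, hxℓ⟩ := mem_towerTors.1 hx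
  rw [pow_one] at hxℓ
  set τ := S - 1
  by_contra hxj
  rw [mem_fixedSub, pow_apply_eq_iff_of_torsion ℓ S hxℓ] at hxj
  rw [mem_fixedSub, pow_apply_eq_iff_of_torsion ℓ S hxℓ] at hj'
  classical
  have hex : ∃ m, (τ ^ m) x = 0 := ⟨_, hj'⟩
  set m := Nat.find hex
  set N := ℓ ^ j
  have hNm : N < m := by
    by_contra hle
    refine hxj ?_
    rw [show N = (N - m) + m by omega, pow_add, AddMonoid.End.coe_mul, Function.comp_apply,
      Nat.find_spec hex, map_zero]
  set z := (τ ^ (m - N)) x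
  have hzℓ : ℓ • z = 0 := by rw [← map_nsmul, hxℓ, map_zero]
  have hzN : (τ ^ N) z = 0 := by
    rw [end_pow_apply,
      show N + (m - N) = m by omega]
    exact Nat.find_spec hex
  have hz1 : (τ ^ (N - 1)) z ≠ 0 := by
    rw [end_pow_apply]
    exact Nat.find_min hex (by have := hℓ.out.pos; have : 0 < N := pow_pos this _; omega)
  let Φ : (Fin N → Fin ℓ) → (fixedSub S N ⊓ primarySub C ℓ : AddSubgroup C) := fun c =>
    ⟨∑ i : Fin N, (c i : ℕ) • (τ ^ (i : ℕ)) z,
      sum_mem fun i _ => nsmul_mem (AddSubgroup.mem_inf.2 ⟨by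
          rw [mem_fixedSub, pow_apply_eq_iff_of_torsion ℓ S (by rw [← map_nsmul, hzℓ, map_zero]),
            end_commute_apply (Commute.pow_pow_self τ N i), hzN, map_zero],
        mem_primarySub.2 ⟨1, by rw [pow_one, ← map_nsmul, hzℓ, map_zero]⟩⟩) _⟩
  have hΦ : Function.Injective Φ := by
    intro c c' hcc
    funext i
    have hz : ∑ l : Fin N, (((c l : ℕ) : ℤ) - (c' l : ℕ)) • (τ ^ (l : ℕ)) z = 0 := by
      simp only [sub_smul, natCast_zsmul, Finset.sum_sub_distrib, sub_eq_zero]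
      exact congrArg Subtype.val hcc
    have key : ∀ n, ∀ l : Fin N, (l : ℕ) = n → (ℓ : ℤ) ∣ ((c l : ℕ) : ℤ) - (c' l : ℕ) := by
      intro n
      induction n using Nat.strong_induction_on with
      | _ n IH =>
      intro l hl
      have h1 := congrArg (τ ^ (N - 1 - (l : ℕ))) hz
      rw [map_sum, map_zero, Finset.sum_eq_single l] at h1
      · rw [map_zsmul, end_pow_apply,
          show N - 1 - (l : ℕ) + l = N - 1 by have := l.isLt; omega] at h1
        set d := ((c l : ℕ) : ℤ) - (c' l : ℕ)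
        set w := (τ ^ (N - 1)) z
        have hwℓ : addOrderOf w = ℓ :=
          addOrderOf_eq_prime (by rw [← map_nsmul, hzℓ, map_zero]) hz1
        have h2 := addOrderOf_dvd_iff_zsmul_eq_zero.2 h1
        rwa [hwℓ] at h2
      · intro l' _ hne
        rw [map_zsmul, end_pow_apply]
        rcases lt_or_gt_of_ne (Fin.val_ne_of_ne hne) with hlt | hlt
        · obtain ⟨e, he⟩ := IH _ (hl ▸ hlt) l' rfl
          rw [he, mul_comm, mul_smul, natCast_zsmul, ← map_nsmul, hzℓ, map_zero, smul_zero]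
        · rw [show N - 1 - (l : ℕ) + l' = ((l' : ℕ) - l - 1) + N by have := l'.isLt; omega, pow_add,
            AddMonoid.End.coe_mul, Function.comp_apply, hzN, map_zero, smul_zero]
      · exact fun h' => absurd (Finset.mem_univ l) h'
    obtain ⟨e, he⟩ := key _ i rfl
    apply Fin.ext
    have hb1 := (c i).isLt
    have hb2 := (c' i).isLt
    have he0 : e = 0 := by
      rcases lt_trichotomy e 0 with h0 | h0 | h0
      · have : (ℓ : ℤ) * e ≤ (ℓ : ℤ) * (-1) := mul_le_mul_of_nonneg_left (by omega) (by omega)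
        omega
      · exact h0
      · have : (ℓ : ℤ) * 1 ≤ (ℓ : ℤ) * e := mul_le_mul_of_nonneg_left (by omega) (by omega)
        omega
    rw [he0, mul_zero] at he
    omega
  have := h.finite j
  have : Finite (fixedSub S N ⊓ primarySub C ℓ : AddSubgroup C) :=
    Finite.of_injective _ (AddSubgroup.inclusion_injective inf_le_left)
  have hle := Nat.card_le_card_of_injective Φ hΦ
  rw [natCard_inf_primarySub, h.growth, Nat.card_fun, Nat.card_fin, Nat.card_fin] at hle
  exact absurd ((Nat.pow_le_pow_iff_right hℓ.out.one_lt).1 hle) (not_le.2 hj)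

theorem finite_towerTors : ∀ k, Finite (towerTors ℓ S k) := by
  intro k
  induction k with
  | zero =>
    have : Subsingleton (towerTors ℓ S 0) := ⟨fun x y => Subtype.ext (by
      have hx : ℓ ^ 0 • (x : C) = 0 := x.2.2
      have hy : ℓ ^ 0 • (y : C) = 0 := y.2.2
      rw [pow_zero, one_smul] at hx hy
      rw [hx, hy])⟩
    infer_instance
  | succ k ih =>
    let f : towerTors ℓ S (k + 1) →+ C := (nsmulAddMonoidHom ℓ).comp (AddSubgroup.subtype _)
    have hrange : f.range ≤ towerTors ℓ S k := by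
      rintro _ ⟨x, rfl⟩
      refine mem_towerTors.2 ⟨?_, ?_⟩
      · obtain ⟨j, hj⟩ := x.2.1.2
        exact ⟨j, nsmul_mem hj ℓ⟩
      · show ℓ ^ k • ℓ • (x : C) = 0
        rw [← mul_smul, ← pow_succ]
        exact x.2.2
    have : Finite f.range := Finite.of_injective _ (AddSubgroup.inclusion_injective hrange)
    have : Finite f.ker := by
      obtain ⟨j, hj⟩ := h.exists_torsion_fixed
      have := h.finite j
      refine Finite.of_injective (fun x : f.ker => (⟨((x : towerTors ℓ S (k + 1)) : C), hj _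
        (mem_towerTors.2 ⟨(x : towerTors ℓ S (k + 1)).2.1.2, by rw [pow_one]; exact x.2⟩)⟩ :
          fixedSub S (ℓ ^ j))) ?_
      intro x y hxy
      exact Subtype.ext (Subtype.ext (congrArg Subtype.val hxy :))
    exact (AddMonoidHom.finite_iff_finite_ker_range f).2 ⟨inferInstance, inferInstance⟩

theorem card_le_of_incongruent (F : Finset C) (hF : ∀ f ∈ F, f ∈ towerSub ℓ S)
    (hinj : ∀ f ∈ F, ∀ g ∈ F, (∃ u ∈ towerSub ℓ S, f - g = ℓ • u) → f = g) :
    F.card ≤ Nat.card (towerTors ℓ S 1) := by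
  classical
  choose! lvl hlvl using fun f hf => (hF f hf).2
  set J := F.sup lvl
  set P := fixedSub S (ℓ ^ J) ⊓ primarySub C ℓ
  have := h.finite J
  have : Finite P := Finite.of_injective _ (AddSubgroup.inclusion_injective inf_le_left)
  let μ : P →+ P := nsmulAddMonoidHom ℓ
  have hmem : ∀ f ∈ F, f ∈ P := fun f hf =>
    ⟨fixedSub_le_of_dvd S (pow_dvd_pow ℓ (Finset.le_sup (f := lvl) hf)) (hlvl f hf), (hF f hf).1⟩
  have h1 : F.card ≤ μ.range.index := by
    rw [AddSubgroup.index, ← Nat.card_eq_finsetCard]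
    refine Nat.card_le_card_of_injective
      (fun f : F => ((⟨f, hmem f f.2⟩ : P) : P ⧸ μ.range)) fun f g hfg => ?_
    obtain ⟨u, hu⟩ := (QuotientAddGroup.eq_iff_sub_mem).1 hfg
    exact Subtype.ext (hinj f f.2 g g.2 ⟨u, ⟨u.2.2, J, u.2.1⟩, (congrArg Subtype.val hu).symm⟩)
  have h2 : μ.range.index = Nat.card μ.ker := by
    have e1 := AddSubgroup.index_mul_card μ.range
    have e2 := AddSubgroup.index_mul_card μ.ker
    rw [AddSubgroup.index, Nat.card_congr (QuotientAddGroup.quotientKerEquivRange μ).toEquiv] at e2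
    have hpos : 0 < Nat.card μ.range := Nat.card_pos
    refine Nat.eq_of_mul_eq_mul_right hpos ?_
    rw [e1, ← e2, mul_comm]
  have := h.finite_towerTors 1
  refine h1.trans (h2 ▸ Nat.card_le_card_of_injective (fun x : μ.ker =>
    (⟨((x : P) : C), mem_towerTors.2 ⟨⟨J, (x : P).2.1⟩, ?_⟩⟩ : towerTors ℓ S 1)) ?_)
  · rw [pow_one]; exact congrArg Subtype.val x.2
  · exact fun x y hxy => Subtype.ext (Subtype.ext (congrArg Subtype.val hxy :))

theorem exists_sub_mem : ∃ J, ∀ x ∈ towerSub ℓ S, ∃ u ∈ towerSub ℓ S,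
    (S ^ (ℓ ^ J)) x - x = ℓ • u := by
  classical
  let good : Finset C → Prop := fun F => (∀ f ∈ F, f ∈ towerSub ℓ S) ∧
    ∀ f ∈ F, ∀ g ∈ F, (∃ u ∈ towerSub ℓ S, f - g = ℓ • u) → f = g
  have hbdd : ∀ n, (∃ F, good F ∧ F.card = n) → n ≤ Nat.card (towerTors ℓ S 1) :=
    fun n ⟨F, hF, hn⟩ => hn ▸ h.card_le_of_incongruent F hF.1 hF.2
  obtain ⟨n, ⟨F, hF, hFn⟩, hmax⟩ : ∃ n, (∃ F, good F ∧ F.card = n) ∧
      ∀ m, (∃ F, good F ∧ F.card = m) → m ≤ n := by
    refine ⟨Nat.findGreatest (fun m => ∃ F, good F ∧ F.card = m) (Nat.card (towerTors ℓ S 1)), ?_,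
      fun m hm => Nat.le_findGreatest (hbdd m hm) hm⟩
    exact Nat.findGreatest_spec (P := fun m => ∃ F, good F ∧ F.card = m) (Nat.zero_le _)
      ⟨∅, ⟨by simp, by simp⟩, rfl⟩
  choose! lvl hlvl using fun f hf => (hF.1 f hf).2
  refine ⟨F.sup lvl, fun x hx => ?_⟩
  obtain ⟨f, hf, u, hu, hxu⟩ : ∃ f ∈ F, ∃ u ∈ towerSub ℓ S, x - f = ℓ • u := by
    by_contra hne
    push Not at hne
    have hxF : x ∉ F := fun hxF => hne x hxF 0 (zero_mem _) (by simp)
    have := hmax _ ⟨insert x F, ⟨?_, ?_⟩, rfl⟩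
    · rw [Finset.card_insert_of_notMem hxF] at this
      omega
    · intro f hf
      rcases Finset.mem_insert.1 hf with rfl | hf
      · exact hx
      · exact hF.1 f hf
    · intro f hf g hg ⟨u, hu, hfg⟩
      rcases Finset.mem_insert.1 hf with h1 | h1 <;> rcases Finset.mem_insert.1 hg with h2 | h2
      · rw [h1, h2]
      · exact absurd (h1 ▸ hfg) (hne g h2 u hu)
      · refine absurd ?_ (hne f h1 (-u) (neg_mem hu))
        rw [smul_neg, ← hfg, h2, neg_sub]
      · exact hF.2 f h1 g h2 ⟨u, hu, hfg⟩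
  have hfix : (S ^ (ℓ ^ F.sup lvl)) f = f :=
    fixedSub_le_of_dvd S (pow_dvd_pow ℓ (Finset.le_sup (f := lvl) hf)) (hlvl f hf)
  have hSu : (S ^ (ℓ ^ F.sup lvl)) u ∈ towerSub ℓ S := by
    obtain ⟨⟨i, hi⟩, j, hj⟩ := hu
    refine ⟨⟨i, by rw [← map_nsmul, hi, map_zero]⟩, j, ?_⟩
    rw [mem_fixedSub, end_commute_apply (Commute.pow_pow_self S (ℓ ^ j) _),
      mem_fixedSub.1 hj]
  refine ⟨_, sub_mem hSu hu, ?_⟩
  rw [eq_add_of_sub_eq hxu, map_add, map_nsmul, hfix, smul_sub]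
  abel

theorem divisible {x : C} (hx : x ∈ towerSub ℓ S) : ∃ u ∈ towerSub ℓ S, ℓ • u = x := by
  obtain ⟨J, hJ⟩ := h.exists_sub_mem
  obtain ⟨⟨i, hi⟩, j₀, hj₀⟩ := hx
  set j := max j₀ J
  have hxj : x ∈ fixedSub S (ℓ ^ j) := fixedSub_le_of_dvd S (pow_dvd_pow ℓ (le_max_left _ _)) hj₀
  obtain ⟨y, hy, z, hz, hxyz⟩ := h.norm j x hxj
  have := h.finite (j + 1)
  set n := Nat.card (fixedSub S (ℓ ^ (j + 1)))
  have hn : n ≠ 0 := Nat.card_pos.ne'
  obtain ⟨b, m, hm, hnm⟩ := Nat.exists_eq_pow_mul_and_not_dvd hn ℓ hℓ.out.ne_one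
  obtain ⟨e, f, hef⟩ : IsCoprime (m : ℤ) ((ℓ : ℤ) ^ i) := by
    apply IsCoprime.pow_right
    rw [Int.isCoprime_iff_gcd_eq_one, Int.gcd_natCast_natCast, ← Nat.coprime_iff_gcd_eq_one]
    exact ((hℓ.out.coprime_iff_not_dvd).2 hm).symm
  set em : ℤ := e * m
  have hex : em • x = x := by
    have h1 : x = em • x + (f * (ℓ : ℤ) ^ i) • x := by rw [← add_smul, hef, one_smul]
    rw [mul_smul f, show ((ℓ : ℤ) ^ i) • x = (0 : C) by
      rw [← Nat.cast_pow, natCast_zsmul]; exact hi, smul_zero, add_zero] at h1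
    exact h1.symm
  have hprim : ∀ w ∈ fixedSub S (ℓ ^ (j + 1)), em • w ∈ towerSub ℓ S := by
    intro w hw
    refine ⟨⟨b, ?_⟩, j + 1, zsmul_mem hw _⟩
    rw [← natCast_zsmul, smul_smul, show ((ℓ ^ b : ℕ) : ℤ) * em = e * (n : ℤ) by
      rw [hnm]; push_cast; ring, mul_smul, natCast_zsmul]
    have h1 : n • (⟨w, hw⟩ : fixedSub S (ℓ ^ (j + 1))) = 0 := card_nsmul_eq_zero'
    rw [show n • w = 0 from congrArg Subtype.val h1, smul_zero]
  have hy' := hprim y hy
  have hz' := hprim z (fixedSub_le_of_dvd S (pow_dvd_pow ℓ (Nat.le_succ j)) hz)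
  set y' := em • y
  have hsub : ∀ i, ∃ u ∈ towerSub ℓ S, (S ^ (ℓ ^ j * i)) y' - y' = ℓ • u := by
    intro i
    rw [show ℓ ^ j * i = ℓ ^ J * (ℓ ^ (j - J) * i) by
      rw [← mul_assoc, ← pow_add, Nat.add_sub_cancel' (le_max_right _ _)], pow_mul]
    induction ℓ ^ (j - J) * i with
    | zero => exact ⟨0, zero_mem _, by simp⟩
    | succ a ih =>
      obtain ⟨u, hu, hu'⟩ := ih
      obtain ⟨u₁, hu₁, hu₁'⟩ := hJ _ (add_mem hy' (nsmul_mem hu ℓ))
      rw [← eq_add_of_sub_eq' hu'] at hu₁'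
      refine ⟨u + u₁, add_mem hu hu₁, ?_⟩
      rw [pow_succ', AddMonoid.End.coe_mul, Function.comp_apply, smul_add, ← hu', ← hu₁']
      abel
  choose u hu hu' using hsub
  refine ⟨∑ i ∈ Finset.range ℓ, u i + y' + em • z,
    add_mem (add_mem (sum_mem fun i _ => hu i) hy') hz', ?_⟩
  conv_rhs => rw [← hex, hxyz, smul_add, Finset.smul_sum]
  simp only [← map_zsmul]
  rw [smul_add, smul_add, Finset.smul_sum,
    Finset.sum_congr rfl fun i (_ : i ∈ Finset.range ℓ) => (hu' i).symm, Finset.sum_sub_distrib,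
    Finset.sum_const, Finset.card_range, smul_comm ℓ em z]
  abel

theorem natCard_towerTors (k : ℕ) : Nat.card (towerTors ℓ S k) = ℓ ^ (D * k) := by
  have := h.finite_towerTors
  have hstep : ∀ k, Nat.card (towerTors ℓ S (k + 1))
      = Nat.card (towerTors ℓ S 1) * Nat.card (towerTors ℓ S k) := by
    intro k
    let f : towerTors ℓ S (k + 1) →+ towerTors ℓ S k :=
      ((nsmulAddMonoidHom ℓ).comp (AddSubgroup.subtype _)).codRestrict _ fun x =>
        mem_towerTors.2 ⟨x.2.1.2.imp fun j hj => nsmul_mem hj ℓ, by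
          show ℓ ^ k • ℓ • (x : C) = 0
          rw [← mul_smul, ← pow_succ]; exact x.2.2⟩
    have hsurj : Function.Surjective f := fun x => by
      obtain ⟨u, hu, hux⟩ := h.divisible x.2.1
      exact ⟨⟨u, mem_towerTors.2 ⟨hu.2, by rw [pow_succ, mul_smul, hux]; exact x.2.2⟩⟩, Subtype.ext hux⟩
    have hker : Nat.card f.ker = Nat.card (towerTors ℓ S 1) := Nat.card_congr
      { toFun := fun x => ⟨((x : towerTors ℓ S (k + 1)) : C),
          mem_towerTors.2 ⟨(x : towerTors ℓ S (k + 1)).2.1.2, by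
            rw [pow_one]; exact congrArg Subtype.val x.2⟩⟩
        invFun := fun x => ⟨⟨(x : C), mem_towerTors.2 ⟨x.2.1.2, by
            rw [pow_succ, mul_smul, smul_eq_zero_of_mem x.2, smul_zero]⟩⟩,
          Subtype.ext (smul_eq_zero_of_mem x.2)⟩
        left_inv := fun _ => rfl
        right_inv := fun _ => rfl }
    rw [← AddSubgroup.index_mul_card f.ker, AddSubgroup.index,
      Nat.card_congr (QuotientAddGroup.quotientKerEquivOfSurjective f hsurj).toEquiv, hker, mul_comm]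
  have hone : Nat.card (towerTors ℓ S 1) = ℓ ^ D := by
    have := h.finite_towerTors 2
    have hlvl : ∀ x : towerTors ℓ S 2, ∃ j, (x : C) ∈ fixedSub S (ℓ ^ j) := fun x => x.2.1.2
    choose lvl hl using hlvl
    cases nonempty_fintype (towerTors ℓ S 2)
    set J := (Finset.univ : Finset (towerTors ℓ S 2)).sup lvl
    set δ := S ^ (ℓ ^ J) - 1
    have hδ : ∀ w ∈ towerTors ℓ S 2, δ w = 0 := fun w hw => sub_eq_zero.2
      (fixedSub_le_of_dvd S (pow_dvd_pow ℓ (Finset.le_sup (Finset.mem_univ _))) (hl ⟨w, hw⟩))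
    obtain ⟨r, hr⟩ : ∃ r : ℤ[X], (1 + X) ^ ℓ = 1 + ((ℓ : ℤ[X]) + X * r) * X := by
      obtain ⟨y, hy⟩ := exists_one_add_X_pow ℓ
      exact ⟨y, by rw [hy]; ring⟩
    set w := aeval δ r
    have hkey : ∀ x ∈ towerSub ℓ S, ((S ^ (ℓ ^ (J + 1))) x = x ↔ ℓ • δ x = 0) := by
      intro x hx
      have h1 := congrArg (fun p : ℤ[X] => (aeval δ p) x) hr
      simp only [map_pow, map_add, map_one, map_mul, map_natCast, aeval_X, δ, add_sub_cancel] at h1
      rw [pow_succ, pow_mul, h1]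
      show x + (ℓ • δ x + δ (w (δ x))) = x ↔ _
      rw [add_eq_left]
      set v := δ x
      have hwv : δ (w v) = w (δ v) := by
        have := congrArg (fun p : ℤ[X] => (aeval δ p) v) (mul_comm X r)
        simpa only [map_mul, aeval_X, AddMonoid.End.coe_mul, Function.comp_apply] using this
      obtain ⟨⟨i, hi⟩, j, hj⟩ := hx
      have hvT : ∃ j, v ∈ fixedSub S (ℓ ^ j) := by
        refine ⟨j, ?_⟩
        show (S ^ (ℓ ^ j)) ((S ^ (ℓ ^ J) - 1 : AddMonoid.End C) x) = _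
        rw [end_commute_apply ((Commute.pow_pow_self S (ℓ ^ j) (ℓ ^ J)).sub_right (Commute.one_right _)),
          mem_fixedSub.1 hj]
      constructor
      · intro h0
        classical
        have hex : ∃ a, ℓ ^ a • v = 0 := ⟨i, by rw [← map_nsmul, hi, map_zero]⟩
        have ha : Nat.find hex ≤ 1 := by
          by_contra hgt
          push Not at hgt
          obtain ⟨a', ha'⟩ := Nat.exists_eq_add_of_le (show 2 ≤ Nat.find hex by omega)
          have h2 : δ (ℓ ^ a' • v) = 0 := hδ _ (mem_towerTors.2 ⟨hvT.imp fun _ hj' => nsmul_mem hj' _, by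
            rw [← mul_smul, ← pow_add, ← ha']; exact Nat.find_spec hex⟩)
          refine Nat.find_min hex (show a' + 1 < Nat.find hex by omega) ?_
          have h3 := congrArg (fun c => ℓ ^ a' • c) h0
          simp only [smul_add, smul_zero, hwv] at h3
          rw [show ℓ ^ a' • w (δ v) = 0 by rw [← map_nsmul w, ← map_nsmul δ, h2, map_zero],
            add_zero] at h3
          rwa [pow_succ, mul_smul]
        have h2 := Nat.find_spec hex
        rcases Nat.le_one_iff_eq_zero_or_eq_one.1 ha with h3 | h3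
        · rw [h3, pow_zero, one_smul] at h2; rw [h2, smul_zero]
        · rwa [h3, pow_one] at h2
      · intro h0
        rw [h0, hwv, hδ v (mem_towerTors.2 ⟨hvT, by rw [pow_succ, pow_one, mul_smul, h0, smul_zero]⟩),
          map_zero, add_zero]
    set P0 := fixedSub S (ℓ ^ J) ⊓ primarySub C ℓ
    set P1 := fixedSub S (ℓ ^ (J + 1)) ⊓ primarySub C ℓ
    have := h.finite (J + 1)
    have : Finite P1 := Finite.of_injective _ (AddSubgroup.inclusion_injective inf_le_left)
    let f : P1 →+ P0 := ((nsmulAddMonoidHom ℓ).comp (AddSubgroup.subtype _)).codRestrict _ fun x =>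
      ⟨sub_eq_zero.1 (by
          have h1 := (hkey _ ⟨x.2.2, J + 1, x.2.1⟩).1 x.2.1
          rw [← map_nsmul] at h1
          exact h1), nsmul_mem x.2.2 ℓ⟩
    have hsurj : Function.Surjective f := fun x => by
      obtain ⟨u, hu, hux⟩ := h.divisible (x := (x : C)) ⟨x.2.2, J, x.2.1⟩
      have h1 : (S ^ (ℓ ^ (J + 1))) u = u := (hkey u hu).2 (by
        rw [← map_nsmul, hux]
        exact sub_eq_zero.2 x.2.1)
      exact ⟨⟨u, h1, hu.1⟩, Subtype.ext hux⟩
    have hker : Nat.card f.ker = Nat.card (towerTors ℓ S 1) := Nat.card_congr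
      { toFun := fun x => ⟨((x : P1) : C), mem_towerTors.2
          ⟨⟨J + 1, (x : P1).2.1⟩, by rw [pow_one]; exact congrArg Subtype.val x.2⟩⟩
        invFun := fun x => ⟨⟨(x : C), (hkey _ x.2.1).2 (by
            rw [← map_nsmul, smul_eq_zero_of_mem x.2, map_zero]), x.2.1.1⟩,
          Subtype.ext (smul_eq_zero_of_mem x.2)⟩
        left_inv := fun _ => rfl
        right_inv := fun _ => rfl }
    have h2 := AddSubgroup.index_mul_card f.ker
    have := h.finite J
    rw [AddSubgroup.index,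
      Nat.card_congr (QuotientAddGroup.quotientKerEquivOfSurjective f hsurj).toEquiv, hker,
      natCard_inf_primarySub, natCard_inf_primarySub, h.growth, h.growth, Nat.mul_succ,
      add_right_comm, pow_add ℓ (D * J + v₀) D] at h2
    exact Nat.eq_of_mul_eq_mul_left (pow_pos hℓ.out.pos _) h2
  induction k with
  | zero =>
    rw [mul_zero, pow_zero, Nat.card_eq_one_iff_unique]
    refine ⟨⟨fun x y => Subtype.ext ?_⟩, inferInstance⟩
    have hx : ℓ ^ 0 • (x : C) = 0 := x.2.2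
    have hy : ℓ ^ 0 • (y : C) = 0 := y.2.2
    rw [pow_zero, one_smul] at hx hy
    rw [hx, hy]
  | succ k ih => rw [hstep, ih, hone, Nat.mul_succ, pow_add, mul_comm]

end TowerData

end Tower

end FLTAgent.PicTorsion
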