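import Mathlib.RingTheory.PowerSeries.Derivative
import Mathlib.RingTheory.PowerSeries.NoZeroDivisors
import Mathlib.RingTheory.IntegralClosure.IntegrallyClosed
import Mathlib.RingTheory.Polynomial.RationalRoot
import Mathlib.Analysis.Complex.Polynomial.Basic
import Mathlib.NumberTheory.Padics.PadicVal.Basic
import Mathlib.GroupTheory.OrderOfElement
import Mathlib.RingTheory.Finiteness.Ideal
import Mathlib.LinearAlgebra.FreeModule.IdealQuotient
import Mathlib.Algebra.Module.PID
import Mathlib.GroupTheory.FiniteAbelian.Basic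

/-!
# Logarithmic derivatives, reciprocal roots, growth of `∏ (1 - α ^ r)`
-/

set_option autoImplicit false

noncomputable section

namespace FLTAgent.PicTorsion

open PowerSeries

/-- `f ↦ X f'` applied to a power series. -/
def logD (f : PowerSeries ℂ) : PowerSeries ℂ := X * derivative ℂ f

theorem coeff_logD (f : PowerSeries ℂ) (n : ℕ) : coeff n (logD f) = n * coeff n f := by
  cases n with
  | zero => rw [logD, coeff_zero_eq_constantCoeff, map_mul, constantCoeff_X, zero_mul]; simp
  | succ n =>
    rw [logD, coeff_succ_X_mul, coeff_derivative]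
    push_cast
    ring

theorem logD_mul (f g : PowerSeries ℂ) : logD (f * g) = logD f * g + f * logD g := by
  simp only [logD, Derivation.leibniz, smul_eq_mul]
  ring

theorem logD_one : logD 1 = 0 := by simp [logD]

/-- A power series with constant term one is determined by its logarithmic derivative. -/
theorem eq_of_logD_eq {f h G : PowerSeries ℂ} (hG : constantCoeff G = 0)
    (hf0 : constantCoeff f = 1) (hh0 : constantCoeff h = 1)
    (hf : logD f = f * G) (hh : logD h = h * G) : f = h := by
  ext n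
  induction n using Nat.strong_induction_on with
  | _ n IH =>
  rcases Nat.eq_zero_or_pos n with rfl | hn
  · rw [coeff_zero_eq_constantCoeff, hf0, hh0]
  have h1 := congrArg (coeff n) hf
  have h2 := congrArg (coeff n) hh
  rw [coeff_logD, coeff_mul] at h1 h2
  have h3 : ∑ p ∈ Finset.antidiagonal n, coeff p.1 f * coeff p.2 G
      = ∑ p ∈ Finset.antidiagonal n, coeff p.1 h * coeff p.2 G := by
    refine Finset.sum_congr rfl fun p hp => ?_
    rw [Finset.HasAntidiagonal.mem_antidiagonal] at hp
    rcases Nat.eq_zero_or_pos p.2 with h0 | h0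
    · rw [h0, coeff_zero_eq_constantCoeff, hG, mul_zero, mul_zero]
    · rw [IH p.1 (by omega)]
  rw [h3, ← h2] at h1
  exact mul_left_cancel₀ (by exact_mod_cast hn.ne') h1

/-- The product of `1 - α X`. -/
def recipProd (s : Multiset ℂ) : PowerSeries ℂ := (s.map fun α => 1 - C α * X).prod

/-- The power sums, as a series without constant term. -/
def powerSums (s : Multiset ℂ) : PowerSeries ℂ :=
  mk fun n => if n = 0 then 0 else (s.map fun α => α ^ n).sum

theorem constantCoeff_powerSums (s : Multiset ℂ) : constantCoeff (powerSums s) = 0 := by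
  rw [← coeff_zero_eq_constantCoeff, powerSums, coeff_mk, if_pos rfl]

theorem coeff_powerSums (s : Multiset ℂ) {n : ℕ} (hn : n ≠ 0) :
    coeff n (powerSums s) = (s.map fun α => α ^ n).sum := by
  rw [powerSums, coeff_mk, if_neg hn]

theorem powerSums_cons (α : ℂ) (s : Multiset ℂ) :
    powerSums (α ::ₘ s) = powerSums {α} + powerSums s := by
  ext n
  simp only [powerSums, coeff_mk, map_add]
  split <;> simp

theorem logD_linear (α : ℂ) : logD (1 - C α * X) = (1 - C α * X) * -powerSums {α} := by
  have h1 : powerSums {α} = C α * X + C α * X * powerSums {α} := by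
    ext n
    cases n with
    | zero => simp [powerSums, constantCoeff_powerSums]
    | succ n =>
      rw [map_add, coeff_C_mul, mul_assoc, coeff_C_mul, coeff_succ_X_mul, coeff_X]
      cases n with
      | zero => simp [powerSums, constantCoeff_powerSums]
      | succ n => simp [powerSums, pow_succ']
  have h2 : logD (1 - C α * X) = -(C α * X) := by
    ext n
    rw [coeff_logD, map_neg, map_sub, coeff_C_mul, coeff_X]
    rcases eq_or_ne n 1 with rfl | hn
    · simp
    · rw [if_neg hn, mul_zero, sub_zero, neg_zero, coeff_one]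
      split <;> simp_all
  rw [h2, mul_neg, neg_inj, sub_mul, one_mul]
  conv_rhs => arg 1; rw [h1]
  ring

theorem logD_recipProd (s : Multiset ℂ) : logD (recipProd s) = recipProd s * -powerSums s := by
  induction s using Multiset.induction with
  | empty =>
    rw [recipProd, Multiset.map_zero, Multiset.prod_zero, logD_one]
    ext n
    simp [powerSums]
  | cons α s ih =>
    rw [recipProd, Multiset.map_cons, Multiset.prod_cons, logD_mul, logD_linear]
    change _ + (1 - C α * X) * logD (recipProd s) = _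
    rw [ih, powerSums_cons]
    simp only [recipProd]
    ring

theorem constantCoeff_recipProd (s : Multiset ℂ) : constantCoeff (recipProd s) = 1 := by
  rw [recipProd, map_multiset_prod, Multiset.map_map]
  refine Multiset.prod_eq_one fun x hx => ?_
  obtain ⟨α, -, rfl⟩ := Multiset.mem_map.1 hx
  simp

theorem recipProd_ne_zero (s : Multiset ℂ) : recipProd s ≠ 0 := fun h => by
  have := constantCoeff_recipProd s
  rw [h, map_zero] at this
  exact zero_ne_one this

/-- The product of `1 - α X` as a polynomial. -/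
def recipPoly (s : Multiset ℂ) : Polynomial ℂ :=
  (s.map fun α => 1 - Polynomial.C α * Polynomial.X).prod

theorem coe_recipPoly (s : Multiset ℂ) : ((recipPoly s : Polynomial ℂ) : PowerSeries ℂ) = recipProd s := by
  induction s using Multiset.induction with
  | empty => simp [recipPoly, recipProd]
  | cons α s ih =>
    simp only [recipPoly, recipProd, Multiset.map_cons, Multiset.prod_cons, Polynomial.coe_mul]
    rw [← recipProd, ← recipPoly, ih]
    congr 1
    rw [Polynomial.coe_sub, Polynomial.coe_one, Polynomial.coe_mul, Polynomial.coe_C,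
      Polynomial.coe_X]

theorem eval_recipPoly (s : Multiset ℂ) (z : ℂ) :
    (recipPoly s).eval z = (s.map fun α => 1 - α * z).prod := by
  rw [recipPoly, Polynomial.eval_multiset_prod, Multiset.map_map]
  congr 1
  exact Multiset.map_congr rfl fun α _ => by simp

theorem eq_recipPoly_of_logD {P : Polynomial ℂ} {s : Multiset ℂ} (h0 : P.coeff 0 = 1)
    (h : logD (P : PowerSeries ℂ) = (P : PowerSeries ℂ) * -powerSums s) : P = recipPoly s := by
  refine Polynomial.coe_injective ℂ ?_
  rw [coe_recipPoly]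
  refine eq_of_logD_eq (G := -powerSums s) (by rw [map_neg, constantCoeff_powerSums, neg_zero])
    (by rw [← coeff_zero_eq_constantCoeff, Polynomial.coeff_coe, h0])
    (constantCoeff_recipProd s) h (logD_recipProd s)

/-- Reciprocal roots of an integral polynomial with constant term one. -/
theorem exists_recipRoots (L : Polynomial ℤ) (h0 : L.coeff 0 = 1) :
    ∃ s : Multiset ℂ, L.map (Int.castRingHom ℂ) = recipPoly s ∧ s.card = L.natDegree ∧
      (∀ α ∈ s, IsIntegral ℤ α) ∧ (s.map fun α => -α).prod = (L.leadingCoeff : ℂ) := by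
  set P := L.map (Int.castRingHom ℂ) with hP
  have hinj : Function.Injective (Int.castRingHom ℂ) := Int.cast_injective
  have hP0 : P.coeff 0 = 1 := by rw [hP, Polynomial.coeff_map, h0, map_one]
  have hne : P ≠ 0 := fun h => by rw [h, Polynomial.coeff_zero] at hP0; exact zero_ne_one hP0
  have hdeg : P.natDegree = L.natDegree := Polynomial.natDegree_map_eq_of_injective hinj L
  have hsplit : P.Splits := IsAlgClosed.splits P
  have hroot : ∀ r ∈ P.roots, r ≠ 0 := fun r hr h => by
    rw [Polynomial.mem_roots hne, Polynomial.IsRoot, h, ← Polynomial.coeff_zero_eq_eval_zero, hP0] at hr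
    exact one_ne_zero hr
  have hfac := hsplit.eq_prod_roots
  have hre : ∀ m : Multiset ℂ, (∀ r ∈ m, r ≠ 0) →
      (m.map fun r => Polynomial.X - Polynomial.C r).prod
        = Polynomial.C (m.map fun r => -r).prod * recipPoly (m.map fun r => r⁻¹) := by
    intro m hm
    induction m using Multiset.induction with
    | empty => simp [recipPoly]
    | cons r m ih =>
      have hr : r ≠ 0 := hm r (Multiset.mem_cons_self r m)
      rw [Multiset.map_cons, Multiset.prod_cons, ih fun x hx => hm x (Multiset.mem_cons_of_mem hx)]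
      simp only [recipPoly, Multiset.map_cons, Multiset.prod_cons, map_mul]
      have : Polynomial.X - Polynomial.C r
          = Polynomial.C (-r) * (1 - Polynomial.C r⁻¹ * Polynomial.X) := by
        rw [mul_sub, mul_one, ← mul_assoc, ← map_mul, neg_mul, mul_inv_cancel₀ hr]
        simp
        ring
      rw [this]
      ring
  rw [hre _ hroot, ← mul_assoc, ← map_mul] at hfac
  set s := P.roots.map fun r => r⁻¹ with hs
  have hc : P.leadingCoeff * (P.roots.map fun r => -r).prod = 1 := by
    have h1 := congrArg (Polynomial.eval 0) hfac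
    rw [← Polynomial.coeff_zero_eq_eval_zero, hP0, Polynomial.eval_mul, Polynomial.eval_C,
      eval_recipPoly] at h1
    simpa using h1.symm
  rw [hc, map_one, one_mul] at hfac
  refine ⟨s, hfac, ?_, fun α hα => ?_, ?_⟩
  · rw [hs, Multiset.card_map, ← hsplit.natDegree_eq_card_roots, hdeg]
  · obtain ⟨r, hr, rfl⟩ := Multiset.mem_map.1 hα
    refine ⟨L.reverse, ?_, ?_⟩
    · rw [Polynomial.Monic, Polynomial.reverse_leadingCoeff, Polynomial.trailingCoeff,
        Polynomial.natTrailingDegree_eq_zero.2 (Or.inr (by rw [h0]; exact one_ne_zero)), h0]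
    · rw [Polynomial.mem_roots hne, Polynomial.IsRoot, hP, Polynomial.eval_map] at hr
      have : Invertible r := invertibleOfNonzero (hroot r (by
        rw [Polynomial.mem_roots hne, Polynomial.IsRoot, hP, Polynomial.eval_map]; exact hr))
      rw [show algebraMap ℤ ℂ = Int.castRingHom ℂ from rfl, ← invOf_eq_inv]
      exact (Polynomial.eval₂_reverse_eq_zero_iff _ r L).2 hr
  · have h1 : (P.roots.map fun r => -r).prod * (s.map fun α => -α).prod = 1 := by
      rw [hs, Multiset.map_map, ← Multiset.prod_map_mul]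
      refine Multiset.prod_eq_one fun x hx => ?_
      obtain ⟨r, hr, rfl⟩ := Multiset.mem_map.1 hx
      simp [hroot r hr]
    have h2 : P.leadingCoeff = (L.leadingCoeff : ℂ) := Polynomial.leadingCoeff_map_of_injective hinj L
    rw [← h2]
    calc (s.map fun α => -α).prod
        = P.leadingCoeff * ((P.roots.map fun r => -r).prod * (s.map fun α => -α).prod) := by
          rw [← mul_assoc, hc, one_mul]
      _ = P.leadingCoeff := by rw [h1, mul_one]

theorem exists_one_add_pow {B : Type*} [CommRing B] (x : B) (n : ℕ) :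
    ∃ y, (1 + x) ^ n = 1 + n * x + x ^ 2 * y := by
  induction n with
  | zero => exact ⟨0, by simp⟩
  | succ n ih =>
    obtain ⟨y, hy⟩ := ih
    refine ⟨(n : B) + y * (1 + x), ?_⟩
    rw [pow_succ, hy]
    push_cast
    ring

theorem exists_prod_one_add {B : Type*} [CommRing B] (m : B) (f : B → B) (t : Multiset B) :
    ∃ H, (t.map fun β => 1 + m * f β).prod = 1 + m * H := by
  induction t using Multiset.induction with
  | empty => exact ⟨0, by simp⟩
  | cons β t ih =>
    obtain ⟨H, hH⟩ := ih
    refine ⟨f β + H + m * f β * H, ?_⟩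
    rw [Multiset.map_cons, Multiset.prod_cons, hH]
    ring

theorem exists_exponent (ℓ : ℕ) [Fact ℓ.Prime] {B : Type*} [CommRing B] [Module.Finite ℤ B]
    (t : Multiset B) (c : ℤ) (hc : t.prod = (c : B)) (hco : IsCoprime c ℓ) :
    ∃ e, 0 < e ∧ ∀ β ∈ t, ∀ r, e ∣ r → ∃ γ, β ^ r = 1 + (ℓ : B) ^ 2 * γ := by
  set I : Ideal B := Ideal.span {((ℓ : B) ^ 2)}
  have : Finite (B ⧸ I) := by
    refine Module.finite_of_fg_torsion (B ⧸ I) fun x => ?_
    refine ⟨⟨((ℓ : ℤ) ^ 2), mem_nonZeroDivisors_of_ne_zero
      (pow_ne_zero _ (by exact_mod_cast (Fact.out : ℓ.Prime).ne_zero))⟩, ?_⟩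
    obtain ⟨x, rfl⟩ := Ideal.Quotient.mk_surjective x
    show ((ℓ : ℤ) ^ 2) • Ideal.Quotient.mk I x = 0
    rw [← map_zsmul, Ideal.Quotient.eq_zero_iff_mem, zsmul_eq_mul]
    push_cast
    exact I.mul_mem_right x (Ideal.mem_span_singleton_self _)
  let π := Ideal.Quotient.mk I
  refine ⟨Nat.card (B ⧸ I)ˣ, Nat.card_pos, fun β hβ r hr => ?_⟩
  obtain ⟨u, w, huw⟩ := (hco.pow_right (n := 2))
  have hu : π u * π (c : B) = 1 := by
    rw [← map_mul, ← map_one π, Ideal.Quotient.eq, Ideal.mem_span_singleton]
    have h1 : (u : B) * c + w * (ℓ : B) ^ 2 = 1 := by exact_mod_cast congrArg (Int.cast (R := B)) huw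
    exact ⟨-w, by linear_combination h1⟩
  obtain ⟨R, hR⟩ : β ∣ t.prod := Multiset.dvd_prod hβ
  have hunit : IsUnit (π β) := by
    refine IsUnit.of_mul_eq_one (π R * π u) ?_
    rw [← mul_assoc, ← map_mul, ← hR, hc, mul_comm, hu]
  obtain ⟨v, hv⟩ := hunit
  obtain ⟨d, rfl⟩ := hr
  have h1 : π (β ^ (Nat.card (B ⧸ I)ˣ * d)) = 1 := by
    rw [map_pow, ← hv, pow_mul, ← Units.val_pow_eq_pow_val, pow_card_eq_one', Units.val_one, one_pow]
  rw [← map_one π, Ideal.Quotient.eq, Ideal.mem_span_singleton] at h1
  obtain ⟨γ, hγ⟩ := h1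
  exact ⟨γ, by rw [← hγ]; ring⟩

/-- The `ℓ`-adic valuation of `∏ (1 - α ^ r)` grows linearly along `r ℓ ^ j`. -/
theorem exists_growth (ℓ : ℕ) [Fact ℓ.Prime] (s : Multiset ℂ) (hs : ∀ α ∈ s, IsIntegral ℤ α)
    (c : ℤ) (hc : s.prod = (c : ℂ)) (hco : IsCoprime c ℓ) (h : ℕ → ℕ)
    (hh : ∀ r, 0 < r → (h r : ℂ) = (s.map fun α => 1 - α ^ r).prod)
    (hpos : ∀ r, 0 < r → 0 < h r) :
    ∃ e, 0 < e ∧ ∀ r₀, 0 < r₀ → e ∣ r₀ → ∀ j,
      padicValNat ℓ (h (r₀ * ℓ ^ j)) = s.card * j + padicValNat ℓ (h r₀) := by
  classical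
  set B := Algebra.adjoin ℤ (s.toFinset : Set ℂ)
  have hfg : (Subalgebra.toSubmodule B).FG :=
    fg_adjoin_of_finite s.toFinset.finite_toSet fun x hx => hs x (Multiset.mem_toFinset.1 hx)
  have : Module.Finite ℤ B := Module.Finite.iff_fg.2 hfg
  set t : Multiset B := s.pmap (fun α hα => (⟨α, hα⟩ : B))
    fun α hα => Algebra.subset_adjoin (Multiset.mem_toFinset.2 hα)
  have hts : t.map (fun β : B => (β : ℂ)) = s := by
    rw [Multiset.map_pmap, Multiset.pmap_eq_map]; exact Multiset.map_id s
  have hcard : t.card = s.card := by rw [← congrArg Multiset.card hts, Multiset.card_map]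
  have htc : t.prod = (c : B) := Subtype.ext (by
    rw [← Subalgebra.coe_val, map_multiset_prod, Subalgebra.coe_val, hts, hc]
    simp)
  obtain ⟨e, he, hexp⟩ := exists_exponent ℓ t c htc hco
  have hℓ0 : (ℓ : ℂ) ≠ 0 := by exact_mod_cast (Fact.out : ℓ.Prime).ne_zero
  have hstep : ∀ r, 0 < r → e ∣ r →
      padicValNat ℓ (h (r * ℓ)) = s.card + padicValNat ℓ (h r) := by
    intro r hr hdvd
    choose! γ hγ using fun β hβ => hexp β hβ r hdvd
    choose y hy using fun β : B => exists_one_add_pow ((ℓ : B) ^ 2 * γ β) ℓ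
    obtain ⟨H, hH⟩ := exists_prod_one_add (ℓ : B) (fun β => γ β * y β) t
    have hrℓ : 0 < r * ℓ := Nat.mul_pos hr (Fact.out : ℓ.Prime).pos
    -- the identity inside `B`
    have hB : (t.map fun β => 1 - β ^ (r * ℓ)).prod
        = (ℓ : B) ^ t.card * (t.map fun β => 1 - β ^ r).prod * (1 + (ℓ : B) * H) := by
      rw [← hH, ← Multiset.prod_replicate, ← Multiset.map_const', ← Multiset.prod_map_mul,
        ← Multiset.prod_map_mul]
      refine congrArg Multiset.prod (Multiset.map_congr rfl fun β hβ => ?_)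
      rw [pow_mul, hγ β hβ, hy β]
      ring
    have hcast : ∀ n, B.val (t.map fun β => 1 - β ^ n).prod
        = (s.map fun α => 1 - α ^ n).prod := fun n => by
      rw [map_multiset_prod, Multiset.map_map]
      conv_rhs => rw [← hts, Multiset.map_map]
      rfl
    have hC := congrArg B.val hB
    simp only [hcast, map_mul, map_add, map_one, map_pow, map_natCast] at hC
    rw [← hh r hr, ← hh (r * ℓ) hrℓ, hcard] at hC
    have hH0 : B.val H =
        ((((h (r * ℓ) : ℚ) / ((ℓ : ℚ) ^ s.card * h r) - 1) / ℓ : ℚ) : ℂ) := by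
      have hr0 : (h r : ℂ) ≠ 0 := by exact_mod_cast (hpos r hr).ne'
      push_cast
      rw [hC]
      field_simp
      ring
    have hint : IsIntegral ℤ ((((h (r * ℓ) : ℚ) / ((ℓ : ℚ) ^ s.card * h r) - 1) / ℓ : ℚ)) := by
      have h1 : IsIntegral ℤ (B.val H) := (Algebra.IsIntegral.isIntegral H).map B.val
      rw [hH0, ← eq_ratCast (algebraMap ℚ ℂ)] at h1
      exact (isIntegral_algebraMap_iff (algebraMap ℚ ℂ).injective).1 h1
    obtain ⟨m, hm⟩ := IsIntegrallyClosed.isIntegral_iff.1 hint
    rw [← hm, show ((algebraMap ℤ ℚ m : ℚ) : ℂ) = (m : ℂ) by simp] at hH0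
    rw [hH0] at hC
    have hZ : (h (r * ℓ) : ℤ) = (ℓ : ℤ) ^ s.card * h r * (1 + ℓ * m) := by exact_mod_cast hC
    have hne : ¬ (ℓ : ℤ) ∣ 1 + ℓ * m := by
      intro hd
      have h1 : (ℓ : ℤ) ∣ 1 := (dvd_add_left (dvd_mul_right _ _)).1 hd
      exact (Fact.out : ℓ.Prime).not_dvd_one (by exact_mod_cast h1)
    have h2 : h (r * ℓ) = ℓ ^ s.card * h r * (1 + (ℓ : ℤ) * m).natAbs := by
      have := congrArg Int.natAbs hZ
      simpa [Int.natAbs_mul, Int.natAbs_pow] using this
    rw [h2, padicValNat.mul (Nat.mul_pos (pow_pos (Fact.out : ℓ.Prime).pos _) (hpos r hr)).ne'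
      (fun h0 => hne (by rw [Int.natAbs_eq_zero.1 h0]; exact dvd_zero _)),
      padicValNat.mul (pow_pos (Fact.out : ℓ.Prime).pos _).ne' (hpos r hr).ne',
      padicValNat.prime_pow, padicValNat.eq_zero_of_not_dvd
        (fun hd => hne (Int.natCast_dvd.2 hd))]
    ring
  refine ⟨e, he, fun r₀ hr₀ hdvd j => ?_⟩
  induction j with
  | zero => simp
  | succ j ih =>
    rw [pow_succ, ← mul_assoc, hstep _ (Nat.mul_pos hr₀ (pow_pos (Fact.out : ℓ.Prime).pos _))
      (hdvd.mul_right _), ih]
    ring

end FLTAgent.PicTorsion
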