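import Fermat.Agent.PicTorsion.Counting
import Fermat.Agent.PicTorsion.Newton

/-!
# The zeta series of a model over a finite field and its twists
-/

set_option autoImplicit false

noncomputable section

open Polynomial

namespace FLTAgent.PicTorsion

namespace Model

variable {R : Type*} [CommRing R] {M : Model R} {k : Type*} [Field k] [Algebra R k]
  [IsDedekindDomain (M.Alg k)] [Finite k]

open scoped Classical in
/-- The primes of colength `d`. -/
def primesEq (M : Model R) (k : Type*) [Field k] [Algebra R k] [Finite k] (d : ℕ) :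
    Finset (Ideal (M.Alg k)) :=
  (idealsF M k d).filter fun P => P.IsPrime

theorem mem_primesEq {d : ℕ} {P : Ideal (M.Alg k)} :
    P ∈ primesEq M k d ↔ (P ≠ ⊥ ∧ M.colength P = d) ∧ P.IsPrime := by
  classical
  rw [primesEq, Finset.mem_filter, mem_idealsF]

theorem one_le_of_mem_primesEq {d : ℕ} {P : Ideal (M.Alg k)} (h : P ∈ primesEq M k d) : 1 ≤ d := by
  obtain ⟨⟨h0, hd⟩, hP⟩ := mem_primesEq.1 h
  exact hd ▸ M.colength_pos h0 hP.ne_top

/-- The sum over prime powers of colength `i`, weighted by the degree of the prime. -/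
def charPointSum (χ : ClassGroup (M.Alg k) →* ℂ) (i : ℕ) : ℂ :=
  ∑ d ∈ i.divisors, ∑ P ∈ primesEq M k d, (d : ℂ) * χ (cl P) ^ (i / d)

open scoped Classical in
theorem colength_eq_count_sum {n : ℕ} {I : Ideal (M.Alg k)} (hI : I ≠ ⊥) (hn : M.colength I = n) :
    n = ∑ d ∈ Finset.Icc 1 n, ∑ P ∈ primesEq M k d,
      d * ((Finset.Icc 1 n).filter fun j => P ^ j ∣ I).card := by
  classical
  set s := UniqueFactorizationMonoid.normalizedFactors I
  have hprod : s.prod = I := Ideal.prod_normalizedFactors_eq_self hI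
  have hmem : ∀ P ∈ s, Prime P ∧ P ∈ primesEq M k (M.colength P) ∧ M.colength P ≤ n := by
    intro P hP
    have hp := UniqueFactorizationMonoid.prime_of_normalized_factor P hP
    refine ⟨hp, mem_primesEq.2 ⟨⟨hp.ne_zero, rfl⟩, Ideal.isPrime_of_prime hp⟩, hn ▸ ?_⟩
    exact M.colength_le_of_le hI
      (Ideal.dvd_iff_le.1 (UniqueFactorizationMonoid.dvd_of_mem_normalizedFactors hP))
  have hcol : ∀ t : Multiset (Ideal (M.Alg k)), (∀ P ∈ t, P ≠ ⊥) →
      t.prod ≠ ⊥ ∧ M.colength t.prod = (t.map M.colength).sum := by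
    intro t
    induction t using Multiset.induction with
    | empty =>
      intro _
      rw [Multiset.prod_zero, Ideal.one_eq_top]
      exact ⟨top_ne_bot, by simp [M.colength_top]⟩
    | cons P t ih =>
      intro h
      obtain ⟨h1, h2⟩ := ih fun Q hQ => h Q (Multiset.mem_cons_of_mem hQ)
      have hP := h P (Multiset.mem_cons_self P t)
      exact ⟨by rw [Multiset.prod_cons]; exact mul_ne_zero hP h1,
        by rw [Multiset.prod_cons, colength_mul hP h1, Multiset.map_cons, Multiset.sum_cons, h2]⟩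
  have hsum : (s.map M.colength).sum = n := by
    rw [← (hcol s fun P hP => (hmem P hP).1.ne_zero).2, hprod, hn]
  set U : Finset (Σ _ : ℕ, Ideal (M.Alg k)) := (Finset.Icc 1 n).sigma fun d => primesEq M k d
  rw [Finset.sum_sigma' (Finset.Icc 1 n) fun d => primesEq M k d]
  have hcount : ∀ x ∈ U, ((Finset.Icc 1 n).filter fun j => x.2 ^ j ∣ I).card = s.count x.2 := by
    rintro ⟨d, P⟩ hx
    rw [Finset.mem_sigma] at hx
    obtain ⟨⟨hP0, hPd⟩, hPprime⟩ := mem_primesEq.1 hx.2
    have hP : Prime P := (Ideal.prime_iff_isPrime hP0).2 hPprime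
    have hle : s.count P * M.colength P ≤ n := by
      rw [← hsum]
      have h1 : (Multiset.replicate (s.count P) P).map M.colength ≤ s.map M.colength :=
        Multiset.map_le_map (Multiset.le_count_iff_replicate_le.1 le_rfl)
      obtain ⟨u, hu⟩ := Multiset.le_iff_exists_add.1 h1
      rw [hu, Multiset.sum_add, Multiset.map_replicate, Multiset.sum_replicate, smul_eq_mul]
      exact Nat.le_add_right _ _
    have hd : 1 ≤ M.colength P := hPd.symm ▸ one_le_of_mem_primesEq hx.2
    have hcle : s.count P ≤ n := le_trans (Nat.le_mul_of_pos_right _ hd) hle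
    have : (Finset.Icc 1 n).filter (fun j => P ^ j ∣ I) = Finset.Icc 1 (s.count P) := by
      ext j
      rw [Finset.mem_filter, Finset.mem_Icc, Finset.mem_Icc]
      have hiff : P ^ j ∣ I ↔ j ≤ s.count P := by
        rw [UniqueFactorizationMonoid.dvd_iff_normalizedFactors_le_normalizedFactors
          (pow_ne_zero _ hP0) hI, UniqueFactorizationMonoid.normalizedFactors_pow,
          UniqueFactorizationMonoid.normalizedFactors_irreducible hP.irreducible, normalize_eq,
          Multiset.nsmul_singleton, ← Multiset.le_count_iff_replicate_le]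
      rw [hiff]
      omega
    rw [this, Nat.card_Icc, Nat.add_sub_cancel]
  rw [Finset.sum_congr rfl fun x hx => by rw [hcount x hx]]
  have hsub : s.toFinset ⊆ U.image fun x => x.2 := fun P hP => by
    obtain ⟨-, h2, h3⟩ := hmem P (Multiset.mem_toFinset.1 hP)
    exact Finset.mem_image.2 ⟨⟨M.colength P, P⟩,
      Finset.mem_sigma.2 ⟨Finset.mem_Icc.2 ⟨one_le_of_mem_primesEq h2, h3⟩, h2⟩, rfl⟩
  calc n = ∑ P ∈ s.toFinset, s.count P • M.colength P := by
          rw [← Finset.sum_multiset_map_count, hsum]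
    _ = ∑ P ∈ U.image (fun x => x.2), s.count P • M.colength P :=
          Finset.sum_subset hsub fun P _ hP => by
            rw [Multiset.count_eq_zero.2 fun h => hP (Multiset.mem_toFinset.2 h), zero_smul]
    _ = ∑ x ∈ U, s.count x.2 • M.colength x.2 := by
          refine Finset.sum_image ?_
          rintro ⟨d, P⟩ hx ⟨d', P'⟩ hx' (rfl : P = P')
          rw [Finset.mem_coe, Finset.mem_sigma] at hx hx'
          obtain ⟨⟨-, h1⟩, -⟩ := mem_primesEq.1 hx.2
          obtain ⟨⟨-, h2⟩, -⟩ := mem_primesEq.1 hx'.2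
          have : d = d' := h1.symm.trans h2
          subst this
          rfl
    _ = ∑ x ∈ U, x.1 * s.count x.2 := Finset.sum_congr rfl fun x hx => by
          rw [Finset.mem_sigma] at hx
          rw [(mem_primesEq.1 hx.2).1.2, smul_eq_mul, mul_comm]

open scoped Classical in
theorem sum_filter_pow_dvd (χ : ClassGroup (M.Alg k) →* ℂ) {P : Ideal (M.Alg k)} (hP : P ≠ ⊥)
    (j n : ℕ) :
    ∑ I ∈ (idealsF M k n).filter (fun I => P ^ j ∣ I), χ (cl I)
      = if j * M.colength P ≤ n then χ (cl P) ^ j * charSum χ (n - j * M.colength P) else 0 := by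
  have hpow : P ^ j ≠ ⊥ := pow_ne_zero _ hP
  split
  · next hle =>
    rw [charSum, Finset.mul_sum]
    symm
    refine Finset.sum_bij (fun I _ => P ^ j * I) (fun I hI => ?_) (fun _ _ _ _ h => mul_left_cancel₀ hpow h)
      (fun I hI => ?_) fun I hI => ?_
    · rw [mem_idealsF] at hI
      refine Finset.mem_filter.2 ⟨mem_idealsF.2 ⟨mul_ne_zero hpow hI.1, ?_⟩, dvd_mul_right _ _⟩
      rw [colength_mul hpow hI.1, colength_pow hP, hI.2]
      omega
    · obtain ⟨hI, I', rfl⟩ := Finset.mem_filter.1 hI
      rw [mem_idealsF] at hI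
      have hI' : I' ≠ ⊥ := right_ne_zero_of_mul hI.1
      refine ⟨I', mem_idealsF.2 ⟨hI', ?_⟩, rfl⟩
      have := hI.2
      rw [colength_mul hpow hI', colength_pow hP] at this
      omega
    · rw [mem_idealsF] at hI
      rw [cl_mul hpow hI.1, cl_pow hP, map_mul, map_pow]
  · next hlt =>
    rw [Finset.filter_eq_empty_iff.2, Finset.sum_empty]
    rintro I hI ⟨I', rfl⟩
    rw [mem_idealsF] at hI
    have := hI.2
    rw [colength_mul hpow (right_ne_zero_of_mul hI.1), colength_pow hP] at this
    omega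

theorem newton_identity (χ : ClassGroup (M.Alg k) →* ℂ) (n : ℕ) :
    (n : ℂ) * charSum χ n = ∑ i ∈ Finset.Icc 1 n, charPointSum χ i * charSum χ (n - i) := by
  classical
  have h1 : (n : ℂ) * charSum χ n = ∑ d ∈ Finset.Icc 1 n, ∑ P ∈ primesEq M k d,
      ∑ j ∈ Finset.Icc 1 n, (d : ℂ) *
        ∑ I ∈ (idealsF M k n).filter (fun I => P ^ j ∣ I), χ (cl I) := by
    calc (n : ℂ) * charSum χ n
        = ∑ I ∈ idealsF M k n, ∑ d ∈ Finset.Icc 1 n, ∑ P ∈ primesEq M k d,
            ∑ j ∈ Finset.Icc 1 n, if P ^ j ∣ I then (d : ℂ) * χ (cl I) else 0 := by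
          rw [charSum, Finset.mul_sum]
          refine Finset.sum_congr rfl fun I hI => ?_
          rw [mem_idealsF] at hI
          conv_lhs => rw [colength_eq_count_sum hI.1 hI.2]
          push_cast
          rw [Finset.sum_mul]
          refine Finset.sum_congr rfl fun d _ => ?_
          rw [Finset.sum_mul]
          refine Finset.sum_congr rfl fun P _ => ?_
          rw [Finset.sum_ite, Finset.sum_const_zero, add_zero, Finset.sum_const, nsmul_eq_mul]
          ring
      _ = _ := by
          rw [Finset.sum_comm]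
          refine Finset.sum_congr rfl fun d _ => ?_
          rw [Finset.sum_comm]
          refine Finset.sum_congr rfl fun P _ => ?_
          rw [Finset.sum_comm]
          refine Finset.sum_congr rfl fun j _ => ?_
          rw [Finset.mul_sum, Finset.sum_filter]
  rw [h1]
  simp only [charPointSum, Finset.sum_mul]
  calc ∑ d ∈ Finset.Icc 1 n, ∑ P ∈ primesEq M k d, ∑ j ∈ Finset.Icc 1 n,
        (d : ℂ) * ∑ I ∈ (idealsF M k n).filter (fun I => P ^ j ∣ I), χ (cl I)
      = ∑ d ∈ Finset.Icc 1 n, ∑ j ∈ (Finset.Icc 1 n).filter (fun j => j * d ≤ n),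
          ∑ P ∈ primesEq M k d, (d : ℂ) * χ (cl P) ^ j * charSum χ (n - j * d) := by
        refine Finset.sum_congr rfl fun d _ => ?_
        rw [Finset.sum_comm, Finset.sum_filter]
        refine Finset.sum_congr rfl fun j _ => ?_
        by_cases hjd : j * d ≤ n
        · rw [if_pos hjd]
          refine Finset.sum_congr rfl fun P hP => ?_
          obtain ⟨⟨hP0, hPd⟩, -⟩ := mem_primesEq.1 hP
          rw [sum_filter_pow_dvd χ hP0, hPd, if_pos hjd, mul_assoc]
        · rw [if_neg hjd]
          refine Finset.sum_eq_zero fun P hP => ?_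
          obtain ⟨⟨hP0, hPd⟩, -⟩ := mem_primesEq.1 hP
          rw [sum_filter_pow_dvd χ hP0, hPd, if_neg hjd, mul_zero]
    _ = _ := by
        rw [Finset.sum_sigma' (Finset.Icc 1 n), Finset.sum_sigma' (Finset.Icc 1 n) fun i => i.divisors]
        refine Finset.sum_bij' (fun x _ => ⟨x.2 * x.1, x.1⟩) (fun y _ => ⟨y.2, y.1 / y.2⟩) ?_ ?_ ?_ ?_ ?_
        · rintro ⟨d, j⟩ hx
          simp only [Finset.mem_sigma, Finset.mem_filter, Finset.mem_Icc, Nat.mem_divisors] at hx ⊢
          obtain ⟨⟨hd, -⟩, ⟨hj, -⟩, hle⟩ := hx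
          exact ⟨⟨Nat.mul_pos hj hd, hle⟩, dvd_mul_left _ _, (Nat.mul_pos hj hd).ne'⟩
        · rintro ⟨i, d⟩ hy
          simp only [Finset.mem_sigma, Finset.mem_filter, Finset.mem_Icc, Nat.mem_divisors] at hy ⊢
          obtain ⟨⟨hi, hin⟩, hdi, -⟩ := hy
          have hd : 0 < d := Nat.pos_of_dvd_of_pos hdi hi
          have hq : 0 < i / d := Nat.div_pos (Nat.le_of_dvd hi hdi) hd
          exact ⟨⟨hd, (Nat.le_of_dvd hi hdi).trans hin⟩, ⟨hq, (Nat.div_le_self _ _).trans hin⟩,
            (Nat.div_mul_cancel hdi).le.trans hin⟩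
        · rintro ⟨d, j⟩ hx
          simp only [Finset.mem_sigma, Finset.mem_Icc] at hx
          simp only [Sigma.mk.injEq, heq_eq_eq, true_and]
          exact Nat.mul_div_cancel _ hx.1.1
        · rintro ⟨i, d⟩ hy
          simp only [Finset.mem_sigma, Nat.mem_divisors] at hy
          simp only [Sigma.mk.injEq, heq_eq_eq, and_true]
          exact Nat.div_mul_cancel hy.2.1
        · rintro ⟨d, j⟩ hx
          simp only [Finset.mem_sigma, Finset.mem_Icc] at hx
          show ∑ P ∈ primesEq M k d, _ = ∑ P ∈ primesEq M k d, _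
          rw [Nat.mul_div_cancel _ hx.1.1]

/-- The zeta series of a character. -/
def zetaSeries (χ : ClassGroup (M.Alg k) →* ℂ) : PowerSeries ℂ := PowerSeries.mk (charSum χ)

/-- The logarithmic derivative of the zeta series. -/
def pointSeries (χ : ClassGroup (M.Alg k) →* ℂ) : PowerSeries ℂ :=
  PowerSeries.mk fun i => if i = 0 then 0 else charPointSum χ i

theorem logD_zetaSeries (χ : ClassGroup (M.Alg k) →* ℂ) :
    logD (zetaSeries χ) = zetaSeries χ * pointSeries χ := by
  ext n
  rw [coeff_logD, zetaSeries, PowerSeries.coeff_mk, newton_identity, mul_comm (PowerSeries.mk _),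
    PowerSeries.coeff_mul, Finset.Nat.sum_antidiagonal_eq_sum_range_succ_mk]
  simp only [pointSeries, PowerSeries.coeff_mk]
  rw [Finset.sum_range_succ', if_pos rfl, zero_mul, add_zero, Finset.range_eq_Ico,
    Finset.sum_Ico_add' (fun i => (if i = 0 then 0 else charPointSum χ i) * charSum χ (n - i)) 0 n 1,
    zero_add, Finset.Ico_add_one_right_eq_Icc]
  exact Finset.sum_congr rfl fun i hi => by
    rw [if_neg (by have := (Finset.mem_Icc.1 hi).1; omega)]

theorem constantCoeff_zetaSeries (χ : ClassGroup (M.Alg k) →* ℂ) :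
    PowerSeries.constantCoeff (zetaSeries χ) = 1 := by
  rw [← PowerSeries.coeff_zero_eq_constantCoeff, zetaSeries, PowerSeries.coeff_mk, charSum_zero]

variable (M k) in
/-- The numerator of the zeta function. -/
def lPoly : ℤ[X] :=
  ∑ n ∈ Finset.range (2 * M.genus + 1), monomial n
    (((idealsF M k n).card : ℤ) - if n = 0 then 0 else Nat.card k * ((idealsF M k (n - 1)).card : ℤ))

theorem coeff_lPoly (n : ℕ) :
    (lPoly M k).coeff n = ((idealsF M k n).card : ℤ)
      - if n = 0 then 0 else Nat.card k * ((idealsF M k (n - 1)).card : ℤ) := by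
  rw [lPoly, finsetSum_coeff]
  simp only [coeff_monomial, Finset.sum_ite_eq', Finset.mem_range]
  split
  · rfl
  · next h =>
    rw [card_idealsF_of_le (n := n) (by omega), if_neg (show n ≠ 0 by omega),
      card_idealsF_of_le (n := n - 1) (by omega)]
    push_cast
    rw [show n - M.genus = (n - 1 - M.genus) + 1 by omega, pow_succ]
    ring

theorem coeff_zero_lPoly : (lPoly M k).coeff 0 = 1 := by
  rw [coeff_lPoly, if_pos rfl, sub_zero]
  have h := charSum_zero (M := M) (k := k) 1
  simp only [charSum, MonoidHom.one_apply, Finset.sum_const, nsmul_one] at h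
  exact_mod_cast h

theorem coeff_top_lPoly : (lPoly M k).coeff (2 * M.genus) = (Nat.card k : ℤ) ^ M.genus := by
  rcases Nat.eq_zero_or_pos M.genus with hg | hg
  · rw [hg, mul_zero, coeff_zero_lPoly, pow_zero]
  rw [coeff_lPoly, if_neg (by omega), card_idealsF_of_le le_rfl,
    show 2 * M.genus - M.genus = M.genus by omega]
  have h := congrArg (Nat.cast (R := ℤ)) (card_idealsF_top (M := M) (k := k) (n := 2 * M.genus - 1) (by omega))
  push_cast at h ⊢
  obtain ⟨g', hg'⟩ := Nat.exists_eq_succ_of_ne_zero hg.ne'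
  simp only [hg', Nat.succ_eq_add_one, Nat.add_sub_cancel] at h ⊢
  linear_combination -(Nat.card k : ℤ) * h

theorem natDegree_lPoly : (lPoly M k).natDegree = 2 * M.genus := by
  refine le_antisymm ?_ (le_natDegree_of_ne_zero ?_)
  · refine natDegree_sum_le_of_forall_le _ _ fun n hn => (natDegree_monomial_le _).trans ?_
    rw [Finset.mem_range] at hn
    omega
  · rw [coeff_top_lPoly]
    exact pow_ne_zero _ (by exact_mod_cast (Nat.card_pos (α := k)).ne')

theorem leadingCoeff_lPoly : (lPoly M k).leadingCoeff = (Nat.card k : ℤ) ^ M.genus := by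
  rw [leadingCoeff, natDegree_lPoly, coeff_top_lPoly]

theorem sum_coeff_lPoly_mul (z : ℂ) (N : ℕ) :
    ∑ n ∈ Finset.range (N + 1), ((lPoly M k).coeff n : ℂ) * z ^ n
      = ((idealsF M k N).card : ℂ) * z ^ N
        + (1 - (Nat.card k : ℂ) * z) * ∑ n ∈ Finset.range N, ((idealsF M k n).card : ℂ) * z ^ n := by
  induction N with
  | zero => simp [coeff_lPoly]
  | succ N ih =>
    rw [Finset.sum_range_succ, ih, coeff_lPoly, if_neg (Nat.succ_ne_zero N), Nat.add_sub_cancel,
      Finset.sum_range_succ]
    push_cast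
    ring

theorem eval_lPoly_one :
    ((lPoly M k).map (Int.castRingHom ℂ)).eval 1 = (Nat.card (ClassGroup (M.Alg k)) : ℂ) := by
  rw [eval_map, eval₂_eq_sum_range, natDegree_lPoly]
  simp only [eq_intCast]
  rw [sum_coeff_lPoly_mul 1 (2 * M.genus)]
  have h := congrArg (Int.cast (R := ℂ)) (sum_card_idealsF (M := M) (k := k) (N := 2 * M.genus) le_rfl)
  push_cast at h
  rw [show 2 * M.genus - M.genus = M.genus by omega] at h
  rw [card_idealsF_of_le (n := 2 * M.genus) le_rfl, show 2 * M.genus - M.genus = M.genus by omega]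
  push_cast
  simp only [one_pow, mul_one]
  linear_combination -h

theorem eval_lPoly_inv :
    ((lPoly M k).map (Int.castRingHom ℂ)).eval (Nat.card k : ℂ)⁻¹
      = (Nat.card (ClassGroup (M.Alg k)) : ℂ) / (Nat.card k : ℂ) ^ M.genus := by
  rw [eval_map, eval₂_eq_sum_range, natDegree_lPoly]
  simp only [eq_intCast]
  have hq : (Nat.card k : ℂ) ≠ 0 := by exact_mod_cast (Nat.card_pos (α := k)).ne'
  rw [sum_coeff_lPoly_mul _ (2 * M.genus), card_idealsF_of_le (n := 2 * M.genus) le_rfl,
    mul_inv_cancel₀ hq, sub_self, zero_mul, add_zero, show 2 * M.genus - M.genus = M.genus by omega]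
  push_cast
  rw [inv_pow, two_mul, pow_add]
  field_simp

theorem coe_lPoly :
    (((lPoly M k).map (Int.castRingHom ℂ) : ℂ[X]) : PowerSeries ℂ)
      = (1 - PowerSeries.C (Nat.card k : ℂ) * PowerSeries.X) * zetaSeries (M := M) (k := k) 1 := by
  ext n
  rw [Polynomial.coeff_coe, coeff_map, coeff_lPoly, sub_mul, one_mul, map_sub, mul_assoc,
    map_sub, PowerSeries.coeff_C_mul]
  rcases n with _ | n
  · simp [zetaSeries, charSum]
  · rw [PowerSeries.coeff_succ_X_mul, zetaSeries, PowerSeries.coeff_mk, PowerSeries.coeff_mk,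
      if_neg (Nat.succ_ne_zero n), Nat.add_sub_cancel]
    simp [charSum]

/-- The reciprocal roots of the zeta function, counting points and classes. -/
theorem exists_zetaRoots :
    ∃ s : Multiset ℂ, (lPoly M k).map (Int.castRingHom ℂ) = recipPoly s ∧
      s.card = 2 * M.genus ∧ (∀ α ∈ s, IsIntegral ℤ α) ∧
      s.prod = ((Nat.card k : ℤ) ^ M.genus : ℤ) ∧
      (∀ n, 0 < n → charPointSum (M := M) (k := k) 1 n
        = (Nat.card k : ℂ) ^ n - (s.map fun α => α ^ n).sum) ∧
      (s.map fun α => 1 - α).prod = (Nat.card (ClassGroup (M.Alg k)) : ℂ) := by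
  obtain ⟨s, hs, hcard, hint, hlead⟩ := exists_recipRoots (lPoly M k) coeff_zero_lPoly
  rw [natDegree_lPoly] at hcard
  refine ⟨s, hs, hcard, hint, ?_, fun n hn => ?_, ?_⟩
  · rw [leadingCoeff_lPoly] at hlead
    rw [← hlead, Multiset.map_congr rfl (fun α _ => (neg_one_mul α).symm), Multiset.prod_map_mul,
      Multiset.map_const', Multiset.prod_replicate, hcard, pow_mul, neg_one_sq, one_pow, one_mul,
      Multiset.map_id']
  · set q : ℂ := (Nat.card k : ℂ) with hq
    have hL := coe_lPoly (M := M) (k := k)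
    rw [hs, coe_recipPoly] at hL
    have hd := congrArg logD hL
    rw [logD_recipProd, logD_mul, logD_linear, logD_zetaSeries] at hd
    have heq : recipProd s * -powerSums s
        = recipProd s * (pointSeries (M := M) (k := k) 1 - powerSums {q}) := by
      rw [hd, hL]
      ring
    have h2 := congrArg (PowerSeries.coeff n) (mul_left_cancel₀ (recipProd_ne_zero s) heq)
    rw [map_neg, map_sub, coeff_powerSums _ hn.ne', coeff_powerSums _ hn.ne', pointSeries,
      PowerSeries.coeff_mk, if_neg hn.ne', Multiset.map_singleton, Multiset.sum_singleton] at h2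
    linear_combination -h2
  · rw [← eval_lPoly_one (M := M) (k := k), hs, eval_recipPoly]
    simp

/-- The reciprocal roots of the zeta series of a nontrivial character. -/
theorem exists_twistRoots {χ : ClassGroup (M.Alg k) →* ℂ} {c₀ : ClassGroup (M.Alg k)}
    (hχ : χ c₀ ≠ 1) :
    ∃ t : Multiset ℂ, ∀ n, 0 < n → charPointSum χ n = -(t.map fun β => β ^ n).sum := by
  classical
  set P : ℂ[X] := ∑ n ∈ Finset.range (2 * M.genus + 1), monomial n (charSum χ n)
  have hP : ∀ n, P.coeff n = charSum χ n := fun n => by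
    simp only [P, finsetSum_coeff, coeff_monomial, Finset.sum_ite_eq', Finset.mem_range]
    split
    · rfl
    · next h => rw [charSum_eq_zero hχ (by omega)]
  have hP0 : P.coeff 0 = 1 := by rw [hP, charSum_zero]
  have hne : P ≠ 0 := fun h => by rw [h, coeff_zero] at hP0; exact zero_ne_one hP0
  have hcoe : (P : PowerSeries ℂ) = zetaSeries χ := by
    ext n
    rw [Polynomial.coeff_coe, hP, zetaSeries, PowerSeries.coeff_mk]
  have hsplit : P.Splits := IsAlgClosed.splits P
  obtain ⟨t, ht⟩ : ∃ t : Multiset ℂ, P = recipPoly t := by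
    refine ⟨P.roots.map fun r => r⁻¹, ?_⟩
    have hroot : ∀ r ∈ P.roots, r ≠ 0 := fun r hr h => by
      rw [mem_roots hne, IsRoot, h, ← coeff_zero_eq_eval_zero, hP0] at hr
      exact one_ne_zero hr
    have hre : ∀ m : Multiset ℂ, (∀ r ∈ m, r ≠ 0) →
        ∃ c : ℂ, (m.map fun r => X - C r).prod = C c * recipPoly (m.map fun r => r⁻¹) := by
      intro m hm
      induction m using Multiset.induction with
      | empty => exact ⟨1, by simp [recipPoly]⟩
      | cons r m ih =>
        obtain ⟨c, hc⟩ := ih fun x hx => hm x (Multiset.mem_cons_of_mem hx)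
        have hr : r ≠ 0 := hm r (Multiset.mem_cons_self r m)
        refine ⟨-r * c, ?_⟩
        rw [Multiset.map_cons, Multiset.prod_cons, hc]
        simp only [recipPoly, Multiset.map_cons, Multiset.prod_cons, map_mul, map_neg]
        have : C r * C r⁻¹ = 1 := by rw [← map_mul, mul_inv_cancel₀ hr, map_one]
        linear_combination (-(C c) * X * (Multiset.map (fun α => 1 - C α * X)
          (Multiset.map (fun r => r⁻¹) m)).prod) * this
    obtain ⟨c, hc⟩ := hre _ hroot
    have hfac := hsplit.eq_prod_roots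
    rw [hc, ← mul_assoc, ← map_mul] at hfac
    have h1 := congrArg (Polynomial.eval 0) hfac
    rw [← coeff_zero_eq_eval_zero, hP0, eval_mul, eval_C, eval_recipPoly] at h1
    simp only [mul_zero, sub_zero, Multiset.map_const', Multiset.prod_replicate, one_pow, mul_one] at h1
    rw [← h1, map_one, one_mul] at hfac
    exact hfac
  refine ⟨t, fun n hn => ?_⟩
  have hd := logD_zetaSeries χ
  rw [← hcoe, ht, coe_recipPoly, logD_recipProd] at hd
  have h2 := congrArg (PowerSeries.coeff n) (mul_left_cancel₀ (recipProd_ne_zero t) hd)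
  rw [map_neg, coeff_powerSums _ hn.ne', pointSeries, PowerSeries.coeff_mk, if_neg hn.ne'] at h2
  exact h2.symm

end Model

end FLTAgent.PicTorsion
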