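import Fermat.Agent.PicTorsion.Frobenius
import Fermat.Agent.PicTorsion.Zeta
import Fermat.Agent.PicTorsion.Tower
import Mathlib.GroupTheory.FiniteAbelian.Duality
import Mathlib.RingTheory.RootsOfUnity.AlgebraicallyClosed

/-!
# Torsion of the class group over an algebraic closure of a finite field

For `ℓ` prime to the characteristic there are exactly `ℓ ^ (2 g k)` classes killed by `ℓ ^ k`.
-/

set_option autoImplicit false

noncomputable section

open Polynomial

namespace FLTAgent.PicTorsion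

namespace Model

variable {R : Type*} [CommRing R] {M : Model R} {k₀ Ω : Type*} [Field k₀] [Finite k₀] [Field Ω]
  [IsAlgClosed Ω] [Algebra R k₀] [Algebra R Ω] [Algebra k₀ Ω] [IsScalarTower R k₀ Ω]
  [IsDedekindDomain (M.Alg Ω)]

local notation3 "𝔼" n => (fixedField k₀ Ω n)

instance isDedekindDomain_fixedField (n : ℕ) : IsDedekindDomain (M.Alg (fixedField k₀ Ω n)) :=
  isDedekindDomain_of_extension (k := fixedField k₀ Ω n) (k' := Ω)

/-- Frobenius on classes. -/
def frobEnd (M : Model R) (k₀ Ω : Type*) [Field k₀] [Finite k₀] [Field Ω] [Algebra R k₀]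
    [Algebra R Ω] [Algebra k₀ Ω] [IsScalarTower R k₀ Ω] [IsDedekindDomain (M.Alg Ω)] :
    AddMonoid.End (Additive (ClassGroup (M.Alg Ω))) :=
  MonoidHom.toAdditive (mapCl (M := M) (frobR R k₀ Ω 1))

theorem mapAlg_frobR_zero (f : M.Alg Ω) : M.mapAlg (frobR R k₀ Ω 0) f = f :=
  M.ext_coef fun l => by rw [coef_mapAlg, frobR_zero]

theorem frobEnd_pow_cl (n : ℕ) {I : Ideal (M.Alg Ω)} (hI : I ≠ ⊥) :
    ((frobEnd M k₀ Ω) ^ n) (Additive.ofMul (cl I))
      = Additive.ofMul (cl (I.map (M.mapAlg (frobR R k₀ Ω n)))) := by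
  induction n with
  | zero =>
    rw [show M.mapAlg (frobR R k₀ Ω 0) = RingHom.id (M.Alg Ω) from
      RingHom.ext mapAlg_frobR_zero, Ideal.map_id]
    rfl
  | succ n ih =>
    rw [pow_succ', AddMonoid.End.coe_mul, Function.comp_apply, ih]
    show Additive.ofMul (mapCl (frobR R k₀ Ω 1) (cl (I.map (M.mapAlg (frobR R k₀ Ω n))))) = _
    rw [mapCl_cl _ (map_ne_bot _ hI), Ideal.map_map]
    congr 3
    exact RingHom.ext fun f => by rw [RingHom.comp_apply, ← mapAlg_frobR_add, add_comm]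

theorem mapAlg_frobR_incl (n : ℕ) (f : M.Alg (𝔼 n)) :
    M.mapAlg (frobR R k₀ Ω n) (M.incl (𝔼 n) Ω f) = M.incl (𝔼 n) Ω f :=
  M.ext_coef fun l => by
    rw [coef_mapAlg, coef_incl, frobR_apply]
    exact (M.coef l f).2

theorem mem_fixedSub_iff_range {n : ℕ} {x : Additive (ClassGroup (M.Alg Ω))} :
    x ∈ fixedSub (frobEnd M k₀ Ω) n ↔
      ∃ c : ClassGroup (M.Alg (𝔼 n)), Additive.ofMul (M.extendCl (𝔼 n) Ω c) = x := by
  constructor
  · intro hx
    obtain ⟨I, hI, hIc, -⟩ := exists_isReduced (Additive.toMul x)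
    rw [mem_fixedSub, ← ofMul_toMul x, ← hIc, frobEnd_pow_cl n hI.1] at hx
    have hxI : I.map (M.mapAlg (frobR R k₀ Ω n)) = I :=
      (hI.2 _ (map_ne_bot _ hI.1) (Additive.ofMul.injective hx)).2 (colength_map _ I)
    obtain ⟨J, hJ, hJI⟩ := exists_extend_eq (M := M) (k := 𝔼 n) {frobR R k₀ Ω n}
      (fun c hc => ⟨⟨c, hc _ rfl⟩, rfl⟩) hI.1 (by
        intro σ hσ f hf
        rw [Set.mem_singleton_iff] at hσ
        subst hσ
        rw [← hxI]
        exact Ideal.mem_map_of_mem _ hf)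
    refine ⟨cl J, ?_⟩
    rw [extendCl_cl hJ, hJI, hIc, ofMul_toMul]
  · rintro ⟨c, rfl⟩
    obtain ⟨J, hJ, rfl⟩ := cl_surjective c
    rw [mem_fixedSub, extendCl_cl hJ, frobEnd_pow_cl n (extend_ne_bot hJ), extend, Ideal.map_map]
    congr 3
    exact RingHom.ext (mapAlg_frobR_incl n)

/-- Fixed classes are the classes over the fixed field. -/
def fixedSubEquiv (n : ℕ) :
    ClassGroup (M.Alg (𝔼 n)) ≃ fixedSub (frobEnd M k₀ Ω) n :=
  Equiv.ofBijective
    (fun c => ⟨Additive.ofMul (M.extendCl (𝔼 n) Ω c), mem_fixedSub_iff_range.2 ⟨c, rfl⟩⟩)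
    ⟨fun _ _ h => extendCl_injective (Additive.ofMul.injective (congrArg Subtype.val h)),
      fun x => by
        obtain ⟨c, hc⟩ := mem_fixedSub_iff_range.1 x.2
        exact ⟨c, Subtype.ext hc⟩⟩

theorem natCard_fixedSub (n : ℕ) :
    Nat.card (fixedSub (frobEnd M k₀ Ω) n) = Nat.card (ClassGroup (M.Alg (𝔼 n))) :=
  (Nat.card_congr (fixedSubEquiv n)).symm

theorem finite_fixedSub {n : ℕ} (hn : 0 < n) : Finite (fixedSub (frobEnd M k₀ Ω) n) :=
  have := finite_fixedField (k₀ := k₀) (Ω := Ω) hn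
  have := finite_classGroup M (𝔼 n)
  Finite.of_equiv _ (fixedSubEquiv n)

theorem exists_mem_fixedSub [Algebra.IsAlgebraic k₀ Ω] (x : Additive (ClassGroup (M.Alg Ω))) :
    ∃ n, 0 < n ∧ x ∈ fixedSub (frobEnd M k₀ Ω) n := by
  classical
  obtain ⟨I, hI, hIc⟩ := cl_surjective (Additive.toMul x)
  obtain ⟨n, hn, hcoef⟩ := exists_forall_mem_fixedField (k₀ := k₀)
    ((Finset.univ : Finset (Fin M.a)).biUnion fun i =>
      (M.supp (bas hI i)).image fun l => M.coef l (bas hI i))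
  refine ⟨n, hn, ?_⟩
  rw [mem_fixedSub, ← ofMul_toMul x, ← hIc, frobEnd_pow_cl n hI]
  congr 2
  refine M.eq_of_le_of_colength_eq (map_ne_bot _ hI) ?_ (colength_map _ I)
  rw [Ideal.map_le_iff_le_comap]
  intro f hf
  obtain ⟨c, rfl⟩ := exists_basMap_eq hI hf
  rw [Ideal.mem_comap]
  show M.mapAlg _ (∑ i, c i • bas hI i) ∈ I
  rw [map_sum]
  refine sum_mem fun i _ => ?_
  rw [smul_eq_aeval, map_mul]
  refine I.mul_mem_left _ ?_
  have hfix : M.mapAlg (frobR R k₀ Ω n) (bas hI i) = bas hI i := M.ext_coef fun l => by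
    rw [coef_mapAlg, frobR_apply]
    by_cases hl : l ∈ M.supp (bas hI i)
    · exact hcoef _ (Finset.mem_biUnion.2 ⟨i, Finset.mem_univ i, Finset.mem_image_of_mem _ hl⟩)
    · rw [not_not.1 (mt M.mem_supp.2 hl), map_zero]
  rw [hfix]
  exact bas_mem hI i

/-- The number of points over the field with `q ^ (r m)` elements, from the primes over `𝔼 r`. -/
theorem charPointSum_one_eq {r : ℕ} (hr : 0 < r) [Finite (𝔼 r)] {m : ℕ} (hm : 0 < m) :
    charPointSum (M := M) (k := 𝔼 r) 1 m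
      = (Nat.card {p : M.Point Ω // p.FixedBy k₀ (r * m)} : ℂ) := by
  classical
  set U : Finset (Σ _ : ℕ, Ideal (M.Alg (𝔼 r))) := m.divisors.sigma fun d => primesEq M (𝔼 r) d
    with hU
  have hmemU : ∀ {d : ℕ} {P : Ideal (M.Alg (𝔼 r))}, (⟨d, P⟩ : Σ _ : ℕ, Ideal (M.Alg (𝔼 r))) ∈ U ↔
      d ∣ m ∧ (P ≠ ⊥ ∧ M.colength P = d) ∧ P.IsPrime := fun {d P} => by
    rw [hU, Finset.mem_sigma, Nat.mem_divisors, mem_primesEq]
    exact ⟨fun h => ⟨h.1.1, h.2⟩, fun h => ⟨⟨h.1, hm.ne'⟩, h.2⟩⟩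
  have hto : ∀ p : {p : M.Point Ω // p.FixedBy k₀ (r * m)},
      (⟨M.colength (p.1.below r), p.1.below r⟩ : Σ _ : ℕ, Ideal (M.Alg (𝔼 r))) ∈ U := fun p => by
    have := p.1.below_isPrime (k₀ := k₀) (r := r)
    have h0 := Point.below_ne_bot hr (Nat.mul_pos hr hm) (dvd_mul_right r m) p.2
    exact hmemU.2 ⟨(fixedBy_iff_dvd hr h0 rfl m hm).1 p.2, ⟨h0, rfl⟩, this⟩
  let e : {p : M.Point Ω // p.FixedBy k₀ (r * m)} ≃ Σ x : U, {p : M.Point Ω // p.below r = x.1.2} :=
    { toFun := fun p => ⟨⟨_, hto p⟩, p.1, rfl⟩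
      invFun := fun x => ⟨x.2.1, by
        obtain ⟨hd, ⟨h0, hcol⟩, hP⟩ := hmemU.1 x.1.2
        have := hP
        exact (fixedBy_iff_dvd hr h0 x.2.2 m hm).2 (hcol.symm ▸ hd)⟩
      left_inv := fun _ => rfl
      right_inv := by
        rintro ⟨⟨⟨d, P⟩, hx⟩, p, hp⟩
        obtain ⟨-, ⟨-, hcol⟩, -⟩ := hmemU.1 hx
        simp only at hp
        subst hp
        subst hcol
        rfl }
  have hfin : ∀ x : U, Finite {p : M.Point Ω // p.below r = x.1.2} := fun x => by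
    obtain ⟨-, ⟨h0, hcol⟩, hP⟩ := hmemU.1 x.2
    have := hP
    have := isMaximal_of_isPrime h0
    refine Nat.finite_of_card_ne_zero ?_
    rw [natCard_pointsAbove hr _ h0]
    exact (M.colength_pos h0 hP.ne_top).ne'
  rw [Nat.card_congr e, Nat.card_sigma, Finset.sum_coe_sort U
    (fun x => Nat.card {p : M.Point Ω // p.below r = x.2}), Nat.cast_sum, charPointSum,
    Finset.sum_sigma']
  refine Finset.sum_congr rfl fun x hx => ?_
  obtain ⟨d, P⟩ := x
  obtain ⟨-, ⟨h0, hcol⟩, hP⟩ := hmemU.1 hx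
  have := hP
  have := isMaximal_of_isPrime h0
  rw [natCard_pointsAbove hr _ h0, hcol]
  simp

/-- The zeta roots over `k₀` count classes over every finite extension. -/
theorem exists_roots :
    ∃ s : Multiset ℂ, s.card = 2 * M.genus ∧ (∀ α ∈ s, IsIntegral ℤ α) ∧
      s.prod = (((Nat.card k₀ : ℤ) ^ M.genus : ℤ) : ℂ) ∧
      ∀ r, 0 < r → ∀ [Finite (𝔼 r)],
        (∀ m, 0 < m → charPointSum (M := M) (k := 𝔼 r) 1 m
            = (Nat.card k₀ : ℂ) ^ (r * m) - (s.map fun α => α ^ (r * m)).sum) ∧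
        (lPoly M (𝔼 r)).map (Int.castRingHom ℂ) = recipPoly (s.map fun α => α ^ r) := by
  have hf1 := finite_fixedField (k₀ := k₀) (Ω := Ω) one_pos
  obtain ⟨s, -, hcard, hint, hprod, hN, -⟩ := exists_zetaRoots (M := M) (k := 𝔼 1)
  have hq1 : Nat.card (𝔼 1) = Nat.card k₀ := by rw [(natCard_fixedField one_pos).2, pow_one]
  rw [hq1] at hprod hN
  refine ⟨s, hcard, hint, hprod, fun r hr _ => ?_⟩
  have hpts : ∀ m, 0 < m → charPointSum (M := M) (k := 𝔼 r) 1 m
      = (Nat.card k₀ : ℂ) ^ (r * m) - (s.map fun α => α ^ (r * m)).sum := fun m hm => by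
    rw [charPointSum_one_eq hr hm, ← hN _ (Nat.mul_pos hr hm),
      charPointSum_one_eq one_pos (Nat.mul_pos hr hm), one_mul]
  refine ⟨hpts, ?_⟩
  obtain ⟨sr, hsr, -, -, -, hNr, -⟩ := exists_zetaRoots (M := M) (k := 𝔼 r)
  rw [hsr]
  refine Polynomial.coe_injective ℂ ?_
  rw [coe_recipPoly, coe_recipPoly]
  refine eq_of_logD_eq (G := -powerSums sr) (by rw [map_neg, constantCoeff_powerSums, neg_zero])
    (constantCoeff_recipProd _) (constantCoeff_recipProd _) (logD_recipProd _) ?_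
  rw [logD_recipProd]
  congr 2
  ext m
  rcases Nat.eq_zero_or_pos m with rfl | hm
  · rw [PowerSeries.coeff_zero_eq_constantCoeff, constantCoeff_powerSums, constantCoeff_powerSums]
  · have h := hNr m hm
    rw [hpts m hm, (natCard_fixedField hr).2, Nat.cast_pow, ← pow_mul, sub_right_inj] at h
    rw [coeff_powerSums _ hm.ne', coeff_powerSums _ hm.ne', Multiset.map_map, ← h]
    simp only [Function.comp_def, ← pow_mul]

theorem sum_range_mul_add {A : Type*} [AddCommMonoid A] (f : ℕ → A) (ℓ e : ℕ) :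
    ∑ i ∈ Finset.range (ℓ * e), f i
      = ∑ i ∈ Finset.range ℓ, ∑ j ∈ Finset.range e, f (ℓ * j + i) := by
  induction e with
  | zero => simp
  | succ e ih =>
    rw [Nat.mul_succ, Finset.sum_range_add, ih, ← Finset.sum_add_distrib]
    exact Finset.sum_congr rfl fun i _ => (Finset.sum_range_succ (fun j => f (ℓ * j + i)) e).symm

/-- The class of an extended prime is the sum of the conjugates of one point. -/
theorem exists_extend_prime {r : ℕ} (hr : 0 < r) [Finite (𝔼 r)] {P : Ideal (M.Alg (𝔼 r))}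
    (hP0 : P ≠ ⊥) [P.IsPrime] :
    ∃ y : Additive (ClassGroup (M.Alg Ω)), y ∈ fixedSub (frobEnd M k₀ Ω) (r * M.colength P) ∧
      Additive.ofMul (M.extendCl (𝔼 r) Ω (cl P))
        = ∑ i ∈ Finset.range (M.colength P), ((frobEnd M k₀ Ω) ^ (r * i)) y := by
  classical
  set d := M.colength P
  have hd : 0 < d := M.colength_pos hP0 (Ideal.IsPrime.ne_top ‹_›)
  have hmax := isMaximal_of_isPrime hP0
  obtain ⟨⟨p, hp⟩⟩ : Nonempty {p : M.Point Ω // p.below r = P} :=
    (Nat.card_pos_iff.1 (by rw [natCard_pointsAbove hr P hP0]; exact hd)).1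
  have hfix : p.FixedBy k₀ (r * d) := (fixedBy_iff_dvd hr hP0 hp d hd).2 dvd_rfl
  refine ⟨Additive.ofMul (cl p.ideal), ?_, ?_⟩
  · rw [mem_fixedSub, frobEnd_pow_cl _ p.ideal_ne_bot, Point.map_ideal, Point.frobPt_eq_self.2 hfix]
  let Q : ℕ → Ideal (M.Alg Ω) := fun i => (p.frobPt k₀ (r * i)).ideal
  have hinj : Set.InjOn Q (Finset.range d : Set ℕ) := by
    intro i hi j hj hij
    rw [Finset.coe_range, Set.mem_Iio] at hi hj
    have key : ∀ i j, i ≤ j → j < d → Q i = Q j → i = j := by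
      intro i j hle hj hij
      by_contra hne
      have h1 := Point.ideal_injective hij
      rw [show r * j = r * i + r * (j - i) by rw [← Nat.mul_add, Nat.add_sub_cancel' hle],
        Point.frobPt_add] at h1
      have hinj' : ∀ {p p' : M.Point Ω} {n : ℕ}, p.frobPt k₀ n = p'.frobPt k₀ n → p = p' := by
        intro p p' n h
        exact Point.ext ((frobR R k₀ Ω n).toRingHom.injective (congrArg Point.c h))
          (funext fun l => (frobR R k₀ Ω n).toRingHom.injective (congrFun (congrArg Point.η h) l))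
      have h2 := (fixedBy_iff_dvd hr hP0 hp (j - i) (by omega)).1
        (Point.frobPt_eq_self.1 (hinj' h1).symm)
      have := Nat.le_of_dvd (by omega) h2
      omega
    rcases le_total i j with h | h
    · exact key i j h hj hij
    · exact (key j i h hi hij.symm).symm
  have hprime : ∀ i, Prime (Q i) := fun i =>
    (Ideal.prime_iff_isPrime (Point.ideal_ne_bot _)).2 (Point.isMaximal _).isPrime
  have hle : ∀ i ∈ Finset.range d, M.extend (𝔼 r) Ω P ≤ Q i := fun i _ => by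
    rw [extend, Ideal.map_le_iff_le_comap]
    intro f hf
    rw [← hp, Point.below, RingHom.mem_ker] at hf
    rw [Ideal.mem_comap]
    show (p.frobPt k₀ (r * i)).eval (M.incl _ Ω f) = 0
    have h1 : M.mapAlg (frobR R k₀ Ω (r * i)) (M.incl (𝔼 r) Ω f) = M.incl (𝔼 r) Ω f :=
      M.ext_coef fun l => by
        rw [coef_mapAlg, coef_incl, frobR_apply]
        exact fixedField_le_of_dvd (dvd_mul_right r i) (M.coef l f).2
    rw [← h1, Point.eval_frobPt]
    show frobR R k₀ Ω (r * i) (p.restrictEval (𝔼 r) f) = 0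
    rw [show p.restrictEval (𝔼 r) f = 0 from hf, map_zero]
  have hne : ∀ n, ∏ i ∈ Finset.range n, Q i ≠ ⊥ := fun n =>
    Finset.prod_ne_zero_iff.2 fun i _ => Point.ideal_ne_bot _
  have hcolQ : ∀ n, M.colength (∏ i ∈ Finset.range n, Q i) = n := by
    intro n
    induction n with
    | zero => rw [Finset.range_zero, Finset.prod_empty, Ideal.one_eq_top, M.colength_top]
    | succ n ih =>
      rw [Finset.prod_range_succ, colength_mul (hne n) (Point.ideal_ne_bot _), ih,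
        Point.colength_ideal]
  have hdvd : ∏ i ∈ Finset.range d, Q i ∣ M.extend (𝔼 r) Ω P := by
    rw [show ∏ i ∈ Finset.range d, Q i = ∏ a ∈ (Finset.range d).image Q, a from
      (Finset.prod_image (f := fun a => a) hinj).symm]
    refine Finset.prod_primes_dvd _ (fun a ha => ?_) fun a ha => ?_
    · obtain ⟨i, -, rfl⟩ := Finset.mem_image.1 ha
      exact hprime i
    · obtain ⟨i, hi, rfl⟩ := Finset.mem_image.1 ha
      exact Ideal.dvd_iff_le.2 (hle i hi)
  have heq : M.extend (𝔼 r) Ω P = ∏ i ∈ Finset.range d, Q i :=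
    M.eq_of_le_of_colength_eq (extend_ne_bot hP0) (Ideal.dvd_iff_le.1 hdvd)
      (by rw [colength_extend, hcolQ])
  have hsum : ∀ n, Additive.ofMul (cl (∏ i ∈ Finset.range n, Q i))
      = ∑ i ∈ Finset.range n, ((frobEnd M k₀ Ω) ^ (r * i)) (Additive.ofMul (cl p.ideal)) := by
    intro n
    induction n with
    | zero => rw [Finset.range_zero, Finset.prod_empty, Ideal.one_eq_top, cl_top]; rfl
    | succ n ih =>
      rw [Finset.prod_range_succ, cl_mul (hne n) (Point.ideal_ne_bot _), ofMul_mul, ih,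
        Finset.sum_range_succ, frobEnd_pow_cl _ p.ideal_ne_bot, Point.map_ideal]
  rw [extendCl_cl hP0, heq, hsum]

variable (ℓ : ℕ) [hℓ : Fact ℓ.Prime]

/-- Norms from the extension of degree `ℓ` are onto modulo `ℓ`. -/
theorem norm_surjective {r : ℕ} (hr : 0 < r) {x : Additive (ClassGroup (M.Alg Ω))}
    (hx : x ∈ fixedSub (frobEnd M k₀ Ω) r) :
    ∃ y ∈ fixedSub (frobEnd M k₀ Ω) (r * ℓ), ∃ z ∈ fixedSub (frobEnd M k₀ Ω) r,
      x = (∑ i ∈ Finset.range ℓ, ((frobEnd M k₀ Ω) ^ (r * i)) y) + ℓ • z := by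
  classical
  have hfr := finite_fixedField (k₀ := k₀) (Ω := Ω) hr
  have := finite_classGroup M (𝔼 r)
  set E : ClassGroup (M.Alg (𝔼 r)) → Additive (ClassGroup (M.Alg Ω)) :=
    fun c => Additive.ofMul (M.extendCl (𝔼 r) Ω c) with hE
  let N : Additive (ClassGroup (M.Alg Ω)) →+ Additive (ClassGroup (M.Alg Ω)) :=
    ∑ i ∈ Finset.range ℓ, ((frobEnd M k₀ Ω) ^ (r * i) : AddMonoid.End _)
  have hN : ∀ y, N y = ∑ i ∈ Finset.range ℓ, ((frobEnd M k₀ Ω) ^ (r * i)) y := fun y =>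
    AddMonoidHom.finsetSum_apply _ _ _
  let H : Subgroup (ClassGroup (M.Alg (𝔼 r))) :=
    { carrier := {c | ∃ y ∈ fixedSub (frobEnd M k₀ Ω) (r * ℓ), ∃ z, E c = N y + ℓ • E z}
      one_mem' := ⟨0, zero_mem _, 1, by simp [hE]⟩
      mul_mem' := by
        rintro c c' ⟨y, hy, z, hz⟩ ⟨y', hy', z', hz'⟩
        refine ⟨y + y', add_mem hy hy', z * z', ?_⟩
        simp only [hE, map_mul, ofMul_mul] at hz hz' ⊢
        rw [hz, hz', map_add, smul_add]
        abel
      inv_mem' := by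
        rintro c ⟨y, hy, z, hz⟩
        refine ⟨-y, neg_mem hy, z⁻¹, ?_⟩
        simp only [hE, map_inv, ofMul_inv] at hz ⊢
        rw [hz, map_neg, smul_neg, neg_add] }
  suffices H = ⊤ by
    obtain ⟨c, hc⟩ := mem_fixedSub_iff_range.1 hx
    obtain ⟨y, hy, z, hz⟩ := (this ▸ Subgroup.mem_top c : c ∈ H)
    exact ⟨y, hy, E z, mem_fixedSub_iff_range.2 ⟨z, rfl⟩, by rw [← hN, ← hz, ← hc]⟩
  by_contra hH
  obtain ⟨c₀, hc₀⟩ : ∃ c, c ∉ H := by
    by_contra hall
    push Not at hall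
    exact hH (eq_top_iff.2 fun c _ => hall c)
  have : NeZero (Monoid.exponent (ClassGroup (M.Alg (𝔼 r)) ⧸ H) : ℂ) :=
    ⟨Nat.cast_ne_zero.2 Monoid.exponent_ne_zero_of_finite⟩
  obtain ⟨φ, hφ⟩ := CommGroup.exists_apply_ne_one_of_hasEnoughRootsOfUnity
    (ClassGroup (M.Alg (𝔼 r)) ⧸ H) ℂ (a := QuotientGroup.mk c₀)
    fun h => hc₀ ((QuotientGroup.eq_one_iff _).1 h)
  let χ : ClassGroup (M.Alg (𝔼 r)) →* ℂ :=
    (Units.coeHom ℂ).comp (φ.comp (QuotientGroup.mk' H))
  have hχ0 : χ c₀ ≠ 1 := fun h => hφ (Units.ext h)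
  have hχH : ∀ c ∈ H, χ c = 1 := fun c hc => by
    show ((φ (QuotientGroup.mk c) : ℂˣ) : ℂ) = 1
    rw [(QuotientGroup.eq_one_iff c).2 hc, map_one, Units.val_one]
  have hχℓ : ∀ c, χ c ^ ℓ = 1 := fun c => by
    rw [← map_pow]
    exact hχH _ ⟨0, zero_mem _, c, by simp [hE, map_pow]⟩
  have hχP : ∀ {d : ℕ} {P : Ideal (M.Alg (𝔼 r))}, P ∈ primesEq M (𝔼 r) d → ℓ ∣ d →
      χ (cl P) = 1 := by
    intro d P hP hℓd
    obtain ⟨⟨hP0, hPd⟩, hPp⟩ := mem_primesEq.1 hP
    have := hPp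
    obtain ⟨e, rfl⟩ := hℓd
    obtain ⟨p0, hp0, hext⟩ := exists_extend_prime hr hP0
    rw [hPd] at hp0 hext
    set S := frobEnd M k₀ Ω
    refine hχH _ ⟨∑ j ∈ Finset.range e, (S ^ (r * (ℓ * j))) p0, ?_, 1, ?_⟩
    · rw [mem_fixedSub, map_sum]
      have h0 := Finset.sum_range_succ (fun j => (S ^ (r * (ℓ * j))) p0) e
      have h1 := Finset.sum_range_succ' (fun j => (S ^ (r * (ℓ * j))) p0) e
      rw [h0, mem_fixedSub.1 hp0, mul_zero, mul_zero, pow_zero] at h1
      refine Eq.trans (Finset.sum_congr rfl fun j _ => ?_) (add_right_cancel h1).symm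
      rw [end_pow_apply, show r * ℓ + r * (ℓ * j) = r * (ℓ * (j + 1)) by ring]
    · simp only [hE] at hext ⊢
      rw [hext, map_one, ofMul_one, smul_zero, add_zero, hN, sum_range_mul_add]
      refine Finset.sum_congr rfl fun i _ => ?_
      rw [map_sum]
      refine Finset.sum_congr rfl fun j _ => ?_
      rw [end_pow_apply, Nat.mul_add, add_comm]
  have hpts : ∀ m, charPointSum χ (ℓ * m) = charPointSum (M := M) (k := 𝔼 r) 1 (ℓ * m) := by
    intro m
    refine Finset.sum_congr rfl fun d hd => Finset.sum_congr rfl fun P hP => ?_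
    rw [MonoidHom.one_apply, one_pow]
    by_cases hℓd : ℓ ∣ d
    · rw [hχP hP hℓd, one_pow]
    · have h1 : d ∣ m :=
        (Nat.Coprime.dvd_mul_left ((hℓ.out.coprime_iff_not_dvd).2 hℓd).symm).1
          (Nat.mem_divisors.1 hd).1
      rw [Nat.mul_div_assoc ℓ h1, pow_mul, hχℓ, one_pow]
  obtain ⟨s, -, -, -, hs⟩ := exists_roots (M := M) (k₀ := k₀) (Ω := Ω)
  obtain ⟨t, ht⟩ := exists_twistRoots (M := M) (k := 𝔼 r) hχ0
  have hrℓ : 0 < r * ℓ := Nat.mul_pos hr hℓ.out.pos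
  have hfrℓ := finite_fixedField (k₀ := k₀) (Ω := Ω) hrℓ
  have := finite_classGroup M (𝔼 (r * ℓ))
  set a : ℂ := (Nat.card k₀ : ℂ) ^ (r * ℓ)
  set S1 := s.map fun α => α ^ (r * ℓ)
  set T := t.map fun β => β ^ ℓ
  have hps : powerSums S1 = powerSums (a ::ₘ T) := by
    ext m
    rcases Nat.eq_zero_or_pos m with rfl | hm
    · rw [PowerSeries.coeff_zero_eq_constantCoeff, constantCoeff_powerSums, constantCoeff_powerSums]
    · rw [coeff_powerSums _ hm.ne', coeff_powerSums _ hm.ne', Multiset.map_cons, Multiset.sum_cons]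
      have h1 := hpts m
      rw [ht _ (Nat.mul_pos hℓ.out.pos hm), (hs r hr).1 _ (Nat.mul_pos hℓ.out.pos hm),
        ← mul_assoc] at h1
      simp only [S1, T, a, Multiset.map_map, Function.comp_def, ← pow_mul]
      linear_combination h1
  have heq : recipProd S1 = recipProd (a ::ₘ T) :=
    eq_of_logD_eq (G := -powerSums S1) (by rw [map_neg, constantCoeff_powerSums, neg_zero])
      (constantCoeff_recipProd _) (constantCoeff_recipProd _) (logD_recipProd _)
      (by rw [logD_recipProd, hps])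
  rw [← coe_recipPoly, ← coe_recipPoly] at heq
  have h2 := congrArg (Polynomial.eval a⁻¹) (Polynomial.coe_injective ℂ heq)
  have ha : a ≠ 0 := pow_ne_zero _ (Nat.cast_ne_zero.2 Nat.card_pos.ne')
  rw [eval_recipPoly _ a⁻¹, eval_recipPoly (a ::ₘ T), Multiset.map_cons, Multiset.prod_cons,
    mul_inv_cancel₀ ha, sub_self, zero_mul, ← eval_recipPoly, ← (hs (r * ℓ) hrℓ).2,
    show a⁻¹ = (Nat.card (𝔼 (r * ℓ)) : ℂ)⁻¹ by rw [(natCard_fixedField hrℓ).2, Nat.cast_pow],
    eval_lPoly_inv, div_eq_zero_iff] at h2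
  rcases h2 with h2 | h2
  · exact Nat.card_pos.ne' (Nat.cast_eq_zero.1 h2)
  · exact pow_ne_zero _ (Nat.cast_ne_zero.2 Nat.card_pos.ne') h2

variable [Algebra.IsAlgebraic k₀ Ω]

/-- Over an algebraic closure of a finite field the `ℓ ^ k`-torsion of the classes has
`ℓ ^ (2 g k)` elements, for `ℓ` prime to the characteristic. -/
theorem ncard_torsion_finite_fibre (hℓq : ¬ ℓ ∣ Nat.card k₀) (k : ℕ) :
    {x : Additive (ClassGroup (M.Alg Ω)) | ℓ ^ k • x = 0}.ncard = ℓ ^ (2 * M.genus * k) ∧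
      {x : Additive (ClassGroup (M.Alg Ω)) | ℓ ^ k • x = 0}.Finite := by
  obtain ⟨s, hcard, hint, hprod, hs⟩ := exists_roots (M := M) (k₀ := k₀) (Ω := Ω)
  set S := frobEnd M k₀ Ω
  have hpos : ∀ r, 0 < r → 0 < Nat.card (fixedSub S r) := fun r hr =>
    have := finite_fixedSub (M := M) (k₀ := k₀) (Ω := Ω) hr
    Nat.card_pos
  have hh : ∀ r, 0 < r → (Nat.card (fixedSub S r) : ℂ) = (s.map fun α => 1 - α ^ r).prod := by
    intro r hr
    have := finite_fixedField (k₀ := k₀) (Ω := Ω) hr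
    rw [natCard_fixedSub, ← eval_lPoly_one, (hs r hr).2, eval_recipPoly, Multiset.map_map]
    simp only [Function.comp_def, mul_one]
  obtain ⟨e, he, hgrowth⟩ := exists_growth ℓ s hint _ hprod (by
    apply IsCoprime.pow_left
    rw [Int.isCoprime_iff_gcd_eq_one, Int.gcd_natCast_natCast, ← Nat.coprime_iff_gcd_eq_one]
    exact ((hℓ.out.coprime_iff_not_dvd).2 hℓq).symm) (fun r => Nat.card (fixedSub S r)) hh hpos
  have hfs : ∀ a b, fixedSub (S ^ a) b = fixedSub S (a * b) := fun a b =>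
    AddSubgroup.ext fun x => by rw [mem_fixedSub, mem_fixedSub, pow_mul]
  have hdata : ∀ r₀, 0 < r₀ → e ∣ r₀ → TowerData ℓ (S ^ r₀) (2 * M.genus)
      (padicValNat ℓ (Nat.card (fixedSub S r₀))) := by
    intro r₀ hr₀ hdvd
    refine ⟨fun j => ?_, fun j => ?_, fun j x hx => ?_⟩
    · rw [hfs]
      exact finite_fixedSub (Nat.mul_pos hr₀ (pow_pos hℓ.out.pos _))
    · rw [hfs, ← hcard]
      exact hgrowth r₀ hr₀ hdvd j
    · rw [hfs] at hx
      obtain ⟨y, hy, z, hz, hxyz⟩ := norm_surjective ℓ (Nat.mul_pos hr₀ (pow_pos hℓ.out.pos j)) hx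
      refine ⟨y, by rwa [hfs, pow_succ, ← mul_assoc], z, by rwa [hfs], hxyz.trans ?_⟩
      simp only [S, ← pow_mul, mul_assoc]
  have hsub : ∀ r₀, 0 < r₀ → e ∣ r₀ →
      (towerTors ℓ (S ^ r₀) k : Set (Additive (ClassGroup (M.Alg Ω)))).ncard = ℓ ^ (2 * M.genus * k) ∧
      (towerTors ℓ (S ^ r₀) k : Set (Additive (ClassGroup (M.Alg Ω)))).Finite := fun r₀ hr₀ hdvd =>
    have := (hdata r₀ hr₀ hdvd).finite_towerTors k
    ⟨by rw [← Nat.card_coe_set_eq]; exact (hdata r₀ hr₀ hdvd).natCard_towerTors k,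
      Set.toFinite _⟩
  have heq : {x : Additive (ClassGroup (M.Alg Ω)) | ℓ ^ k • x = 0}
      = (towerTors ℓ (S ^ e) k : Set (Additive (ClassGroup (M.Alg Ω)))) := by
    refine Set.Subset.antisymm (fun x hx => ?_) fun x hx => hx.2
    obtain ⟨n, hn, hxn⟩ := exists_mem_fixedSub (k₀ := k₀) x
    have hen : 0 < e * n := Nat.mul_pos he hn
    have hle : (towerTors ℓ (S ^ e) k : Set (Additive (ClassGroup (M.Alg Ω)))) ⊆ (towerTors ℓ (S ^ (e * n)) k : Set (Additive (ClassGroup (M.Alg Ω)))) := by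
      intro z hz
      obtain ⟨⟨j, hj⟩, hz2⟩ := mem_towerTors.1 hz
      refine mem_towerTors.2 ⟨⟨j, ?_⟩, hz2⟩
      rw [hfs] at hj ⊢
      exact fixedSub_le_of_dvd S (Nat.mul_dvd_mul_right (dvd_mul_right e n) _) hj
    have h1 := hsub e he dvd_rfl
    have h2 := hsub (e * n) hen (dvd_mul_right e n)
    rw [Set.eq_of_subset_of_ncard_le hle (h2.1.trans h1.1.symm).le h2.2]
    refine mem_towerTors.2 ⟨⟨0, ?_⟩, hx⟩
    rw [hfs, pow_zero, mul_one]
    exact fixedSub_le_of_dvd S (dvd_mul_left n e) hxn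
  rw [heq]
  exact hsub e he dvd_rfl

end Model

end FLTAgent.PicTorsion
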