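import Fermat.Agent.PicTorsion.CurvePic
import Fermat.Agent.PicTorsion.FiniteFibre
import Mathlib.RingTheory.IntegralClosure.Algebra.Basic
import Mathlib.FieldTheory.Finite.Basic

/-!
# Torsion divisor classes over an algebraic closure of a prime field of positive characteristic
-/

set_option autoImplicit false

noncomputable section

open AlgebraicCurve

namespace FLTAgent.PicTorsion

open FLTAgent.FunctionField

theorem natCard_pic0_torsion_of_algebraic_zmod {k C : Type*} [Field k] [Field C] [Algebra k C]
    [IsFunctionField k C] [IsAlgClosed k] (q : ℕ) [Fact q.Prime] [Algebra (ZMod q) k]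
    [Algebra.IsAlgebraic (ZMod q) k] (p : ℕ) [Fact p.Prime] (hpq : p ≠ q) (n : ℕ) :
    Nat.card (Pic0.torsion k C (p ^ n)) = p ^ (2 * genusFF k C * n) ∧
      Finite (Pic0.torsion k C (p ^ n)) := by
  classical
  obtain ⟨P⟩ := exists_place (K := k) (F := C)
  obtain ⟨t, ⟨B⟩⟩ := exists_monBasis P
  set S : Set k := (B.coeffSet : Set k)
  have hint : ∀ x : k, IsIntegral ℤ x := fun x =>
    haveI : Module.Finite ℤ (ZMod q) := Module.Finite.of_finite
    haveI : Algebra.IsIntegral ℤ (ZMod q) := Algebra.IsIntegral.of_finite ℤ _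
    isIntegral_trans (A := ZMod q) x (Algebra.IsAlgebraic.isAlgebraic x).isIntegral
  have hfin : Finite B.base := by
    have hfg : Module.Finite (ZMod q) (Algebra.adjoin (ZMod q) S) :=
      Module.Finite.iff_fg.2 (fg_adjoin_of_finite B.coeffSet.finite_toSet
        fun x _ => (Algebra.IsAlgebraic.isAlgebraic x).isIntegral)
    have : Finite (Algebra.adjoin (ZMod q) S) := Module.finite_of_finite (ZMod q)
    have hle : B.base ≤ (Algebra.adjoin (ZMod q) S).restrictScalars ℤ :=
      Algebra.adjoin_le Algebra.subset_adjoin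
    exact Finite.of_injective (fun x : B.base => (⟨x.1, hle x.2⟩ : Algebra.adjoin (ZMod q) S))
      fun x y h => Subtype.ext (congrArg (fun z : Algebra.adjoin (ZMod q) S => (z : k)) h)
  let _ : Field B.base := (Finite.isField_of_domain B.base).toField
  have : Algebra.IsAlgebraic B.base k := ⟨fun x => ((hint x).tower_top).isAlgebraic⟩
  have : CharP k q := charP_of_injective_algebraMap (algebraMap (ZMod q) k).injective q
  have : CharP B.base q := (RingHom.charP_iff (algebraMap B.base k) Subtype.val_injective q).2 ‹_›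
  have hcard : ¬ p ∣ Nat.card B.base := by
    have := Fintype.ofFinite B.base
    obtain ⟨m, hq, hm⟩ := FiniteField.card B.base q
    rw [Nat.card_eq_fintype_card, hm]
    exact fun h => hpq ((Nat.prime_dvd_prime_iff_eq Fact.out hq).1 ((Fact.out : p.Prime).dvd_of_dvd_pow h))
  obtain ⟨h1, h2⟩ := Model.ncard_torsion_finite_fibre (M := B.model) (k₀ := B.base) (Ω := k) p hcard n
  rw [← B.genus_model, B.natCard_torsion, h1]
  refine ⟨rfl, Nat.finite_of_card_ne_zero ?_⟩
  rw [B.natCard_torsion, h1]
  exact pow_ne_zero _ (Fact.out : p.Prime).ne_zero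

end FLTAgent.PicTorsion
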