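import Fermat.Agent.PicTorsion.CurveModel
import Mathlib.RingTheory.DedekindDomain.Factorization

/-!
# Divisor classes of degree zero and the class group of the model
-/

set_option autoImplicit false

noncomputable section

open AlgebraicCurve Polynomial IsDedekindDomain
open scoped nonZeroDivisors

namespace FLTAgent.PicTorsion

open FLTAgent.FunctionField

section Generic

variable {K F A : Type*} [Field K] [Field F] [Algebra K F] [CommRing A] [IsDedekindDomain A]
  [Algebra A F] [IsFractionRing A F] [Algebra K A] [IsScalarTower K A F]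

/-- The place of a prime. -/
abbrev pl (w : HeightOneSpectrum A) : Place K F := Place.ofHeightOneSpectrum w

theorem ord_pl (w : HeightOneSpectrum A) (f : F) :
    (pl (K := K) w).ord f = -WithZero.log (w.valuation F f) := by
  set v := pl (K := K) (F := F) w
  have hmem : ∀ g : F, g ∈ v.toValuationSubring ↔ w.valuation F g ≤ 1 := fun g => Iff.rfl
  have hsign : ∀ g : F, g ≠ 0 → (0 ≤ v.ord g ↔ 0 ≤ -WithZero.log (w.valuation F g)) := by
    intro g hg
    rw [← mem_iff_ord_nonneg hg, hmem, Left.nonneg_neg_iff,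
      WithZero.log_le_iff_le_exp ((Valuation.ne_zero_iff _).2 hg), WithZero.exp_zero]
  obtain ⟨t, ht0, ht⟩ := exists_ord_eq v 1
  obtain ⟨u, hu⟩ := w.valuation_exists_uniformizer F
  set L : F → ℤ := fun g => -WithZero.log (w.valuation F g) with hL
  have hkey : ∀ g : F, g ≠ 0 → L g = v.ord g * L t := by
    intro g hg
    set g' := g / t ^ v.ord g
    have hz : t ^ v.ord g ≠ 0 := zpow_ne_zero _ ht0
    have hg' : g' ≠ 0 := div_ne_zero hg hz
    have hv : v.ord g' = 0 := by
      rw [ord_div hg hz, v.ord_zpow, ht, mul_one, sub_self]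
    have h1 := (hsign g' hg').1 hv.ge
    have h2 := (hsign g'⁻¹ (inv_ne_zero hg')).1 (by rw [v.ord_inv, hv, neg_zero])
    rw [map_inv₀, WithZero.log_inv] at h2
    have h3 : -WithZero.log (w.valuation F g') = 0 := by omega
    rw [map_div₀, map_zpow₀, WithZero.log_div ((Valuation.ne_zero_iff _).2 hg)
      (zpow_ne_zero _ ((Valuation.ne_zero_iff _).2 ht0)), WithZero.log_zpow, smul_eq_mul] at h3
    simp only [hL]
    linarith
  have hu0 : u ≠ 0 := fun h => by
    rw [h, map_zero] at hu
    exact WithZero.exp_ne_zero hu.symm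
  have h1 := hkey u hu0
  simp only [hL, hu, WithZero.log_exp, neg_neg] at h1
  have h2 := (hsign t ht0).1 (by rw [ht]; exact zero_le_one)
  have h3 : L t = 1 := by
    rcases Int.eq_one_or_neg_one_of_mul_eq_one (by rw [mul_comm]; exact h1.symm) with h | h
    · exact h
    · omega
  rcases eq_or_ne f 0 with rfl | hf
  · rw [Place.ord_zero, map_zero, WithZero.log_zero, neg_zero]
  · have := hkey f hf
    rw [h3, mul_one] at this
    exact this.symm

theorem count_spanSingleton [FaithfulSMul A F] (w : HeightOneSpectrum A) {f : F} (hf : f ≠ 0) :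
    FractionalIdeal.count F w (FractionalIdeal.spanSingleton A⁰ f)
      = -WithZero.log (w.valuation F f) := by
  classical
  obtain ⟨a, b, hb, rfl⟩ := IsFractionRing.div_surjective (A := A) f
  have hb0 : b ≠ 0 := nonZeroDivisors.ne_zero hb
  have ha0 : a ≠ 0 := by rintro rfl; simp at hf
  rw [FractionalIdeal.count_well_defined F w (a := b) (J := Ideal.span {a})
    (FractionalIdeal.spanSingleton_ne_zero_iff.2 hf) (by
      rw [FractionalIdeal.coeIdeal_span_singleton, FractionalIdeal.spanSingleton_mul_spanSingleton,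
        div_eq_inv_mul])]
  rw [map_div₀, w.valuation_of_algebraMap, w.valuation_of_algebraMap,
    WithZero.log_div (w.intValuation_ne_zero a ha0) (w.intValuation_ne_zero b hb0),
    w.intValuation_if_neg ha0, w.intValuation_if_neg hb0, WithZero.log_exp, WithZero.log_exp]
  ring

/-- The fractional ideal with given exponents. -/
def expIdeal (e : HeightOneSpectrum A →₀ ℤ) : FractionalIdeal A⁰ F :=
  e.prod fun w n => (w.asIdeal : FractionalIdeal A⁰ F) ^ n

theorem expIdeal_ne_zero (e : HeightOneSpectrum A →₀ ℤ) : expIdeal (F := F) e ≠ 0 :=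
  Finset.prod_ne_zero_iff.2 fun w _ => zpow_ne_zero _ (FractionalIdeal.coeIdeal_ne_zero.2 w.ne_bot)

theorem expIdeal_add (e e' : HeightOneSpectrum A →₀ ℤ) :
    expIdeal (F := F) (e + e') = expIdeal e * expIdeal e' :=
  Finsupp.prod_add_index' (fun _ => zpow_zero _)
    fun w _ _ => zpow_add₀ (FractionalIdeal.coeIdeal_ne_zero.2 w.ne_bot) _ _

theorem count_expIdeal (e : HeightOneSpectrum A →₀ ℤ) (w : HeightOneSpectrum A) :
    FractionalIdeal.count F w (expIdeal e) = e w :=
  FractionalIdeal.count_finsuppProd F w e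

theorem expIdeal_eq_of_count {e : HeightOneSpectrum A →₀ ℤ} {I : FractionalIdeal A⁰ F} (hI : I ≠ 0)
    (h : ∀ w, e w = FractionalIdeal.count F w I) : expIdeal e = I := by
  classical
  conv_rhs => rw [← FractionalIdeal.finprod_heightOneSpectrum_factorization' (K := F) hI]
  rw [finprod_eq_finsetProd_of_mulSupport_subset (s := e.support)]
  · exact Finset.prod_congr rfl fun w _ => by rw [h]
  · intro w hw
    rw [Finset.mem_coe, Finsupp.mem_support_iff, h]
    intro h0
    exact hw (by simp [h0])

/-- Exponents to classes. -/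
def expClass : (HeightOneSpectrum A →₀ ℤ) →+ Additive (ClassGroup A) where
  toFun e := Additive.ofMul (ClassGroup.mk F (Units.mk0 _ (expIdeal_ne_zero (F := F) e)))
  map_zero' := by
    rw [← ofMul_one, ← map_one (ClassGroup.mk F (R := A))]
    congr 2
    exact Units.ext (Finsupp.prod_zero_index (M := ℤ) (h := fun (w : HeightOneSpectrum A) n => (w.asIdeal : FractionalIdeal A⁰ F) ^ n))
  map_add' e e' := by
    rw [← ofMul_mul, ← map_mul]
    congr 2
    exact Units.ext (expIdeal_add e e')

theorem expClass_surjective : Function.Surjective (expClass (F := F) (A := A)) := by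
  intro c
  obtain ⟨I, hI⟩ := ClassGroup.mk0_surjective (Additive.toMul c)
  have hI0 : (I : FractionalIdeal A⁰ F) ≠ 0 :=
    FractionalIdeal.coeIdeal_ne_zero.2 (nonZeroDivisors.coe_ne_zero I)
  let e : HeightOneSpectrum A →₀ ℤ := Finsupp.ofSupportFinite
    (fun w => FractionalIdeal.count F w (I : FractionalIdeal A⁰ F))
    (Filter.eventually_cofinite.1 (FractionalIdeal.finite_factors _))
  refine ⟨e, ?_⟩
  have he : Units.mk0 _ (expIdeal_ne_zero (F := F) e) = FractionalIdeal.mk0 F I :=
    Units.ext (expIdeal_eq_of_count hI0 fun w => rfl)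
  show Additive.ofMul (ClassGroup.mk F (Units.mk0 _ (expIdeal_ne_zero (F := F) e))) = c
  rw [he, ClassGroup.mk_mk0, hI, ofMul_toMul]

theorem expClass_eq_zero_iff [FaithfulSMul A F] (e : HeightOneSpectrum A →₀ ℤ) :
    expClass (F := F) e = 0 ↔ ∃ f : F, f ≠ 0 ∧ ∀ w, e w = (pl (K := K) w).ord f := by
  show Additive.ofMul _ = 0 ↔ _
  rw [ofMul_eq_zero, ClassGroup.mk_eq_one_iff, Units.val_mk0, FractionalIdeal.isPrincipal_iff]
  constructor
  · rintro ⟨f, hf⟩
    have hf0 : f ≠ 0 := by
      rintro rfl
      exact expIdeal_ne_zero e (by rw [hf, FractionalIdeal.spanSingleton_zero])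
    exact ⟨f, hf0, fun w => by rw [ord_pl, ← count_spanSingleton w hf0, ← hf, count_expIdeal]⟩
  · rintro ⟨f, hf0, h⟩
    exact ⟨f, expIdeal_eq_of_count (FractionalIdeal.spanSingleton_ne_zero_iff.2 hf0)
      fun w => by rw [h w, ord_pl, count_spanSingleton w hf0]⟩

theorem pl_injective [FaithfulSMul A F] : Function.Injective (pl (K := K) (F := F) (A := A)) := by
  intro w w' h
  refine HeightOneSpectrum.ext (Ideal.ext fun a => ?_)
  have key : ∀ w : HeightOneSpectrum A, a ∈ w.asIdeal ↔ a = 0 ∨ 0 < (pl (K := K) w).ord (algebraMap A F a) := by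
    intro w
    rcases eq_or_ne a 0 with rfl | ha
    · simp
    rw [or_iff_right ha, ord_pl, ← w.valuation_lt_one_iff_mem (K := F), Left.neg_pos_iff,
      WithZero.log_lt_iff_lt_exp ((Valuation.ne_zero_iff _).2
        ((map_ne_zero_iff _ (FaithfulSMul.algebraMap_injective A F)).2 ha)), WithZero.exp_zero]
  rw [key, key, h]

end Generic

namespace MonBasis

variable {K F : Type*} [Field K] [Field F] [Algebra K F] [IsFunctionField K F] [IsAlgClosed K]
  {P : Place K F} {t : F} (B : MonBasis P t)

/-- The places away from `P`. -/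
abbrev plA (w : HeightOneSpectrum (B.model.Alg K)) : Place K F := pl w

theorem plA_ne (w : HeightOneSpectrum (B.model.Alg K)) : B.plA w ≠ P := by
  intro h
  obtain ⟨y, hy⟩ := B.exists_toField_eq B.x_mem
  obtain ⟨hx0, hx⟩ := B.x_lead.ord_eq B.ord_t one_ne_zero
  have h1 : (pl (K := K) w).toValuationSubring = P.toValuationSubring :=
    congrArg Place.toValuationSubring h
  have hm : B.x ∈ (pl (K := K) w).toValuationSubring := by
    show w.valuation F B.x ≤ 1
    rw [← hy, ← algebraMap_apply']
    exact w.valuation_le_one y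
  rw [h1, mem_iff_ord_nonneg hx0, hx] at hm
  have := Nat.pos_of_ne_zero B.a_ne.ne
  omega

theorem exists_plA_eq {v : Place K F} (hv : v ≠ P) : ∃ w, B.plA w = v := by
  let φ : B.model.Alg K →+* v.toValuationSubring :=
    B.toField.toRingHom.codRestrict v.toValuationSubring.toSubring
      fun f => mem_iff_ordGe_zero.2 (B.inA_toField f v hv)
  let Q := (IsLocalRing.maximalIdeal v.toValuationSubring).comap φ
  have hQ : ∀ f, f ∈ Q ↔ OrdGe v 1 (B.toField f) := fun f => by
    rw [Ideal.mem_comap, ← IsLocalRing.residue_eq_zero_iff]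
    exact residue_eq_zero_iff (v := v) (a := φ f)
  have hQ0 : Q ≠ ⊥ := by
    obtain ⟨f, hf0, hf⟩ := exists_ord_eq v 1
    obtain ⟨a, b, hb, rfl⟩ := IsFractionRing.div_surjective (A := B.model.Alg K) f
    rw [algebraMap_apply', algebraMap_apply'] at hf hf0
    rw [div_ne_zero_iff] at hf0
    rw [ord_div hf0.1 hf0.2] at hf
    have h0 := (B.inA_toField b v hv).le_ord hf0.2
    refine (Submodule.ne_bot_iff _).2 ⟨a, (hQ a).2 (ordGe_of_le_ord (by omega)), ?_⟩
    rintro rfl
    exact hf0.1 (map_zero _)
  let w : HeightOneSpectrum (B.model.Alg K) := ⟨Q, Ideal.comap_isPrime _ _, hQ0⟩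
  refine ⟨w, place_eq_of_le fun f hf => ?_⟩
  change f ∈ (w.valuation F).valuationSubring at hf
  rw [← HeightOneSpectrum.valuationSubringAtPrime_eq_valuationSubring] at hf
  obtain ⟨a, s, hs, rfl⟩ := hf
  refine mul_mem (mem_iff_ordGe_zero.2 (B.inA_toField a v hv)) ?_
  have hs' : ¬ OrdGe v 1 (B.toField s) := fun h => hs ((hQ s).2 h)
  have hs0 : B.toField s ≠ 0 := fun h => hs' (ordGe_iff.2 (Or.inl h))
  show (B.toField s)⁻¹ ∈ v.toValuationSubring
  rw [mem_iff_ord_nonneg (inv_ne_zero hs0), v.ord_inv]
  rw [ordGe_iff_of_ne_zero hs0] at hs'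
  omega

theorem plA_injective : Function.Injective B.plA := pl_injective

/-- The class of a divisor of degree zero. -/
def divClass : Divisor.degZero (K := K) (F := F) →+ Additive (ClassGroup (B.model.Alg K)) :=
  (expClass (F := F)).comp
    ((Finsupp.comapDomain.addMonoidHom B.plA_injective).comp (Divisor.degZero (K := K) (F := F)).subtype)

theorem divClass_surjective : Function.Surjective B.divClass := by
  classical
  intro c
  obtain ⟨e, rfl⟩ := expClass_surjective (F := F) c
  set D : Divisor K F := Finsupp.mapDomain B.plA e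
  refine ⟨⟨D - Finsupp.single P (Divisor.degree D), ?_⟩, ?_⟩
  · rw [Divisor.mem_degZero, map_sub, Divisor.degree_single, deg_eq_one, Nat.cast_one, mul_one,
      sub_self]
  · refine congrArg (expClass (F := F)) (Finsupp.ext fun w => ?_)
    show (D - Finsupp.single P (Divisor.degree D)) (B.plA w) = e w
    rw [Finsupp.sub_apply, Finsupp.single_eq_of_ne (B.plA_ne w), sub_zero,
      Finsupp.mapDomain_apply B.plA_injective]

theorem ker_divClass : B.divClass.ker
    = (Divisor.principal (K := K) (F := F)).addSubgroupOf (Divisor.degZero (K := K) (F := F)) := by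
  classical
  ext ⟨D, hD⟩
  rw [AddMonoidHom.mem_ker, AddSubgroup.mem_addSubgroupOf, Divisor.mem_principal]
  show expClass (F := F) (Finsupp.comapDomain B.plA D B.plA_injective.injOn) = 0 ↔ _
  rw [expClass_eq_zero_iff (K := K)]
  refine ⟨fun ⟨f, hf, h⟩ => ⟨f, hf, ?_⟩, fun ⟨f, hf, h⟩ => ⟨f, hf, fun w => h (B.plA w)⟩⟩
  have hoff : ∀ v, v ≠ P → (D - divisorOf (K := K) f) v = 0 := fun v hv => by
    obtain ⟨w, rfl⟩ := B.exists_plA_eq hv
    have := h w
    rw [Finsupp.comapDomain_apply] at this
    rw [Finsupp.sub_apply, divisorOf_apply, this, sub_self]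
  have hsingle : D - divisorOf (K := K) f = Finsupp.single P ((D - divisorOf (K := K) f) P) := by
    ext v
    rcases eq_or_ne v P with rfl | hv
    · rw [Finsupp.single_eq_same]
    · rw [Finsupp.single_eq_of_ne hv, hoff v hv]
  have hdeg := congrArg Divisor.degree hsingle
  rw [map_sub, degree_divisorOf, Divisor.mem_degZero.1 hD, sub_zero, Divisor.degree_single,
    deg_eq_one, Nat.cast_one, mul_one] at hdeg
  intro v
  rw [← divisorOf_apply (K := K) f v, ← sub_eq_zero, ← Finsupp.sub_apply, hsingle, ← hdeg,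
    Finsupp.single_zero]
  rfl

/-- Divisor classes of degree zero are ideal classes of the model. -/
def picEquiv : Pic0 K F ≃+ Additive (ClassGroup (B.model.Alg K)) :=
  (QuotientAddGroup.quotientAddEquivOfEq B.ker_divClass.symm).trans
    (QuotientAddGroup.quotientKerEquivOfSurjective _ B.divClass_surjective)

theorem natCard_torsion (n : ℕ) : Nat.card (Pic0.torsion K F n)
    = {x : Additive (ClassGroup (B.model.Alg K)) | n • x = 0}.ncard := by
  rw [← Nat.card_coe_set_eq]
  refine Nat.card_congr (B.picEquiv.toEquiv.subtypeEquiv fun x => ?_)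
  rw [Pic0.mem_torsion, natCast_zsmul]
  show n • x = 0 ↔ n • B.picEquiv x = 0
  rw [← map_nsmul, AddEquiv.map_eq_zero_iff]

end MonBasis

end FLTAgent.PicTorsion
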