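import Fermat.Agent.PicTorsion.Systems
import Fermat.Agent.PicTorsion.CurvePic
import Fermat.Agent.PicTorsion.FiniteFibre
import Mathlib.RingTheory.Jacobson.Ring
import Mathlib.RingTheory.Localization.Finiteness
import Mathlib.GroupTheory.FiniteAbelian.Basic
import Mathlib.FieldTheory.Finite.Basic

/-!
# Torsion of the divisor class group of a function field in characteristic zero
-/

set_option autoImplicit false

noncomputable section

open AlgebraicCurve

namespace FLTAgent.PicTorsion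

open FLTAgent.FunctionField

universe u v

theorem isJacobsonRing_int : IsJacobsonRing ℤ := by
  refine isJacobsonRing_iff_prime_eq.2 fun P hP => ?_
  rcases eq_or_ne P ⊥ with rfl | h
  · refine le_antisymm (fun x hx => ?_) Ideal.le_jacobson
    rw [Ideal.mem_jacobson_bot] at hx
    rw [Ideal.mem_bot]
    rcases Int.isUnit_iff.1 (hx x) with h | h <;> nlinarith
  · exact Ideal.jacobson_eq_self_of_isMaximal (H := hP.isMaximal h)

/-- A field finitely generated as a ring is finite. -/
theorem finite_of_finiteType_int (S : Type u) [Field S] (h : (Int.castRingHom S).FiniteType) :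
    Finite S := by
  have : Algebra.FiniteType ℤ S := RingHom.finiteType_algebraMap.1
    (by rwa [Subsingleton.elim (algebraMap ℤ S) (Int.castRingHom S)])
  have := isJacobsonRing_int
  have : Module.Finite ℤ S := finite_of_finite_type_of_isJacobsonRing ℤ S
  obtain ⟨p, hp⟩ := CharP.exists S
  have hp0 : p ≠ 0 := by
    rintro rfl
    have := CharP.charP_to_charZero S
    exact Int.not_isField (isField_of_isIntegral_of_isField (R := ℤ) (S := S)
      (algebraMap ℤ S).injective_int (Field.toIsField S))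
  refine Module.finite_of_fg_torsion S fun x => ⟨⟨(p : ℤ), mem_nonZeroDivisors_of_ne_zero
    (by exact_mod_cast hp0)⟩, ?_⟩
  show (p : ℤ) • x = 0
  rw [natCast_zsmul, nsmul_eq_mul, CharP.cast_eq_zero, zero_mul]

theorem exists_finite_field_point {R : Type u} [CommRing R] [IsDomain R] [Algebra.FiniteType ℤ R]
    {b : R} (hb : b ≠ 0) :
    ∃ (k₀ : Type u) (_ : Field k₀) (_ : Algebra R k₀), Finite k₀ ∧ algebraMap R k₀ b ≠ 0 := by
  let Rb := Localization.Away b
  have : IsDomain Rb := IsLocalization.isDomain_localization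
    (powers_le_nonZeroDivisors_of_noZeroDivisors hb)
  obtain ⟨m, hm⟩ := Ideal.exists_maximal Rb
  let _ : Field (Rb ⧸ m) := Ideal.Quotient.field m
  have h1 : Algebra.FiniteType R Rb := IsLocalization.finiteType_of_monoid_fg (Submonoid.powers b) Rb
  have h2 : Algebra.FiniteType ℤ Rb := Algebra.FiniteType.trans (S := R) inferInstance h1
  have h3 : Algebra.FiniteType ℤ (Rb ⧸ m) :=
    h2.of_surjective (Ideal.Quotient.mkₐ ℤ m) Ideal.Quotient.mk_surjective
  have hq : (Int.castRingHom (Rb ⧸ m)).FiniteType := by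
    rw [Subsingleton.elim (Int.castRingHom (Rb ⧸ m)) (algebraMap ℤ (Rb ⧸ m))]
    exact RingHom.finiteType_algebraMap.2 h3
  refine ⟨Rb ⧸ m, inferInstance, inferInstance, finite_of_finiteType_int _ hq, ?_⟩
  rw [IsScalarTower.algebraMap_apply R Rb (Rb ⧸ m)]
  exact ((IsLocalization.Away.algebraMap_isUnit b).map _).ne_zero

variable {K : Type u} {F : Type v} [Field K] [Field F] [Algebra K F] [IsFunctionField K F]
  [IsAlgClosed K] [CharZero K]

theorem natCard_pic0_torsion (ℓ : ℕ) [Fact ℓ.Prime] (k : ℕ) :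
    Nat.card (Pic0.torsion K F (ℓ ^ k)) = ℓ ^ (2 * genusFF K F * k) := by
  obtain ⟨P⟩ := exists_place (K := K) (F := F)
  obtain ⟨t, ⟨B⟩⟩ := exists_monBasis P
  let R := B.base
  let M : Model R := B.model
  have : Algebra.FiniteType ℤ R := (Subalgebra.fg_iff_finiteType _).1 B.base_fg
  have : FaithfulSMul R K := (faithfulSMul_iff_algebraMap_injective _ _).2 Subtype.val_injective
  set m := ℓ ^ k
  have hm : 0 < m := pow_pos (Fact.out : ℓ.Prime).pos k
  set N := ℓ ^ (2 * M.genus * k)
  obtain ⟨b₁, hb₁, hnormal⟩ := M.exists_normal_transfer K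
  obtain ⟨b₂, hb₂, hcfg⟩ := M.exists_hasCfg_transfer K N m (M.cfgBound m)
  obtain ⟨b₃, hb₃, hcfg'⟩ := M.exists_hasCfg_transfer K (N + 1) m (M.cfgBound m)
  have hℓR : (ℓ : R) ≠ 0 := fun h => (Fact.out : ℓ.Prime).ne_zero (by
    have := congrArg (algebraMap R K) h
    simpa using this)
  obtain ⟨k₀, _, _, hfin, hb⟩ := exists_finite_field_point (R := R)
    (b := (ℓ : R) * b₁ * b₂ * b₃) (mul_ne_zero (mul_ne_zero (mul_ne_zero hℓR hb₁) hb₂) hb₃)
  simp only [map_mul, map_natCast, mul_ne_zero_iff] at hb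
  obtain ⟨⟨⟨hℓ₀, h₁⟩, h₂⟩, h₃⟩ := hb
  let Ω := AlgebraicClosure k₀
  have hmap : ∀ z : R, algebraMap R k₀ z ≠ 0 → algebraMap R Ω z ≠ 0 := fun z hz => by
    rw [IsScalarTower.algebraMap_apply R k₀ Ω]
    exact (map_ne_zero _).2 hz
  have : IsDedekindDomain (M.Alg Ω) := (hnormal Ω (hmap _ h₁) B.normal).isDedekindDomain
  have hcard : ¬ ℓ ∣ Nat.card k₀ := fun h => by
    have := Fintype.ofFinite k₀
    obtain ⟨n, hq, hn⟩ := FiniteField.card k₀ (ringChar k₀)
    rw [Nat.card_eq_fintype_card, hn] at h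
    have hℓq := (Nat.prime_dvd_prime_iff_eq Fact.out hq).1 ((Fact.out : ℓ.Prime).dvd_of_dvd_pow h)
    exact hℓ₀ (by rw [hℓq]; exact ringChar.Nat.cast_ringChar)
  obtain ⟨hc, hf⟩ := (Model.ncard_torsion_eq_iff (M := M) (k := Ω) hm).1
    (Model.ncard_torsion_finite_fibre (M := M) (k₀ := k₀) (Ω := Ω) ℓ hcard k)
  rw [B.natCard_torsion, ← B.genus_model]
  exact ((Model.ncard_torsion_eq_iff (M := M) (k := K) hm).2
    ⟨(hcfg Ω (hmap _ h₂)).2 hc, fun h => hf ((hcfg' Ω (hmap _ h₃)).1 h)⟩).1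

end FLTAgent.PicTorsion
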