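import Fermat.Agent.PicTorsion.Classes
import Mathlib.RingTheory.Localization.Integral

/-!
# Extension of the constants: ideals, classes, descent
-/

set_option autoImplicit false

noncomputable section

open Polynomial

namespace FLTAgent.PicTorsion

theorem isIntegrallyClosed_of_dvd {A B : Type*} [CommRing A] [IsDomain A] [CommRing B]
    [IsDomain B] [IsIntegrallyClosed B] (ι : A →+* B) (hι : Function.Injective ι)
    (hdvd : ∀ f g : A, g ≠ 0 → ι g ∣ ι f → g ∣ f) : IsIntegrallyClosed A := by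
  refine (isIntegrallyClosed_iff (FractionRing A)).2 fun {x} hx => ?_
  obtain ⟨f, g, hg, rfl⟩ := IsFractionRing.div_surjective (A := A) x
  have hg0 := nonZeroDivisors.ne_zero hg
  have hinj : Function.Injective ((algebraMap B (FractionRing B)).comp ι) :=
    (IsFractionRing.injective B (FractionRing B)).comp hι
  let Φ : FractionRing A →+* FractionRing B := IsFractionRing.lift hinj
  have hΦ : ∀ a, Φ (algebraMap A _ a) = algebraMap B (FractionRing B) (ι a) :=
    fun a => IsFractionRing.lift_algebraMap hinj a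
  have hx' : IsIntegral B (Φ (algebraMap A _ f / algebraMap A _ g)) := by
    obtain ⟨p, hp, hp0⟩ := hx
    refine ⟨p.map ι, hp.map _, ?_⟩
    have h1 := congrArg Φ hp0
    rw [map_zero, hom_eval₂, show Φ.comp (algebraMap A (FractionRing A))
      = (algebraMap B (FractionRing B)).comp ι from RingHom.ext hΦ] at h1
    rwa [eval₂_map]
  obtain ⟨q, hq⟩ := IsIntegrallyClosed.isIntegral_iff.1 hx'
  rw [map_div₀, hΦ, hΦ] at hq
  have hgB : algebraMap B (FractionRing B) (ι g) ≠ 0 :=
    (map_ne_zero_iff _ (IsFractionRing.injective _ _)).2 ((map_ne_zero_iff _ hι).2 hg0)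
  have h1 : ι g ∣ ι f := ⟨q, IsFractionRing.injective B (FractionRing B) (by
    rw [map_mul, hq, mul_div_cancel₀ _ hgB])⟩
  obtain ⟨b, hb⟩ := hdvd f g hg0 h1
  refine ⟨b, ?_⟩
  rw [hb, map_mul, mul_div_cancel_left₀]
  exact (map_ne_zero_iff _ (IsFractionRing.injective _ _)).2 hg0

namespace Model

variable {R : Type*} [CommRing R] (M : Model R) (k k' : Type*) [Field k] [Field k'] [Algebra R k]
  [Algebra R k'] [Algebra k k'] [IsScalarTower R k k']

/-- The inclusion of the algebras. -/
def incl : M.Alg k →+* M.Alg k' := M.mapAlg (IsScalarTower.toAlgHom R k k')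

/-- The extension of an ideal. -/
def extend (J : Ideal (M.Alg k)) : Ideal (M.Alg k') := J.map (M.incl k k')

variable {M k k'}

theorem coef_incl (n : ℕ) (f : M.Alg k) :
    M.coef n (M.incl k k' f) = algebraMap k k' (M.coef n f) := M.coef_mapAlg _ n f

theorem incl_injective : Function.Injective (M.incl k k') :=
  M.mapAlg_injective _ (algebraMap k k').injective

theorem incl_mon (n : ℕ) : M.incl k k' (M.mon n) = M.mon n := M.mapAlg_mon _ n

theorem incl_smul (c : k) (f : M.Alg k) :
    M.incl k k' (c • f) = algebraMap k k' c • M.incl k k' f := M.mapAlg_smul _ c f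

theorem incl_ne_zero {f : M.Alg k} (hf : f ≠ 0) : M.incl k k' f ≠ 0 :=
  fun h => hf (incl_injective (by rw [h, map_zero]))

theorem below_incl {f : M.Alg k} {n : ℕ} (h : M.Below f n) : M.Below (M.incl k k' f) n :=
  fun m hm => by rw [coef_incl, h m hm, map_zero]

theorem deg_incl (f : M.Alg k) : M.deg (M.incl k k' f) = M.deg f := by
  rcases eq_or_ne f 0 with rfl | hf
  · rw [map_zero, deg_zero, deg_zero]
  refine M.deg_eq_of_coef_ne_zero (below_incl (M.below_deg f)) ?_
  rw [coef_incl, _root_.map_ne_zero]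
  exact M.coef_deg_ne_zero hf

theorem exists_incl_eq {g : M.Alg k'} (h : ∀ n, M.coef n g ∈ (algebraMap k k').range) :
    ∃ f, M.incl k k' f = g := by
  choose c hc using h
  refine ⟨∑ n ∈ M.supp g, c n • M.mon n, ?_⟩
  rw [map_sum]
  conv_rhs => rw [← M.sum_supp g]
  exact Finset.sum_congr rfl fun n _ => by rw [incl_smul, incl_mon, hc]

theorem incl_dvd_incl {f g : M.Alg k} (hg : g ≠ 0) (h : M.incl k k' g ∣ M.incl k k' f) :
    g ∣ f := by
  by_contra hdvd
  have hspan : Ideal.span {g} ≠ ⊥ := by simpa using hg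
  obtain ⟨r, h1, -, h3⟩ := M.exists_reduction (M.sub (Ideal.span {g})) _ f (M.below_deg f)
  have hr : r ≠ 0 := by
    rintro rfl
    rw [sub_zero] at h1
    exact hdvd (Ideal.mem_span_singleton.1 h1)
  obtain ⟨q, hq⟩ : M.incl k k' g ∣ M.incl k k' r := by
    obtain ⟨b, hb⟩ := Ideal.mem_span_singleton.1 h1
    rw [show r = f - g * b by rw [← hb]; abel, map_sub, map_mul]
    exact dvd_sub h (dvd_mul_right _ _)
  have hq0 : q ≠ 0 := fun h0 => incl_ne_zero hr (by rw [hq, h0, mul_zero])
  have hd : M.deg r = M.deg g + M.deg q := by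
    rw [← deg_incl (k' := k') r, hq, M.deg_mul (incl_ne_zero hg) hq0, deg_incl]
  refine h3 _ (M.coef_deg_ne_zero hr) ?_
  rw [hd]
  exact M.add_mem_degSet _ (M.deg_mem_degSet _ (Ideal.mem_span_singleton_self g) hg) (M.inS_deg hq0)

theorem isDedekindDomain_of_extension [IsDedekindDomain (M.Alg k')] :
    IsDedekindDomain (M.Alg k) := by
  have : Ring.DimensionLEOne (M.Alg k) := ⟨fun h _ => isMaximal_of_isPrime h⟩
  have : IsIntegrallyClosed (M.Alg k) := isIntegrallyClosed_of_dvd (M.incl k k') incl_injective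
    fun _ _ hg => incl_dvd_incl hg
  exact { }

/-- The `k'`-span of the image of `J`. -/
theorem extend_eq_span (J : Ideal (M.Alg k)) :
    M.sub (M.extend k k' J) = Submodule.span k' (M.incl k k' '' (J : Set (M.Alg k))) := by
  refine le_antisymm ?_ (Submodule.span_le.2 ?_)
  · intro g hg
    refine Submodule.span_induction (fun x hx => Submodule.subset_span hx)
      (Submodule.zero_mem _) (fun x y _ _ => Submodule.add_mem _) (fun a x _ hx => ?_)
      (show g ∈ Ideal.span (M.incl k k' '' (J : Set (M.Alg k))) from hg)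
    rw [smul_eq_mul, ← M.sum_supp a, Finset.sum_mul]
    refine Submodule.sum_mem _ fun n _ => ?_
    rw [smul_mul_assoc]
    refine Submodule.smul_mem _ _ ?_
    refine Submodule.span_induction (fun y hy => ?_) (by simp) (fun y z _ _ hy hz => ?_)
      (fun c y _ hy => ?_) hx
    · obtain ⟨f, hf, rfl⟩ := hy
      rw [← incl_mon (k := k), ← map_mul]
      exact Submodule.subset_span ⟨_, J.mul_mem_left _ hf, rfl⟩
    · rw [mul_add]; exact Submodule.add_mem _ hy hz
    · rw [mul_smul_comm]; exact Submodule.smul_mem _ _ hy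
  · rintro _ ⟨f, hf, rfl⟩
    exact Ideal.mem_map_of_mem _ hf

theorem degSet_extend (J : Ideal (M.Alg k)) :
    M.degSet (M.sub (M.extend k k' J)) = M.degSet (M.sub J) := by
  classical
  refine Set.Subset.antisymm ?_ fun n hn => ?_
  · have hex : ∀ n : M.degSet (M.sub J), ∃ u ∈ J, M.Below u n ∧ M.coef n u = 1 := fun n => by
      obtain ⟨u, h1, h2, h3, -, -⟩ := M.exists_reduced n.2
      exact ⟨u, h1, h2, h3⟩
    choose u huJ hub hu1 using hex
    have hspan : Submodule.span k (Set.range u) = M.sub J := by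
      refine M.eq_of_le_of_degSet_subset (Submodule.span_le.2 (Set.range_subset_iff.2 huJ))
        fun n hn => ⟨u ⟨n, hn⟩, Submodule.subset_span ⟨_, rfl⟩, ?_, ?_⟩
      · exact M.ne_zero_of_coef (ne_of_eq_of_ne (hu1 ⟨n, hn⟩) one_ne_zero)
      · exact M.deg_eq_of_coef_ne_zero (hub ⟨n, hn⟩) (ne_of_eq_of_ne (hu1 ⟨n, hn⟩) one_ne_zero)
    have hle : M.sub (M.extend k k' J) ≤
        Submodule.span k' (Set.range fun n => M.incl k k' (u n)) := by
      rw [extend_eq_span, Submodule.span_le]
      rintro _ ⟨f, hf, rfl⟩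
      have hf' : f ∈ Submodule.span k (Set.range u) := by rw [hspan]; exact hf
      obtain ⟨c, rfl⟩ := Finsupp.mem_span_range_iff_exists_finsupp.1 hf'
      rw [Finsupp.sum, map_sum]
      refine Submodule.sum_mem _ fun n _ => ?_
      rw [incl_smul]
      exact Submodule.smul_mem _ _ (Submodule.subset_span ⟨n, rfl⟩)
    rintro _ ⟨g, hg, hg0, rfl⟩
    obtain ⟨c, hc⟩ := Finsupp.mem_span_range_iff_exists_finsupp.1 (hle hg)
    obtain ⟨n, hn, hmax⟩ := c.support.exists_max_image (fun n => (n : ℕ)) (by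
      rw [Finsupp.support_nonempty_iff]
      rintro rfl
      exact hg0 (by rw [← hc]; simp))
    have hb : M.Below g (n : ℕ) := by
      rw [← hc]
      exact (M.belowSub k' (n : ℕ)).sum_mem fun m hm => (M.belowSub k' (n : ℕ)).smul_mem _
        ((below_incl (hub m)).mono M (hmax m hm))
    have hne : M.coef (n : ℕ) g ≠ 0 := by
      rw [← hc, Finsupp.sum, coef_sum, Finset.sum_eq_single n]
      · rw [coef_smul, coef_incl, hu1, map_one, mul_one]
        exact Finsupp.mem_support_iff.1 hn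
      · intro m hm hmn
        have hlt : (m : ℕ) < n := lt_of_le_of_ne (hmax m hm) fun h => hmn (Subtype.ext h)
        rw [coef_smul, below_incl (hub m) _ hlt, mul_zero]
      · exact fun h => absurd hn h
    rw [M.deg_eq_of_coef_ne_zero hb hne]
    exact n.2
  · obtain ⟨f, hf, hf0, rfl⟩ := hn
    exact ⟨_, Ideal.mem_map_of_mem _ hf, incl_ne_zero hf0, deg_incl f⟩

theorem colength_extend (J : Ideal (M.Alg k)) : M.colength (M.extend k k' J) = M.colength J := by
  simp only [colength, minDeg, degSet_extend]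

theorem extend_ne_bot {J : Ideal (M.Alg k)} (hJ : J ≠ ⊥) : M.extend k k' J ≠ ⊥ := fun h => by
  obtain ⟨f, hf, hf0⟩ := Submodule.exists_mem_ne_zero_of_ne_bot hJ
  have h1 : M.incl k k' f ∈ M.extend k k' J := Ideal.mem_map_of_mem _ hf
  rw [h] at h1
  exact incl_ne_zero (k' := k') hf0 ((Submodule.mem_bot _).1 h1)

theorem isPrincipal_of_extend {J : Ideal (M.Alg k)} (hJ : J ≠ ⊥)
    (h : (M.extend k k' J).IsPrincipal) : J.IsPrincipal := by
  rw [M.isPrincipal_iff (extend_ne_bot hJ), colength_extend, degSet_extend] at h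
  exact (M.isPrincipal_iff hJ).2 h

theorem comap_extend {J : Ideal (M.Alg k)} (hJ : J ≠ ⊥) :
    (M.extend k k' J).comap (M.incl k k') = J := by
  refine (M.eq_of_le_of_colength_eq hJ Ideal.le_comap_map (le_antisymm ?_ ?_)).symm
  · refine Finset.sum_le_sum fun i _ => Nat.div_le_div_right (Nat.sub_le_sub_right ?_ _)
    obtain ⟨⟨f, hf, hf0, hfd⟩, hc⟩ := M.minDeg_spec
      (show (M.extend k k' J).comap (M.incl k k') ≠ ⊥ from
        ne_bot_of_le_ne_bot hJ Ideal.le_comap_map) i
    have h : M.deg f ∈ M.degSet (M.sub J) := by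
      rw [← degSet_extend (k' := k') J, ← deg_incl (k' := k') f]
      exact ⟨_, hf, incl_ne_zero hf0, rfl⟩
    rw [hfd] at h
    have h2 := M.minDeg_le h
    rwa [hc] at h2
  · exact M.colength_le_of_le hJ Ideal.le_comap_map

theorem sub_mem_eq_zero {V : Submodule k (M.Alg k)} {d : M.Alg k} (hd : d ∈ V)
    (h : ∀ m, M.coef m d ≠ 0 → m ∉ M.degSet V) : d = 0 := by
  by_contra h0
  exact h _ (M.coef_deg_ne_zero h0) ⟨d, hd, h0, rfl⟩

/-- An ideal stable under automorphisms of the constants is defined over their fixed field. -/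
theorem exists_extend_eq (G : Set (k' →ₐ[R] k'))
    (hG : ∀ c : k', (∀ σ ∈ G, σ c = c) → c ∈ (algebraMap k k').range)
    {J' : Ideal (M.Alg k')} (hJ : J' ≠ ⊥) (hstab : ∀ σ ∈ G, ∀ f ∈ J', M.mapAlg σ f ∈ J') :
    ∃ J : Ideal (M.Alg k), J ≠ ⊥ ∧ M.extend k k' J = J' := by
  have hfix : ∀ n ∈ M.degSet (M.sub J'), ∃ f : M.Alg k,
      M.incl k k' f ∈ J' ∧ f ≠ 0 ∧ M.deg f = n := fun n hn => by
    obtain ⟨u, huJ, hub, hu1, hud, hsupp⟩ := M.exists_reduced hn
    have hcoef : ∀ m, ∀ σ ∈ G, σ (M.coef m u) = M.coef m u := fun m σ hσ => by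
      have hz : M.mapAlg σ u - u = 0 := sub_mem_eq_zero (V := M.sub J')
        (sub_mem (hstab σ hσ u huJ) huJ) fun l hl => by
          rw [coef_sub, coef_mapAlg] at hl
          refine hsupp l (fun hln => hl ?_) fun h0 => hl (by rw [h0, map_zero, sub_zero])
          rw [hln, hu1, map_one, sub_self]
      rw [← coef_mapAlg, sub_eq_zero.1 hz]
    obtain ⟨f, hf⟩ := exists_incl_eq (k := k) fun m => hG _ (hcoef m)
    refine ⟨f, hf ▸ huJ, fun h => M.ne_zero_of_coef (hu1 ▸ one_ne_zero) (by rw [← hf, h, map_zero]),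
      by rw [← deg_incl (k' := k') f, hf, hud]⟩
  obtain ⟨n, hn⟩ : ∃ n, n ∈ M.degSet (M.sub J') := ⟨_, (M.minDeg_spec hJ 0).1⟩
  obtain ⟨f0, hf0, hf00, -⟩ := hfix n hn
  have hne : J'.comap (M.incl k k') ≠ ⊥ := fun h =>
    hf00 ((Submodule.mem_bot _).1 (h ▸ (Ideal.mem_comap.2 hf0)))
  refine ⟨_, hne, Submodule.restrictScalars_injective k' _ _
    (M.eq_of_le_of_degSet_subset (fun _ hx => Ideal.map_comap_le hx) fun m hm => ?_)⟩
  obtain ⟨f, hf, hf0', rfl⟩ := hfix m hm
  rw [degSet_extend]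
  exact ⟨f, hf, hf0', rfl⟩

theorem extend_mul (I J : Ideal (M.Alg k)) :
    M.extend k k' (I * J) = M.extend k k' I * M.extend k k' J := Ideal.map_mul _ I J

section Classes

variable [IsDedekindDomain (M.Alg k)] [IsDedekindDomain (M.Alg k')]

theorem cl_extend_congr {I I' : Ideal (M.Alg k)} (hI : I ≠ ⊥) (hI' : I' ≠ ⊥) (h : cl I = cl I') :
    cl (M.extend k k' I) = cl (M.extend k k' I') := by
  rw [cl_eq_mk0 hI, cl_eq_mk0 hI', ClassGroup.mk0_eq_mk0_iff] at h
  obtain ⟨x, y, hx, hy, hxy⟩ := h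
  have h2 := congrArg (M.extend k k') hxy
  simp only [extend_mul] at h2
  have hs : ∀ z : M.Alg k, M.extend k k' (Ideal.span {z}) = Ideal.span {M.incl k k' z} := fun z => by
    rw [extend, Ideal.map_span, Set.image_singleton]
  rw [hs, hs] at h2
  have hne : ∀ z : M.Alg k, z ≠ 0 → Ideal.span {M.incl k k' z} ≠ ⊥ := fun z hz => by
    simpa using incl_ne_zero (k' := k') hz
  have h3 := congrArg cl h2
  rw [cl_mul (hne x hx) (extend_ne_bot hI), cl_mul (hne y hy) (extend_ne_bot hI'),
    cl_span_singleton (incl_ne_zero hx), cl_span_singleton (incl_ne_zero hy), one_mul, one_mul] at h3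
  exact h3

variable (M k k')

/-- Extension of classes. -/
def extendCl : ClassGroup (M.Alg k) →* ClassGroup (M.Alg k') where
  toFun c := cl (M.extend k k' (cl_surjective c).choose)
  map_one' := by
    obtain ⟨h1, h2⟩ := (cl_surjective (1 : ClassGroup (M.Alg k))).choose_spec
    rw [cl_extend_congr h1 top_ne_bot (h2.trans cl_top.symm), extend, Ideal.map_top, cl_top]
  map_mul' c d := by
    obtain ⟨h1, h2⟩ := (cl_surjective (c * d)).choose_spec
    obtain ⟨a1, a2⟩ := (cl_surjective c).choose_spec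
    obtain ⟨b1, b2⟩ := (cl_surjective d).choose_spec
    rw [← cl_mul (extend_ne_bot a1) (extend_ne_bot b1), ← extend_mul]
    exact cl_extend_congr h1 (mul_ne_zero a1 b1) (by rw [h2, cl_mul a1 b1, a2, b2])

variable {M k k'}

theorem extendCl_cl {I : Ideal (M.Alg k)} (hI : I ≠ ⊥) :
    M.extendCl k k' (cl I) = cl (M.extend k k' I) := by
  obtain ⟨h1, h2⟩ := (cl_surjective (cl I)).choose_spec
  exact cl_extend_congr h1 hI h2

theorem extendCl_injective : Function.Injective (M.extendCl k k') := by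
  rw [injective_iff_map_eq_one]
  intro c hc
  obtain ⟨I, hI, rfl⟩ := cl_surjective c
  rw [extendCl_cl hI] at hc
  rw [cl_eq_one_iff hI]
  exact isPrincipal_of_extend hI ((cl_eq_one_iff (extend_ne_bot hI)).1 hc)

end Classes

end Model

end FLTAgent.PicTorsion
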