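import Fermat.Agent.PicTorsion.Colength
import Fermat.Agent.WeilPairing.Dedekind
import Mathlib.Algebra.Polynomial.Derivative
import Mathlib.RingTheory.Polynomial.Basic

/-!
# Points of a model; a finite certificate for normality
-/

set_option autoImplicit false

noncomputable section

open Polynomial

namespace FLTAgent.PicTorsion

namespace Model

variable {R : Type*} [CommRing R] (M : Model R)

section Point

variable (k : Type*) [CommRing k] [Algebra R k]

/-- A point of the model. -/
@[ext] structure Point where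
  c : k
  η : Fin M.a → k
  η_zero : η 0 = 1
  η_mul : ∀ i j, η i * η j = ∑ l, (M.Tk k i j l).eval c * η l

variable {M k}

/-- Evaluation at a point. -/
def Point.eval (p : M.Point k) : M.Alg k →ₐ[k] k where
  toFun f := ∑ i, (f i).eval p.c * p.η i
  map_one' := by
    simp only [Alg.one_apply, apply_ite (Polynomial.eval p.c), eval_one, eval_zero, ite_mul,
      one_mul, zero_mul, Finset.sum_ite_eq', Finset.mem_univ, if_true, p.η_zero]
  map_zero' := by simp
  map_add' f g := by simp [add_mul, Finset.sum_add_distrib]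
  map_mul' f g := by
    simp only [Alg.mul_apply, eval_finsetSum, Polynomial.eval_mul, Finset.sum_mul,
      Finset.mul_sum]
    calc _ = ∑ i, ∑ j, ∑ l, (f i).eval p.c * (g j).eval p.c * (M.Tk k i j l).eval p.c * p.η l := by
            rw [Finset.sum_comm]
            exact Finset.sum_congr rfl fun i _ => Finset.sum_comm
      _ = ∑ i, ∑ j, (f i).eval p.c * p.η i * ((g j).eval p.c * p.η j) := by
            refine Finset.sum_congr rfl fun i _ => Finset.sum_congr rfl fun j _ => ?_
            rw [show (f i).eval p.c * p.η i * ((g j).eval p.c * p.η j)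
              = (f i).eval p.c * (g j).eval p.c * (p.η i * p.η j) by ring, p.η_mul,
              Finset.mul_sum]
            exact Finset.sum_congr rfl fun l _ => by ring
      _ = _ := Finset.sum_comm
  commutes' r := by
    simp only [Algebra.algebraMap_eq_smul_one, Alg.smul_const_apply, Alg.one_apply]
    simp [apply_ite (Polynomial.eval p.c), p.η_zero]

theorem Point.eval_apply (p : M.Point k) (f : M.Alg k) :
    p.eval f = ∑ i, (f i).eval p.c * p.η i := rfl

/-- The function `x`. -/
def xel (M : Model R) (k : Type*) [CommRing k] [Algebra R k] : M.Alg k := (X : k[X]) • 1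

/-- The basis element `e i`. -/
def eel (M : Model R) (k : Type*) [CommRing k] [Algebra R k] (i : Fin M.a) : M.Alg k :=
  fun j => if j = i then 1 else 0

theorem eel_apply (i j : Fin M.a) : M.eel k i j = if j = i then 1 else 0 := rfl

theorem eel_zero : M.eel k 0 = 1 := Alg.ext fun j => by rw [eel_apply, Alg.one_apply]

theorem sum_smul_eel (f : M.Alg k) : ∑ i, f i • M.eel k i = f := by
  ext1 j
  simp [Alg.sum_apply, eel_apply]

theorem eel_mul_eel (i j : Fin M.a) :
    M.eel k i * M.eel k j = ∑ l, M.Tk k i j l • M.eel k l := by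
  ext1 m
  simp [Alg.mul_apply, Alg.sum_apply, eel_apply]

theorem smul_eq_aeval (p : k[X]) (f : M.Alg k) : p • f = aeval (M.xel k) p * f := by
  have h : ∀ q : k[X], aeval (M.xel k) q = algebraMap k[X] (M.Alg k) q := fun q => by
    rw [xel, ← Algebra.algebraMap_eq_smul_one (R := k[X]) (A := M.Alg k) X, aeval_algebraMap_apply,
      aeval_X_left_apply]
  rw [h, Algebra.smul_def]

theorem eval_xel (p : M.Point k) : p.eval (M.xel k) = p.c := by
  simp [Point.eval_apply, xel, Alg.one_apply, apply_ite (Polynomial.eval p.c), p.η_zero]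

theorem eval_eel (p : M.Point k) (i : Fin M.a) : p.eval (M.eel k i) = p.η i := by
  simp [Point.eval_apply, eel_apply, apply_ite (Polynomial.eval p.c)]

/-- Homomorphisms to the constants are points. -/
def pointEquiv : (M.Alg k →ₐ[k] k) ≃ M.Point k where
  toFun φ :=
    { c := φ (M.xel k)
      η := fun i => φ (M.eel k i)
      η_zero := by rw [eel_zero, map_one]
      η_mul := fun i j => by
        rw [← map_mul, eel_mul_eel, map_sum]
        refine Finset.sum_congr rfl fun l _ => ?_
        rw [smul_eq_aeval, map_mul, ← aeval_algHom_apply, coe_aeval_eq_eval] }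
  invFun p := p.eval
  left_inv φ := by
    refine AlgHom.ext fun f => ?_
    conv_rhs => rw [← sum_smul_eel f, map_sum]
    rw [Point.eval_apply]
    refine Finset.sum_congr rfl fun i _ => ?_
    rw [smul_eq_aeval, map_mul, ← aeval_algHom_apply, coe_aeval_eq_eval]
  right_inv p := Point.ext (eval_xel p) (funext (eval_eel p))

/-- The ideal of a point. -/
def Point.ideal (p : M.Point k) : Ideal (M.Alg k) := RingHom.ker p.eval.toRingHom

theorem Point.mem_ideal {p : M.Point k} {f : M.Alg k} : f ∈ p.ideal ↔ p.eval f = 0 := Iff.rfl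

/-- The vector with constant coordinates `b`. -/
def constVec (b : Fin M.a → k) : M.Alg k := fun i => C (b i)

theorem constVec_apply (b : Fin M.a → k) (i : Fin M.a) : constVec (M := M) b i = C (b i) := rfl

/-- `b / (x - c)` multiplies the ideal of the point into itself. -/
def Witness (p : M.Point k) (b : Fin M.a → k) : Prop :=
  (∑ i, b i * p.η i = 0) ∧ ∀ i, (∀ l, (((constVec (M := M) b) * (M.eel k i - p.η i • 1)) l).eval p.c = 0) ∧
    ∑ l, (derivative (((constVec (M := M) b) * (M.eel k i - p.η i • 1)) l)).eval p.c * p.η l = 0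

variable (M k) in
/-- There is no witness against normality. -/
def Normal : Prop := ∀ (p : M.Point k) (b : Fin M.a → k), Witness p b → b = 0

/-- The function `x - c`. -/
def Point.y (p : M.Point k) : M.Alg k := (X - C p.c : k[X]) • 1

theorem Point.y_mul (p : M.Point k) (g : M.Alg k) : p.y * g = (X - C p.c : k[X]) • g := by
  rw [Point.y, smul_mul_assoc, one_mul]

theorem Point.eval_y (p : M.Point k) : p.eval p.y = 0 := by
  simp [Point.eval_apply, Point.y, Alg.one_apply, apply_ite (Polynomial.eval p.c)]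

theorem Point.eval_constVec (p : M.Point k) (b : Fin M.a → k) :
    p.eval (constVec (M := M) b) = ∑ i, b i * p.η i := by
  simp [Point.eval_apply, constVec]

theorem exists_eq_y_mul_iff (p : M.Point k) (f : M.Alg k) :
    (∃ g, f = p.y * g) ↔ ∀ l, (f l).eval p.c = 0 := by
  constructor
  · rintro ⟨g, rfl⟩ l
    rw [p.y_mul]
    simp
  · intro h
    refine ⟨fun l => f l /ₘ (X - C p.c), ?_⟩
    rw [p.y_mul]
    ext1 l
    exact (mul_divByMonic_eq_iff_isRoot.2 (h l)).symm

theorem Point.eval_eq_sum_derivative {p : M.Point k} {f g : M.Alg k} (h : f = p.y * g) :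
    p.eval g = ∑ l, (derivative (f l)).eval p.c * p.η l := by
  rw [Point.eval_apply]
  refine Finset.sum_congr rfl fun l _ => ?_
  rw [h, p.y_mul, Alg.smul_apply, derivative_mul]
  simp

theorem Point.mem_ideal_iff_exists (p : M.Point k) (f : M.Alg k) (hf : f ∈ p.ideal) :
    ∃ g, f = p.y * g + ∑ i, (f i).eval p.c • (M.eel k i - p.η i • 1) := by
  obtain ⟨g, hg⟩ := (exists_eq_y_mul_iff p (f - ∑ i, (f i).eval p.c • M.eel k i)).2 fun l => by
    simp [Alg.sum_apply, Alg.smul_const_apply, eel_apply]
  refine ⟨g, ?_⟩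
  rw [Point.mem_ideal, Point.eval_apply] at hf
  simp only [smul_sub, Finset.sum_sub_distrib, smul_smul, ← Finset.sum_smul, hf, zero_smul,
    sub_zero]
  rw [← hg, sub_add_cancel]

/-- A witness maps the ideal of the point into `(x - c)` times itself. -/
theorem Witness.mul_mem {p : M.Point k} {b : Fin M.a → k} (h : Witness p b) {f : M.Alg k}
    (hf : f ∈ p.ideal) : ∃ g ∈ p.ideal, constVec b * f = p.y * g := by
  obtain ⟨hb, h⟩ := h
  choose Q hQ using fun i => (exists_eq_y_mul_iff p _).2 (h i).1
  obtain ⟨g, hg⟩ := p.mem_ideal_iff_exists f hf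
  refine ⟨constVec b * g + ∑ i, (f i).eval p.c • Q i, ?_, ?_⟩
  · refine add_mem (p.ideal.mul_mem_right _ ?_) (sum_mem fun i _ => ?_)
    · rw [Point.mem_ideal, p.eval_constVec, hb]
    · rw [Point.mem_ideal, map_smul, Point.eval_eq_sum_derivative (hQ i), (h i).2, smul_zero]
  · conv_lhs => rw [hg]
    rw [mul_add, mul_add, mul_left_comm, Finset.mul_sum, Finset.mul_sum]
    refine congrArg _ (Finset.sum_congr rfl fun i _ => ?_)
    rw [mul_smul_comm, mul_smul_comm, hQ i]

theorem witness_of_mul_mem {p : M.Point k} {b : Fin M.a → k}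
    (hy : ∀ g g' : M.Alg k, p.y * g = p.y * g' → g = g')
    (h : ∀ f ∈ p.ideal, ∃ g ∈ p.ideal, constVec b * f = p.y * g) : Witness p b := by
  have hb : ∑ i, b i * p.η i = 0 := by
    obtain ⟨g, hg, hgy⟩ := h p.y p.eval_y
    rw [mul_comm] at hgy
    rw [← p.eval_constVec, hy _ _ hgy]
    exact hg
  refine ⟨hb, fun i => ?_⟩
  obtain ⟨g, hg, hgy⟩ := h (M.eel k i - p.η i • 1) (by
    rw [Point.mem_ideal, map_sub, eval_eel, map_smul, map_one, smul_eq_mul, mul_one, sub_self])
  exact ⟨(exists_eq_y_mul_iff p _).1 ⟨g, hgy⟩, (Point.eval_eq_sum_derivative hgy).symm.trans hg⟩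

end Point

section Field

variable {M} {k : Type*} [Field k] [Algebra R k]

theorem Point.y_ne_zero (p : M.Point k) : p.y ≠ 0 := fun h => by
  have := congrFun (show (p.y : Fin M.a → k[X]) = (0 : M.Alg k) from h) 0
  simp [Point.y, Alg.one_apply, X_sub_C_ne_zero] at this

theorem Point.y_mul_cancel (p : M.Point k) {g g' : M.Alg k} (h : p.y * g = p.y * g') : g = g' :=
  mul_left_cancel₀ p.y_ne_zero h

theorem Point.ideal_ne_bot (p : M.Point k) : p.ideal ≠ ⊥ := fun h =>
  p.y_ne_zero (by rw [← Ideal.mem_bot, ← h]; exact p.eval_y)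

theorem Point.eval_surjective (p : M.Point k) : Function.Surjective p.eval := fun c =>
  ⟨algebraMap k _ c, p.eval.commutes c⟩

theorem Point.isMaximal (p : M.Point k) : p.ideal.IsMaximal :=
  RingHom.ker_isMaximal_of_surjective p.eval.toRingHom p.eval_surjective

instance instFiniteAlg : Module.Finite k[X] (M.Alg k) :=
  inferInstanceAs (Module.Finite k[X] (Fin M.a → k[X]))

instance instNoetherianAlg : IsNoetherianRing (M.Alg k) := IsNoetherianRing.of_finite k[X] _

theorem finiteDimensional_quotient {J : Ideal (M.Alg k)} (hJ : J ≠ ⊥) :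
    FiniteDimensional k (M.Alg k ⧸ J) := (M.finite_quotient_ideal hJ).1

theorem isMaximal_of_isPrime {P : Ideal (M.Alg k)} [P.IsPrime] (hP : P ≠ ⊥) : P.IsMaximal := by
  have := finiteDimensional_quotient hP
  exact Ideal.Quotient.maximal_of_isField _ (isField_of_isIntegral_of_isField'
    (R := k) (S := M.Alg k ⧸ P) (Field.toIsField k))

theorem ne_bot_of_isMaximal {P : Ideal (M.Alg k)} (h : P.IsMaximal) : P ≠ ⊥ := by
  rintro rfl
  have hu : IsUnit (M.xel k) := by
    have h1 := Ring.isField_iff_maximal_bot.2 h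
    obtain ⟨u, hu⟩ := h1.mul_inv_cancel (a := M.xel k) (fun h0 => by
      have := congrFun (show (M.xel k : Fin M.a → k[X]) = (0 : M.Alg k) from h0) 0
      simp [xel, Alg.one_apply] at this)
    exact IsUnit.of_mul_eq_one u hu
  obtain ⟨g, hg⟩ := hu.exists_right_inv
  have h2 := congrFun (show (M.xel k * g : Fin M.a → k[X]) = (1 : M.Alg k) from hg) 0
  simp [xel, Alg.one_apply] at h2
  have := congrArg (Polynomial.eval (0 : k)) h2
  simp at this

theorem exists_point [IsAlgClosed k] (P : Ideal (M.Alg k)) [hP : P.IsMaximal] :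
    ∃ p : M.Point k, P = p.ideal := by
  let : _root_.Field (M.Alg k ⧸ P) := Ideal.Quotient.field P
  have := finiteDimensional_quotient (ne_bot_of_isMaximal hP)
  have hb := IsAlgClosed.algebraMap_bijective_of_isIntegral (k := k) (K := M.Alg k ⧸ P)
  let e : k ≃ₐ[k] M.Alg k ⧸ P := AlgEquiv.ofBijective (Algebra.ofId k _) hb
  let φ : M.Alg k →ₐ[k] k := e.symm.toAlgHom.comp (Ideal.Quotient.mkₐ k P)
  refine ⟨pointEquiv φ, Eq.symm (hP.eq_of_le (pointEquiv φ).isMaximal.ne_top ?_).symm⟩
  intro f hf
  rw [Point.mem_ideal, show (pointEquiv φ).eval = φ from pointEquiv.symm_apply_apply φ]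
  show e.symm (Ideal.Quotient.mk P f) = 0
  rw [Ideal.Quotient.eq_zero_iff_mem.2 hf, map_zero]

/-- An element outside `(x - c)` killed modulo it by the ideal of the point. -/
theorem exists_socle (p : M.Point k) :
    ∃ f, f ∉ Ideal.span {p.y} ∧ ∀ g ∈ p.ideal, f * g ∈ Ideal.span {p.y} := by
  classical
  set Y := Ideal.span {p.y} with hY
  have hYb : Y ≠ ⊥ := by simp [hY, p.y_ne_zero]
  have hYP : Y ≤ p.ideal := (Ideal.span_singleton_le_iff_mem _).2 p.eval_y
  have hnf : ¬ IsField (M.Alg k) := fun h =>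
    ne_bot_of_isMaximal (Ring.isField_iff_maximal_bot.1 h) rfl
  have hex : ∃ n, ∃ Z : Multiset (PrimeSpectrum (M.Alg k)), Multiset.card Z = n ∧
      (Z.map PrimeSpectrum.asIdeal).prod ≤ Y ∧ (Z.map PrimeSpectrum.asIdeal).prod ≠ ⊥ := by
    obtain ⟨Z, h1, h2⟩ :=
      PrimeSpectrum.exists_primeSpectrum_prod_le_and_ne_bot_of_domain hnf hYb
    exact ⟨_, Z, rfl, h1, h2⟩
  obtain ⟨Z, hZc, hZ, hZ0⟩ := Nat.find_spec hex
  obtain ⟨I, hI, hIP⟩ :=
    (Ideal.IsPrime.multiset_prod_le p.isMaximal.isPrime).1 (hZ.trans hYP)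
  obtain ⟨q, hq, rfl⟩ := Multiset.mem_map.1 hI
  rw [← Multiset.cons_erase hq, Multiset.map_cons, Multiset.prod_cons] at hZ hZ0
  set T := ((Z.erase q).map PrimeSpectrum.asIdeal).prod with hT
  have hT0 : T ≠ ⊥ := right_ne_zero_of_mul hZ0
  have hqP : q.asIdeal = p.ideal :=
    (isMaximal_of_isPrime (left_ne_zero_of_mul hZ0)).eq_of_le p.isMaximal.ne_top hIP
  have hTY : ¬ T ≤ Y := fun h => by
    have h1 := Nat.find_le (h := hex) ⟨Z.erase q, rfl, h, hT0⟩
    have h2 := Multiset.card_erase_lt_of_mem hq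
    omega
  obtain ⟨f, hfT, hfY⟩ := SetLike.not_le_iff_exists.1 hTY
  refine ⟨f, hfY, fun g hg => hZ ?_⟩
  rw [mul_comm f g, hqP]
  exact Ideal.mul_mem_mul hg hfT

theorem Normal.exists_mul_eq_span (hN : M.Normal k) (p : M.Point k) :
    ∃ J : Ideal (M.Alg k), p.ideal * J = Ideal.span {p.y} := by
  obtain ⟨f, hf, hfP⟩ := exists_socle p
  set Y := Ideal.span {p.y}
  set J : Ideal (M.Alg k) := Y ⊔ Ideal.span {f}
  let I : Ideal (M.Alg k) :=
    Submodule.comap (LinearMap.mulLeft (M.Alg k) p.y) (p.ideal * J)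
  have hle : p.ideal * J ≤ Y := by
    rw [Ideal.mul_sup, sup_le_iff]
    refine ⟨Ideal.mul_le_right, Ideal.mul_le.2 fun g hg h hh => ?_⟩
    obtain ⟨r, rfl⟩ := Ideal.mem_span_singleton'.1 hh
    rw [mul_left_comm, mul_comm g f]
    exact Y.mul_mem_left r (hfP g hg)
  have hPI : p.ideal ≤ I := fun g hg => by
    show p.y * g ∈ p.ideal * J
    rw [mul_comm p.y g]
    exact Ideal.mul_mem_mul hg (Submodule.mem_sup_left (Ideal.mem_span_singleton_self _))
  have hI : I = ⊤ := by
    by_contra hI
    have hIP : p.ideal = I := p.isMaximal.eq_of_le hI hPI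
    -- the constant part of `f` is then a witness
    obtain ⟨g0, hg0⟩ := (exists_eq_y_mul_iff p (f - constVec fun l => (f l).eval p.c)).2 fun l => by
      simp [constVec_apply]
    have hw : Witness p fun l => (f l).eval p.c := by
      refine witness_of_mul_mem (fun _ _ => p.y_mul_cancel) fun h hh => ?_
      obtain ⟨g, hg⟩ := Ideal.mem_span_singleton.1 (hfP h hh)
      have hgP : g ∈ p.ideal := by
        rw [hIP]
        show p.y * g ∈ p.ideal * J
        rw [← hg, mul_comm f h]
        exact Ideal.mul_mem_mul hh (Submodule.mem_sup_right (Ideal.mem_span_singleton_self _))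
      refine ⟨g - g0 * h, sub_mem hgP (p.ideal.mul_mem_left _ hh), ?_⟩
      rw [mul_sub, ← hg, ← mul_assoc, ← hg0, sub_mul, sub_sub_cancel]
    apply hf
    have h0 := hN p _ hw
    have hc : constVec (M := M) (fun l => (f l).eval p.c) = (0 : M.Alg k) :=
      Alg.ext fun l => by rw [constVec_apply, congrFun h0 l]; simp
    rw [hc, sub_zero] at hg0
    rw [hg0]
    exact Ideal.mul_mem_right _ _ (Ideal.mem_span_singleton_self _)
  refine ⟨J, le_antisymm hle ((Ideal.span_singleton_le_iff_mem _).2 ?_)⟩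
  have h1 : (1 : M.Alg k) ∈ I := hI ▸ Submodule.mem_top
  have h2 : p.y * 1 ∈ p.ideal * J := h1
  rwa [mul_one] at h2

theorem Normal.isDedekindDomain [IsAlgClosed k] (hN : M.Normal k) :
    IsDedekindDomain (M.Alg k) := by
  refine WeilPairing.isDedekindDomain_of_forall_maximal_isUnit fun P hP => ?_
  obtain ⟨p, rfl⟩ := exists_point P
  obtain ⟨J, hJ⟩ := hN.exists_mul_eq_span p
  have h1 : IsUnit ((p.ideal * J : Ideal (M.Alg k)) :
      FractionalIdeal (nonZeroDivisors (M.Alg k)) (FractionRing (M.Alg k))) := by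
    rw [hJ, FractionalIdeal.coeIdeal_span_singleton]
    refine IsUnit.of_mul_eq_one (FractionalIdeal.spanSingleton _
      ((algebraMap (M.Alg k) (FractionRing (M.Alg k)) p.y)⁻¹)) ?_
    rw [FractionalIdeal.spanSingleton_mul_spanSingleton, mul_inv_cancel₀,
      FractionalIdeal.spanSingleton_one]
    exact (map_ne_zero_iff _ (IsFractionRing.injective _ _)).mpr p.y_ne_zero
  rw [FractionalIdeal.coeIdeal_mul] at h1
  exact (IsUnit.mul_iff.1 h1).1

end Field

end Model

end FLTAgent.PicTorsion
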