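import Fermat.Agent.PicTorsion.Gaps
import Fermat.Agent.PicTorsion.Points
import Mathlib.RingTheory.ClassGroup

/-!
# Multiplicativity of the colength; reduced representatives of ideal classes
-/

set_option autoImplicit false

noncomputable section

open Polynomial

namespace FLTAgent.PicTorsion

namespace Model

variable {R : Type*} [CommRing R] {M : Model R} {k : Type*} [Field k] [Algebra R k]
  [IsDedekindDomain (M.Alg k)]

theorem colength_mul_prime {I P : Ideal (M.Alg k)} (hI : I ≠ ⊥) (hP : Prime P) :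
    M.colength (P * I) = M.colength P + M.colength I := by
  have hP0 : P ≠ ⊥ := hP.ne_zero
  have : P.IsPrime := Ideal.isPrime_of_prime hP
  have hPmax : P.IsMaximal := isMaximal_of_isPrime hP0
  have hne : P * I ≠ ⊥ := mul_ne_zero hP0 hI
  have hlt : P * I ≤ I := Ideal.mul_le_right
  obtain ⟨x, hxI, hx⟩ : ∃ x ∈ I, x ∉ P * I := by
    refine SetLike.not_le_iff_exists.1 fun h => hPmax.ne_top ?_
    have h1 : P * I = ⊤ * I := by rw [Ideal.top_mul]; exact le_antisymm hlt h
    exact mul_right_cancel₀ hI h1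
  -- `b ↦ x b` identifies `A / P` with `I / P I`
  obtain ⟨fin1, rank1⟩ := M.finite_quotient_ideal hne
  obtain ⟨fin2, rank2⟩ := M.finite_quotient_ideal hI
  obtain ⟨fin3, rank3⟩ := M.finite_quotient_ideal hP0
  let ψ : M.Alg k →ₗ[M.Alg k] M.Alg k ⧸ (P * I) :=
    (Submodule.mkQ (P * I)).comp (LinearMap.mulLeft (M.Alg k) x)
  have hψker : LinearMap.ker ψ = P := by
    refine (hPmax.eq_of_le ?_ fun b hb => ?_).symm
    · intro h
      have h1 : (1 : M.Alg k) ∈ LinearMap.ker ψ := h ▸ Submodule.mem_top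
      have h2 : x * 1 ∈ P * I := (Submodule.Quotient.mk_eq_zero (P * I)).1 h1
      rw [mul_one] at h2
      exact hx h2
    · refine (Submodule.Quotient.mk_eq_zero (P * I)).2 ?_
      show x * b ∈ P * I
      rw [mul_comm x b]
      exact Ideal.mul_mem_mul hb hxI
  let φ : (M.Alg k ⧸ (P * I)) →ₗ[M.Alg k] M.Alg k ⧸ I := Submodule.factor hlt
  have hrange : LinearMap.range ψ = LinearMap.ker φ := by
    apply le_antisymm
    · rintro _ ⟨b, rfl⟩
      exact (Submodule.Quotient.mk_eq_zero I).2 (I.mul_mem_right b hxI)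
    · intro z hz
      obtain ⟨y, rfl⟩ := Submodule.mkQ_surjective _ z
      replace hz : y ∈ I := (Submodule.Quotient.mk_eq_zero I).1 hz
      set G : Ideal (M.Alg k) := P * I ⊔ Ideal.span {x}
      have hGI : G ≤ I := sup_le hlt ((Ideal.span_singleton_le_iff_mem _).2 hxI)
      obtain ⟨H, hH⟩ := Ideal.dvd_iff_le.2 hGI
      have hPH : P ≤ H := by
        have h1 : I * P ≤ I * H := by
          rw [← hH, mul_comm]
          exact le_sup_left
        exact Ideal.dvd_iff_le.1 ((mul_dvd_mul_iff_left hI).1 (Ideal.dvd_iff_le.2 h1))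
      have hG : G = I := by
        by_contra hG
        have hH1 : H ≠ ⊤ := fun h => hG (by rw [hH, h, Ideal.mul_top])
        have hPH' : P = H := hPmax.eq_of_le hH1 hPH
        apply hx
        rw [hPH', mul_comm H I, ← hH]
        exact Submodule.mem_sup_right (Ideal.mem_span_singleton_self x)
      obtain ⟨p, hp, q, hq, hpq⟩ := Submodule.mem_sup.1 (hG.symm ▸ hz : y ∈ G)
      obtain ⟨b, rfl⟩ := Ideal.mem_span_singleton'.1 hq
      refine ⟨b, (Submodule.Quotient.eq (P * I)).2 ?_⟩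
      show x * b - y ∈ P * I
      rw [show x * b - y = -p by rw [← hpq]; ring]
      exact neg_mem hp
  have h1 := (ψ.restrictScalars k).quotKerEquivRange.finrank_eq
  have h2 := (φ.restrictScalars k).finrank_range_add_finrank_ker
  have hsurj : Function.Surjective φ := Submodule.factor_surjective hlt
  rw [LinearMap.range_eq_top.2 (show Function.Surjective (φ.restrictScalars k) from hsurj),
    finrank_top] at h2
  rw [LinearMap.ker_restrictScalars, LinearMap.range_restrictScalars, hψker, hrange] at h1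
  rw [LinearMap.ker_restrictScalars] at h2
  rw [(Submodule.Quotient.restrictScalarsEquiv k (P : Submodule (M.Alg k) (M.Alg k))).finrank_eq] at h1
  omega

theorem colength_mul {I J : Ideal (M.Alg k)} (hI : I ≠ ⊥) (hJ : J ≠ ⊥) :
    M.colength (I * J) = M.colength I + M.colength J := by
  induction I using UniqueFactorizationMonoid.induction_on_prime generalizing J with
  | h₁ => exact absurd rfl hI
  | h₂ I hu => rw [Ideal.isUnit_iff.1 hu, Ideal.top_mul, M.colength_top, zero_add]
  | h₃ I P hI0 hP ih =>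
    rw [mul_assoc, colength_mul_prime (mul_ne_zero hI0 hJ) hP, ih hI0 hJ,
      colength_mul_prime hI0 hP, add_assoc]

theorem colength_pow {I : Ideal (M.Alg k)} (hI : I ≠ ⊥) (n : ℕ) :
    M.colength (I ^ n) = n * M.colength I := by
  induction n with
  | zero => rw [pow_zero, Ideal.one_eq_top, M.colength_top, zero_mul]
  | succ n ih => rw [pow_succ, colength_mul (pow_ne_zero n hI) hI, ih, add_mul, one_mul]

open scoped Classical in
/-- The class of an ideal; `1` for the zero ideal. -/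
def cl (I : Ideal (M.Alg k)) : ClassGroup (M.Alg k) :=
  if h : I = ⊥ then 1 else ClassGroup.mk0 ⟨I, mem_nonZeroDivisors_of_ne_zero h⟩

theorem cl_eq_mk0 {I : Ideal (M.Alg k)} (h : I ≠ ⊥) :
    cl I = ClassGroup.mk0 ⟨I, mem_nonZeroDivisors_of_ne_zero h⟩ := dif_neg h

theorem cl_mul {I J : Ideal (M.Alg k)} (hI : I ≠ ⊥) (hJ : J ≠ ⊥) : cl (I * J) = cl I * cl J := by
  rw [cl_eq_mk0 hI, cl_eq_mk0 hJ, cl_eq_mk0 (mul_ne_zero hI hJ), ← map_mul]
  rfl

theorem cl_eq_one_iff {I : Ideal (M.Alg k)} (h : I ≠ ⊥) : cl I = 1 ↔ I.IsPrincipal := by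
  rw [cl_eq_mk0 h]; exact ClassGroup.mk0_eq_one_iff _

theorem cl_span_singleton {f : M.Alg k} (hf : f ≠ 0) : cl (Ideal.span {f}) = 1 :=
  (cl_eq_one_iff (by simpa using hf)).2 ⟨f, rfl⟩

theorem cl_top : cl (⊤ : Ideal (M.Alg k)) = 1 := by
  rw [cl_eq_one_iff top_ne_bot]; exact top_isPrincipal

theorem cl_pow {I : Ideal (M.Alg k)} (hI : I ≠ ⊥) (n : ℕ) : cl (I ^ n) = cl I ^ n := by
  induction n with
  | zero => rw [pow_zero, pow_zero, Ideal.one_eq_top, cl_top]
  | succ n ih => rw [pow_succ, pow_succ, cl_mul (pow_ne_zero n hI) hI, ih]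

theorem cl_surjective (c : ClassGroup (M.Alg k)) : ∃ I, I ≠ ⊥ ∧ cl I = c := by
  obtain ⟨⟨I, hI⟩, rfl⟩ := ClassGroup.mk0_surjective c
  exact ⟨I, nonZeroDivisors.ne_zero hI, cl_eq_mk0 (nonZeroDivisors.ne_zero hI)⟩

/-- `I` has least colength in its class, and is the only such. -/
def IsReduced (I : Ideal (M.Alg k)) : Prop :=
  I ≠ ⊥ ∧ ∀ I', I' ≠ ⊥ → cl I' = cl I →
    M.colength I ≤ M.colength I' ∧ (M.colength I' = M.colength I → I' = I)

/-- Every class has a reduced ideal, of colength at most the genus. -/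
theorem exists_isReduced (c : ClassGroup (M.Alg k)) :
    ∃ I, IsReduced I ∧ cl I = c ∧ M.colength I ≤ M.genus := by
  classical
  obtain ⟨J, hJ, hJc⟩ := cl_surjective c⁻¹
  have hne : ∃ n, n ∈ M.degSet (M.sub J) :=
    ⟨_, (M.exists_deg_le hJ).choose_spec.1⟩
  set n := Nat.find hne
  obtain ⟨u, huJ, hub, hu1, hud, -⟩ := M.exists_reduced (Nat.find_spec hne)
  have hu0 : u ≠ 0 := M.ne_zero_of_coef (hu1 ▸ one_ne_zero)
  obtain ⟨I, hI⟩ := Ideal.dvd_iff_le.2 ((Ideal.span_singleton_le_iff_mem J).2 huJ)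
  have hI0 : I ≠ ⊥ := fun h => hu0 (by simpa [h] using hI)
  have hc : cl I = c := by
    have h := cl_span_singleton hu0
    rw [hI, cl_mul hJ hI0, hJc, inv_mul_eq_one] at h
    exact h.symm
  have hcol : M.colength J + M.colength I = n := by
    rw [← colength_mul hJ hI0, ← hI, M.colength_span_singleton hu0, hud]
  obtain ⟨m, hm, hmle⟩ := M.exists_deg_le hJ
  have hnm : n ≤ m := Nat.find_le hm
  refine ⟨I, ⟨hI0, fun I' hI' hc' => ?_⟩, hc, by omega⟩
  obtain ⟨f, hf⟩ : (J * I').IsPrincipal := (cl_eq_one_iff (mul_ne_zero hJ hI')).1 (by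
    rw [cl_mul hJ hI', hJc, hc', hc, inv_mul_cancel])
  have hf0 : f ≠ 0 := fun h => mul_ne_zero hJ hI' (by simp [hf, h])
  have hfJ : f ∈ J :=
    (hf ▸ (Ideal.mul_le_left : J * I' ≤ J)) (Submodule.mem_span_singleton_self f)
  have hdeg : M.colength J + M.colength I' = M.deg f := by
    rw [← colength_mul hJ hI', hf]
    exact M.colength_span_singleton hf0
  have hle : n ≤ M.deg f := Nat.find_le ⟨f, hfJ, hf0, rfl⟩
  refine ⟨by omega, fun heq => mul_left_cancel₀ hJ ?_⟩
  have hfu : f = M.coef n f • u := by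
    by_contra hne'
    have hd : f - M.coef n f • u ≠ 0 := sub_ne_zero.2 hne'
    have hdn : n ≤ M.deg (f - M.coef n f • u) :=
      Nat.find_le ⟨_, sub_mem hfJ (Submodule.smul_of_tower_mem _ _ huJ), hd, rfl⟩
    have hb : M.Below (f - M.coef n f • u) n := (M.belowSub k n).sub_mem
      ((M.below_deg f).mono M (by omega)) ((M.belowSub k n).smul_mem _ hub)
    refine M.coef_deg_ne_zero hd ?_
    rw [show M.deg (f - M.coef n f • u) = n from le_antisymm (M.deg_le_of_below hb) hdn,
      coef_sub, coef_smul, hu1, mul_one, sub_self]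
  have hc0 : M.coef n f ≠ 0 := fun h => hf0 (by rw [hfu, h, zero_smul])
  rw [hf, ← hI]
  show Ideal.span {f} = Ideal.span {u}
  rw [hfu, Algebra.smul_def]
  exact Ideal.span_singleton_mul_left_unit ((IsUnit.mk0 _ hc0).map _) u

theorem IsReduced.eq_of_cl_eq {I I' : Ideal (M.Alg k)} (h : IsReduced I) (h' : IsReduced I')
    (hc : cl I = cl I') : I = I' :=
  (h.2 I' h'.1 hc.symm).2 (le_antisymm (h'.2 I h.1 hc).1 (h.2 I' h'.1 hc.symm).1) |>.symm

end Model

end FLTAgent.PicTorsion
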