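import Fermat.Agent.PicTorsion.Echelon
import Mathlib.Data.Nat.Lattice

/-!
# Ideals of the algebra of a model: degrees, colength, principality
-/

set_option autoImplicit false

noncomputable section

open Polynomial

namespace FLTAgent.PicTorsion

namespace Model

variable {R : Type*} [CommRing R] (M : Model R) {k : Type*} [Field k] [Algebra R k]

/-- An ideal as a subspace. -/
abbrev sub (J : Ideal (M.Alg k)) : Submodule k (M.Alg k) := J.restrictScalars k

theorem cls_eq_iff {m n : ℕ} : M.cls m = M.cls n ↔ m % M.a = n % M.a :=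
  ⟨fun h => congrArg Fin.val h, fun h => Fin.ext h⟩

theorem cls_add (m n : ℕ) : M.cls (m + n) = M.cls m + M.cls n :=
  Fin.ext (by simp [cls, Fin.val_add, Nat.add_mod])

theorem cls_w (i : Fin M.a) : M.cls (M.w i) = i := Fin.ext (M.w_mod i)

theorem inS_w (i : Fin M.a) : M.InS (M.w i) := by
  unfold InS; rw [cls_w]

theorem inS_mul_a (t : ℕ) : M.InS (M.a * t) := by
  have h := M.inS_add_mul 0 t
  rwa [M.w_zero, add_zero] at h

theorem w_le_of_inS {n : ℕ} (h : M.InS n) : M.w (M.cls n) ≤ n := h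

variable (J : Ideal (M.Alg k))

theorem add_mem_degSet {n m : ℕ} (hn : n ∈ M.degSet (M.sub J)) (hm : M.InS m) :
    n + m ∈ M.degSet (M.sub J) := by
  obtain ⟨f, hf, hf0, rfl⟩ := hn
  exact ⟨f * M.mon m, J.mul_mem_right _ hf, (M.mul_ne_zero' hf0 (M.mon_ne_zero hm)).1, by
    rw [M.deg_mul hf0 (M.mon_ne_zero hm), M.deg_mon hm]⟩

theorem deg_mem_degSet {f : M.Alg k} (hf : f ∈ J) (hf0 : f ≠ 0) :
    M.deg f ∈ M.degSet (M.sub J) := ⟨f, hf, hf0, rfl⟩

/-- The least degree in `J` in a residue class. -/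
def minDeg (i : Fin M.a) : ℕ := sInf {n | n ∈ M.degSet (M.sub J) ∧ M.cls n = i}

variable {J}

theorem exists_mem_degSet_cls (hJ : J ≠ ⊥) (i : Fin M.a) :
    ∃ n, n ∈ M.degSet (M.sub J) ∧ M.cls n = i := by
  obtain ⟨f, hf, hf0⟩ := Submodule.exists_mem_ne_zero_of_ne_bot hJ
  refine ⟨M.deg f + M.w (i - M.cls (M.deg f)),
    M.add_mem_degSet J (M.deg_mem_degSet J hf hf0) (M.inS_w _), ?_⟩
  rw [cls_add, cls_w, add_sub_cancel]

theorem minDeg_spec (hJ : J ≠ ⊥) (i : Fin M.a) :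
    M.minDeg J i ∈ M.degSet (M.sub J) ∧ M.cls (M.minDeg J i) = i :=
  Nat.sInf_mem (M.exists_mem_degSet_cls hJ i)

theorem minDeg_le {n : ℕ} (hn : n ∈ M.degSet (M.sub J)) : M.minDeg J (M.cls n) ≤ n :=
  Nat.sInf_le ⟨hn, rfl⟩

theorem mem_degSet_iff (hJ : J ≠ ⊥) {n : ℕ} :
    n ∈ M.degSet (M.sub J) ↔ M.minDeg J (M.cls n) ≤ n := by
  refine ⟨M.minDeg_le, fun h => ?_⟩
  obtain ⟨hv, hc⟩ := M.minDeg_spec hJ (M.cls n)
  set v := M.minDeg J (M.cls n)
  have hmod : (n - v) % M.a = 0 :=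
    Nat.sub_mod_eq_zero_of_mod_eq ((M.cls_eq_iff.1 hc).symm)
  obtain ⟨t, ht⟩ := Nat.dvd_of_mod_eq_zero hmod
  rw [show n = v + M.a * t by omega]
  exact M.add_mem_degSet J hv (M.inS_mul_a t)

theorem w_le_minDeg (hJ : J ≠ ⊥) (i : Fin M.a) : M.w i ≤ M.minDeg J i := by
  have h := M.inS_of_mem_degSet (M.minDeg_spec hJ i).1
  unfold InS at h
  rwa [(M.minDeg_spec hJ i).2] at h

theorem mul_div_minDeg (hJ : J ≠ ⊥) (i : Fin M.a) :
    M.a * ((M.minDeg J i - M.w i) / M.a) + M.w i = M.minDeg J i := by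
  have h := M.mul_expo_add (M.inS_of_mem_degSet (M.minDeg_spec hJ i).1)
  rwa [expo, (M.minDeg_spec hJ i).2] at h

/-- The codimension of `J`. -/
def colength (J : Ideal (M.Alg k)) : ℕ := ∑ i, (M.minDeg J i - M.w i) / M.a

/-- The monomials outside `J`. -/
def gapFinset (J : Ideal (M.Alg k)) : Finset ℕ :=
  Finset.univ.biUnion fun i =>
    (Finset.range ((M.minDeg J i - M.w i) / M.a)).image fun t => M.a * t + M.w i

theorem card_gapFinset (J : Ideal (M.Alg k)) : (M.gapFinset J).card = M.colength J := by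
  rw [gapFinset, Finset.card_biUnion]
  · refine Finset.sum_congr rfl fun i _ => ?_
    rw [Finset.card_image_of_injective _ fun s t h =>
      Nat.eq_of_mul_eq_mul_left M.a_pos (Nat.add_right_cancel h), Finset.card_range]
  · intro i _ j _ hij
    refine Finset.disjoint_left.2 fun n hi hj => hij ?_
    obtain ⟨s, -, rfl⟩ := Finset.mem_image.1 hi
    obtain ⟨t, -, ht⟩ := Finset.mem_image.1 hj
    have := congrArg M.cls ht
    simpa using this.symm

theorem mem_gapFinset (hJ : J ≠ ⊥) (n : ℕ) :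
    n ∈ M.gapFinset J ↔ M.InS n ∧ n ∉ M.degSet (M.sub J) := by
  simp only [gapFinset, Finset.mem_biUnion, Finset.mem_univ, true_and, Finset.mem_image,
    Finset.mem_range, M.mem_degSet_iff hJ, not_le]
  constructor
  · rintro ⟨i, t, ht, rfl⟩
    refine ⟨M.inS_add_mul i t, ?_⟩
    rw [cls_add_mul]
    have h := M.mul_div_minDeg hJ i
    have := Nat.mul_lt_mul_of_pos_left ht M.a_pos
    omega
  · rintro ⟨hS, hn⟩
    obtain ⟨i, t, rfl⟩ := M.inS_iff_exists.1 hS
    rw [cls_add_mul] at hn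
    refine ⟨i, t, Nat.lt_of_mul_lt_mul_left (a := M.a) ?_, rfl⟩
    have h := M.mul_div_minDeg hJ i
    omega

theorem finite_quotient_ideal (hJ : J ≠ ⊥) :
    FiniteDimensional k (M.Alg k ⧸ J) ∧ Module.finrank k (M.Alg k ⧸ J) = M.colength J := by
  obtain ⟨h1, h2⟩ := M.finite_quotient (M.sub J) _ (M.mem_gapFinset hJ)
  exact ⟨Module.Finite.equiv (Submodule.Quotient.restrictScalarsEquiv k J),
    by rw [← (Submodule.Quotient.restrictScalarsEquiv k J).finrank_eq, h2, card_gapFinset]⟩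

theorem sum_minDeg (hJ : J ≠ ⊥) :
    M.a * M.colength J + ∑ i, M.w i = ∑ i, M.minDeg J i := by
  rw [colength, Finset.mul_sum, ← Finset.sum_add_distrib]
  exact Finset.sum_congr rfl fun i _ => M.mul_div_minDeg hJ i

theorem minDeg_antitone {I : Ideal (M.Alg k)} (hI : I ≠ ⊥) (h : I ≤ J) (i : Fin M.a) :
    M.minDeg J i ≤ M.minDeg I i := by
  obtain ⟨h1, h2⟩ := M.minDeg_spec hI i
  have h3 := M.minDeg_le (M.degSet_mono (k := k) (V := M.sub I) (W := M.sub J) (fun _ hx => h hx) h1)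
  rwa [h2] at h3

theorem colength_le_of_le {I : Ideal (M.Alg k)} (hI : I ≠ ⊥) (h : I ≤ J) :
    M.colength J ≤ M.colength I :=
  Finset.sum_le_sum fun i _ => Nat.div_le_div_right
    (Nat.sub_le_sub_right (M.minDeg_antitone hI h i) _)

theorem eq_of_le_of_colength_eq {I : Ideal (M.Alg k)} (hI : I ≠ ⊥) (h : I ≤ J)
    (hc : M.colength I = M.colength J) : I = J := by
  have hJ : J ≠ ⊥ := fun hb => hI (le_bot_iff.1 (hb ▸ h))
  have hsum : ∑ i, M.minDeg J i = ∑ i, M.minDeg I i := by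
    rw [← M.sum_minDeg hI, ← M.sum_minDeg hJ, hc]
  have heq := (Finset.sum_eq_sum_iff_of_le fun i _ => M.minDeg_antitone hI h i).1 hsum
  refine Submodule.restrictScalars_injective k _ _
    (M.eq_of_le_of_degSet_subset (fun _ hx => h hx) fun n hn => ?_)
  rw [M.mem_degSet_iff hJ, heq _ (Finset.mem_univ _)] at hn
  exact (M.mem_degSet_iff hI).2 hn

theorem colength_top : M.colength (⊤ : Ideal (M.Alg k)) = 0 := by
  refine Finset.sum_eq_zero fun i _ => ?_
  have : M.minDeg (⊤ : Ideal (M.Alg k)) i ≤ M.w i := by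
    have h := M.minDeg_le (J := (⊤ : Ideal (M.Alg k)))
      ⟨M.mon (M.w i), Submodule.mem_top, M.mon_ne_zero (M.inS_w i), M.deg_mon (M.inS_w i)⟩
    rwa [cls_w] at h
  rw [Nat.sub_eq_zero_of_le this, Nat.zero_div]

theorem eq_top_of_colength_eq_zero (hJ : J ≠ ⊥) (h : M.colength J = 0) : J = ⊤ :=
  M.eq_of_le_of_colength_eq hJ le_top (h.trans M.colength_top.symm)

theorem colength_pos (hJ : J ≠ ⊥) (h : J ≠ ⊤) : 0 < M.colength J :=
  Nat.pos_of_ne_zero fun h0 => h (M.eq_top_of_colength_eq_zero hJ h0)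

theorem colength_span_singleton {f : M.Alg k} (hf : f ≠ 0) :
    M.colength (Ideal.span {f}) = M.deg f := by
  have hne : Ideal.span {f} ≠ ⊥ := by simpa using hf
  have h : ∀ i, M.minDeg (Ideal.span {f}) (i + M.cls (M.deg f)) = M.w i + M.deg f := by
    intro i
    obtain ⟨⟨g, hg, hg0, hgd⟩, hgc⟩ := M.minDeg_spec hne (i + M.cls (M.deg f))
    obtain ⟨b, rfl⟩ := Ideal.mem_span_singleton.1 hg
    have hb : b ≠ 0 := right_ne_zero_of_mul hg0
    refine le_antisymm ?_ ?_
    · have h1 : f * M.mon (M.w i) ∈ Ideal.span {f} :=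
        Ideal.mul_mem_right _ _ (Ideal.mem_span_singleton_self f)
      have h2 := M.minDeg_le (M.deg_mem_degSet _ h1 (M.mul_ne_zero' hf (M.mon_ne_zero (M.inS_w i))).1)
      rw [M.deg_mul hf (M.mon_ne_zero (M.inS_w i)), M.deg_mon (M.inS_w i), cls_add, cls_w,
        add_comm (M.cls _) i] at h2
      omega
    · rw [← hgd, M.deg_mul hf hb, cls_add, add_comm (M.cls _), add_left_inj] at hgc
      have := M.w_le_of_inS (M.inS_deg hb)
      rw [hgc] at this
      rw [← hgd, M.deg_mul hf hb]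
      omega
  have hsum := M.sum_minDeg hne
  rw [← Equiv.sum_comp (Equiv.addRight (M.cls (M.deg f))) (M.minDeg (Ideal.span {f}))] at hsum
  simp only [Equiv.coe_addRight, h, Finset.sum_add_distrib, Finset.sum_const, Finset.card_univ,
    Fintype.card_fin, smul_eq_mul] at hsum
  exact Nat.eq_of_mul_eq_mul_left M.a_pos (by omega)

theorem colength_le_deg {f : M.Alg k} (hf : f ∈ J) (hf0 : f ≠ 0) : M.colength J ≤ M.deg f :=
  (M.colength_le_of_le (by simpa using hf0)
    ((Ideal.span_singleton_le_iff_mem J).2 hf)).trans (M.colength_span_singleton hf0).le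

theorem colength_le_of_mem_degSet {n : ℕ} (hn : n ∈ M.degSet (M.sub J)) : M.colength J ≤ n := by
  obtain ⟨f, hf, hf0, rfl⟩ := hn
  exact M.colength_le_deg hf hf0

theorem eq_span_of_deg_eq_colength {f : M.Alg k} (hf : f ∈ J) (hf0 : f ≠ 0)
    (h : M.deg f = M.colength J) : J = Ideal.span {f} :=
  (M.eq_of_le_of_colength_eq (by simpa using hf0) ((Ideal.span_singleton_le_iff_mem J).2 hf)
    ((M.colength_span_singleton hf0).trans h)).symm

/-- An ideal is principal iff its colength is one of its degrees. -/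
theorem isPrincipal_iff (hJ : J ≠ ⊥) :
    J.IsPrincipal ↔ M.colength J ∈ M.degSet (M.sub J) := by
  constructor
  · rintro ⟨f, rfl⟩
    have hf0 : f ≠ 0 := fun h => hJ (by simp [h])
    exact ⟨f, Submodule.mem_span_singleton_self f, hf0, (M.colength_span_singleton hf0).symm⟩
  · rintro ⟨f, hf, hf0, h⟩
    exact ⟨f, M.eq_span_of_deg_eq_colength hf hf0 h⟩

end Model

end FLTAgent.PicTorsion
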