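import Fermat.Agent.PicTorsion.Omega
import Mathlib.Data.Set.Card

/-!
# Torsion classes as solutions of finite systems of equations

The existence of `N` classes killed by `m` is the solvability of one of finitely many polynomial
systems, each given by the degree types of finitely many ideals.
-/

set_option autoImplicit false

noncomputable section

open Polynomial

namespace FLTAgent.PicTorsion

namespace Model

variable {R : Type*} [CommRing R] (M : Model R) (N m D : ℕ)

/-- The ideals of a configuration: powers and mixed products. -/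
abbrev CIdx : Type := (Fin N × Fin (m + 1)) ⊕ (Fin N × Fin N)

/-- The products of a configuration. -/
abbrev Trip : Type := (Fin N × Fin m) ⊕ (Fin N × Fin N)

/-- The index of a power. -/
def pw (a : Fin N) (e : ℕ) : CIdx N m := Sum.inl (a, ⟨min e m, Nat.lt_succ_of_le (min_le_right e m)⟩)

/-- The three ideals of a product. -/
def trip : Trip N m → CIdx N m × CIdx N m × CIdx N m
  | Sum.inl (a, e) => (pw N m a e, pw N m a 1, pw N m a (e + 1))
  | Sum.inr (a, b) => (pw N m a 1, pw N m b (m - 1), Sum.inr (a, b))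

/-- The unknowns. -/
abbrev CVar : Type :=
  (CIdx N m × Fin M.a × Fin D) ⊕ ((CIdx N m × Fin M.a × Fin M.a × Fin M.a × Fin D) ⊕
    (Trip N m × Fin M.a × Fin M.a × Fin M.a × Fin D))

/-- The equations. -/
abbrev CEq : Type := (CIdx N m × Fin M.a × Fin M.a) ⊕ (Trip N m × Fin M.a × Fin M.a)

variable {M N m D} {k : Type*} [CommRing k] [Algebra R k]

/-- The colength given by a type. -/
def typeColength (M : Model R) (v : Fin M.a → ℕ) : ℕ := ∑ i, (v i - M.w i) / M.a

/-- A type of a principal ideal. -/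
def TypePrincipal (M : Model R) (v : Fin M.a → ℕ) : Prop :=
  v (M.cls (M.typeColength v)) ≤ M.typeColength v

/-- The conditions on the types of a configuration. -/
def TypeCond (v : CIdx N m → Fin M.a → ℕ) : Prop :=
  (∀ p i, v p i % M.a = i ∧ M.w i ≤ v p i) ∧
  (∀ t, M.typeColength (v (trip N m t).1) + M.typeColength (v (trip N m t).2.1)
    = M.typeColength (v (trip N m t).2.2)) ∧
  (∀ a, v (pw N m a 0) = M.w) ∧
  (∀ a, M.TypePrincipal (v (pw N m a m))) ∧
  ∀ a b, a ≠ b → ¬ M.TypePrincipal (v (Sum.inr (a, b)))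

/-- The polynomial with given coefficients. -/
def qPoly (q : Fin D → k) : k[X] := ∑ t : Fin D, C (q t) * X ^ (t : ℕ)

/-- The generators of an ideal of a configuration. -/
def cfgGen (v : Fin M.a → ℕ) (c : Fin M.a → Fin D → k) (i : Fin M.a) : M.Alg k :=
  M.mon (v i) + ∑ n : Fin D, if (n : ℕ) < v i ∧ M.InS n then c i n • M.mon (n : ℕ) else 0

/-- The generators with the unknown coefficients. -/
def cfgU (v : CIdx N m → Fin M.a → ℕ) (x : M.CVar N m D → k) (p : CIdx N m) : Fin M.a → M.Alg k :=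
  cfgGen (v p) fun i n => x (Sum.inl (p, i, n))

/-- The equations of a configuration. -/
def cfgEq (v : CIdx N m → Fin M.a → ℕ) (x : M.CVar N m D → k) : M.CEq N m → M.Alg k
  | Sum.inl (p, l, i) => M.eel k l * cfgU v x p i
      - ∑ j, qPoly (fun n => x (Sum.inr (Sum.inl (p, l, i, j, n)))) • cfgU v x p j
  | Sum.inr (t, i, j) => cfgU v x (trip N m t).1 i * cfgU v x (trip N m t).2.1 j
      - ∑ l, qPoly (fun n => x (Sum.inr (Sum.inr (t, i, j, l, n)))) • cfgU v x (trip N m t).2.2 l

variable (M N m D) in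
/-- A solvable configuration exists. -/
def HasCfg (k : Type*) [CommRing k] [Algebra R k] : Prop :=
  ∃ v : CIdx N m → Fin M.a → Fin D, TypeCond (fun p i => (v p i : ℕ)) ∧
    ∃ x : M.CVar N m D → k, ∀ e, cfgEq (fun p i => (v p i : ℕ)) x e = 0

section Natural

variable {k' : Type*} [CommRing k'] [Algebra R k'] (φ : k →ₐ[R] k')

theorem mapAlg_polySmul (p : k[X]) (f : M.Alg k) :
    M.mapAlg φ (p • f) = p.map φ.toRingHom • M.mapAlg φ f :=
  Alg.ext fun i => by simp [mapAlg_apply]

theorem mapAlg_eel (l : Fin M.a) : M.mapAlg φ (M.eel k l) = M.eel k' l :=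
  Alg.ext fun j => by
    rw [mapAlg_apply, eel_apply, eel_apply]
    split <;> simp

theorem map_qPoly (q : Fin D → k) : (qPoly q).map φ.toRingHom = qPoly fun t => φ (q t) := by
  simp [qPoly, Polynomial.map_sum]

theorem mapAlg_cfgGen (v : Fin M.a → ℕ) (c : Fin M.a → Fin D → k) (i : Fin M.a) :
    M.mapAlg φ (cfgGen v c i) = cfgGen v (fun i n => φ (c i n)) i := by
  rw [cfgGen, cfgGen, map_add, mapAlg_mon, map_sum]
  refine congrArg _ (Finset.sum_congr rfl fun n _ => ?_)
  split
  · rw [mapAlg_smul, mapAlg_mon]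
  · rw [map_zero]

theorem mapAlg_cfgU (v : CIdx N m → Fin M.a → ℕ) (x : M.CVar N m D → k) (p : CIdx N m)
    (i : Fin M.a) : M.mapAlg φ (cfgU v x p i) = cfgU v (fun s => φ (x s)) p i :=
  mapAlg_cfgGen φ _ _ i

theorem mapAlg_cfgEq (v : CIdx N m → Fin M.a → ℕ) (x : M.CVar N m D → k) (e : M.CEq N m) :
    M.mapAlg φ (cfgEq v x e) = cfgEq v (fun s => φ (x s)) e := by
  rcases e with ⟨p, l, i⟩ | ⟨t, i, j⟩ <;>
    simp only [cfgEq, map_sub, map_mul, map_sum, mapAlg_polySmul, mapAlg_eel, mapAlg_cfgU, map_qPoly]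

end Natural

section Field

variable {k : Type*} [Field k] [Algebra R k]

theorem below_cfgGen {v : Fin M.a → ℕ} (hv : ∀ i, M.InS (v i)) (c : Fin M.a → Fin D → k)
    (i : Fin M.a) : M.Below (cfgGen v c i) (v i) ∧ M.coef (v i) (cfgGen v c i) = 1 := by
  have h : ∀ n, v i ≤ n → M.coef n (∑ l : Fin D,
      if (l : ℕ) < v i ∧ M.InS l then c i l • (M.mon (l : ℕ) : M.Alg k) else 0) = 0 := by
    intro n hn
    rw [coef_sum]
    refine Finset.sum_eq_zero fun l _ => ?_
    split
    · next hl => rw [coef_smul, coef_mon M hl.2, if_neg (by omega), mul_zero]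
    · exact M.coef_zero n
  refine ⟨fun n hn => ?_, ?_⟩
  · rw [cfgGen, coef_add, h n hn.le, coef_mon M (hv i), if_neg (by omega), add_zero]
  · rw [cfgGen, coef_add, h _ le_rfl, coef_mon_self M (hv i), add_zero]

/-- The leading degree of a combination of elements with degrees in distinct classes. -/
theorem deg_comb {v : Fin M.a → ℕ} (hv : ∀ i, v i % M.a = i) {u : Fin M.a → M.Alg k}
    (hb : ∀ i, M.Below (u i) (v i)) (h1 : ∀ i, M.coef (v i) (u i) = 1) {h : Fin M.a → k[X]}
    (hne : ∑ i, h i • u i ≠ 0) :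
    ∃ i, h i ≠ 0 ∧ M.deg (∑ j, h j • u j) = M.a * (h i).natDegree + v i := by
  classical
  have hs : (Finset.univ.filter fun i => h i ≠ 0).Nonempty := by
    by_contra hs
    rw [Finset.not_nonempty_iff_eq_empty, Finset.filter_eq_empty_iff] at hs
    exact hne (Finset.sum_eq_zero fun i _ => by
      rw [not_not.1 (hs (Finset.mem_univ i)), zero_smul])
  obtain ⟨i, hi, hmax⟩ := Finset.exists_max_image _ (fun i => M.a * (h i).natDegree + v i) hs
  rw [Finset.mem_filter] at hi
  refine ⟨i, hi.2, M.deg_eq_of_coef_ne_zero ((M.belowSub k _).sum_mem fun j _ => ?_) ?_⟩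
  · by_cases hj : h j = 0
    · rw [hj, zero_smul]; exact Submodule.zero_mem _
    · exact (deg_smul_le (h j) (hb j)).1.mono M
        (hmax j (Finset.mem_filter.2 ⟨Finset.mem_univ j, hj⟩))
  · rw [coef_sum, Finset.sum_eq_single i]
    · rw [(deg_smul_le (h i) (hb i)).2, h1, mul_one]
      exact leadingCoeff_ne_zero.2 hi.2
    · intro j _ hji
      by_cases hj : h j = 0
      · rw [hj, zero_smul, coef_zero]
      · refine (deg_smul_le (h j) (hb j)).1 _ (lt_of_le_of_ne
          (hmax j (Finset.mem_filter.2 ⟨Finset.mem_univ j, hj⟩)) fun he => hji (Fin.ext ?_))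
        have := congrArg (· % M.a) he
        simpa [Nat.mul_add_mod, hv] using this
    · exact fun h' => absurd (Finset.mem_univ i) h'

/-- Closed systems of generators span ideals with the given type. -/
theorem exists_ideal_of_closed {v : Fin M.a → ℕ} (hv : ∀ i, v i % M.a = i)
    {u : Fin M.a → M.Alg k} (hb : ∀ i, M.Below (u i) (v i)) (h1 : ∀ i, M.coef (v i) (u i) = 1)
    (hcl : ∀ l i, ∃ q : Fin M.a → k[X], M.eel k l * u i = ∑ j, q j • u j) :
    ∃ J : Ideal (M.Alg k), J ≠ ⊥ ∧ (∀ i, M.minDeg J i = v i) ∧ (∀ i, u i ∈ J) ∧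
      ∀ f ∈ J, ∃ h : Fin M.a → k[X], f = ∑ i, h i • u i := by
  classical
  set W : Submodule k[X] (M.Alg k) := Submodule.span k[X] (Set.range u)
  have hmul : ∀ f, ∀ g ∈ W, f * g ∈ W := by
    intro f g hg
    induction hg using Submodule.span_induction with
    | mem y hy =>
      obtain ⟨i, rfl⟩ := hy
      rw [← sum_smul_eel f, Finset.sum_mul]
      refine W.sum_mem fun l _ => ?_
      obtain ⟨q, hq⟩ := hcl l i
      rw [smul_mul_assoc, hq]
      exact W.smul_mem _ (W.sum_mem fun j _ => W.smul_mem _ (Submodule.subset_span ⟨j, rfl⟩))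
    | zero => rw [mul_zero]; exact W.zero_mem
    | add y z _ _ hy hz => rw [mul_add]; exact W.add_mem hy hz
    | smul p y _ hy => rw [mul_smul_comm]; exact W.smul_mem p hy
  let J : Ideal (M.Alg k) :=
    { carrier := W
      zero_mem' := W.zero_mem
      add_mem' := W.add_mem
      smul_mem' := fun f g hg => hmul f g hg }
  have huJ : ∀ i, u i ∈ J := fun i => Submodule.subset_span ⟨i, rfl⟩
  have hrepr : ∀ f ∈ J, ∃ h : Fin M.a → k[X], f = ∑ i, h i • u i := fun f hf => by
    obtain ⟨h, hh⟩ := (Submodule.mem_span_range_iff_exists_fun k[X]).1 (show f ∈ W from hf)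
    exact ⟨h, hh.symm⟩
  have hu0 : ∀ i, u i ≠ 0 := fun i => M.ne_zero_of_coef (by rw [h1 i]; exact one_ne_zero)
  have hJ : J ≠ ⊥ := fun h => hu0 0 ((Submodule.mem_bot _).1 (h ▸ huJ 0))
  refine ⟨J, hJ, fun i => le_antisymm ?_ ?_, huJ, hrepr⟩
  · have hd : M.deg (u i) = v i :=
      M.deg_eq_of_coef_ne_zero (hb i) (by rw [h1 i]; exact one_ne_zero)
    have := M.minDeg_le (M.deg_mem_degSet J (huJ i) (hu0 i))
    rwa [hd, show M.cls (v i) = i from Fin.ext (hv i)] at this
  · obtain ⟨⟨f, hf, hf0, hfd⟩, hc⟩ := M.minDeg_spec hJ i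
    obtain ⟨h, rfl⟩ := hrepr f hf
    obtain ⟨j, -, hj⟩ := deg_comb hv hb h1 hf0
    rw [← hfd, hj]
    have hji : j = i := by
      rw [← hc, ← hfd, hj]
      exact Fin.ext (by simp [cls, Nat.mul_add_mod, hv])
    rw [hji]
    exact Nat.le_add_left _ _

theorem colength_eq_typeColength {J : Ideal (M.Alg k)} {v : Fin M.a → ℕ}
    (h : ∀ i, M.minDeg J i = v i) : M.colength J = M.typeColength v := by
  simp [colength, typeColength, h]

theorem isPrincipal_iff_typePrincipal {J : Ideal (M.Alg k)} (hJ : J ≠ ⊥) {v : Fin M.a → ℕ}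
    (h : ∀ i, M.minDeg J i = v i) : J.IsPrincipal ↔ M.TypePrincipal v := by
  rw [M.isPrincipal_iff hJ, M.mem_degSet_iff hJ, colength_eq_typeColength h, h]
  rfl

variable [IsDedekindDomain (M.Alg k)]

theorem exists_classes_of_hasCfg (hm : 0 < m) (h : M.HasCfg N m D k) :
    ∃ f : Fin N → Additive (ClassGroup (M.Alg k)),
      Function.Injective f ∧ ∀ a, m • f a = 0 := by
  classical
  obtain ⟨v', ⟨hv, htr, hzero, hprin, hnon⟩, x, hx⟩ := h
  set v : CIdx N m → Fin M.a → ℕ := fun p i => (v' p i : ℕ)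
  have hS : ∀ p i, M.InS (v p i) := fun p i => by
    unfold InS
    rw [show M.cls (v p i) = i from Fin.ext (hv p i).1]
    exact (hv p i).2
  have hJ := fun p => exists_ideal_of_closed (fun i => (hv p i).1)
    (fun i => (below_cfgGen (hS p) (fun i n => x (Sum.inl (p, i, n))) i).1)
    (fun i => (below_cfgGen (hS p) (fun i n => x (Sum.inl (p, i, n))) i).2)
    (fun l i => ⟨_, sub_eq_zero.1 (hx (Sum.inl (p, l, i)))⟩)
  choose J hJ0 hJv hJu hJr using hJ
  have hcol : ∀ p, M.colength (J p) = M.typeColength (v p) :=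
    fun p => colength_eq_typeColength (hJv p)
  have hprod : ∀ t, cl (J (trip N m t).1) * cl (J (trip N m t).2.1) = cl (J (trip N m t).2.2) := by
    intro t
    have hle : J (trip N m t).1 * J (trip N m t).2.1 ≤ J (trip N m t).2.2 := by
      refine Ideal.mul_le.2 fun f hf g hg => ?_
      obtain ⟨h, rfl⟩ := hJr _ f hf
      obtain ⟨h', rfl⟩ := hJr _ g hg
      simp only [Finset.sum_mul, Finset.mul_sum, smul_mul_smul_comm]
      refine sum_mem fun j _ => sum_mem fun i _ => Submodule.smul_of_tower_mem _ _ ?_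
      rw [show cfgGen (v (trip N m t).1) (fun i n => x (Sum.inl ((trip N m t).1, i, n))) i
          * cfgGen (v (trip N m t).2.1) (fun i n => x (Sum.inl ((trip N m t).2.1, i, n))) j
        = _ from sub_eq_zero.1 (hx (Sum.inr (t, i, j)))]
      exact sum_mem fun l _ => Submodule.smul_of_tower_mem _ _ (hJu _ l)
    rw [← cl_mul (hJ0 _) (hJ0 _)]
    exact congrArg cl (M.eq_of_le_of_colength_eq (mul_ne_zero (hJ0 _) (hJ0 _)) hle
      (by rw [colength_mul (hJ0 _) (hJ0 _), hcol, hcol, hcol]; exact htr t))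
  have hzero' : ∀ a, cl (J (pw N m a 0)) = 1 := fun a => by
    rw [M.eq_top_of_colength_eq_zero (hJ0 _) (by rw [hcol, hzero a]; simp [typeColength]), cl_top]
  have hpow : ∀ a, ∀ e ≤ m, cl (J (pw N m a e)) = cl (J (pw N m a 1)) ^ e := by
    intro a e
    induction e with
    | zero => intro _; rw [hzero' a, pow_zero]
    | succ e ih =>
      intro he
      rw [pow_succ, ← ih (by omega)]
      exact (hprod (Sum.inl (a, ⟨e, he⟩))).symm
  have hm1 : ∀ a, cl (J (pw N m a 1)) ^ m = 1 := fun a => by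
    rw [← hpow a m le_rfl, cl_eq_one_iff (hJ0 _)]
    exact (isPrincipal_iff_typePrincipal (hJ0 _) (hJv _)).2 (hprin a)
  refine ⟨fun a => Additive.ofMul (cl (J (pw N m a 1))), fun a b hab => ?_, fun a => ?_⟩
  · by_contra hne
    have hab' : cl (J (pw N m a 1)) = cl (J (pw N m b 1)) := Additive.ofMul.injective hab
    apply hnon a b hne
    refine (isPrincipal_iff_typePrincipal (hJ0 _) (hJv _)).1 ((cl_eq_one_iff (hJ0 _)).1 ?_)
    refine (hprod (Sum.inr (a, b))).symm.trans ?_
    show cl (J (pw N m a 1)) * cl (J (pw N m b (m - 1))) = 1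
    rw [hab', hpow b (m - 1) (by omega), ← pow_succ', Nat.sub_add_cancel hm, hm1]
  · rw [← ofMul_pow, hm1, ofMul_one]

variable (M) in
/-- Degrees occurring in configurations. -/
def cfgBound (m : ℕ) : ℕ := 2 * (m * M.genus + 2 * M.genus + M.a) + ∑ i, M.w i + 1

theorem minDeg_le_of_colength_le {J : Ideal (M.Alg k)} (hJ : J ≠ ⊥)
    (h : M.colength J ≤ m * M.genus) (i : Fin M.a) :
    M.minDeg J i ≤ m * M.genus + 2 * M.genus + M.a := by
  set c := M.colength J + 2 * M.genus
  -- the first degree of the class `i` after `c`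
  set n := c + ((i - M.cls c : Fin M.a) : ℕ)
  have hn : M.cls n = i := by
    rw [show n = c + ((i - M.cls c : Fin M.a) : ℕ) from rfl, cls_add,
      show M.cls ((i - M.cls c : Fin M.a) : ℕ) = i - M.cls c from
        Fin.ext (Nat.mod_eq_of_lt (Fin.isLt _)), add_sub_cancel]
  have h1 := M.minDeg_le (M.mem_degSet_of_le hJ (n := n) (Nat.le_add_right _ _))
  rw [hn] at h1
  have := (i - M.cls c : Fin M.a).isLt
  omega

theorem eq_cfgGen {u : M.Alg k} {v : Fin M.a → ℕ} {i : Fin M.a} (hv : ∀ j, M.InS (v j))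
    (hD : v i < D) (hb : M.Below u (v i)) (h1 : M.coef (v i) u = 1) :
    u = cfgGen v (fun _ (n : Fin D) => M.coef (n : ℕ) u) i := by
  refine M.ext_coef fun n => ?_
  rw [cfgGen, coef_add, coef_mon M (hv i), coef_sum]
  have h : ∀ l : Fin D, M.coef n
      (if (l : ℕ) < v i ∧ M.InS l then M.coef (l : ℕ) u • (M.mon (l : ℕ) : M.Alg k) else 0)
      = if (l : ℕ) = n ∧ n < v i then M.coef n u else 0 := by
    intro l
    by_cases hl : (l : ℕ) < v i ∧ M.InS l
    · rw [if_pos hl, coef_smul, coef_mon M hl.2]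
      by_cases hln : n = l
      · subst hln; simp [hl.1]
      · rw [if_neg hln, mul_zero, if_neg (fun h => hln h.1.symm)]
    · rw [if_neg hl, coef_zero]
      split_ifs with h
      · obtain ⟨rfl, h2⟩ := h
        exact (M.coef_of_not_inS (fun hS => hl ⟨h2, hS⟩) u).symm
      · rfl
  rw [Finset.sum_congr rfl fun l _ => h l]
  rcases lt_trichotomy n (v i) with hn | hn | hn
  · rw [if_neg hn.ne, zero_add, Finset.sum_eq_single ⟨n, hn.trans hD⟩]
    · simp [hn]
    · exact fun l _ hl => if_neg fun h => hl (Fin.ext h.1)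
    · exact fun h => absurd (Finset.mem_univ _) h
  · subst hn
    rw [if_pos rfl, h1, Finset.sum_eq_zero fun l _ => if_neg fun h => lt_irrefl _ h.2, add_zero]
  · rw [if_neg hn.ne', hb n hn, zero_add]
    exact (Finset.sum_eq_zero fun l _ => if_neg fun h => lt_asymm hn h.2).symm

theorem exists_coords_qPoly {J : Ideal (M.Alg k)} (hJ : J ≠ ⊥) {f : M.Alg k} (hf : f ∈ J)
    {B : ℕ} (hB : M.Below f B) (hD : B < D) :
    ∃ q : Fin M.a → Fin D → k, f = ∑ j, qPoly (q j) • bas hJ j := by
  obtain ⟨h, hh⟩ := exists_basMap_eq hJ hf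
  refine ⟨fun j t => (h j).coeff t, ?_⟩
  have hdeg : ∀ j, (h j).natDegree < D := fun j => by
    by_cases hj : h j = 0
    · rw [hj, natDegree_zero]; omega
    have hne : h ≠ 0 := fun h0 => hj (congrFun h0 j)
    obtain ⟨-, i, -, hd, hmax⟩ := deg_basMap hJ hne
    have h1 := hmax j hj
    have h2 : M.deg f ≤ B := M.deg_le_of_below hB
    rw [← hh, hd] at h2
    have h3 : (h j).natDegree ≤ M.a * (h j).natDegree := Nat.le_mul_of_pos_left _ M.a_pos
    simp only [pieceDeg] at h1 h2
    omega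
  rw [← hh]
  show ∑ j, h j • bas hJ j = _
  refine Finset.sum_congr rfl fun j _ => ?_
  congr 1
  conv_lhs => rw [(h j).as_sum_range' D (hdeg j)]
  rw [qPoly, Fin.sum_univ_eq_sum_range (fun t => C ((h j).coeff t) * X ^ t) D]
  exact Finset.sum_congr rfl fun t _ => (C_mul_X_pow_eq_monomial).symm

theorem hasCfg_of_classes (hm : 0 < m) (f : Fin N → Additive (ClassGroup (M.Alg k)))
    (hf : Function.Injective f) (hfm : ∀ a, m • f a = 0) : M.HasCfg N m (M.cfgBound m) k := by
  classical
  choose I hI hIf hIg using fun a => exists_isReduced (M := M) (Additive.toMul (f a))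
  -- the ideals of the configuration
  let J : CIdx N m → Ideal (M.Alg k) := fun p => match p with
    | Sum.inl (a, e) => I a ^ (e : ℕ)
    | Sum.inr (a, b) => I a * I b ^ (m - 1)
  have hJ : ∀ p, J p ≠ ⊥ := by
    rintro (⟨a, e⟩ | ⟨a, b⟩)
    · exact pow_ne_zero _ (hI a).1
    · exact mul_ne_zero (hI a).1 (pow_ne_zero _ (hI b).1)
  have hcol : ∀ p, M.colength (J p) ≤ m * M.genus := by
    rintro (⟨a, e⟩ | ⟨a, b⟩)
    · rw [show J (Sum.inl (a, e)) = I a ^ (e : ℕ) from rfl, colength_pow (hI a).1]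
      exact Nat.mul_le_mul (Nat.lt_succ_iff.1 e.isLt) (hIg a)
    · rw [show J (Sum.inr (a, b)) = I a * I b ^ (m - 1) from rfl,
        colength_mul (hI a).1 (pow_ne_zero _ (hI b).1), colength_pow (hI b).1]
      obtain ⟨m, rfl⟩ := Nat.exists_eq_succ_of_ne_zero hm.ne'
      rw [Nat.succ_sub_one, Nat.succ_mul, add_comm (m * M.genus)]
      exact Nat.add_le_add (hIg a) (Nat.mul_le_mul_left m (hIg b))
  have hpw : ∀ a e, e ≤ m → J (pw N m a e) = I a ^ e := fun a e he => by
    show I a ^ min e m = _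
    rw [min_eq_left he]
  have htrip : ∀ t, J (trip N m t).1 * J (trip N m t).2.1 = J (trip N m t).2.2 := by
    rintro (⟨a, e⟩ | ⟨a, b⟩)
    · show J (pw N m a e) * J (pw N m a 1) = J (pw N m a (e + 1))
      rw [hpw a e e.isLt.le, hpw a 1 hm, hpw a (e + 1) e.isLt, pow_one, ← pow_succ]
    · show J (pw N m a 1) * J (pw N m b (m - 1)) = I a * I b ^ (m - 1)
      rw [hpw a 1 hm, hpw b (m - 1) (by omega), pow_one]
  obtain ⟨D, hD⟩ : ∃ D, D = M.cfgBound m := ⟨_, rfl⟩
  rw [← hD]
  have hB : ∀ p i, M.minDeg (J p) i ≤ m * M.genus + 2 * M.genus + M.a :=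
    fun p i => minDeg_le_of_colength_le (hJ p) (hcol p) i
  have hlt : ∀ p i, M.minDeg (J p) i < D := fun p i => by
    have := hB p i; simp only [hD, cfgBound]; omega
  have hS : ∀ p i, M.InS (M.minDeg (J p) i) :=
    fun p i => M.inS_of_mem_degSet (M.minDeg_spec (hJ p) i).1
  refine ⟨fun p i => ⟨M.minDeg (J p) i, hlt p i⟩, ⟨fun p i =>
    ⟨congrArg Fin.val (M.minDeg_spec (hJ p) i).2, M.w_le_minDeg (hJ p) i⟩, fun t => ?_, fun a => ?_,
    fun a => ?_, fun a b hab => ?_⟩, ?_⟩
  · have e : ∀ p, M.colength (J p) = M.typeColength fun i => M.minDeg (J p) i :=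
      fun p => colength_eq_typeColength (fun _ => rfl)
    show M.typeColength (fun i => M.minDeg (J (trip N m t).1) i)
      + M.typeColength (fun i => M.minDeg (J (trip N m t).2.1) i)
      = M.typeColength (fun i => M.minDeg (J (trip N m t).2.2) i)
    rw [← e, ← e, ← e, ← htrip t, colength_mul (hJ _) (hJ _)]
  · funext i
    show M.minDeg (J (pw N m a 0)) i = M.w i
    rw [hpw a 0 (Nat.zero_le _), pow_zero, Ideal.one_eq_top]
    refine le_antisymm ?_ (M.w_le_minDeg top_ne_bot i)
    have hdeg : M.w i ∈ M.degSet (M.sub (⊤ : Ideal (M.Alg k))) :=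
      ⟨M.mon (M.w i), trivial, M.mon_ne_zero (M.inS_w i), M.deg_mon (M.inS_w i)⟩
    simpa [cls_w] using M.minDeg_le hdeg
  · show M.TypePrincipal (fun i => M.minDeg (J (pw N m a m)) i)
    refine (isPrincipal_iff_typePrincipal (hJ (pw N m a m)) (fun _ => rfl)).1
      ((cl_eq_one_iff (hJ (pw N m a m))).1 ?_)
    rw [hpw a m le_rfl, cl_pow (hI a).1, hIf, ← toMul_nsmul, hfm, toMul_zero]
  · intro hp
    change M.TypePrincipal (fun i => M.minDeg (J (Sum.inr (a, b))) i) at hp
    have h1 := (cl_eq_one_iff (hJ (Sum.inr (a, b)))).2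
      ((isPrincipal_iff_typePrincipal (hJ (Sum.inr (a, b))) (fun _ => rfl)).2 hp)
    rw [show J (Sum.inr (a, b)) = I a * I b ^ (m - 1) from rfl,
      cl_mul (hI a).1 (pow_ne_zero _ (hI b).1), cl_pow (hI b).1, hIf, hIf, ← toMul_nsmul,
      ← toMul_add] at h1
    have h2 : f a + (m - 1) • f b = 0 := congrArg Additive.ofMul h1
    have h3 := hfm b
    rw [← Nat.sub_add_cancel hm, succ_nsmul'] at h3
    exact hab (hf (add_right_cancel (h2.trans h3.symm)))
  -- the equations
  have hu : ∀ p i, bas (hJ p) i = cfgGen (fun j => M.minDeg (J p) j)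
      (fun j (n : Fin D) => M.coef (n : ℕ) (bas (hJ p) j)) i := fun p i =>
    eq_cfgGen (hS p) (hlt p i) (below_bas (hJ p) i) (coef_bas (hJ p) i)
  have hc : ∀ p l i, ∃ q : Fin M.a → Fin D → k,
      M.eel k l * bas (hJ p) i = ∑ j, qPoly (q j) • bas (hJ p) j := fun p l i => by
    have he : M.Below (M.eel k l) (M.w l) := fun n hn => by
      by_cases hnS : M.InS n
      · obtain ⟨j, s, rfl⟩ := M.inS_iff_exists.1 hnS
        rw [coef_add_mul, eel_apply]
        split_ifs with hj
        · subst hj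
          rw [coeff_one, if_neg]
          rintro rfl
          omega
        · exact coeff_zero s
      · exact M.coef_of_not_inS hnS _
    refine exists_coords_qPoly (hJ p) ((J p).mul_mem_left _ (bas_mem _ i))
      (he.mul M (below_bas (hJ p) i)) ?_
    have := hB p i
    have := Finset.single_le_sum (f := M.w) (fun j _ => Nat.zero_le _) (Finset.mem_univ l)
    simp only [hD, cfgBound]
    omega
  have hp : ∀ t i j, ∃ q : Fin M.a → Fin D → k,
      bas (hJ (trip N m t).1) i * bas (hJ (trip N m t).2.1) j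
        = ∑ l, qPoly (q l) • bas (hJ (trip N m t).2.2) l := fun t i j => by
    refine exists_coords_qPoly (hJ _) ?_ ((below_bas (hJ _) i).mul M (below_bas (hJ _) j)) ?_
    · rw [← htrip t]
      exact Ideal.mul_mem_mul (bas_mem _ i) (bas_mem _ j)
    have := hB (trip N m t).1 i
    have := hB (trip N m t).2.1 j
    simp only [hD, cfgBound]
    omega
  choose qc hqc using hc
  choose qp hqp using hp
  refine ⟨fun s => match s with
    | Sum.inl (p, i, n) => M.coef (n : ℕ) (bas (hJ p) i)
    | Sum.inr (Sum.inl (p, l, i, j, n)) => qc p l i j n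
    | Sum.inr (Sum.inr (t, i, j, l, n)) => qp t i j l n, ?_⟩
  rintro (⟨p, l, i⟩ | ⟨t, i, j⟩)
  · refine sub_eq_zero.2 ?_
    show M.eel k l * cfgGen _ _ i = ∑ j, qPoly (qc p l i j) • cfgGen _ _ j
    simp only [← hu]
    exact hqc p l i
  · refine sub_eq_zero.2 ?_
    show cfgGen _ _ i * cfgGen _ _ j = ∑ l, qPoly (qp t i j l) • cfgGen _ _ l
    simp only [← hu]
    exact hqp t i j

/-- Counting torsion classes by configurations. -/
theorem ncard_torsion_eq_iff (hm : 0 < m) :
    ({x : Additive (ClassGroup (M.Alg k)) | m • x = 0}.ncard = N ∧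
      {x : Additive (ClassGroup (M.Alg k)) | m • x = 0}.Finite) ↔
    (M.HasCfg N m (M.cfgBound m) k ∧ ¬ M.HasCfg (N + 1) m (M.cfgBound m) k) := by
  classical
  set S := {x : Additive (ClassGroup (M.Alg k)) | m • x = 0}
  constructor
  · rintro ⟨hc, hfin⟩
    have := hfin.to_subtype
    let e : Fin N ≃ S := (Finite.equivFinOfCardEq (by rw [Nat.card_coe_set_eq, hc])).symm
    refine ⟨hasCfg_of_classes hm (fun a => (e a).1)
      (fun a b h => e.injective (Subtype.ext h)) fun a => (e a).2, fun h => ?_⟩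
    obtain ⟨f, hf, hfm⟩ := exists_classes_of_hasCfg hm h
    have := Nat.card_le_card_of_injective (fun a => (⟨f a, hfm a⟩ : S))
      fun a b h => hf (congrArg Subtype.val h)
    rw [Nat.card_coe_set_eq, hc, Nat.card_eq_fintype_card, Fintype.card_fin] at this
    omega
  · rintro ⟨h, hnot⟩
    have hfin : S.Finite := by
      by_contra hinf
      let e := Set.Infinite.natEmbedding S hinf
      exact hnot (hasCfg_of_classes hm (fun a : Fin (N + 1) => (e a).1)
        (fun a b h => Fin.ext (e.injective (Subtype.ext h))) fun a => (e a).2)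
    have := hfin.to_subtype
    refine ⟨le_antisymm (le_of_not_gt fun hlt => ?_) ?_, hfin⟩
    · let e := (Finite.equivFin S).symm
      rw [← Nat.card_coe_set_eq] at hlt
      exact hnot (hasCfg_of_classes hm (fun a : Fin (N + 1) => (e (Fin.castLE hlt a)).1)
        (fun a b h => Fin.castLE_injective hlt (e.injective (Subtype.ext h))) fun a => (e _).2)
    · obtain ⟨f, hf, hfm⟩ := exists_classes_of_hasCfg hm h
      have := Nat.card_le_card_of_injective (fun a => (⟨f a, hfm a⟩ : S))
        fun a b h => hf (congrArg Subtype.val h)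
      rwa [Nat.card_coe_set_eq, Nat.card_eq_fintype_card, Fintype.card_fin] at this

end Field

end Model

end FLTAgent.PicTorsion
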