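import Fermat.Agent.PicTorsion.Omega
import Mathlib.RingTheory.DedekindDomain.Ideal.Lemmas
import Mathlib.FieldTheory.Finiteness
import Mathlib.Data.Complex.Basic
import Mathlib.NumberTheory.Divisors

/-!
# Counting ideals of a given colength over a finite field
-/

set_option autoImplicit false

noncomputable section

open Polynomial

namespace FLTAgent.PicTorsion

namespace Model

variable {R : Type*} [CommRing R] (M : Model R) {k : Type*} [Field k] [Algebra R k]

/-- Elements of degree less than `m`, with zero. -/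
def ltSub (k : Type*) [Field k] [Algebra R k] (m : ℕ) : Submodule k (M.Alg k) where
  carrier := {f | ∀ p, m ≤ p → M.coef p f = 0}
  zero_mem' := fun _ _ => M.coef_zero _
  add_mem' := fun {f g} hf hg p hp => by rw [coef_add, hf p hp, hg p hp, add_zero]
  smul_mem' := fun c f hf p hp => by rw [coef_smul, hf p hp, mul_zero]

/-- The degrees of `J` less than `m`. -/
def attLt (J : Ideal (M.Alg k)) (m : ℕ) : Finset ℕ :=
  (Finset.range m).filter (· ∉ M.nonAtt J)

theorem attLt_succ (J : Ideal (M.Alg k)) (m : ℕ) : M.attLt J (m + 1) = M.attUpTo J m := rfl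

variable {M}

open scoped Classical in
theorem card_attLt_succ {J : Ideal (M.Alg k)} (hJ : J ≠ ⊥) (m : ℕ) :
    (M.attLt J (m + 1)).card
      = (M.attLt J m).card + if m ∈ M.degSet (M.sub J) then 1 else 0 := by
  rw [attLt, attLt, Finset.range_add_one, Finset.filter_insert]
  by_cases h : m ∈ M.degSet (M.sub J)
  · rw [if_pos (by rw [M.mem_nonAtt hJ]; exact not_not.2 h), Finset.card_insert_of_notMem (by simp),
      if_pos h]
  · rw [if_neg (by rw [M.mem_nonAtt hJ]; exact not_not.2 h), if_neg h, add_zero]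

theorem attLt_colength {J : Ideal (M.Alg k)} (hJ : J ≠ ⊥) : M.attLt J (M.colength J) = ∅ := by
  rw [attLt, Finset.filter_eq_empty_iff]
  intro m hm
  rw [not_not, M.mem_nonAtt hJ]
  intro h
  have := M.colength_le_of_mem_degSet h
  rw [Finset.mem_range] at hm
  omega

theorem card_attLt {J : Ideal (M.Alg k)} (hJ : J ≠ ⊥) {m : ℕ}
    (hm : M.colength J + 2 * M.genus ≤ m) :
    (M.attLt J m).card + (M.genus + M.colength J) = m := by
  rcases Nat.eq_zero_or_pos m with rfl | hpos
  · simp only [attLt, Finset.range_zero, Finset.filter_empty, Finset.card_empty]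
    omega
  · obtain ⟨p, rfl⟩ := Nat.exists_eq_succ_of_ne_zero hpos.ne'
    rw [attLt_succ]
    exact M.card_attUpTo hJ hm

variable [Finite k]

theorem finite_belowSub (n : ℕ) : Finite (M.belowSub k n) := by
  have := (M.finrank_inf_belowSub (⊤ : Submodule k (M.Alg k)) n).1
  have : FiniteDimensional k (M.belowSub k n) :=
    Module.Finite.equiv (LinearEquiv.ofEq _ _ (top_inf_eq _))
  exact Module.finite_of_finite k

theorem natCard_ltSub {J : Ideal (M.Alg k)} (hJ : J ≠ ⊥) (m : ℕ) :
    Finite (M.sub J ⊓ M.ltSub k m : Submodule k (M.Alg k)) ∧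
    Nat.card (M.sub J ⊓ M.ltSub k m : Submodule k (M.Alg k))
      = Nat.card k ^ (M.attLt J m).card := by
  rcases Nat.eq_zero_or_pos m with rfl | hpos
  · have he : M.sub J ⊓ M.ltSub k 0 = ⊥ := by
      rw [eq_bot_iff]
      rintro f ⟨-, hf⟩
      exact (Submodule.mem_bot k).2 (M.ext_coef fun p => by rw [hf p (Nat.zero_le _), coef_zero])
    rw [he]
    refine ⟨inferInstance, ?_⟩
    rw [attLt, Finset.range_zero, Finset.filter_empty, Finset.card_empty, pow_zero,
      Nat.card_eq_one_iff_unique]
    exact ⟨inferInstance, inferInstance⟩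
  · obtain ⟨p, rfl⟩ := Nat.exists_eq_succ_of_ne_zero hpos.ne'
    have he : M.ltSub k (p + 1) = M.belowSub k p := SetLike.ext fun f => by
      constructor <;> intro h q hq <;> exact h q hq
    rw [show p.succ = p + 1 from rfl, he]
    obtain ⟨hfd, hr⟩ := M.finrank_inf_belowSub (M.sub J) p
    refine ⟨Module.finite_of_finite k, ?_⟩
    rw [Module.natCard_eq_pow_finrank (K := k), hr, attLt_succ]
    congr 2
    ext q
    simp only [Finset.mem_filter, Finset.mem_range, M.mem_attUpTo hJ, Nat.lt_succ_iff]

section Dedekind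

variable [IsDedekindDomain (M.Alg k)]

open scoped Classical in
/-- The ideals of colength `n` in the class inverse to that of `J`. -/
theorem natCard_class {J : Ideal (M.Alg k)} (hJ : J ≠ ⊥) (n : ℕ) :
    Nat.card {I : Ideal (M.Alg k) // I ≠ ⊥ ∧ M.colength I = n ∧ cl J * cl I = 1}
      = if n + M.colength J ∈ M.degSet (M.sub J)
        then Nat.card k ^ (M.attLt J (n + M.colength J)).card else 0 := by
  set m := n + M.colength J with hm
  split
  · next hmS =>
    obtain ⟨u, huJ, hub, hu1, hud, -⟩ := M.exists_reduced hmS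
    rw [← (natCard_ltSub hJ m).2]
    have hmonic : ∀ g : (M.sub J ⊓ M.ltSub k m : Submodule k (M.Alg k)),
        M.deg (u + (g : M.Alg k)) = m ∧ u + (g : M.Alg k) ≠ 0 ∧ M.coef m (u + (g : M.Alg k)) = 1 := by
      intro g
      have hc : M.coef m (u + (g : M.Alg k)) = 1 := by
        rw [coef_add, hu1, g.2.2 m le_rfl, add_zero]
      exact ⟨M.deg_eq_of_coef_ne_zero (fun p hp => by rw [coef_add, hub p hp, g.2.2 p hp.le, add_zero])
        (hc ▸ one_ne_zero), M.ne_zero_of_coef (hc ▸ one_ne_zero), hc⟩
    have hex : ∀ g : (M.sub J ⊓ M.ltSub k m : Submodule k (M.Alg k)), ∃ I,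
        (I ≠ ⊥ ∧ M.colength I = n ∧ cl J * cl I = 1) ∧ J * I = Ideal.span {u + (g : M.Alg k)} := by
      intro g
      obtain ⟨hd, h0, -⟩ := hmonic g
      obtain ⟨I, hI⟩ := Ideal.dvd_iff_le.2
        ((Ideal.span_singleton_le_iff_mem J).2 (add_mem huJ g.2.1))
      have hI0 : I ≠ ⊥ := fun h => h0 (by simpa [h] using hI)
      refine ⟨I, ⟨hI0, ?_, by rw [← cl_mul hJ hI0, ← hI, cl_span_singleton h0]⟩, hI.symm⟩
      have := colength_mul hJ hI0
      rw [← hI, M.colength_span_singleton h0, hd] at this
      omega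
    choose φ hφ hφe using hex
    refine (Nat.card_eq_of_bijective
      (fun g => (⟨φ g, hφ g⟩ :
        {I : Ideal (M.Alg k) // I ≠ ⊥ ∧ M.colength I = n ∧ cl J * cl I = 1})) ⟨?_, ?_⟩).symm
    · intro g g' h
      have h1 : φ g = φ g' := congrArg Subtype.val h
      have h2 : Ideal.span {u + (g : M.Alg k)} = Ideal.span {u + (g' : M.Alg k)} := by
        rw [← hφe, ← hφe, h1]
      obtain ⟨v, hv⟩ := Ideal.span_singleton_eq_span_singleton.1 h2
      have hv0 : M.deg (v : M.Alg k) = 0 := by
        have := M.deg_mul (hmonic g).2.1 v.isUnit.ne_zero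
        rw [hv, (hmonic g).1, (hmonic g').1] at this
        omega
      obtain ⟨c, hc⟩ := M.below_zero_iff.1 (hv0 ▸ M.below_deg (v : M.Alg k))
      rw [hc, mul_comm, ← Algebra.smul_def] at hv
      have h3 := congrArg (M.coef m) hv
      rw [coef_smul, (hmonic g).2.2, (hmonic g').2.2, mul_one] at h3
      rw [h3, one_smul] at hv
      exact Subtype.ext (add_left_cancel hv)
    · rintro ⟨I, hI0, hcol, hcl⟩
      obtain ⟨f, hf⟩ : (J * I).IsPrincipal :=
        (cl_eq_one_iff (mul_ne_zero hJ hI0)).1 (by rw [cl_mul hJ hI0, hcl])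
      replace hf : J * I = Ideal.span {f} := hf
      have hf0 : f ≠ 0 := fun h => mul_ne_zero hJ hI0 (by simp [hf, h])
      have hd : M.deg f = m := by
        have := colength_mul hJ hI0
        rw [hf, M.colength_span_singleton hf0, hcol] at this
        omega
      have hfJ : f ∈ J :=
        (hf ▸ (Ideal.mul_le_left : J * I ≤ J)) (Ideal.mem_span_singleton_self f)
      have hc : M.coef m f ≠ 0 := hd ▸ M.coef_deg_ne_zero hf0
      refine ⟨⟨(M.coef m f)⁻¹ • f - u, sub_mem (Submodule.smul_mem _ _ hfJ) huJ, fun p hp => ?_⟩,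
        Subtype.ext (mul_left_cancel₀ hJ ?_)⟩
      · rcases hp.eq_or_lt with rfl | hp
        · rw [coef_sub, coef_smul, inv_mul_cancel₀ hc, hu1, sub_self]
        · rw [coef_sub, coef_smul, M.below_deg f p (hd.symm ▸ hp), hub p hp, mul_zero, sub_zero]
      · rw [hφe, hf, add_sub_cancel, Algebra.smul_def]
        exact Ideal.span_singleton_mul_left_unit ((IsUnit.mk0 _ (inv_ne_zero hc)).map _) f
  · next hmS =>
    rw [Nat.card_eq_zero]
    refine Or.inl ⟨fun ⟨I, hI0, hcol, hcl⟩ => hmS ?_⟩
    obtain ⟨f, hf⟩ : (J * I).IsPrincipal :=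
      (cl_eq_one_iff (mul_ne_zero hJ hI0)).1 (by rw [cl_mul hJ hI0, hcl])
    replace hf : J * I = Ideal.span {f} := hf
    have hf0 : f ≠ 0 := fun h => mul_ne_zero hJ hI0 (by simp [hf, h])
    refine ⟨f, (hf ▸ (Ideal.mul_le_left : J * I ≤ J)) (Ideal.mem_span_singleton_self f), hf0, ?_⟩
    have := colength_mul hJ hI0
    rw [hf, M.colength_span_singleton hf0, hcol] at this
    omega

variable (M k)

omit [IsDedekindDomain (M.Alg k)] in
theorem finite_setOf_colength_le (n : ℕ) :
    {I : Ideal (M.Alg k) | I ≠ ⊥ ∧ M.colength I ≤ n}.Finite := by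
  classical
  set B := n + 2 * M.genus + M.a with hB
  have := finite_belowSub (M := M) (k := k) B
  refine Set.Finite.of_finite_image (f := fun I : Ideal (M.Alg k) =>
    ({f : M.belowSub k B | (f : M.Alg k) ∈ I} : Set (M.belowSub k B))) (Set.toFinite _) ?_
  rintro I ⟨hI0, hI⟩ I' ⟨hI'0, hI'⟩ h
  have key : ∀ {I I' : Ideal (M.Alg k)}, I ≠ ⊥ → M.colength I ≤ n →
      (∀ f : M.Alg k, f ∈ I → M.Below f B → f ∈ I') → I ≤ I' := by
    intro I I' hI0 hI hsub
    refine fun f hf => ?_
    obtain ⟨c, rfl⟩ := exists_basMap_eq hI0 hf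
    show ∑ i, c i • bas hI0 i ∈ I'
    refine sum_mem fun i _ => Submodule.smul_of_tower_mem I' (c i)
      (hsub _ (bas_mem hI0 i) ((below_bas hI0 i).mono M ?_))
    -- the least degree in a class is bounded
    by_contra hlt
    push Not at hlt
    have hge : M.a ≤ M.minDeg I i := by omega
    have h1 : M.minDeg I i - M.a ∈ M.degSet (M.sub I) := M.mem_degSet_of_le hI0 (by omega)
    have h2 := M.minDeg_le h1
    have h3 : M.cls (M.minDeg I i - M.a) = i := by
      conv_rhs => rw [← (M.minDeg_spec hI0 i).2]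
      exact M.cls_eq_iff.2 (Nat.mod_eq_sub_mod hge).symm
    rw [h3] at h2
    have := M.a_pos
    omega
  exact le_antisymm (key hI0 hI fun f hf hb => ((Set.ext_iff.1 h) ⟨f, hb⟩).1 hf)
    (key hI'0 hI' fun f hf hb => ((Set.ext_iff.1 h) ⟨f, hb⟩).2 hf)

omit [IsDedekindDomain (M.Alg k)] in
theorem finite_setOf_colength_eq (n : ℕ) :
    {I : Ideal (M.Alg k) | I ≠ ⊥ ∧ M.colength I = n}.Finite :=
  (finite_setOf_colength_le M k n).subset fun _ h => ⟨h.1, h.2.le⟩

/-- The ideals of colength `n`. -/
def idealsF (n : ℕ) : Finset (Ideal (M.Alg k)) := (finite_setOf_colength_eq M k n).toFinset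

theorem finite_classGroup : Finite (ClassGroup (M.Alg k)) := by
  have := (finite_setOf_colength_le M k M.genus).to_subtype
  refine Finite.of_surjective
    (fun I : {I : Ideal (M.Alg k) | I ≠ ⊥ ∧ M.colength I ≤ M.genus} =>
      cl (I : Ideal (M.Alg k))) fun c => ?_
  obtain ⟨I, hI, hc, hd⟩ := exists_isReduced c
  exact ⟨⟨I, hI.1, hd⟩, hc⟩

variable {M k}

omit [IsDedekindDomain (M.Alg k)] in
theorem mem_idealsF {n : ℕ} {I : Ideal (M.Alg k)} :
    I ∈ idealsF M k n ↔ I ≠ ⊥ ∧ M.colength I = n := Set.Finite.mem_toFinset _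

/-- A representative of the inverse class. -/
def invRep (c : ClassGroup (M.Alg k)) : Ideal (M.Alg k) := (cl_surjective c⁻¹).choose

omit [Finite k] in
theorem invRep_ne_bot (c : ClassGroup (M.Alg k)) : invRep c ≠ ⊥ :=
  (cl_surjective c⁻¹).choose_spec.1

omit [Finite k] in
theorem cl_invRep (c : ClassGroup (M.Alg k)) : cl (invRep c) = c⁻¹ :=
  (cl_surjective c⁻¹).choose_spec.2

open scoped Classical in
theorem card_idealsF_filter (c : ClassGroup (M.Alg k)) (n : ℕ) :
    ((idealsF M k n).filter fun I => cl I = c).card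
      = if n + M.colength (invRep c) ∈ M.degSet (M.sub (invRep c))
        then Nat.card k ^ (M.attLt (invRep c) (n + M.colength (invRep c))).card else 0 := by
  rw [← natCard_class (invRep_ne_bot c) n, ← Nat.card_eq_finsetCard]
  refine Nat.card_congr (Equiv.subtypeEquivRight fun I => ?_)
  rw [Finset.mem_filter, mem_idealsF, cl_invRep, inv_mul_eq_one, eq_comm (a := c)]
  tauto

/-- The sum of a character over the ideals of colength `n`. -/
def charSum (χ : ClassGroup (M.Alg k) →* ℂ) (n : ℕ) : ℂ := ∑ I ∈ idealsF M k n, χ (cl I)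

open scoped Classical in
theorem charSum_eq [Fintype (ClassGroup (M.Alg k))] (χ : ClassGroup (M.Alg k) →* ℂ) (n : ℕ) :
    charSum χ n = ∑ c, χ c * (((idealsF M k n).filter fun I => cl I = c).card : ℂ) := by
  rw [charSum, ← Finset.sum_fiberwise (idealsF M k n) (fun I => cl I) fun I => χ (cl I)]
  refine Finset.sum_congr rfl fun c _ => ?_
  rw [Finset.sum_congr rfl fun I hI => by rw [(Finset.mem_filter.1 hI).2], Finset.sum_const,
    nsmul_eq_mul, mul_comm]

open scoped Classical in
theorem card_idealsF_filter_of_le (c : ClassGroup (M.Alg k)) {n : ℕ} (hn : 2 * M.genus ≤ n) :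
    ((idealsF M k n).filter fun I => cl I = c).card = Nat.card k ^ (n - M.genus) := by
  have h := invRep_ne_bot c
  rw [card_idealsF_filter, if_pos (M.mem_degSet_of_le h (by omega))]
  have := card_attLt h (m := n + M.colength (invRep c)) (by omega)
  congr 1
  omega

theorem charSum_zero (χ : ClassGroup (M.Alg k) →* ℂ) : charSum χ 0 = 1 := by
  have h : idealsF M k 0 = {⊤} := by
    ext I
    rw [mem_idealsF, Finset.mem_singleton]
    exact ⟨fun ⟨h0, h⟩ => M.eq_top_of_colength_eq_zero h0 h,
      fun h => h ▸ ⟨top_ne_bot, M.colength_top⟩⟩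
  rw [charSum, h, Finset.sum_singleton, cl_top, map_one]

theorem charSum_eq_zero {χ : ClassGroup (M.Alg k) →* ℂ} {c₀ : ClassGroup (M.Alg k)}
    (hχ : χ c₀ ≠ 1) {n : ℕ} (hn : 2 * M.genus ≤ n) : charSum χ n = 0 := by
  classical
  have := finite_classGroup M k
  let := Fintype.ofFinite (ClassGroup (M.Alg k))
  rw [charSum_eq, Finset.sum_congr rfl fun c _ => by rw [card_idealsF_filter_of_le c hn],
    ← Finset.sum_mul]
  have h0 : ∑ c : ClassGroup (M.Alg k), χ c = 0 := by
    have h1 : ∑ c : ClassGroup (M.Alg k), χ (c₀ * c) = ∑ c, χ c :=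
      Fintype.sum_equiv (Equiv.mulLeft c₀) _ _ fun _ => rfl
    simp only [map_mul, ← Finset.mul_sum] at h1
    by_contra hne
    exact hχ ((mul_eq_right₀ hne).1 h1)
  rw [h0, zero_mul]

theorem card_idealsF_of_le {n : ℕ} (hn : 2 * M.genus ≤ n) :
    (idealsF M k n).card = Nat.card (ClassGroup (M.Alg k)) * Nat.card k ^ (n - M.genus) := by
  classical
  have := finite_classGroup M k
  let := Fintype.ofFinite (ClassGroup (M.Alg k))
  rw [Finset.card_eq_sum_card_fiberwise (f := fun I => cl I) (t := Finset.univ)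
    fun I _ => Finset.mem_univ _, Finset.sum_congr rfl fun c _ => card_idealsF_filter_of_le c hn,
    Finset.sum_const, Finset.card_univ, Nat.card_eq_fintype_card (α := ClassGroup (M.Alg k)), smul_eq_mul]

/-- Just below `2 g` exactly one class has no ideal. -/
theorem card_idealsF_top {n : ℕ} (hn : n + 1 = 2 * M.genus) :
    (idealsF M k n).card + Nat.card k ^ (M.genus - 1)
      = Nat.card (ClassGroup (M.Alg k)) * Nat.card k ^ (M.genus - 1) := by
  classical
  have := finite_classGroup M k
  let := Fintype.ofFinite (ClassGroup (M.Alg k))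
  have hg : 0 < M.genus := by omega
  obtain ⟨c₁, hc₁, huniq⟩ := existsUnique_class_hasTop (M := M) (k := k) hg
  have key : ∀ c, ((idealsF M k n).filter fun I => cl I = c).card
      = if c = c₁⁻¹ then 0 else Nat.card k ^ (M.genus - 1) := by
    intro c
    have h := invRep_ne_bot c
    rw [card_idealsF_filter]
    by_cases hmem : n + M.colength (invRep c) ∈ M.degSet (M.sub (invRep c))
    · rw [if_pos hmem, if_neg]
      · have h1 := M.card_attUpTo h (n := n + M.colength (invRep c)) (by omega)
        rw [← attLt_succ, card_attLt_succ h, if_pos hmem] at h1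
        congr 1
        omega
      · rintro rfl
        obtain ⟨m, hm, hm1⟩ := hc₁ _ h (by rw [cl_invRep, inv_inv])
        exact hm ((show m = n + M.colength (invRep c₁⁻¹) by omega) ▸ hmem)
    · rw [if_neg hmem, if_pos]
      have htop : HasTop (invRep c) := ⟨_, hmem, by omega⟩
      have := huniq (cl (invRep c)) fun J hJ hJc => hasTop_congr hg h hJ hJc.symm htop
      rw [cl_invRep] at this
      rw [← this, inv_inv]
  rw [Finset.card_eq_sum_card_fiberwise (f := fun I => cl I) (t := Finset.univ)
    fun I _ => Finset.mem_univ _]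
  simp only [key]
  rw [← Finset.sum_erase_add _ _ (Finset.mem_univ c₁⁻¹), if_pos rfl, add_zero,
    Finset.sum_congr rfl (fun c hc => if_neg (Finset.ne_of_mem_erase hc)), Finset.sum_const,
    smul_eq_mul, Finset.card_erase_of_mem (Finset.mem_univ _), Finset.card_univ,
    Nat.card_eq_fintype_card (α := ClassGroup (M.Alg k))]
  have hpos : 0 < Fintype.card (ClassGroup (M.Alg k)) := Fintype.card_pos
  obtain ⟨h', hh'⟩ := Nat.exists_eq_succ_of_ne_zero hpos.ne'
  rw [hh', Nat.succ_sub_one, Nat.succ_mul]

/-- Partial sums of the counts. -/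
theorem sum_card_idealsF {N : ℕ} (hN : 2 * M.genus ≤ N) :
    ((Nat.card k : ℤ) - 1) * ∑ n ∈ Finset.range N, ((idealsF M k n).card : ℤ)
      + Nat.card (ClassGroup (M.Alg k))
      = Nat.card (ClassGroup (M.Alg k)) * (Nat.card k : ℤ) ^ (N - M.genus) := by
  classical
  have := finite_classGroup M k
  let := Fintype.ofFinite (ClassGroup (M.Alg k))
  have hone : ∀ c : ClassGroup (M.Alg k),
      ((Nat.card k : ℤ) - 1) *
          ∑ n ∈ Finset.range N, (((idealsF M k n).filter fun I => cl I = c).card : ℤ) + 1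
        = (Nat.card k : ℤ) ^ (N - M.genus) := by
    intro c
    have h := invRep_ne_bot c
    have key : ∀ N, ((Nat.card k : ℤ) - 1) *
          ∑ n ∈ Finset.range N, (((idealsF M k n).filter fun I => cl I = c).card : ℤ) + 1
        = (Nat.card k : ℤ) ^ (M.attLt (invRep c) (N + M.colength (invRep c))).card := by
      intro N
      induction N with
      | zero => simp [attLt_colength h]
      | succ N ih =>
        rw [Finset.sum_range_succ, mul_add, Nat.succ_add, Nat.succ_eq_add_one, card_attLt_succ h,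
          card_idealsF_filter]
        split
        · push_cast
          rw [pow_succ]
          linear_combination ih
        · push_cast
          rw [mul_zero, add_zero, add_zero]
          exact ih
    rw [key N]
    have := card_attLt h (m := N + M.colength (invRep c)) (by omega)
    congr 1
    omega
  have hsplit : ∀ n, ((idealsF M k n).card : ℤ)
      = ∑ c, (((idealsF M k n).filter fun I => cl I = c).card : ℤ) := fun n => by
    rw [← Nat.cast_sum]
    exact congrArg Nat.cast (Finset.card_eq_sum_card_fiberwise fun I _ => Finset.mem_univ _)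
  rw [Finset.sum_congr rfl fun n _ => hsplit n, Finset.sum_comm, Finset.mul_sum]
  have hsum := Finset.sum_congr rfl fun c (_ : c ∈ (Finset.univ : Finset (ClassGroup (M.Alg k)))) => hone c
  rw [Finset.sum_add_distrib, Finset.sum_const, Finset.sum_const, nsmul_one, nsmul_eq_mul,
    Finset.card_univ, ← Nat.card_eq_fintype_card] at hsum
  exact hsum

end Dedekind

end Model

end FLTAgent.PicTorsion
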