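import Fermat.Agent.FunctionField.RiemannRoch
import Mathlib.Algebra.Polynomial.AlgebraMap

/-!
# Monomial bases of functions regular away from one place

For a place `P` the functions regular elsewhere have a basis `x ^ s * e i` with distinct pole
orders and leading coefficient one with respect to a fixed uniformiser.
-/

set_option autoImplicit false

noncomputable section

open AlgebraicCurve Polynomial

namespace FLTAgent.PicTorsion

open FLTAgent.FunctionField

variable {K F : Type*} [Field K] [Field F] [Algebra K F]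

/-- Regular away from `P`. -/
def InA (P : Place K F) (f : F) : Prop := ∀ v, v ≠ P → OrdGe v 0 f

/-- The functions regular away from `P`. -/
def affineSub (P : Place K F) : Subalgebra K F where
  carrier := {f | InA P f}
  zero_mem' := fun v _ => ordGe_iff.2 (Or.inl rfl)
  one_mem' := fun v _ => ordGe_of_le_ord (by simp)
  add_mem' := fun hf hg v hv => (hf v hv).add (hg v hv)
  mul_mem' := fun hf hg v hv => by simpa using (hf v hv).mul (hg v hv)
  algebraMap_mem' := fun c v _ => ordGe_algebraMap c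

theorem mem_affineSub {P : Place K F} {f : F} : f ∈ affineSub P ↔ InA P f := Iff.rfl

theorem mem_riemannRochSpace_single {P : Place K F} {n : ℤ} {f : F} :
    f ∈ riemannRochSpace (Finsupp.single P n) ↔ InA P f ∧ OrdGe P (-n) f := by
  rw [mem_riemannRochSpace]
  refine ⟨fun h => ⟨fun v hv => by simpa [Finsupp.single_eq_of_ne hv] using h v,
    by simpa using h P⟩, fun h v => ?_⟩
  rcases eq_or_ne v P with rfl | hv
  · simpa using h.2
  · simpa [Finsupp.single_eq_of_ne hv] using h.1 v hv

/-- `f` has leading coefficient `c` in pole order `n`. -/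
def Lead (P : Place K F) (t : F) (n : ℕ) (f : F) (c : K) : Prop :=
  OrdGe P 1 (f * t ^ n - algebraMap K F c)

variable {P : Place K F} {t : F} {n m : ℕ} {f g : F} {c d : K}

theorem Lead.ordGe_zero (h : Lead P t n f c) : OrdGe P 0 (f * t ^ n) := by
  simpa using (h.mono zero_le_one).add (ordGe_algebraMap c)

theorem Lead.add (hf : Lead P t n f c) (hg : Lead P t n g d) : Lead P t n (f + g) (c + d) := by
  unfold Lead at *
  convert hf.add hg using 1
  rw [map_add]
  ring

theorem Lead.mul (hf : Lead P t n f c) (hg : Lead P t m g d) :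
    Lead P t (n + m) (f * g) (c * d) := by
  have h1 : OrdGe P 1 ((f * t ^ n - algebraMap K F c) * (g * t ^ m)) := by
    simpa using OrdGe.mul hf hg.ordGe_zero
  have h2 : OrdGe P 1 (algebraMap K F c * (g * t ^ m - algebraMap K F d)) := by
    simpa using (ordGe_algebraMap c).mul hg
  unfold Lead
  convert h1.add h2 using 1
  rw [map_mul, pow_add]
  ring

theorem lead_algebraMap (c : K) : Lead P t 0 (algebraMap K F c) c :=
  ordGe_iff.2 (Or.inl (by simp))

theorem lead_zero : Lead P t n (0 : F) (0 : K) := ordGe_iff.2 (Or.inl (by simp))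

theorem Lead.smul (hf : Lead P t n f c) (d : K) : Lead P t n (d • f) (d * c) := by
  simpa [Algebra.smul_def] using (lead_algebraMap (P := P) (t := t) d).mul hf

theorem Lead.sum {ι : Type*} (s : Finset ι) (f : ι → F) (c : ι → K)
    (h : ∀ i ∈ s, Lead P t n (f i) (c i)) : Lead P t n (∑ i ∈ s, f i) (∑ i ∈ s, c i) := by
  classical
  induction s using Finset.induction_on with
  | empty => simpa using lead_zero
  | insert i s hi ih =>
    rw [Finset.sum_insert hi, Finset.sum_insert hi]
    exact (h i (Finset.mem_insert_self i s)).add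
      (ih fun j hj => h j (Finset.mem_insert_of_mem hj))

theorem Lead.pow (hf : Lead P t n f c) (s : ℕ) : Lead P t (n * s) (f ^ s) (c ^ s) := by
  induction s with
  | zero => simpa using lead_algebraMap (P := P) (t := t) (1 : K)
  | succ s ih => rw [pow_succ, pow_succ, Nat.mul_succ]; exact ih.mul hf

theorem Lead.unique (h : Lead P t n f c) (h' : Lead P t n f d) : c = d := by
  by_contra hne
  have h1 := h.sub h'
  rw [sub_sub_sub_cancel_left, ← map_sub] at h1
  have h0 : algebraMap K F (d - c) ≠ 0 := by simpa [sub_eq_zero] using Ne.symm hne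
  have := h1.le_ord h0
  rw [ord_eq_zero_of_isAlgebraic (isAlgebraic_algebraMap _)] at this
  omega

variable (ht : P.ord t = 1)

include ht

theorem t_ne_zero : t ≠ 0 := by rintro rfl; simp at ht

theorem ordGe_mul_t_pow_iff {z : ℤ} : OrdGe P z (f * t ^ n) ↔ OrdGe P (z - n) f := by
  rw [ordGe_mul_iff (pow_ne_zero _ (t_ne_zero ht)), ord_pow, ht, mul_one]

theorem Lead.ordGe (h : Lead P t n f c) : OrdGe P (-n) f := by
  simpa using (ordGe_mul_t_pow_iff ht).1 h.ordGe_zero

theorem Lead.ordGe_of_zero (h : Lead P t n f 0) : OrdGe P (1 - n) f := by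
  unfold Lead at h
  rw [map_zero, sub_zero] at h
  exact (ordGe_mul_t_pow_iff ht).1 h

theorem lead_zero_of_ordGe (h : OrdGe P (1 - n) f) : Lead P t n f 0 := by
  unfold Lead
  rw [map_zero, sub_zero]
  exact (ordGe_mul_t_pow_iff ht).2 h

theorem Lead.ord_eq (h : Lead P t n f c) (hc : c ≠ 0) : f ≠ 0 ∧ P.ord f = -n := by
  have hf : f ≠ 0 := fun hf => hc (h.unique (hf ▸ lead_zero))
  refine ⟨hf, le_antisymm (le_of_not_gt fun hlt => hc (h.unique ?_)) ((h.ordGe ht).le_ord hf)⟩
  exact lead_zero_of_ordGe ht (ordGe_of_le_ord (by omega))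

theorem exists_lead [IsFunctionField K F] [IsAlgClosed K] (h : OrdGe P (-n) f) :
    ∃ c, Lead P t n f c := by
  have h' : OrdGe P 0 (f * t ^ n) := (ordGe_mul_t_pow_iff ht).2 (by simpa using h)
  have := finite_residueField P
  have hsurj : Function.Surjective (algebraMap K P.ResidueField) :=
    (IsAlgClosed.algebraMap_bijective_of_isIntegral (k := K) (K := P.ResidueField)).2
  let b : P.toValuationSubring := ⟨f * t ^ n, mem_iff_ordGe_zero.2 h'⟩
  obtain ⟨a, ha⟩ := hsurj (IsLocalRing.residue P.toValuationSubring b)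
  have h2 : IsLocalRing.residue P.toValuationSubring
      (b - algebraMap K P.toValuationSubring a) = 0 := by
    rw [map_sub, residue_algebraMap, ha, sub_self]
  exact ⟨a, (residue_eq_zero_iff (v := P)).1 h2⟩

omit ht

/-- A monomial basis of the functions regular away from `P`. -/
structure MonBasis (P : Place K F) (t : F) where
  ord_t : P.ord t = 1
  a : ℕ
  a_ne : NeZero a
  w : Fin a → ℕ
  w_zero : w 0 = 0
  w_mod : ∀ i : Fin a, w i % a = i
  w_min : ∀ (n : ℕ) (f : F), InA P f → Lead P t n f 1 → ∀ i : Fin a, (i : ℕ) = n % a → w i ≤ n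
  x : F
  x_mem : InA P x
  x_lead : Lead P t a x 1
  e : Fin a → F
  e_mem : ∀ i, InA P (e i)
  e_lead : ∀ i, Lead P t (w i) (e i) 1
  e_zero : e 0 = 1

theorem exists_monBasis [IsFunctionField K F] [IsAlgClosed K] (P : Place K F) :
    ∃ t, Nonempty (MonBasis P t) := by
  classical
  obtain ⟨t, -, ht⟩ := exists_ord_eq P 1
  obtain ⟨x₀, hx₀, hxP, hxA⟩ := exists_ord_neg_forall_nonneg P
  set a := (-P.ord x₀).toNat with ha
  have ha' : (a : ℤ) = -P.ord x₀ := Int.toNat_of_nonneg (by omega)
  have hane : NeZero a := ⟨by omega⟩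
  obtain ⟨c, hc⟩ := exists_lead ht (n := a) (f := x₀) (ordGe_of_le_ord (by omega))
  have hc0 : c ≠ 0 := by
    rintro rfl
    have := (hc.ordGe_of_zero ht).le_ord hx₀
    omega
  have hxA' : InA P x₀ := fun v hv => ordGe_of_le_ord (hxA v hv)
  obtain ⟨d, hd⟩ := exists_forall_finrank_H1_eq_zero (K := K) (F := F)
  have hatt : ∀ n : ℕ, d + 1 ≤ (n : ℤ) → ∃ f, InA P f ∧ Lead P t n f 1 := by
    intro n hn
    have hdeg : ∀ z : ℤ, Divisor.degree (Finsupp.single P z) = z := fun z => by
      rw [Divisor.degree_single, deg_eq_one, Nat.cast_one, mul_one]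
    have h1 := riemann_roch_isAlgClosed (Finsupp.single P (n : ℤ))
    have h2 := riemann_roch_isAlgClosed (Finsupp.single P ((n : ℤ) - 1))
    rw [hd _ (by rw [hdeg]; omega), hdeg] at h1 h2
    have hlt : ¬ riemannRochSpace (Finsupp.single P (n : ℤ))
        ≤ riemannRochSpace (Finsupp.single P ((n : ℤ) - 1)) := fun hle => by
      have := Submodule.finrank_mono hle
      simp only [ell] at h1 h2
      omega
    obtain ⟨f, hf, hf'⟩ := SetLike.not_le_iff_exists.1 hlt
    rw [mem_riemannRochSpace_single] at hf hf'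
    obtain ⟨c, hc⟩ := exists_lead ht hf.2
    have hc0 : c ≠ 0 := by
      rintro rfl
      exact hf' ⟨hf.1, by simpa [neg_sub] using hc.ordGe_of_zero ht⟩
    refine ⟨c⁻¹ • f, (affineSub P).smul_mem (mem_affineSub.2 hf.1) _, ?_⟩
    simpa [hc0] using hc.smul c⁻¹
  have hex : ∀ i : Fin a, ∃ n, n % a = i ∧ ∃ f, InA P f ∧ Lead P t n f 1 := fun i =>
    ⟨a * (d + 1).toNat + i, by rw [Nat.mul_add_mod, Nat.mod_eq_of_lt i.isLt],
      hatt _ (by
        have h3 : (d + 1).toNat ≤ a * (d + 1).toNat + i :=
          (Nat.le_mul_of_pos_left _ (Nat.pos_of_ne_zero hane.ne)).trans (Nat.le_add_right _ _)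
        omega)⟩
  choose e₀ he₀ using fun i => (Nat.find_spec (hex i)).2
  have hone : ((0 : Fin a) : ℕ) = 0 % a ∧ InA P (1 : F) ∧ Lead P t 0 (1 : F) 1 :=
    ⟨by simp, mem_affineSub.1 (one_mem _), by simpa using lead_algebraMap (P := P) (t := t) (1 : K)⟩
  have hw0 : Nat.find (hex 0) = 0 :=
    Nat.le_zero.1 (Nat.find_le ⟨hone.1.symm, _, hone.2.1, hone.2.2⟩)
  refine ⟨t, ⟨{
    ord_t := ht
    a := a
    a_ne := hane
    w := fun i => Nat.find (hex i)
    w_zero := hw0
    w_mod := fun i => (Nat.find_spec (hex i)).1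
    w_min := fun n f hf hl i hi => Nat.find_le ⟨hi.symm, f, hf, hl⟩
    x := c⁻¹ • x₀
    x_mem := (affineSub P).smul_mem (mem_affineSub.2 hxA') _
    x_lead := by simpa [hc0] using hc.smul c⁻¹
    e := fun i => if i = 0 then 1 else e₀ i
    e_mem := fun i => by
      split_ifs with h
      · exact hone.2.1
      · exact (he₀ i).1
    e_lead := fun i => by
      split_ifs with h
      · subst h; rw [hw0]; exact hone.2.2
      · exact (he₀ i).2
    e_zero := if_pos rfl }⟩⟩

namespace MonBasis

variable (B : MonBasis P t)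

instance : NeZero B.a := B.a_ne

/-- The function with given coordinates. -/
def val : (Fin B.a → K[X]) →ₗ[K] F where
  toFun h := ∑ i, aeval B.x (h i) * B.e i
  map_add' h h' := by simp [add_mul, Finset.sum_add_distrib]
  map_smul' c h := by simp [Finset.smul_sum]

theorem val_apply (h : Fin B.a → K[X]) : B.val h = ∑ i, aeval B.x (h i) * B.e i := rfl

theorem val_mem (h : Fin B.a → K[X]) : InA P (B.val h) :=
  mem_affineSub.1 <| (Subalgebra.sum_mem (affineSub P) fun i _ => mul_mem
    (Algebra.adjoin_le (Set.singleton_subset_iff.2 (mem_affineSub.2 B.x_mem))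
      (aeval_mem_adjoin_singleton K B.x (p := h i)))
    (mem_affineSub.2 (B.e_mem i)) : (∑ i, aeval B.x (h i) * B.e i) ∈ affineSub P)

theorem val_single (i : Fin B.a) (s : ℕ) (c : K) :
    B.val (Pi.single i (C c * X ^ s)) = c • (B.x ^ s * B.e i) := by
  rw [val_apply, Finset.sum_eq_single i (fun j _ hj => by simp [Pi.single_eq_of_ne hj])
    (fun h => absurd (Finset.mem_univ i) h), Pi.single_eq_same]
  simp [Algebra.smul_def, mul_assoc]

theorem lead_term (i : Fin B.a) (s : ℕ) : Lead P t (B.a * s + B.w i) (B.x ^ s * B.e i) 1 := by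
  simpa using (B.x_lead.pow s).mul (B.e_lead i)

/-- The leading coefficient of a combination of bounded pole order. -/
theorem lead_val {n : ℕ} (h : Fin B.a → K[X])
    (hn : ∀ i s, n < B.a * s + B.w i → (h i).coeff s = 0) :
    Lead P t n (B.val h)
      (∑ i, ∑ s ∈ (h i).support, if B.a * s + B.w i = n then (h i).coeff s else 0) := by
  have hval : B.val h = ∑ i, ∑ s ∈ (h i).support, (h i).coeff s • (B.x ^ s * B.e i) := by
    rw [val_apply]
    refine Finset.sum_congr rfl fun i _ => ?_
    rw [aeval_def, eval₂_eq_sum, sum_def, Finset.sum_mul]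
    exact Finset.sum_congr rfl fun s _ => by rw [Algebra.smul_def, mul_assoc]
  rw [hval]
  refine Lead.sum _ _ _ fun i _ => Lead.sum _ _ _ fun s hs => ?_
  have hle : B.a * s + B.w i ≤ n := le_of_not_gt fun hlt =>
    Polynomial.mem_support_iff.1 hs (hn i s hlt)
  split_ifs with heq
  · simpa [heq] using (B.lead_term i s).smul ((h i).coeff s)
  · refine lead_zero_of_ordGe B.ord_t ((((B.lead_term i s).smul ((h i).coeff s)).ordGe
      B.ord_t).mono ?_)
    omega

theorem eq_of_add_mul_eq {i j : Fin B.a} {s u : ℕ} (h : B.a * s + B.w i = B.a * u + B.w j) :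
    i = j ∧ s = u := by
  have hij : i = j := by
    apply Fin.ext
    have := congrArg (· % B.a) h
    simpa [Nat.mul_add_mod, B.w_mod] using this
  subst hij
  exact ⟨rfl, Nat.eq_of_mul_eq_mul_left (Nat.pos_of_ne_zero B.a_ne.ne) (by omega)⟩

theorem val_injective : Function.Injective B.val := by
  classical
  rw [← LinearMap.ker_eq_bot, LinearMap.ker_eq_bot']
  intro h hh
  by_contra h0
  set S := Finset.univ.biUnion fun i => (h i).support.image fun s => B.a * s + B.w i with hS
  have hne : S.Nonempty := by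
    obtain ⟨i, hi⟩ := Function.ne_iff.1 h0
    obtain ⟨s, hs⟩ := Polynomial.support_nonempty.2 hi
    exact ⟨_, Finset.mem_biUnion.2 ⟨i, Finset.mem_univ i, Finset.mem_image_of_mem _ hs⟩⟩
  set n := S.max' hne with hn
  obtain ⟨i, -, hi⟩ := Finset.mem_biUnion.1 (S.max'_mem hne)
  obtain ⟨s, hs, hsn⟩ := Finset.mem_image.1 hi
  have hl := B.lead_val (n := n) h fun j u hu => by
    by_contra hc
    have := S.le_max' (B.a * u + B.w j) (Finset.mem_biUnion.2 ⟨j, Finset.mem_univ j,
      Finset.mem_image_of_mem _ (Polynomial.mem_support_iff.2 hc)⟩)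
    omega
  rw [hh] at hl
  have hsum := hl.unique lead_zero
  rw [Finset.sum_eq_single i (fun j _ hj => Finset.sum_eq_zero fun u _ => if_neg fun he =>
      hj (B.eq_of_add_mul_eq (he.trans hsn.symm)).1) (fun hni => absurd (Finset.mem_univ i) hni),
    Finset.sum_eq_single s (fun u _ hu => if_neg fun he =>
      hu (B.eq_of_add_mul_eq (he.trans hsn.symm)).2) (fun hns => absurd hs hns), if_pos hsn] at hsum
  exact Polynomial.mem_support_iff.1 hs hsum

variable [IsFunctionField K F] [IsAlgClosed K]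

theorem exists_val_eq (n : ℕ) : ∀ f, InA P f → OrdGe P (-n) f → ∃ h, B.val h = f ∧
    (∀ i s, n < B.a * s + B.w i → (h i).coeff s = 0) ∧
    ∀ i s c, B.a * s + B.w i = n → Lead P t n f c → (h i).coeff s = c := by
  classical
  induction n using Nat.strong_induction_on with
  | _ n ih =>
  intro f hf hfn
  obtain ⟨c, hc⟩ := exists_lead B.ord_t hfn
  -- the leading term
  obtain ⟨h₁, hl₁, hb₁⟩ : ∃ h₁ : Fin B.a → K[X], Lead P t n (B.val h₁) c ∧
      ∀ i s, n ≤ B.a * s + B.w i → (h₁ i).coeff s = if B.a * s + B.w i = n then c else 0 := by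
    set i₀ : Fin B.a := ⟨n % B.a, Nat.mod_lt _ (Nat.pos_of_ne_zero B.a_ne.ne)⟩
    by_cases hle : B.w i₀ ≤ n
    · have hmod : (n - B.w i₀) % B.a = 0 := by
        apply Nat.sub_mod_eq_zero_of_mod_eq
        rw [B.w_mod]
      have hdec : B.a * ((n - B.w i₀) / B.a) + B.w i₀ = n := by
        rw [Nat.mul_div_cancel' (Nat.dvd_of_mod_eq_zero hmod), Nat.sub_add_cancel hle]
      refine ⟨Pi.single i₀ (C c * X ^ ((n - B.w i₀) / B.a)), ?_, fun i s _ => ?_⟩
      · rw [val_single]
        simpa [hdec] using (B.lead_term i₀ ((n - B.w i₀) / B.a)).smul c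
      · by_cases hi : i = i₀
        · subst hi
          rw [Pi.single_eq_same, coeff_C_mul_X_pow]
          refine if_congr ⟨fun h => by rw [h, hdec], fun h => ?_⟩ rfl rfl
          exact (B.eq_of_add_mul_eq (h.trans hdec.symm)).2
        · rw [Pi.single_eq_of_ne hi, coeff_zero, if_neg]
          exact fun h => hi (B.eq_of_add_mul_eq (h.trans hdec.symm)).1
    · have hc0 : c = 0 := by
        by_contra hc0
        exact hle (B.w_min n (c⁻¹ • f) (mem_affineSub.1 ((affineSub P).smul_mem
          (mem_affineSub.2 hf) _)) (by simpa [hc0] using hc.smul c⁻¹) i₀ rfl)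
      subst hc0
      exact ⟨0, by simpa using lead_zero, fun i s _ => by simp⟩
  have hg : Lead P t n (f - B.val h₁) 0 := by
    simpa [sub_eq_add_neg] using hc.add (hl₁.smul (-1))
  have hgA : InA P (f - B.val h₁) :=
    mem_affineSub.1 (sub_mem (mem_affineSub.2 hf) (mem_affineSub.2 (B.val_mem h₁)))
  obtain ⟨h₂, hv₂, hb₂⟩ : ∃ h₂, B.val h₂ = f - B.val h₁ ∧
      ∀ i s, n ≤ B.a * s + B.w i → (h₂ i).coeff s = 0 := by
    rcases n with _ | n
    · refine ⟨0, ?_, fun i s _ => by simp⟩
      have hmem : f - B.val h₁ ∈ riemannRochSpace (Finsupp.single P (-1 : ℤ)) :=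
        mem_riemannRochSpace_single.2 ⟨hgA, by simpa using hg.ordGe_of_zero B.ord_t⟩
      rw [riemannRochSpace_neg_single_eq_bot, Submodule.mem_bot] at hmem
      rw [hmem, map_zero]
    · obtain ⟨h₂, hv, hb, -⟩ := ih n (Nat.lt_succ_self n) _ hgA
        ((hg.ordGe_of_zero B.ord_t).mono (by omega))
      exact ⟨h₂, hv, fun i s hs => hb i s (by omega)⟩
  refine ⟨h₁ + h₂, by rw [map_add, hv₂, add_sub_cancel], fun i s hs => ?_, fun i s d hs hd => ?_⟩
  · rw [Pi.add_apply, coeff_add, hb₁ i s hs.le, hb₂ i s hs.le, if_neg (by omega), add_zero]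
  · rw [Pi.add_apply, coeff_add, hb₁ i s hs.ge, hb₂ i s hs.ge, if_pos hs, add_zero,
      hc.unique hd]

theorem exists_val_eq_of_inA {f : F} (hf : InA P f) : ∃ h, B.val h = f := by
  obtain ⟨h, hh, -⟩ := B.exists_val_eq (-P.ord f).toNat f hf
    (ordGe_of_le_ord (by omega))
  exact ⟨h, hh⟩

end MonBasis

end FLTAgent.PicTorsion
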