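import Fermat.Agent.FunctionField.Basic
import Fermat.Prelude.Def_AlgebraicCurve_IsCurveOver
import Mathlib.RingTheory.Etale.Field
import Mathlib.RingTheory.Etale.Kaehler
import Mathlib.RingTheory.Kaehler.Polynomial
import Mathlib.RingTheory.AlgebraicIndependent.TranscendenceBasis
import Mathlib.FieldTheory.IntermediateField.Adjoin.Algebra

/-!
# Finitely generated curves in characteristic zero are function fields
-/

set_option autoImplicit false

noncomputable section

open AlgebraicCurve IntermediateField

namespace FLTAgent.PicTorsion

open FLTAgent.FunctionField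

variable {K F : Type*} [Field K] [Field F] [Algebra K F] [CharZero K]

theorem finite_of_isAlgebraic (E : IntermediateField K F) [Algebra.EssFiniteType K F]
    [Algebra.IsAlgebraic E F] : FiniteDimensional E F := by
  have : CharZero F := charZero_of_injective_algebraMap (algebraMap K F).injective
  have : Algebra.EssFiniteType E F := Algebra.EssFiniteType.of_comp K E F
  have : Algebra.IsSeparable E F := inferInstance
  have := Algebra.FormallyEtale.of_isSeparable E F
  exact Algebra.FormallyUnramified.finite_of_free E F

theorem kaehler_basis_of_isTranscendenceBasis {s : Set F} [Algebra.EssFiniteType K F]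
    (hs : IsTranscendenceBasis K (Subtype.val : s → F)) :
    Nonempty (Module.Basis s F Ω[F⁄K]) := by
  classical
  have : CharZero F := charZero_of_injective_algebraMap (algebraMap K F).injective
  set E := IntermediateField.adjoin K s with hE
  have hle : ∀ p : MvPolynomial s K, MvPolynomial.aeval (Subtype.val : s → F) p ∈ E :=
    fun p => IntermediateField.algebra_adjoin_le_adjoin K s (by
      rw [← Algebra.adjoin_range_eq_range_aeval K (Subtype.val : s → F) |>.trans rfl |>.symm |>.trans
        (congrArg (Algebra.adjoin K) Subtype.range_coe)]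
      exact ⟨p, rfl⟩)
  let φ : MvPolynomial s K →ₐ[K] E :=
    (MvPolynomial.aeval (Subtype.val : s → F)).codRestrict E.toSubalgebra hle
  let _ : Algebra (MvPolynomial s K) E := φ.toRingHom.toAlgebra
  let _ : Algebra (MvPolynomial s K) F := (MvPolynomial.aeval (Subtype.val : s → F)).toRingHom.toAlgebra
  have : IsScalarTower (MvPolynomial s K) E F := IsScalarTower.of_algebraMap_eq fun _ => rfl
  have : IsScalarTower K (MvPolynomial s K) E := IsScalarTower.of_algebraMap_eq fun c => (φ.commutes c).symm
  have : IsScalarTower K (MvPolynomial s K) F :=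
    IsScalarTower.of_algebraMap_eq fun c => (AlgHom.commutes _ c).symm
  have : FaithfulSMul (MvPolynomial s K) E := (faithfulSMul_iff_algebraMap_injective _ _).2
    fun p q h => hs.1 (congrArg (fun z : E => (z : F)) h)
  have : IsFractionRing (MvPolynomial s K) E := IsFractionRing.of_field _ _ fun z => by
    obtain ⟨r, d, h⟩ := (IntermediateField.mem_adjoin_iff K (z : F)).1 z.2
    exact ⟨r, d, Subtype.ext h⟩
  have : Algebra.IsAlgebraic E F := by
    have h := hs.isAlgebraic_field
    rw [Subtype.range_coe] at h
    exact h
  have := finite_of_isAlgebraic E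
  have : Algebra.FormallyEtale (MvPolynomial s K) E :=
    Algebra.FormallyEtale.of_isLocalization (nonZeroDivisors (MvPolynomial s K))
  have : Algebra.FormallyEtale E F := Algebra.FormallyEtale.of_isSeparable E F
  have : Algebra.FormallyEtale (MvPolynomial s K) F :=
    Algebra.FormallyEtale.comp (MvPolynomial s K) E F
  exact ⟨((KaehlerDifferential.mvPolynomialBasis K s).baseChange F).map
    (KaehlerDifferential.tensorKaehlerEquivOfFormallyEtale K (MvPolynomial s K) F)⟩

theorem isFunctionField_of_isCurveOver [IsCurveOver K F] [Algebra.EssFiniteType K F] :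
    IsFunctionField K F := by
  classical
  obtain ⟨s, hs⟩ := exists_isTranscendenceBasis K F
  obtain ⟨b⟩ := kaehler_basis_of_isTranscendenceBasis hs
  have hcard : Nat.card s = 1 := by
    rw [← Module.finrank_eq_nat_card_basis b, IsCurveOver.finrank_kaehler]
  obtain ⟨hsub, ⟨x⟩⟩ := Nat.card_eq_one_iff_unique.1 hcard
  refine ⟨⟨x, hs.1.transcendental x, ?_⟩⟩
  have hsx : s = {(x : F)} := Set.ext fun y =>
    ⟨fun hy => congrArg Subtype.val (Subsingleton.elim (⟨y, hy⟩ : s) x),
      fun hy => hy ▸ x.2⟩
  have : Algebra.IsAlgebraic (K⟮(x : F)⟯) F := by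
    have h := hs.isAlgebraic_field
    rw [Subtype.range_coe, hsx] at h
    exact h
  exact finite_of_isAlgebraic _

end FLTAgent.PicTorsion
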