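import Fermat.Agent.PicTorsion.Colength

/-!
# Gaps of the degrees of an ideal
-/

set_option autoImplicit false

noncomputable section

open Polynomial

namespace FLTAgent.PicTorsion

namespace Model

variable {R : Type*} [CommRing R] (M : Model R) {k : Type*} [Field k] [Algebra R k]

/-- The number of gaps of the semigroup of degrees. -/
def genus : ℕ := ∑ i, M.w i / M.a

/-- The gaps of the semigroup of degrees. -/
def sGaps : Finset ℕ :=
  Finset.univ.biUnion fun i : Fin M.a =>
    (Finset.range (M.w i / M.a)).image fun t => M.a * t + (i : ℕ)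

theorem cls_mul_add (i : Fin M.a) (t : ℕ) : M.cls (M.a * t + (i : ℕ)) = i := by
  apply Fin.ext
  show (M.a * t + (i : ℕ)) % M.a = i
  rw [Nat.mul_add_mod, Nat.mod_eq_of_lt i.isLt]

theorem card_sGaps : M.sGaps.card = M.genus := by
  rw [sGaps, Finset.card_biUnion]
  · refine Finset.sum_congr rfl fun i _ => ?_
    rw [Finset.card_image_of_injective _ fun s t h =>
      Nat.eq_of_mul_eq_mul_left M.a_pos (Nat.add_right_cancel h), Finset.card_range]
  · intro i _ j _ hij
    refine Finset.disjoint_left.2 fun n hi hj => hij ?_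
    obtain ⟨s, -, rfl⟩ := Finset.mem_image.1 hi
    obtain ⟨t, -, ht⟩ := Finset.mem_image.1 hj
    have := congrArg M.cls ht
    rwa [cls_mul_add, cls_mul_add, eq_comm] at this

theorem mem_sGaps {n : ℕ} : n ∈ M.sGaps ↔ ¬ M.InS n := by
  simp only [sGaps, Finset.mem_biUnion, Finset.mem_univ, true_and, Finset.mem_image,
    Finset.mem_range, InS, not_le]
  constructor
  · rintro ⟨i, t, ht, rfl⟩
    rw [cls_mul_add]
    have h1 := Nat.mul_lt_mul_of_pos_left ht M.a_pos
    have h2 := Nat.div_add_mod (M.w i) M.a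
    have h3 := M.w_mod i
    omega
  · intro h
    refine ⟨M.cls n, n / M.a, ?_, Nat.div_add_mod n M.a⟩
    have h1 := Nat.div_add_mod n M.a
    have h2 := Nat.div_add_mod (M.w (M.cls n)) M.a
    have h3 := M.w_mod (M.cls n)
    have h4 : ((M.cls n : Fin M.a) : ℕ) = n % M.a := rfl
    exact Nat.lt_of_mul_lt_mul_left (a := M.a) (by omega)

variable {J : Ideal (M.Alg k)}

/-- The natural numbers that are not degrees of elements of `J`. -/
def nonAtt (J : Ideal (M.Alg k)) : Finset ℕ := M.sGaps ∪ M.gapFinset J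

theorem mem_nonAtt (hJ : J ≠ ⊥) {n : ℕ} : n ∈ M.nonAtt J ↔ n ∉ M.degSet (M.sub J) := by
  rw [nonAtt, Finset.mem_union, mem_sGaps, M.mem_gapFinset hJ]
  have := fun h => M.inS_of_mem_degSet (V := M.sub J) (n := n) h
  tauto

theorem card_nonAtt (hJ : J ≠ ⊥) : (M.nonAtt J).card = M.genus + M.colength J := by
  rw [nonAtt, Finset.card_union_of_disjoint, card_sGaps, card_gapFinset]
  exact Finset.disjoint_left.2 fun n h1 h2 => M.mem_sGaps.1 h1 ((M.mem_gapFinset hJ n).1 h2).1

/-- The degrees in `[0, n]`. -/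
def sUpTo (n : ℕ) : Finset ℕ := (Finset.range (n + 1)).filter M.InS

theorem succ_le_card_sUpTo_add (n : ℕ) : n + 1 ≤ (M.sUpTo n).card + M.genus := by
  have h : Finset.range (n + 1) ⊆ M.sUpTo n ∪ M.sGaps := fun m hm => by
    rw [Finset.mem_union, sUpTo, Finset.mem_filter, mem_sGaps]
    tauto
  calc n + 1 = (Finset.range (n + 1)).card := (Finset.card_range _).symm
    _ ≤ (M.sUpTo n ∪ M.sGaps).card := Finset.card_le_card h
    _ ≤ _ := (Finset.card_union_le _ _).trans (by rw [card_sGaps])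

/-- If `n` is not a degree of `J` then neither is `n - s`. -/
theorem image_sub_subset_nonAtt (hJ : J ≠ ⊥) {n : ℕ} (hn : n ∉ M.degSet (M.sub J)) :
    (M.sUpTo n).image (n - ·) ⊆ (Finset.range (n + 1)).filter (· ∈ M.nonAtt J) := by
  intro m hm
  obtain ⟨s, hs, rfl⟩ := Finset.mem_image.1 hm
  rw [sUpTo, Finset.mem_filter, Finset.mem_range] at hs
  refine Finset.mem_filter.2 ⟨Finset.mem_range.2 (by omega), (M.mem_nonAtt hJ).2 fun h => hn ?_⟩
  have := M.add_mem_degSet J h hs.2
  rwa [Nat.sub_add_cancel (by omega)] at this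

theorem card_image_sub (n : ℕ) : ((M.sUpTo n).image (n - ·)).card = (M.sUpTo n).card := by
  refine Finset.card_image_of_injOn fun s hs t ht h => ?_
  simp only [sUpTo, Finset.coe_filter, Finset.mem_range, Set.mem_ofPred_eq] at hs ht
  change n - s = n - t at h
  omega

theorem not_mem_degSet_le (hJ : J ≠ ⊥) {n : ℕ} (hn : n ∉ M.degSet (M.sub J)) :
    n + 1 ≤ M.colength J + 2 * M.genus := by
  have h1 := Finset.card_le_card ((M.image_sub_subset_nonAtt hJ hn).trans
    (show _ ⊆ M.nonAtt J from fun m hm => (Finset.mem_filter.1 hm).2))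
  rw [M.card_nonAtt hJ, card_image_sub] at h1
  have := M.succ_le_card_sUpTo_add n
  omega

/-- Every large degree occurs in `J`. -/
theorem mem_degSet_of_le (hJ : J ≠ ⊥) {n : ℕ} (h : M.colength J + 2 * M.genus ≤ n) :
    n ∈ M.degSet (M.sub J) := by
  by_contra hn
  have := M.not_mem_degSet_le hJ hn
  omega

/-- When the bound on the gaps is attained, the gaps are determined. -/
theorem mem_degSet_iff_of_top (hJ : J ≠ ⊥) {n : ℕ} (hn : n ∉ M.degSet (M.sub J))
    (htop : n + 1 = M.colength J + 2 * M.genus) {m : ℕ} (hm : m ≤ n) :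
    m ∈ M.degSet (M.sub J) ↔ ¬ M.InS (n - m) := by
  have h1 := M.image_sub_subset_nonAtt hJ hn
  have h2 : (M.sUpTo n).image (n - ·) = (Finset.range (n + 1)).filter (· ∈ M.nonAtt J) := by
    refine Finset.eq_of_subset_of_card_le h1 ?_
    rw [card_image_sub]
    have h3 : ((Finset.range (n + 1)).filter (· ∈ M.nonAtt J)).card ≤ (M.nonAtt J).card :=
      Finset.card_le_card fun x hx => (Finset.mem_filter.1 hx).2
    rw [M.card_nonAtt hJ] at h3
    have := M.succ_le_card_sUpTo_add n
    omega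
  have h4 := Finset.ext_iff.1 h2 m
  rw [Finset.mem_filter, Finset.mem_image, M.mem_nonAtt hJ, Finset.mem_range] at h4
  constructor
  · intro hmJ hS
    exact (h4.1 ⟨n - m, by simp [sUpTo, hS], Nat.sub_sub_self hm⟩).2 hmJ
  · intro hS
    by_contra hmJ
    obtain ⟨s, hs, rfl⟩ := h4.2 ⟨by omega, hmJ⟩
    rw [sUpTo, Finset.mem_filter, Finset.mem_range] at hs
    rw [Nat.sub_sub_self (by omega)] at hS
    exact hS hs.2

/-- The degrees of `J` in `[0, n]`. -/
def attUpTo (J : Ideal (M.Alg k)) (n : ℕ) : Finset ℕ :=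
  (Finset.range (n + 1)).filter (· ∉ M.nonAtt J)

theorem mem_attUpTo (hJ : J ≠ ⊥) {n m : ℕ} :
    m ∈ M.attUpTo J n ↔ m ≤ n ∧ m ∈ M.degSet (M.sub J) := by
  rw [attUpTo, Finset.mem_filter, Finset.mem_range, M.mem_nonAtt hJ, not_not, Nat.lt_succ_iff]

theorem card_attUpTo_ge (hJ : J ≠ ⊥) (n : ℕ) :
    n + 1 ≤ (M.attUpTo J n).card + (M.genus + M.colength J) := by
  have h : Finset.range (n + 1) ⊆ M.attUpTo J n ∪ M.nonAtt J := fun m hm => by
    rw [Finset.mem_union, attUpTo, Finset.mem_filter]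
    tauto
  calc n + 1 = (Finset.range (n + 1)).card := (Finset.card_range _).symm
    _ ≤ (M.attUpTo J n ∪ M.nonAtt J).card := Finset.card_le_card h
    _ ≤ _ := (Finset.card_union_le _ _).trans (by rw [M.card_nonAtt hJ])

theorem card_attUpTo (hJ : J ≠ ⊥) {n : ℕ} (hn : M.colength J + 2 * M.genus ≤ n + 1) :
    (M.attUpTo J n).card + (M.genus + M.colength J) = n + 1 := by
  have hsub : M.nonAtt J ⊆ Finset.range (n + 1) := fun m hm => by
    have := M.not_mem_degSet_le hJ ((M.mem_nonAtt hJ).1 hm)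
    rw [Finset.mem_range]
    omega
  have h : M.attUpTo J n = Finset.range (n + 1) \ M.nonAtt J := by
    ext m
    simp [attUpTo]
  rw [h, Finset.card_sdiff_of_subset hsub, Finset.card_range, M.card_nonAtt hJ]
  have := Finset.card_le_card hsub
  rw [M.card_nonAtt hJ, Finset.card_range] at this
  omega

theorem exists_deg_le (hJ : J ≠ ⊥) :
    ∃ n ∈ M.degSet (M.sub J), n ≤ M.colength J + M.genus := by
  have h := M.card_attUpTo_ge hJ (M.colength J + M.genus)
  obtain ⟨m, hm⟩ := Finset.card_pos.1 (show 0 < (M.attUpTo J (M.colength J + M.genus)).card by omega)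
  rw [M.mem_attUpTo hJ] at hm
  exact ⟨m, hm.2, hm.1⟩

end Model

end FLTAgent.PicTorsion
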