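import Fermat.Agent.PicTorsion.CurveBasis
import Fermat.Agent.PicTorsion.Classes
import Fermat.Agent.PicTorsion.Points
import Fermat.Agent.PicTorsion.Gaps
import Mathlib.RingTheory.ClassGroup.Basic
import Mathlib.RingTheory.Adjoin.FG

/-!
# The model of a function field

The functions regular away from one place form the algebra of a model over a finitely generated
subring of the constants; its class group is the group of divisor classes of degree zero.
-/

set_option autoImplicit false

noncomputable section

open AlgebraicCurve Polynomial IsDedekindDomain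
open scoped nonZeroDivisors

namespace FLTAgent.PicTorsion

open FLTAgent.FunctionField

namespace MonBasis

variable {K F : Type*} [Field K] [Field F] [Algebra K F] [IsFunctionField K F] [IsAlgClosed K]
  {P : Place K F} {t : F} (B : MonBasis P t)

theorem exists_coords (i j : Fin B.a) : ∃ h, B.val h = B.e i * B.e j ∧
    (∀ l s, B.w i + B.w j < B.a * s + B.w l → (h l).coeff s = 0) ∧
    ∀ l s c, B.a * s + B.w l = B.w i + B.w j →
      Lead P t (B.w i + B.w j) (B.e i * B.e j) c → (h l).coeff s = c :=
  B.exists_val_eq _ _ (mem_affineSub.1 (mul_mem (mem_affineSub.2 (B.e_mem i))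
    (mem_affineSub.2 (B.e_mem j)))) (((B.e_lead i).mul (B.e_lead j)).ordGe B.ord_t)

/-- The coordinates of `e i * e j`. -/
def coords (i j : Fin B.a) : Fin B.a → K[X] := (B.exists_coords i j).choose

theorem val_coords (i j : Fin B.a) : B.val (B.coords i j) = B.e i * B.e j :=
  (B.exists_coords i j).choose_spec.1

theorem val_smul (p : K[X]) (h : Fin B.a → K[X]) : B.val (p • h) = aeval B.x p * B.val h := by
  rw [val_apply, val_apply, Finset.mul_sum]
  exact Finset.sum_congr rfl fun i _ => by rw [Pi.smul_apply, smul_eq_mul, map_mul, mul_assoc]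

/-- The finitely many coefficients of the structure constants. -/
def coeffSet : Finset K :=
  letI := Classical.decEq K
  Finset.univ.biUnion fun i => Finset.univ.biUnion fun j => Finset.univ.biUnion fun l =>
    (B.coords i j l).support.image fun s => (B.coords i j l).coeff s

/-- A finitely generated ring of definition. -/
def base : Subalgebra ℤ K := Algebra.adjoin ℤ (B.coeffSet : Set K)

theorem base_fg : B.base.FG := Subalgebra.fg_adjoin_finset _

theorem exists_lift (i j l : Fin B.a) :
    ∃ p : B.base[X], p.map (algebraMap B.base K) = B.coords i j l := by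
  classical
  refine (Polynomial.mem_lifts _).1 ((lifts_iff_coeff_lifts _).2 fun s => ?_)
  by_cases h : (B.coords i j l).coeff s = 0
  · exact ⟨0, by rw [map_zero, h]⟩
  refine ⟨⟨_, Algebra.subset_adjoin ?_⟩, rfl⟩
  simp only [coeffSet, Finset.mem_coe, Finset.mem_biUnion, Finset.mem_univ, true_and,
    Finset.mem_image, Polynomial.mem_support_iff]
  exact ⟨i, j, l, s, h, rfl⟩

theorem mapBase_injective : Function.Injective (Polynomial.map (algebraMap B.base K)) :=
  Polynomial.map_injective _ Subtype.val_injective

/-- The structure constants over the ring of definition. -/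
def baseT (i j l : Fin B.a) : B.base[X] := (B.exists_lift i j l).choose

theorem map_baseT (i j l : Fin B.a) : (B.baseT i j l).map (algebraMap B.base K) = B.coords i j l :=
  (B.exists_lift i j l).choose_spec

/-- The model. -/
def model : Model B.base where
  a := B.a
  a_ne := B.a_ne
  w := B.w
  w_zero := B.w_zero
  w_mod := B.w_mod
  w_add i j := B.w_min (B.w i + B.w j) (B.e i * B.e j)
    (mem_affineSub.1 (mul_mem (mem_affineSub.2 (B.e_mem i)) (mem_affineSub.2 (B.e_mem j))))
    (by simpa using (B.e_lead i).mul (B.e_lead j)) (i + j)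
    (by rw [Fin.val_add]; conv_rhs => rw [Nat.add_mod, B.w_mod, B.w_mod])
  T := B.baseT
  T_comm i j l := B.mapBase_injective <| by
    rw [map_baseT, map_baseT]
    exact congrFun (B.val_injective (by rw [val_coords, val_coords, mul_comm])) l
  T_one j l := B.mapBase_injective <| by
    rw [map_baseT]
    have h : B.coords 0 j = Pi.single j 1 := B.val_injective (by
      rw [val_coords, B.e_zero, one_mul]
      have := B.val_single j 0 1
      simpa using this.symm)
    rw [h]
    rcases eq_or_ne j l with rfl | hne
    · simp
    · simp [hne, hne.symm]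
  T_assoc i j k l := B.mapBase_injective <| by
    simp only [Polynomial.map_sum, Polynomial.map_mul, map_baseT]
    have key : (∑ m, B.coords i j m • B.coords m k) = ∑ m, B.coords j k m • B.coords i m := by
      refine B.val_injective ?_
      simp only [map_sum, val_smul, val_coords]
      simp only [← mul_assoc, ← Finset.sum_mul]
      rw [← val_apply, val_coords]
      have : ∀ m, aeval B.x (B.coords j k m) * B.e i * B.e m
          = B.e i * (aeval B.x (B.coords j k m) * B.e m) := fun m => by ring
      rw [Finset.sum_congr rfl fun m _ => this m, ← Finset.mul_sum, ← val_apply, val_coords]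
      ring
    simpa using congrFun key l
  T_deg i j l n h := by
    apply Subtype.val_injective
    show algebraMap B.base K ((B.baseT i j l).coeff n) = algebraMap B.base K (0 : B.base)
    rw [← Polynomial.coeff_map]
    exact (congrArg (Polynomial.coeff · n) (B.map_baseT i j l)).trans
      (((B.exists_coords i j).choose_spec.2.1 l n h).trans (map_zero _).symm)
  T_lead i j l n h := by
    apply Subtype.val_injective
    show algebraMap B.base K ((B.baseT i j l).coeff n) = algebraMap B.base K (1 : B.base)
    rw [← Polynomial.coeff_map]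
    refine (congrArg (Polynomial.coeff · n) (B.map_baseT i j l)).trans
      (((B.exists_coords i j).choose_spec.2.2 l n 1 h ?_).trans (map_one _).symm)
    simpa using (B.e_lead i).mul (B.e_lead j)

theorem val_mulVec (p q : Fin B.a → K[X]) :
    B.val (∑ i, ∑ j, (p i * q j) • B.coords i j) = B.val p * B.val q := by
  simp only [map_sum, val_smul, val_coords]
  simp only [val_apply, Finset.sum_mul_sum, map_mul]
  exact Finset.sum_congr rfl fun i _ => Finset.sum_congr rfl fun j _ => by ring

theorem Tk_model (i j l : Fin B.a) : B.model.Tk K i j l = B.coords i j l := B.map_baseT i j l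

/-- The inclusion of the algebra of the model into the function field. -/
def toField : B.model.Alg K →ₐ[K] F where
  toFun f := B.val f
  map_zero' := B.val.map_zero
  map_add' f g := B.val.map_add f g
  map_one' := by
    have h := B.val_single 0 0 1
    have h1 : (1 : B.model.Alg K) = (Pi.single 0 (C 1 * X ^ 0) : Fin B.a → K[X]) := by
      funext i
      rw [Model.Alg.one_apply]
      rcases eq_or_ne i 0 with rfl | hi
      · simp
        exact (Pi.single_eq_same (M := fun _ : Fin B.a => K[X]) (0 : Fin B.a) (1 : K[X])).symm
      · simpa [hi] using (Pi.single_eq_of_ne (M := fun _ : Fin B.a => K[X]) (i := (0 : Fin B.a))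
          (i' := i) hi (1 : K[X])).symm
    rw [h1, h]
    simp [B.e_zero]
  map_mul' f g := by
    show B.val (f * g : B.model.Alg K) = B.val f * B.val g
    have h : (f * g : B.model.Alg K)
        = (∑ i, ∑ j, (f i * g j) • B.coords i j : Fin B.a → K[X]) := by
      funext l
      refine Eq.trans ?_ (Finset.sum_apply (M := fun _ : Fin B.a => K[X]) l _ _).symm
      refine Finset.sum_congr rfl fun i _ => ?_
      refine Eq.trans ?_ (Finset.sum_apply (M := fun _ : Fin B.a => K[X]) l _ _).symm
      refine Finset.sum_congr rfl fun j _ => ?_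
      exact congrArg (f i * g j * ·) (B.Tk_model i j l)
    rw [h]
    exact B.val_mulVec f g
  commutes' c := by
    show B.val (algebraMap K (B.model.Alg K) c) = _
    have h1 : (algebraMap K (B.model.Alg K) c) = (Pi.single 0 (C c * X ^ 0) : Fin B.a → K[X]) := by
      funext i
      rw [Algebra.algebraMap_eq_smul_one, Model.Alg.smul_const_apply, Model.Alg.one_apply]
      rcases eq_or_ne i 0 with rfl | hi
      · simp
        exact (Pi.single_eq_same (M := fun _ : Fin B.a => K[X]) (0 : Fin B.a) (C c)).symm
      · simpa [hi] using (Pi.single_eq_of_ne (M := fun _ : Fin B.a => K[X]) (i := (0 : Fin B.a))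
          (i' := i) hi (C c)).symm
    rw [h1, B.val_single, B.e_zero, Algebra.smul_def]
    simp

theorem toField_apply (f : B.model.Alg K) : B.toField f = B.val f := rfl

theorem toField_injective : Function.Injective B.toField := fun _ _ h => B.val_injective h

theorem inA_toField (f : B.model.Alg K) : InA P (B.toField f) := B.val_mem f

instance : Algebra (B.model.Alg K) F := B.toField.toRingHom.toAlgebra

theorem algebraMap_apply' (f : B.model.Alg K) : algebraMap (B.model.Alg K) F f = B.toField f := rfl

instance : IsScalarTower K (B.model.Alg K) F :=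
  IsScalarTower.of_algebraMap_eq fun c => (B.toField.commutes c).symm

theorem exists_toField_eq {f : F} (hf : InA P f) : ∃ h, B.toField h = f :=
  B.exists_val_eq_of_inA hf

theorem exists_mul_inA {f : F} (hf : f ≠ 0) : ∃ h, InA P h ∧ h ≠ 0 ∧ InA P (f * h) := by
  classical
  set D := Finsupp.erase P (zeroDivisor (K := K) f⁻¹) with hD
  set n := Divisor.degree D + genusFF K F
  have h1 := riemann_inequality (Finsupp.single P n - D)
  rw [map_sub, Divisor.degree_single, deg_eq_one, Nat.cast_one, mul_one] at h1
  have hpos : 0 < Module.finrank K (riemannRochSpace (Finsupp.single P n - D)) := by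
    simp only [ell] at h1
    omega
  obtain ⟨⟨h, hh⟩, hne⟩ := Module.finrank_pos_iff_exists_ne_zero.1 hpos
  have hh0 : h ≠ 0 := fun h0 => hne (Subtype.ext h0)
  rw [mem_riemannRochSpace] at hh
  have hord : ∀ v, v ≠ P → max (-v.ord f) 0 ≤ v.ord h := fun v hv => by
    have := (hh v).le_ord hh0
    simp only [Finsupp.sub_apply, Finsupp.single_eq_of_ne hv, hD, Finsupp.erase_ne hv,
      zeroDivisor_apply, v.ord_inv] at this
    omega
  refine ⟨h, fun v hv => ordGe_of_le_ord (by have := hord v hv; omega), hh0, fun v hv => ?_⟩
  refine ordGe_of_le_ord ?_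
  rw [v.ord_mul hf hh0]
  have := hord v hv
  omega

instance : FaithfulSMul (B.model.Alg K) F :=
  (faithfulSMul_iff_algebraMap_injective _ _).2 B.toField_injective

instance : IsFractionRing (B.model.Alg K) F := IsFractionRing.of_field _ _ fun f => by
  rcases eq_or_ne f 0 with rfl | hf
  · exact ⟨0, 1, by simp⟩
  obtain ⟨h, hh, hh0, hfh⟩ := exists_mul_inA (P := P) hf
  obtain ⟨x, hx⟩ := B.exists_toField_eq hfh
  obtain ⟨y, hy⟩ := B.exists_toField_eq hh
  exact ⟨x, y, by rw [algebraMap_apply', algebraMap_apply', hx, hy, mul_div_cancel_right₀ _ hh0]⟩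

theorem normal : B.model.Normal K := by
  intro p b hw
  set g₀ : B.model.Alg K := Model.constVec b
  have hy0 : B.toField p.y ≠ 0 := by
    rw [← map_zero B.toField]
    exact fun h => p.y_ne_zero (B.toField_injective h)
  set β := B.toField g₀ / B.toField p.y with hβ
  have hpow : ∀ n : ℕ, ∃ g ∈ p.ideal, β ^ n * B.toField p.y = B.toField g := by
    intro n
    induction n with
    | zero => exact ⟨p.y, p.eval_y, by simp⟩
    | succ n ih =>
      obtain ⟨g, hg, hgn⟩ := ih
      obtain ⟨g', hg', hgg⟩ := hw.mul_mem hg
      refine ⟨g', hg', ?_⟩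
      rw [pow_succ', mul_assoc, hgn, hβ, div_mul_eq_mul_div, div_eq_iff hy0, ← map_mul, ← map_mul,
        hgg, mul_comm p.y]
  have hA : InA P β := fun v hv => by
    rcases eq_or_ne β 0 with h0 | h0
    · exact ordGe_iff.2 (Or.inl h0)
    refine ordGe_of_le_ord (le_of_not_gt fun hlt => ?_)
    obtain ⟨g, -, hg⟩ := hpow ((v.ord (B.toField p.y)).toNat + 1)
    have h1 := (B.inA_toField g v hv).le_ord (by rw [← hg]; exact mul_ne_zero (pow_ne_zero _ h0) hy0)
    rw [← hg, v.ord_mul (pow_ne_zero _ h0) hy0, ord_pow] at h1
    have h2 : (((v.ord (B.toField p.y)).toNat + 1 : ℕ) : ℤ) * v.ord β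
        ≤ (((v.ord (B.toField p.y)).toNat + 1 : ℕ) : ℤ) * (-1) :=
      mul_le_mul_of_nonneg_left (by omega) (Int.natCast_nonneg _)
    omega
  obtain ⟨q, hq⟩ := B.exists_toField_eq hA
  have hg₀ : g₀ = p.y * q := B.toField_injective (by
    rw [map_mul, hq, hβ, mul_div_cancel₀ _ hy0])
  funext l
  have := (Model.exists_eq_y_mul_iff p g₀).1 ⟨q, hg₀⟩ l
  simpa [g₀, Model.constVec_apply] using this

instance isDedekindDomain : IsDedekindDomain (B.model.Alg K) := B.normal.isDedekindDomain

/-- The pieces of the Riemann–Roch spaces of multiples of `P`. -/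
theorem finrank_riemannRochSpace_single (n : ℕ) :
    Module.finrank K (riemannRochSpace (Finsupp.single P (n : ℤ)))
      = Module.finrank K (B.model.belowSub K n) := by
  have hmem : ∀ f : B.model.Alg K,
      f ∈ B.model.belowSub K n ↔ B.toField f ∈ riemannRochSpace (Finsupp.single P (n : ℤ)) := by
    intro f
    rw [Model.mem_belowSub, mem_riemannRochSpace_single]
    constructor
    · refine fun h => ⟨B.inA_toField f, (B.lead_val (n := n) f fun i s hs => ?_).ordGe B.ord_t⟩
      exact (B.model.coef_add_mul i s f).symm.trans (h _ hs)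
    · rintro ⟨-, h⟩ m hm
      obtain ⟨g, hg, hb, -⟩ := B.exists_val_eq n (B.toField f) (B.inA_toField f) h
      obtain rfl : g = f := B.val_injective hg
      by_cases hS : B.model.InS m
      · obtain ⟨i, s, rfl⟩ := B.model.inS_iff_exists.1 hS
        exact (B.model.coef_add_mul i s _).trans (hb i s hm)
      · exact B.model.coef_of_not_inS hS _
  refine (LinearEquiv.ofBijective ((B.toField.toLinearMap.domRestrict _).codRestrict
    (riemannRochSpace (Finsupp.single P (n : ℤ))) fun f => (hmem _).1 f.2) ⟨?_, ?_⟩).finrank_eq.symm
  · intro x y h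
    exact Subtype.ext (B.toField_injective (congrArg Subtype.val h))
  · rintro ⟨f, hf⟩
    obtain ⟨g, rfl⟩ := B.exists_toField_eq (mem_riemannRochSpace_single.1 hf).1
    exact ⟨⟨g, (hmem g).2 hf⟩, rfl⟩

theorem genus_model : B.model.genus = genusFF K F := by
  classical
  obtain ⟨d, hd⟩ := exists_forall_finrank_H1_eq_zero (K := K) (F := F)
  set n := d.toNat + 2 * B.model.genus
  have hdeg : Divisor.degree (Finsupp.single P (n : ℤ)) = n := by
    rw [Divisor.degree_single, deg_eq_one, Nat.cast_one, mul_one]
  have h1 := riemann_roch_isAlgClosed (Finsupp.single P (n : ℤ))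
  rw [hd _ (by rw [hdeg]; omega), hdeg] at h1
  have htop : (⊤ : Ideal (B.model.Alg K)) ≠ ⊥ := top_ne_bot
  have h2 := B.model.card_attUpTo htop (n := n) (by rw [Model.colength_top]; omega)
  have h3 : (B.model.attUpTo (⊤ : Ideal (B.model.Alg K)) n)
      = (Finset.range (n + 1)).filter (· ∈ B.model.degSet (B.model.sub (⊤ : Ideal (B.model.Alg K)))) := by
    ext m
    rw [B.model.mem_attUpTo htop, Finset.mem_filter, Finset.mem_range, Nat.lt_succ_iff]
  rw [h3, ← (B.model.finrank_inf_belowSub _ n).2, Model.colength_top] at h2
  rw [ell, B.finrank_riemannRochSpace_single n] at h1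
  rw [show B.model.sub (⊤ : Ideal (B.model.Alg K)) = ⊤ from rfl, top_inf_eq] at h2
  omega

end MonBasis

end FLTAgent.PicTorsion
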