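import Fermat.Agent.PicTorsion.Model
import Mathlib.Algebra.Polynomial.RingDivision
import Mathlib.LinearAlgebra.FiniteDimensional.Lemmas
import Mathlib.LinearAlgebra.Isomorphisms
import Mathlib.RingTheory.Ideal.Quotient.Basic

/-!
# Triangular bases of subspaces of the algebra of a model
-/

set_option autoImplicit false

noncomputable section

open Polynomial

namespace FLTAgent.PicTorsion

namespace Model

variable {R : Type*} [CommRing R] (M : Model R) {k : Type*} [Field k] [Algebra R k]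

/-- The degree. -/
def deg (f : M.Alg k) : ℕ := (M.supp f).sup id

theorem below_deg (f : M.Alg k) : M.Below f (M.deg f) := fun n hn => by
  by_contra h
  exact absurd (Finset.le_sup (f := id) ((M.mem_supp).2 h)) (not_le.2 hn)

theorem supp_nonempty {f : M.Alg k} (hf : f ≠ 0) : (M.supp f).Nonempty := by
  rw [Finset.nonempty_iff_ne_empty]
  intro h
  apply hf
  rw [← M.sum_supp f, h, Finset.sum_empty]

theorem coef_deg_ne_zero {f : M.Alg k} (hf : f ≠ 0) : M.coef (M.deg f) f ≠ 0 := by
  obtain ⟨n, hn, h⟩ := Finset.exists_mem_eq_sup _ (M.supp_nonempty hf) id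
  rw [deg, h]
  exact M.mem_supp.1 hn

theorem inS_of_coef_ne_zero {f : M.Alg k} {n : ℕ} (h : M.coef n f ≠ 0) : M.InS n := by
  by_contra hn
  exact h (M.coef_of_not_inS hn f)

theorem inS_deg {f : M.Alg k} (hf : f ≠ 0) : M.InS (M.deg f) :=
  M.inS_of_coef_ne_zero (M.coef_deg_ne_zero hf)

theorem ne_zero_of_coef {f : M.Alg k} {n : ℕ} (h : M.coef n f ≠ 0) : f ≠ 0 := fun hf => h (by
  rw [hf, coef_zero])

theorem deg_le_of_below {f : M.Alg k} {n : ℕ} (h : M.Below f n) : M.deg f ≤ n :=
  Finset.sup_le fun _ hm => Below.mem_supp_le M h hm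

theorem deg_eq_of_coef_ne_zero {f : M.Alg k} {n : ℕ} (h : M.Below f n) (hn : M.coef n f ≠ 0) :
    M.deg f = n :=
  le_antisymm (M.deg_le_of_below h) (Finset.le_sup (f := id) (M.mem_supp.2 hn))

theorem mul_ne_zero' {f g : M.Alg k} (hf : f ≠ 0) (hg : g ≠ 0) :
    f * g ≠ 0 ∧ M.deg (f * g) = M.deg f + M.deg g := by
  have h := coef_mul_top M (M.below_deg f) (M.below_deg g)
  have h0 : M.coef (M.deg f + M.deg g) (f * g) ≠ 0 := by
    rw [h]; exact mul_ne_zero (M.coef_deg_ne_zero hf) (M.coef_deg_ne_zero hg)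
  exact ⟨M.ne_zero_of_coef h0,
    M.deg_eq_of_coef_ne_zero ((M.below_deg f).mul M (M.below_deg g)) h0⟩

theorem deg_mul {f g : M.Alg k} (hf : f ≠ 0) (hg : g ≠ 0) :
    M.deg (f * g) = M.deg f + M.deg g := (M.mul_ne_zero' hf hg).2

theorem below_mon {n : ℕ} (hn : M.InS n) : M.Below (M.mon n : M.Alg k) n := fun m hm => by
  rw [coef_mon M hn, if_neg hm.ne']

theorem coef_mon_self {n : ℕ} (hn : M.InS n) : M.coef n (M.mon n : M.Alg k) = 1 := by
  rw [coef_mon M hn, if_pos rfl]

theorem mon_ne_zero {n : ℕ} (hn : M.InS n) : (M.mon n : M.Alg k) ≠ 0 :=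
  M.ne_zero_of_coef (n := n) (by rw [coef_mon_self M hn]; exact one_ne_zero)

theorem deg_mon {n : ℕ} (hn : M.InS n) : M.deg (M.mon n : M.Alg k) = n :=
  M.deg_eq_of_coef_ne_zero (M.below_mon hn) (by rw [coef_mon_self M hn]; exact one_ne_zero)

instance : Nontrivial (M.Alg k) :=
  ⟨1, 0, by rw [← M.mon_zero]; exact M.mon_ne_zero M.inS_zero⟩

instance : NoZeroDivisors (M.Alg k) :=
  ⟨fun {f g} h => by
    by_contra hc
    rw [not_or] at hc
    exact (M.mul_ne_zero' hc.1 hc.2).1 h⟩

instance : IsDomain (M.Alg k) := NoZeroDivisors.to_isDomain _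

theorem deg_one : M.deg (1 : M.Alg k) = 0 := by rw [← M.mon_zero, M.deg_mon M.inS_zero]

theorem deg_zero : M.deg (0 : M.Alg k) = 0 :=
  Nat.le_zero.1 (M.deg_le_of_below fun _ _ => M.coef_zero _)

theorem below_zero_iff {f : M.Alg k} : M.Below f 0 ↔ ∃ c : k, f = algebraMap k (M.Alg k) c := by
  constructor
  · intro h
    refine ⟨M.coef 0 f, M.ext_coef fun n => ?_⟩
    rw [Algebra.algebraMap_eq_smul_one, coef_smul, ← M.mon_zero, coef_mon M M.inS_zero]
    rcases Nat.eq_zero_or_pos n with rfl | hn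
    · simp
    · rw [h n hn, if_neg hn.ne']; simp
  · rintro ⟨c, rfl⟩ n hn
    rw [Algebra.algebraMap_eq_smul_one, coef_smul, ← M.mon_zero, coef_mon M M.inS_zero,
      if_neg hn.ne', mul_zero]

theorem isUnit_of_deg_eq_zero {f : M.Alg k} (hf : f ≠ 0) (h : M.deg f = 0) : IsUnit f := by
  obtain ⟨c, rfl⟩ := M.below_zero_iff.1 (h ▸ M.below_deg f)
  exact (IsUnit.mk0 c fun hc => hf (by rw [hc, map_zero])).map _

/-- Elements of degree at most `n`. -/
def belowSub (k : Type*) [Field k] [Algebra R k] (n : ℕ) : Submodule k (M.Alg k) where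
  carrier := {f | M.Below f n}
  zero_mem' := fun _ _ => M.coef_zero _
  add_mem' := fun hf hg m hm => by rw [coef_add, hf m hm, hg m hm, add_zero]
  smul_mem' := fun c f hf m hm => by rw [coef_smul, hf m hm, mul_zero]

theorem mem_belowSub {n : ℕ} {f : M.Alg k} : f ∈ M.belowSub k n ↔ M.Below f n := Iff.rfl

theorem mem_belowSub_iff_deg {n : ℕ} {f : M.Alg k} : f ∈ M.belowSub k n ↔ M.deg f ≤ n :=
  ⟨M.deg_le_of_below, fun h => (M.below_deg f).mono M h⟩

/-- The degrees of the nonzero elements of a subspace. -/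
def degSet (V : Submodule k (M.Alg k)) : Set ℕ := {n | ∃ f ∈ V, f ≠ 0 ∧ M.deg f = n}

theorem inS_of_mem_degSet {V : Submodule k (M.Alg k)} {n : ℕ} (h : n ∈ M.degSet V) : M.InS n := by
  obtain ⟨f, -, hf, rfl⟩ := h
  exact M.inS_deg hf

theorem degSet_mono {V W : Submodule k (M.Alg k)} (h : V ≤ W) : M.degSet V ⊆ M.degSet W :=
  fun _ ⟨f, hf, h0, hd⟩ => ⟨f, h hf, h0, hd⟩

/-- Reduction: modulo `V`, only degrees outside `degSet V` are needed. -/
theorem exists_reduction (V : Submodule k (M.Alg k)) (n : ℕ) :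
    ∀ f : M.Alg k, M.Below f n → ∃ r, f - r ∈ V ∧ M.Below r n ∧
      ∀ m, M.coef m r ≠ 0 → m ∉ M.degSet V := by
  induction n using Nat.strong_induction_on with
  | _ n IH =>
  intro f hf
  -- clear the coordinate of degree `n`
  have key : ∀ g : M.Alg k, M.Below g n → M.coef n g = 0 → ∃ r, g - r ∈ V ∧
      M.Below r n ∧ M.coef n r = 0 ∧ ∀ m, M.coef m r ≠ 0 → m ∉ M.degSet V := by
    intro g hg hg0
    rcases Nat.eq_zero_or_pos n with hn | hn
    · have hz : g = 0 := M.ext_coef fun m => by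
        rw [coef_zero]
        rcases Nat.eq_zero_or_pos m with hm | hm
        · rw [hm, ← hn, hg0]
        · exact hg m (hn ▸ hm)
      exact ⟨0, by simp [hz], fun m _ => M.coef_zero m, M.coef_zero n,
        fun m hm => absurd (M.coef_zero m) hm⟩
    · obtain ⟨r, h1, h2, h3⟩ := IH (n - 1) (by omega) g fun m hm => by
        rcases Nat.lt_or_ge n m with h | h
        · exact hg m h
        · rw [show m = n by omega, hg0]
      exact ⟨r, h1, h2.mono M (by omega), h2 n (by omega), h3⟩
  by_cases hn : n ∈ M.degSet V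
  · obtain ⟨u, hu, hu0, hud⟩ := hn
    have hun : M.coef n u ≠ 0 := hud ▸ M.coef_deg_ne_zero hu0
    set g := f - (M.coef n f / M.coef n u) • u with hg
    obtain ⟨r, h1, h2, -, h3⟩ := key g (fun m hm => by
      rw [hg, coef_sub, coef_smul, hf m hm, M.below_deg u m (hud.symm ▸ hm), mul_zero, sub_zero])
      (by rw [hg, coef_sub, coef_smul, div_mul_cancel₀ _ hun, sub_self])
    refine ⟨r, ?_, h2, h3⟩
    rw [show f - r = (g - r) + (M.coef n f / M.coef n u) • u by rw [hg]; abel]
    exact V.add_mem h1 (V.smul_mem _ hu)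
  · by_cases hnS : M.InS n
    · set g := f - M.coef n f • M.mon n with hg
      obtain ⟨r, h1, h2, h20, h3⟩ := key g (fun m hm => by
        rw [hg, coef_sub, coef_smul, hf m hm, coef_mon M hnS, if_neg hm.ne', mul_zero, sub_zero])
        (by rw [hg, coef_sub, coef_smul, coef_mon_self M hnS, mul_one, sub_self])
      refine ⟨r + M.coef n f • M.mon n, ?_, fun m hm => ?_, fun m hm => ?_⟩
      · rw [show f - (r + M.coef n f • M.mon n) = g - r by rw [hg]; abel]
        exact h1
      · rw [coef_add, coef_smul, h2 m hm, coef_mon M hnS, if_neg hm.ne', mul_zero, add_zero]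
      · rcases eq_or_ne m n with rfl | hmn
        · exact hn
        · rw [coef_add, coef_smul, coef_mon M hnS, if_neg hmn, mul_zero, add_zero] at hm
          exact h3 m hm
    · obtain ⟨r, h1, h2, -, h3⟩ := key f hf (M.coef_of_not_inS hnS f)
      exact ⟨r, h1, h2, h3⟩

/-- Elements supported outside `degSet V`. -/
def outside (V : Submodule k (M.Alg k)) : Submodule k (M.Alg k) where
  carrier := {f | ∀ m, M.coef m f ≠ 0 → m ∉ M.degSet V}
  zero_mem' := fun m hm => absurd (M.coef_zero m) hm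
  add_mem' := fun {f g} hf hg m hm => by
    rw [coef_add] at hm
    by_cases h : M.coef m f = 0
    · rw [h, zero_add] at hm; exact hg m hm
    · exact hf m h
  smul_mem' := fun c f hf m hm => hf m fun h => hm (by rw [coef_smul, h, mul_zero])

theorem isCompl_outside (V : Submodule k (M.Alg k)) : IsCompl V (M.outside V) := by
  refine ⟨Submodule.disjoint_def.2 fun f hf hfo => ?_, codisjoint_iff.2 (eq_top_iff.2 fun f _ => ?_)⟩
  · by_contra h
    exact hfo _ (M.coef_deg_ne_zero h) ⟨f, hf, h, rfl⟩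
  · obtain ⟨r, h1, -, h3⟩ := M.exists_reduction V _ f (M.below_deg f)
    rw [show f = (f - r) + r by abel]
    exact Submodule.add_mem_sup h1 h3

theorem eq_of_le_of_degSet_subset {V W : Submodule k (M.Alg k)} (h : V ≤ W)
    (hd : M.degSet W ⊆ M.degSet V) : V = W := by
  refine le_antisymm h fun f hf => ?_
  obtain ⟨r, h1, -, h3⟩ := M.exists_reduction V _ f (M.below_deg f)
  have hr : r = 0 := by
    by_contra hr0
    have hrW : r ∈ W := by
      rw [show r = f - (f - r) by abel]
      exact W.sub_mem hf (h h1)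
    exact h3 _ (M.coef_deg_ne_zero hr0) (hd ⟨r, hrW, hr0, rfl⟩)
  rwa [hr, sub_zero] at h1

/-- The reduced element of a given degree. -/
theorem exists_reduced {V : Submodule k (M.Alg k)} {n : ℕ} (hn : n ∈ M.degSet V) :
    ∃ u ∈ V, M.Below u n ∧ M.coef n u = 1 ∧ M.deg u = n ∧
      ∀ m, m ≠ n → M.coef m u ≠ 0 → m ∉ M.degSet V := by
  have hnS := M.inS_of_mem_degSet hn
  obtain ⟨r, h1, h2, h3⟩ := M.exists_reduction V n _ (M.below_mon hnS)
  have hrn : M.coef n r = 0 := by
    by_contra h
    exact h3 n h hn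
  have hb : M.Below (M.mon n - r) n := (M.belowSub k n).sub_mem (M.below_mon hnS) h2
  have h1' : M.coef n (M.mon n - r) = 1 := by
    rw [coef_sub, coef_mon_self M hnS, hrn, sub_zero]
  refine ⟨_, h1, hb, h1', M.deg_eq_of_coef_ne_zero hb (h1' ▸ one_ne_zero), fun m hm hm0 => ?_⟩
  refine h3 m fun h => hm0 ?_
  rw [coef_sub, coef_mon M hnS, if_neg hm, h, sub_zero]

section Outside

variable (V : Submodule k (M.Alg k)) (U : Finset ℕ)

/-- Coordinates on the complement. -/
def outsideCoord : M.outside V →ₗ[k] U → k :=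
  (LinearMap.pi fun n : U => M.coefₗ (n : ℕ)).comp (M.outside V).subtype

theorem outsideCoord_bijective (hU : ∀ n, n ∈ U ↔ M.InS n ∧ n ∉ M.degSet V) :
    Function.Bijective (M.outsideCoord V U) := by
  constructor
  · intro f g h
    apply Subtype.ext
    refine M.ext_coef fun m => ?_
    by_cases hm : m ∈ U
    · exact congrFun h ⟨m, hm⟩
    · have : ∀ e : M.outside V, M.coef m (e : M.Alg k) = 0 := fun e => by
        by_contra he
        exact hm ((hU m).2 ⟨M.inS_of_coef_ne_zero he, e.2 m he⟩)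
      rw [this, this]
  · intro c
    have h : ∀ m, M.coef m (∑ n : U, c n • (M.mon n : M.Alg k))
        = if hm : m ∈ U then c ⟨m, hm⟩ else 0 := fun m => by
      rw [coef_sum]
      simp only [coef_smul, coef_mon M ((hU _).1 (Subtype.mem _)).1, mul_ite, mul_one, mul_zero]
      split
      · next hm =>
        rw [Finset.sum_eq_single (⟨m, hm⟩ : U)] <;> simp +contextual [Subtype.ext_iff, eq_comm]
      · next hm =>
        exact Finset.sum_eq_zero fun n _ => by rw [if_neg]; rintro rfl; exact hm n.2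
    refine ⟨⟨∑ n : U, c n • (M.mon n : M.Alg k), fun m hm => ?_⟩, funext fun n => ?_⟩
    · rw [h] at hm
      split at hm
      · next hmU => exact ((hU m).1 hmU).2
      · exact absurd rfl hm
    · show M.coef n (∑ n : U, c n • (M.mon n : M.Alg k)) = c n
      rw [h, dif_pos n.2]

theorem finite_quotient (hU : ∀ n, n ∈ U ↔ M.InS n ∧ n ∉ M.degSet V) :
    FiniteDimensional k (M.Alg k ⧸ V) ∧ Module.finrank k (M.Alg k ⧸ V) = U.card := by
  let e : (M.Alg k ⧸ V) ≃ₗ[k] (U → k) :=
    (Submodule.quotientEquivOfIsCompl V _ (M.isCompl_outside V)).trans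
      (LinearEquiv.ofBijective _ (M.outsideCoord_bijective V U hU))
  exact ⟨Module.Finite.equiv e.symm, by rw [e.finrank_eq]; simp⟩

end Outside

theorem exists_map_coef (V : Submodule k (M.Alg k)) (n : ℕ) :
    ((V ⊓ M.belowSub k (n + 1)).map (M.coefₗ (n + 1)) = ⊤ ↔ n + 1 ∈ M.degSet V) := by
  constructor
  · intro h
    obtain ⟨f, hf, h1⟩ : (1 : k) ∈ (V ⊓ M.belowSub k (n + 1)).map (M.coefₗ (n + 1)) :=
      h ▸ Submodule.mem_top
    have hne : M.coef (n + 1) f ≠ 0 := ne_of_eq_of_ne h1 one_ne_zero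
    exact ⟨f, hf.1, M.ne_zero_of_coef hne, M.deg_eq_of_coef_ne_zero hf.2 hne⟩
  · intro h
    obtain ⟨u, hu, hub, hu1, -, -⟩ := M.exists_reduced h
    refine eq_top_iff.2 fun c _ => ⟨c • u, ⟨V.smul_mem c hu, (M.belowSub k _).smul_mem c hub⟩, ?_⟩
    show M.coef (n + 1) (c • u) = c
    rw [coef_smul, hu1, mul_one]

theorem inf_belowSub_succ (V : Submodule k (M.Alg k)) (n : ℕ) :
    (LinearMap.ker ((M.coefₗ (n + 1)).domRestrict (V ⊓ M.belowSub k (n + 1)))).map
      (V ⊓ M.belowSub k (n + 1)).subtype = V ⊓ M.belowSub k n := by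
  ext f
  constructor
  · rintro ⟨⟨g, hgV, hgb⟩, hg0, rfl⟩
    refine ⟨hgV, fun m hm => ?_⟩
    rcases Nat.lt_or_ge (n + 1) m with h | h
    · exact hgb m h
    · rw [show m = n + 1 by omega]; exact hg0
  · rintro ⟨hV, hb⟩
    exact ⟨⟨f, hV, hb.mono M n.le_succ⟩, hb (n + 1) n.lt_succ_self, rfl⟩

open scoped Classical in
/-- The dimension of the part of `V` in degree at most `n`. -/
theorem finrank_inf_belowSub (V : Submodule k (M.Alg k)) (n : ℕ) :
    FiniteDimensional k (V ⊓ M.belowSub k n : Submodule k (M.Alg k)) ∧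
    Module.finrank k (V ⊓ M.belowSub k n : Submodule k (M.Alg k))
      = ((Finset.range (n + 1)).filter (· ∈ M.degSet V)).card := by
  induction n with
  | zero =>
    by_cases h : (0 : ℕ) ∈ M.degSet V
    · obtain ⟨u, hu, hub, hu1, -, -⟩ := M.exists_reduced h
      have hu' : u = 1 := by
        obtain ⟨c, rfl⟩ := M.below_zero_iff.1 hub
        rw [Algebra.algebraMap_eq_smul_one, coef_smul, ← M.mon_zero, coef_mon_self M M.inS_zero,
          mul_one] at hu1
        rw [hu1, map_one]
      have he : V ⊓ M.belowSub k 0 = Submodule.span k {(1 : M.Alg k)} := by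
        refine le_antisymm (fun f hf => ?_) ((Submodule.span_singleton_le_iff_mem _ _).2
          ⟨hu' ▸ hu, hu' ▸ hub⟩)
        obtain ⟨c, rfl⟩ := M.below_zero_iff.1 hf.2
        exact Submodule.mem_span_singleton.2 ⟨c, (Algebra.algebraMap_eq_smul_one c).symm⟩
      refine ⟨he ▸ inferInstance, ?_⟩
      rw [he, finrank_span_singleton one_ne_zero, Finset.filter_true_of_mem (by simpa using h)]
      simp
    · have he : V ⊓ M.belowSub k 0 = ⊥ := by
        rw [eq_bot_iff]
        intro f hf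
        by_contra h0
        exact h ⟨f, hf.1, h0, Nat.le_zero.1 (M.deg_le_of_below hf.2)⟩
      refine ⟨he ▸ inferInstance, ?_⟩
      rw [he, finrank_bot, Finset.filter_false_of_mem (by simpa using h)]
      simp
  | succ n ih =>
    obtain ⟨hfin, hrank⟩ := ih
    set W := V ⊓ M.belowSub k (n + 1)
    set ψ := (M.coefₗ (n + 1)).domRestrict W with hψ
    have e : LinearMap.ker ψ ≃ₗ[k] (V ⊓ M.belowSub k n : Submodule k (M.Alg k)) :=
      (Submodule.equivMapOfInjective _ W.injective_subtype _).trans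
        (LinearEquiv.ofEq _ _ (M.inf_belowSub_succ V n))
    have : FiniteDimensional k (LinearMap.ker ψ) := Module.Finite.equiv e.symm
    have : FiniteDimensional k (W ⧸ LinearMap.ker ψ) :=
      Module.Finite.equiv ψ.quotKerEquivRange.symm
    have hW : FiniteDimensional k W := Module.Finite.of_submodule_quotient (LinearMap.ker ψ)
    refine ⟨hW, ?_⟩
    have h := LinearMap.finrank_range_add_finrank_ker ψ
    rw [e.finrank_eq, hrank, hψ, LinearMap.range_domRestrict] at h
    rw [← h, Finset.range_add_one (n := n + 1), Finset.filter_insert]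
    split
    · next hn =>
      rw [Finset.card_insert_of_notMem (by simp), (M.exists_map_coef V n).2 hn, finrank_top,
        Module.finrank_self]
      omega
    · next hn =>
      have hne : W.map (M.coefₗ (n + 1)) = ⊥ :=
        (eq_bot_or_eq_top _).resolve_right fun h => hn ((M.exists_map_coef V n).1 h)
      rw [hne, finrank_bot, zero_add]

end Model

end FLTAgent.PicTorsion
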