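import Mathlib.FieldTheory.Finite.Basic
import Mathlib.FieldTheory.Finite.GaloisField
import Mathlib.FieldTheory.IsAlgClosed.Basic
import Mathlib.FieldTheory.IntermediateField.Algebraic
import Mathlib.FieldTheory.Finiteness
import Mathlib.RingTheory.Algebraic.Basic

/-!
# The finite subfields of an algebraic closure of a finite field
-/

set_option autoImplicit false

noncomputable section

open Polynomial

namespace FLTAgent.PicTorsion

variable (k₀ Ω : Type*) [Field k₀] [Finite k₀] [Field Ω] [Algebra k₀ Ω]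

/-- The Frobenius of `Ω` over `k₀`. -/
def frob : Ω →ₐ[k₀] Ω :=
  letI := Fintype.ofFinite k₀
  FiniteField.frobeniusAlgHom k₀ Ω

theorem frob_apply (x : Ω) : frob k₀ Ω x = x ^ Nat.card k₀ := by
  let := Fintype.ofFinite k₀
  rw [Nat.card_eq_fintype_card]
  rfl

theorem frob_pow_apply (n : ℕ) (x : Ω) : (frob k₀ Ω ^ n) x = x ^ Nat.card k₀ ^ n := by
  induction n generalizing x with
  | zero => simp
  | succ n ih => rw [pow_succ, AlgHom.mul_apply, frob_apply, ih, ← pow_mul, pow_succ']

/-- The elements fixed by the `n`-th power of Frobenius. -/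
def fixedField (n : ℕ) : IntermediateField k₀ Ω where
  carrier := {x | (frob k₀ Ω ^ n) x = x}
  mul_mem' := fun {x y} hx hy => by
    show (frob k₀ Ω ^ n) (x * y) = x * y
    rw [map_mul, hx, hy]
  one_mem' := map_one _
  add_mem' := fun {x y} hx hy => by
    show (frob k₀ Ω ^ n) (x + y) = x + y
    rw [map_add, hx, hy]
  zero_mem' := map_zero _
  algebraMap_mem' := fun c => AlgHom.commutes _ c
  inv_mem' := fun x hx => by
    show (frob k₀ Ω ^ n) x⁻¹ = x⁻¹
    rw [map_inv₀, hx]

variable {k₀ Ω}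

theorem mem_fixedField {n : ℕ} {x : Ω} :
    x ∈ fixedField k₀ Ω n ↔ x ^ Nat.card k₀ ^ n = x := by
  rw [← frob_pow_apply]; rfl

theorem fixedField_le_of_dvd {m n : ℕ} (h : m ∣ n) : fixedField k₀ Ω m ≤ fixedField k₀ Ω n := by
  obtain ⟨t, rfl⟩ := h
  intro x hx
  rw [mem_fixedField, pow_mul] at *
  induction t with
  | zero => simp
  | succ t ih => rw [pow_succ, pow_mul, ih, hx]

variable [IsAlgClosed Ω]

theorem natCard_fixedField {n : ℕ} (hn : 0 < n) :
    Finite (fixedField k₀ Ω n) ∧ Nat.card (fixedField k₀ Ω n) = Nat.card k₀ ^ n := by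
  classical
  obtain ⟨p, hp⟩ := CharP.exists k₀
  have : Fintype k₀ := Fintype.ofFinite k₀
  obtain ⟨e, hp', hcard⟩ := FiniteField.card k₀ p
  have : CharP Ω p := charP_of_injective_algebraMap (algebraMap k₀ Ω).injective p
  set Q := Nat.card k₀ ^ n with hQ
  have hpQ : p ∣ Q := by
    rw [hQ, Nat.card_eq_fintype_card, hcard, ← pow_mul]
    exact dvd_pow_self _ (Nat.mul_pos e.pos hn).ne'
  have hQ1 : 1 < Q := Nat.one_lt_pow hn.ne' Finite.one_lt_card
  have hne : (X ^ Q - X : Ω[X]) ≠ 0 := FiniteField.X_pow_card_sub_X_ne_zero Ω hQ1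
  have hset : (fixedField k₀ Ω n : Set Ω) = ((X ^ Q - X : Ω[X]).roots.toFinset : Set Ω) := by
    ext x
    rw [Finset.mem_coe, Multiset.mem_toFinset, mem_roots hne]
    show x ∈ fixedField k₀ Ω n ↔ _
    simp [mem_fixedField, sub_eq_zero, hQ]
  refine ⟨Set.Finite.to_subtype (hset ▸ Finset.finite_toSet _), ?_⟩
  show Nat.card (fixedField k₀ Ω n : Set Ω) = Q
  rw [hset, Nat.card_coe_set_eq, Set.ncard_coe_finset,
    Multiset.toFinset_card_of_nodup (nodup_roots (galois_poly_separable p Q hpQ)),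
    ← (IsAlgClosed.splits _).natDegree_eq_card_roots, FiniteField.X_pow_card_sub_X_natDegree_eq Ω hQ1]

theorem finite_fixedField {n : ℕ} (hn : 0 < n) : Finite (fixedField k₀ Ω n) :=
  (natCard_fixedField hn).1

theorem dvd_of_fixedField_le {m n : ℕ} (hm : 0 < m) (hn : 0 < n)
    (h : fixedField k₀ Ω m ≤ fixedField k₀ Ω n) : m ∣ n := by
  obtain ⟨_, hcm⟩ := natCard_fixedField (k₀ := k₀) (Ω := Ω) hm
  obtain ⟨_, hcn⟩ := natCard_fixedField (k₀ := k₀) (Ω := Ω) hn
  let := (IntermediateField.inclusion h).toRingHom.toAlgebra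
  have : Finite (fixedField k₀ Ω n) := (natCard_fixedField hn).1
  have hc := Module.natCard_eq_pow_finrank (K := fixedField k₀ Ω m) (V := fixedField k₀ Ω n)
  rw [hcm, hcn, ← pow_mul] at hc
  exact ⟨_, Nat.pow_right_injective Finite.one_lt_card hc⟩

theorem exists_mem_fixedField [Algebra.IsAlgebraic k₀ Ω] (x : Ω) :
    ∃ n, 0 < n ∧ x ∈ fixedField k₀ Ω n := by
  have hint : IsIntegral k₀ x := (Algebra.IsAlgebraic.isAlgebraic x).isIntegral
  set L := IntermediateField.adjoin k₀ {x}
  have : FiniteDimensional k₀ L := IntermediateField.adjoin.finiteDimensional hint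
  have : Finite L := Module.finite_of_finite k₀
  have : Fintype L := Fintype.ofFinite L
  refine ⟨Module.finrank k₀ L, Module.finrank_pos, mem_fixedField.2 ?_⟩
  have h := FiniteField.pow_card (⟨x, IntermediateField.mem_adjoin_simple_self k₀ x⟩ : L)
  rw [← Nat.card_eq_fintype_card, Module.natCard_eq_pow_finrank (K := k₀)] at h
  exact congrArg Subtype.val h

theorem exists_forall_mem_fixedField [Algebra.IsAlgebraic k₀ Ω] (s : Finset Ω) :
    ∃ n, 0 < n ∧ ∀ x ∈ s, x ∈ fixedField k₀ Ω n := by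
  classical
  choose f hf0 hf using fun x : Ω => exists_mem_fixedField (k₀ := k₀) x
  exact ⟨∏ x ∈ s, f x, Finset.prod_pos fun x _ => hf0 x,
    fun x hx => fixedField_le_of_dvd (Finset.dvd_prod_of_mem f hx) (hf x)⟩

end FLTAgent.PicTorsion
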