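import Fermat.Agent.PicTorsion.BaseChange
import Fermat.Agent.PicTorsion.FiniteFields

/-!
# Frobenius on classes over an algebraic closure of a finite field; points and primes
-/

set_option autoImplicit false

noncomputable section

open Polynomial

namespace FLTAgent.PicTorsion

namespace Model

variable {R : Type*} [CommRing R] {M : Model R}

section Maps

variable {k k' : Type*} [Field k] [Field k'] [Algebra R k] [Algebra R k']

theorem deg_mapAlg (φ : k →ₐ[R] k') (f : M.Alg k) : M.deg (M.mapAlg φ f) = M.deg f := by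
  let := φ.toRingHom.toAlgebra
  have := IsScalarTower.of_algebraMap_eq (R := R) (S := k) (A := k') fun x => (φ.commutes x).symm
  exact deg_incl f

theorem colength_map (φ : k →ₐ[R] k') (J : Ideal (M.Alg k)) :
    M.colength (J.map (M.mapAlg φ)) = M.colength J := by
  let := φ.toRingHom.toAlgebra
  have := IsScalarTower.of_algebraMap_eq (R := R) (S := k) (A := k') fun x => (φ.commutes x).symm
  exact colength_extend J

theorem map_ne_bot (φ : k →ₐ[R] k') {J : Ideal (M.Alg k)} (hJ : J ≠ ⊥) :
    J.map (M.mapAlg φ) ≠ ⊥ := by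
  let := φ.toRingHom.toAlgebra
  have := IsScalarTower.of_algebraMap_eq (R := R) (S := k) (A := k') fun x => (φ.commutes x).symm
  exact extend_ne_bot hJ

variable [IsDedekindDomain (M.Alg k)] [IsDedekindDomain (M.Alg k')]

/-- Functoriality of classes. -/
def mapCl (φ : k →ₐ[R] k') : ClassGroup (M.Alg k) →* ClassGroup (M.Alg k') :=
  letI := φ.toRingHom.toAlgebra
  haveI := IsScalarTower.of_algebraMap_eq (R := R) (S := k) (A := k') fun x => (φ.commutes x).symm
  M.extendCl k k'

theorem mapCl_cl (φ : k →ₐ[R] k') {I : Ideal (M.Alg k)} (hI : I ≠ ⊥) :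
    mapCl φ (cl I) = cl (I.map (M.mapAlg φ)) := by
  let := φ.toRingHom.toAlgebra
  have := IsScalarTower.of_algebraMap_eq (R := R) (S := k) (A := k') fun x => (φ.commutes x).symm
  exact extendCl_cl hI

end Maps

theorem eval_map_algHom {k k' : Type*} [CommRing k] [CommRing k'] [Algebra R k] [Algebra R k']
    (φ : k →ₐ[R] k') (x : k) (P : k[X]) : (P.map φ.toRingHom).eval (φ x) = φ (P.eval x) := by
  rw [eval_map]
  exact eval₂_hom φ.toRingHom x

section PointHom

variable (k E : Type*) [Field k] [Field E] [Algebra R k] [Algebra R E] [Algebra k E]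
  [IsScalarTower R k E]

/-- Evaluation at a point, restricted to smaller constants. -/
def Point.restrictEval {E : Type*} [Field E] [Algebra R E] [Algebra k E] [IsScalarTower R k E]
    (p : M.Point E) : M.Alg k →ₐ[k] E :=
  { p.eval.toRingHom.comp (M.incl k E) with
    commutes' := fun c => by
      show p.eval (M.incl k E (algebraMap k (M.Alg k) c)) = _
      rw [Algebra.algebraMap_eq_smul_one c, incl_smul, map_one, map_smul, map_one, smul_eq_mul,
        mul_one] }

variable {k E}

theorem Point.restrictEval_apply (p : M.Point E) (f : M.Alg k) :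
    p.restrictEval k f = p.eval (M.incl k E f) := rfl

theorem incl_xel : M.incl k E (M.xel k) = M.xel E := by
  ext1 i
  show ((M.xel k) i).map _ = _
  simp only [xel, Alg.smul_apply, Alg.one_apply]
  split <;> simp

theorem incl_eel (i : Fin M.a) : M.incl k E (M.eel k i) = M.eel E i := by
  ext1 j
  show ((M.eel k i) j).map _ = _
  simp only [eel_apply]
  split <;> simp

/-- Homomorphisms to an extension field are points over it. -/
def pointHomEquiv : M.Point E ≃ (M.Alg k →ₐ[k] E) where
  toFun p := p.restrictEval k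
  invFun φ :=
    { c := φ (M.xel k)
      η := fun i => φ (M.eel k i)
      η_zero := by rw [eel_zero, map_one]
      η_mul := fun i j => by
        rw [← map_mul, eel_mul_eel, map_sum]
        refine Finset.sum_congr rfl fun l _ => ?_
        rw [smul_eq_aeval, map_mul, ← aeval_algHom_apply, Tk, Tk,
          IsScalarTower.algebraMap_eq R k E, ← Polynomial.map_map, eval_map_algebraMap] }
  left_inv p := by
    refine Point.ext ?_ (funext fun i => ?_)
    · show p.restrictEval k (M.xel k) = p.c
      rw [Point.restrictEval_apply, incl_xel, eval_xel]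
    · show p.restrictEval k (M.eel k i) = p.η i
      rw [Point.restrictEval_apply, incl_eel, eval_eel]
  right_inv φ := by
    refine AlgHom.ext fun f => ?_
    conv_rhs => rw [← sum_smul_eel f, map_sum]
    rw [Point.restrictEval_apply, Point.eval_apply]
    refine Finset.sum_congr rfl fun i _ => ?_
    rw [smul_eq_aeval, map_mul, ← aeval_algHom_apply]
    show ((f i).map _).eval _ * _ = _
    rw [show (IsScalarTower.toAlgHom R k E).toRingHom = algebraMap k E from rfl, eval_map_algebraMap]

end PointHom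

section Closure

variable {k₀ Ω : Type*} [Field k₀] [Finite k₀] [Field Ω] [IsAlgClosed Ω] [Algebra R k₀]
  [Algebra R Ω] [Algebra k₀ Ω] [IsScalarTower R k₀ Ω]

/-- The `n`-th power of Frobenius fixing `R`. -/
def frobR (R : Type*) [CommRing R] (k₀ Ω : Type*) [Field k₀] [Finite k₀] [Field Ω] [Algebra R k₀]
    [Algebra R Ω] [Algebra k₀ Ω] [IsScalarTower R k₀ Ω] (n : ℕ) : Ω →ₐ[R] Ω :=
  (frob k₀ Ω ^ n).restrictScalars R

omit [IsAlgClosed Ω] in
theorem frobR_apply (n : ℕ) (x : Ω) : frobR R k₀ Ω n x = (frob k₀ Ω ^ n) x := rfl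

omit [IsAlgClosed Ω] in
theorem frobR_zero (x : Ω) : frobR R k₀ Ω 0 x = x := by rw [frobR_apply, pow_zero]; rfl

omit [IsAlgClosed Ω] in
theorem mapAlg_frobR_add (m n : ℕ) (f : M.Alg Ω) :
    M.mapAlg (frobR R k₀ Ω (m + n)) f
      = M.mapAlg (frobR R k₀ Ω m) (M.mapAlg (frobR R k₀ Ω n) f) :=
  M.ext_coef fun l => by
    simp only [coef_mapAlg, frobR_apply, pow_add, AlgHom.mul_apply]

/-- A point moved by Frobenius. -/
def Point.frobPt (p : M.Point Ω) (k₀ : Type*) [Field k₀] [Finite k₀] [Algebra R k₀] [Algebra k₀ Ω]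
    [IsScalarTower R k₀ Ω] (n : ℕ) : M.Point Ω where
  c := frobR R k₀ Ω n p.c
  η i := frobR R k₀ Ω n (p.η i)
  η_zero := by rw [p.η_zero, map_one]
  η_mul i j := by
    rw [← map_mul, p.η_mul, map_sum]
    refine Finset.sum_congr rfl fun l _ => ?_
    rw [map_mul]
    conv_rhs => rw [← M.Tk_map (frobR R k₀ Ω n) i j l, eval_map_algHom]

omit [IsAlgClosed Ω] in
theorem Point.eval_frobPt (p : M.Point Ω) (n : ℕ) (f : M.Alg Ω) :
    (p.frobPt k₀ n).eval (M.mapAlg (frobR R k₀ Ω n) f) = frobR R k₀ Ω n (p.eval f) := by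
  rw [Point.eval_apply, Point.eval_apply, map_sum]
  refine Finset.sum_congr rfl fun i _ => ?_
  rw [map_mul, mapAlg_apply]
  show ((f i).map _).eval (frobR R k₀ Ω n p.c) * _ = _
  rw [eval_map_algHom]
  rfl

omit [IsAlgClosed Ω] in
theorem Point.frobPt_add (p : M.Point Ω) (m n : ℕ) :
    p.frobPt k₀ (m + n) = (p.frobPt k₀ n).frobPt k₀ m := by
  refine Point.ext ?_ (funext fun i => ?_) <;>
    simp only [Point.frobPt, frobR_apply, pow_add, AlgHom.mul_apply]

instance isScalarTower_fixedField (n : ℕ) : IsScalarTower R (fixedField k₀ Ω n) Ω :=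
  IsScalarTower.of_algebraMap_eq fun _ => rfl

/-- Both coordinates lie in the fixed field of the `n`-th power of Frobenius. -/
def Point.FixedBy (p : M.Point Ω) (k₀ : Type*) [Field k₀] [Finite k₀] [Algebra k₀ Ω] (n : ℕ) : Prop :=
  p.c ∈ fixedField k₀ Ω n ∧ ∀ i, p.η i ∈ fixedField k₀ Ω n

omit [IsAlgClosed Ω] in
theorem Point.frobPt_eq_self {p : M.Point Ω} {n : ℕ} :
    p.frobPt k₀ n = p ↔ p.FixedBy k₀ n := by
  constructor
  · intro h
    exact ⟨congrArg Point.c h, fun i => congrFun (congrArg Point.η h) i⟩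
  · rintro ⟨h1, h2⟩
    exact Point.ext h1 (funext h2)

omit [IsAlgClosed Ω] in
theorem Point.colength_ideal (p : M.Point Ω) : M.colength p.ideal = 1 := by
  rw [← (M.finite_quotient_ideal p.ideal_ne_bot).2]
  exact ((Ideal.quotientKerAlgEquivOfSurjective p.eval_surjective).toLinearEquiv.finrank_eq).trans
    (Module.finrank_self Ω)

omit [IsAlgClosed Ω] in
theorem Point.map_ideal (p : M.Point Ω) (n : ℕ) :
    p.ideal.map (M.mapAlg (frobR R k₀ Ω n)) = (p.frobPt k₀ n).ideal := by
  refine M.eq_of_le_of_colength_eq (map_ne_bot _ p.ideal_ne_bot) ?_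
    (by rw [colength_map, Point.colength_ideal, Point.colength_ideal])
  rw [Ideal.map_le_iff_le_comap]
  intro f hf
  rw [Ideal.mem_comap, Point.mem_ideal, Point.eval_frobPt, Point.mem_ideal.1 hf, map_zero]

omit [IsAlgClosed Ω] in
theorem Point.ideal_injective {p p' : M.Point Ω} (h : p.ideal = p'.ideal) : p = p' := by
  refine Point.ext ?_ (funext fun i => ?_)
  · have h1 : M.xel Ω - p.c • 1 ∈ p'.ideal := h ▸ (Point.mem_ideal.2 (by
      rw [map_sub, eval_xel, map_smul, map_one, smul_eq_mul, mul_one, sub_self]))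
    rw [Point.mem_ideal, map_sub, eval_xel, map_smul, map_one, smul_eq_mul, mul_one, sub_eq_zero] at h1
    exact h1.symm
  · have h1 : M.eel Ω i - p.η i • 1 ∈ p'.ideal := h ▸ (Point.mem_ideal.2 (by
      rw [map_sub, eval_eel, map_smul, map_one, smul_eq_mul, mul_one, sub_self]))
    rw [Point.mem_ideal, map_sub, eval_eel, map_smul, map_one, smul_eq_mul, mul_one, sub_eq_zero] at h1
    exact h1.symm

omit [IsAlgClosed Ω] in
/-- The homomorphism of a point lands where the point lives. -/
theorem Point.restrictEval_mem {r n : ℕ} (hrn : r ∣ n) {p : M.Point Ω} (hp : p.FixedBy k₀ n)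
    (f : M.Alg (fixedField k₀ Ω r)) : p.restrictEval (fixedField k₀ Ω r) f ∈ fixedField k₀ Ω n := by
  rw [Point.restrictEval_apply, Point.eval_apply]
  refine sum_mem fun i _ => mul_mem ?_ (hp.2 i)
  show ((f i).map _).eval p.c ∈ fixedField k₀ Ω n
  rw [eval_map, eval₂_eq_sum_range]
  exact sum_mem fun t _ => mul_mem (fixedField_le_of_dvd hrn ((f i).coeff t).2) (pow_mem hp.1 t)

/-- The kernel of a point on the algebra over a finite field of constants. -/
def Point.below (p : M.Point Ω) (r : ℕ) : Ideal (M.Alg (fixedField k₀ Ω r)) :=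
  RingHom.ker (p.restrictEval (fixedField k₀ Ω r)).toRingHom

section

variable {r : ℕ}

omit [IsAlgClosed Ω] in
theorem Point.below_isPrime (p : M.Point Ω) : (p.below (k₀ := k₀) r).IsPrime :=
  RingHom.ker_isPrime _

theorem Point.below_ne_bot (hr : 0 < r) {n : ℕ} (hn : 0 < n) (hrn : r ∣ n) {p : M.Point Ω}
    (hp : p.FixedBy k₀ n) : p.below (k₀ := k₀) r ≠ ⊥ := by
  intro h
  have hinj : Function.Injective (p.restrictEval (fixedField k₀ Ω r)) :=
    (RingHom.injective_iff_ker_eq_bot _).2 h
  have := finite_fixedField (k₀ := k₀) (Ω := Ω) hn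
  let F : M.Alg (fixedField k₀ Ω r) → fixedField k₀ Ω n :=
    fun f => ⟨_, Point.restrictEval_mem hrn hp f⟩
  have : Finite (M.Alg (fixedField k₀ Ω r)) :=
    Finite.of_injective F fun f g hfg => hinj (congrArg Subtype.val hfg :)
  have : Finite ℕ := Finite.of_injective
    (fun t : ℕ => (M.mon (M.a * t) : M.Alg (fixedField k₀ Ω r))) fun s t hst => by
      have := congrArg M.deg hst
      rw [M.deg_mon (M.inS_mul_a s), M.deg_mon (M.inS_mul_a t)] at this
      exact Nat.eq_of_mul_eq_mul_left M.a_pos this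
  exact not_finite ℕ

theorem fixedBy_iff_dvd (hr : 0 < r) {P : Ideal (M.Alg (fixedField k₀ Ω r))} (hP : P ≠ ⊥)
    [P.IsPrime] {p : M.Point Ω} (hp : p.below r = P) (m : ℕ) (hm : 0 < m) :
    p.FixedBy k₀ (r * m) ↔ M.colength P ∣ m := by
  have := finite_fixedField (k₀ := k₀) (Ω := Ω) hr
  obtain ⟨hfd, hrank⟩ := M.finite_quotient_ideal hP
  have : Finite (M.Alg (fixedField k₀ Ω r) ⧸ P) := Module.finite_of_finite (fixedField k₀ Ω r)
  set d := M.colength P
  have hd : 0 < d := M.colength_pos hP (Ideal.IsPrime.ne_top ‹_›)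
  have hcard : Nat.card (M.Alg (fixedField k₀ Ω r) ⧸ P) = Nat.card k₀ ^ (r * d) := by
    rw [Module.natCard_eq_pow_finrank (K := fixedField k₀ Ω r), hrank,
      (natCard_fixedField hr).2, ← pow_mul]
  -- values lie in the field with `q ^ (r d)` elements
  have hval : ∀ f, p.restrictEval (fixedField k₀ Ω r) f ∈ fixedField k₀ Ω (r * d) := by
    intro f
    have : P.IsMaximal := isMaximal_of_isPrime hP
    let : _root_.Field (M.Alg (fixedField k₀ Ω r) ⧸ P) := Ideal.Quotient.field P
    let := Fintype.ofFinite (M.Alg (fixedField k₀ Ω r) ⧸ P)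
    have h1 := FiniteField.pow_card (Ideal.Quotient.mk P f)
    rw [← Nat.card_eq_fintype_card, hcard, ← map_pow, Ideal.Quotient.eq, ← hp, Point.below,
      RingHom.mem_ker, map_sub, map_pow, sub_eq_zero] at h1
    exact mem_fixedField.2 h1
  constructor
  · intro hfix
    have hsub : fixedField k₀ Ω (r * d) ≤ fixedField k₀ Ω (r * m) := by
      intro x hx
      have := finite_fixedField (k₀ := k₀) (Ω := Ω) (Nat.mul_pos hr hd)
      let G : M.Alg (fixedField k₀ Ω r) ⧸ P → fixedField k₀ Ω (r * d) :=
        Quotient.lift (fun f => ⟨_, hval f⟩) fun f g hfg => by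
          have h1 : f - g ∈ P := (Submodule.quotientRel_def _).1 hfg
          rw [← hp, Point.below, RingHom.mem_ker, map_sub, sub_eq_zero] at h1
          exact Subtype.ext h1
      have hinj : Function.Injective G := by
        intro a b
        refine Quotient.inductionOn₂ a b fun f g hfg => ?_
        refine Quotient.sound ((Submodule.quotientRel_def _).2 ?_)
        rw [← hp, Point.below, RingHom.mem_ker, map_sub, sub_eq_zero]
        exact congrArg Subtype.val hfg
      have hbij := (Nat.bijective_iff_injective_and_card G).2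
        ⟨hinj, hcard.trans (natCard_fixedField (Nat.mul_pos hr hd)).2.symm⟩
      obtain ⟨a, ha⟩ := hbij.2 ⟨x, hx⟩
      obtain ⟨f, rfl⟩ := Quotient.mk_surjective a
      have hfx : p.restrictEval (fixedField k₀ Ω r) f = x := congrArg Subtype.val ha
      exact hfx ▸ Point.restrictEval_mem (dvd_mul_right r m) hfix f
    exact Nat.dvd_of_mul_dvd_mul_left hr
      (dvd_of_fixedField_le (Nat.mul_pos hr hd) (Nat.mul_pos hr hm) hsub)
  · intro hdm
    have hle : fixedField k₀ Ω (r * d) ≤ fixedField k₀ Ω (r * m) :=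
      fixedField_le_of_dvd (Nat.mul_dvd_mul_left r hdm)
    refine ⟨hle ?_, fun i => hle ?_⟩
    · have h1 := hval (M.xel _)
      rwa [Point.restrictEval_apply, incl_xel, eval_xel] at h1
    · have h1 := hval (M.eel _ i)
      rwa [Point.restrictEval_apply, incl_eel, eval_eel] at h1

/-- Points above a prime are homomorphisms of its residue field. -/
def pointsAboveEquiv (P : Ideal (M.Alg (fixedField k₀ Ω r))) [hP : P.IsMaximal] :
    {p : M.Point Ω // p.below r = P} ≃
      (M.Alg (fixedField k₀ Ω r) ⧸ P →ₐ[fixedField k₀ Ω r] Ω) where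
  toFun p := Ideal.Quotient.liftₐ P (p.1.restrictEval _) fun f hf => by
    rw [← p.2] at hf
    exact hf
  invFun φ := ⟨pointHomEquiv.symm (φ.comp (Ideal.Quotient.mkₐ _ P)), by
    rw [Point.below, show (pointHomEquiv.symm (φ.comp (Ideal.Quotient.mkₐ _ P))).restrictEval _
      = φ.comp (Ideal.Quotient.mkₐ _ P) from pointHomEquiv.apply_symm_apply _]
    refine (hP.eq_of_le (RingHom.ker_ne_top _) fun f hf => ?_).symm
    rw [RingHom.mem_ker]
    show φ (Ideal.Quotient.mk P f) = 0
    rw [Ideal.Quotient.eq_zero_iff_mem.2 hf, map_zero]⟩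
  left_inv p := by
    apply Subtype.ext
    show pointHomEquiv.symm _ = p.1
    rw [Equiv.symm_apply_eq]
    exact AlgHom.ext fun _ => rfl
  right_inv φ := by
    refine AlgHom.ext fun x => ?_
    obtain ⟨f, rfl⟩ := Ideal.Quotient.mk_surjective x
    show (pointHomEquiv.symm (φ.comp (Ideal.Quotient.mkₐ _ P))).restrictEval _ f = _
    rw [show (pointHomEquiv.symm (φ.comp (Ideal.Quotient.mkₐ _ P))).restrictEval _
      = φ.comp (Ideal.Quotient.mkₐ _ P) from pointHomEquiv.apply_symm_apply _]
    rfl

theorem natCard_pointsAbove (hr : 0 < r) (P : Ideal (M.Alg (fixedField k₀ Ω r))) [P.IsMaximal]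
    (hP : P ≠ ⊥) : Nat.card {p : M.Point Ω // p.below r = P} = M.colength P := by
  have := finite_fixedField (k₀ := k₀) (Ω := Ω) hr
  obtain ⟨hfd, hrank⟩ := M.finite_quotient_ideal hP
  let : _root_.Field (M.Alg (fixedField k₀ Ω r) ⧸ P) := Ideal.Quotient.field P
  rw [Nat.card_congr (pointsAboveEquiv P),
    AlgHom.natCard_of_splits _ _ Ω (fun _ => IsAlgClosed.splits _), hrank]

end

end Closure

end Model

end FLTAgent.PicTorsion
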