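import Mathlib.Algebra.Polynomial.Eval.Degree
import Mathlib.Algebra.Polynomial.Coeff
import Mathlib.Algebra.BigOperators.Fin
import Mathlib.Algebra.Algebra.Tower
import Mathlib.Algebra.Polynomial.AlgebraMap
import Mathlib.Tactic.Ring

/-!
# Models of affine curves with one place at infinity

An algebra with basis `x ^ t * e i`, where `e i` has degree `w i ≡ i` modulo `a` and `x` has
degree `a`; products are triangular with leading coefficient one.
-/

set_option autoImplicit false

noncomputable section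

open Polynomial

namespace FLTAgent.PicTorsion

/-- Structure constants of a model over `R`. -/
structure Model (R : Type*) [CommRing R] where
  a : ℕ
  a_ne : NeZero a
  w : Fin a → ℕ
  w_zero : w 0 = 0
  w_mod : ∀ i : Fin a, w i % a = i
  w_add : ∀ i j : Fin a, w (i + j) ≤ w i + w j
  T : Fin a → Fin a → Fin a → R[X]
  T_comm : ∀ i j l, T i j l = T j i l
  T_one : ∀ j l, T 0 j l = if j = l then 1 else 0
  T_assoc : ∀ i j k l, ∑ m, T i j m * T m k l = ∑ m, T j k m * T i m l
  T_deg : ∀ i j l n, w i + w j < a * n + w l → (T i j l).coeff n = 0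
  T_lead : ∀ i j l n, a * n + w l = w i + w j → (T i j l).coeff n = 1

namespace Model

variable {R : Type*} [CommRing R] (M : Model R)

instance : NeZero M.a := M.a_ne

theorem a_pos : 0 < M.a := Nat.pos_of_ne_zero M.a_ne.ne

/-- The residue class of a degree. -/
def cls (n : ℕ) : Fin M.a := ⟨n % M.a, Nat.mod_lt _ M.a_pos⟩

/-- `n` is the degree of a monomial. -/
def InS (n : ℕ) : Prop := M.w (M.cls n) ≤ n

instance : DecidablePred M.InS := fun _ => Nat.decLe _ _

/-- The exponent of `x` in the monomial of degree `n`. -/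
def expo (n : ℕ) : ℕ := (n - M.w (M.cls n)) / M.a

@[simp] theorem cls_add_mul (i : Fin M.a) (t : ℕ) : M.cls (M.a * t + M.w i) = i := by
  apply Fin.ext
  show (M.a * t + M.w i) % M.a = i
  rw [Nat.mul_add_mod, M.w_mod]

theorem inS_add_mul (i : Fin M.a) (t : ℕ) : M.InS (M.a * t + M.w i) := by
  unfold InS
  rw [cls_add_mul]
  omega

@[simp] theorem expo_add_mul (i : Fin M.a) (t : ℕ) : M.expo (M.a * t + M.w i) = t := by
  unfold expo
  rw [cls_add_mul, Nat.add_sub_cancel, Nat.mul_div_cancel_left _ M.a_pos]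

theorem mul_expo_add {n : ℕ} (h : M.InS n) : M.a * M.expo n + M.w (M.cls n) = n := by
  unfold InS at h
  unfold expo
  have hmod : (n - M.w (M.cls n)) % M.a = 0 := by
    apply Nat.sub_mod_eq_zero_of_mod_eq
    rw [M.w_mod]
    rfl
  rw [Nat.mul_div_cancel' (Nat.dvd_of_mod_eq_zero hmod), Nat.sub_add_cancel h]

theorem inS_iff_exists {n : ℕ} : M.InS n ↔ ∃ i t, n = M.a * t + M.w i :=
  ⟨fun h => ⟨_, _, (M.mul_expo_add h).symm⟩, fun ⟨i, t, h⟩ => h ▸ M.inS_add_mul i t⟩

theorem inS_zero : M.InS 0 := M.inS_iff_exists.2 ⟨0, 0, by simp [M.w_zero]⟩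

theorem w_cls_le_of_mod_eq {n : ℕ} (i : Fin M.a) (h : n % M.a = i) : M.cls n = i := Fin.ext h

theorem InS.add {m n : ℕ} (hm : M.InS m) (hn : M.InS n) : M.InS (m + n) := by
  have hc : M.cls (m + n) = M.cls m + M.cls n := Fin.ext (by simp [cls, Fin.val_add, Nat.add_mod])
  unfold InS at *
  rw [hc]
  exact (M.w_add _ _).trans (by omega)

/-- The algebra of the model over an `R`-algebra. -/
def Alg (k : Type*) [CommRing k] [Algebra R k] : Type _ := Fin M.a → k[X]

variable {k : Type*} [CommRing k] [Algebra R k]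

/-- The structure constants over `k`. -/
def Tk (k : Type*) [CommRing k] [Algebra R k] (i j l : Fin M.a) : k[X] :=
  (M.T i j l).map (algebraMap R k)

instance : AddCommGroup (M.Alg k) := inferInstanceAs (AddCommGroup (Fin M.a → k[X]))

instance : Module k[X] (M.Alg k) := inferInstanceAs (Module k[X] (Fin M.a → k[X]))

namespace Alg

variable {M}

@[ext] theorem ext {f g : M.Alg k} (h : ∀ i, f i = g i) : f = g := funext h

@[simp] theorem add_apply (f g : M.Alg k) (i : Fin M.a) : (f + g) i = f i + g i := rfl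
@[simp] theorem zero_apply (i : Fin M.a) : (0 : M.Alg k) i = 0 := rfl
@[simp] theorem smul_apply (p : k[X]) (f : M.Alg k) (i : Fin M.a) : (p • f) i = p * f i := rfl
@[simp] theorem neg_apply (f : M.Alg k) (i : Fin M.a) : (-f) i = -f i := rfl
@[simp] theorem sub_apply (f g : M.Alg k) (i : Fin M.a) : (f - g) i = f i - g i := rfl

theorem sum_apply {ι : Type*} (s : Finset ι) (f : ι → M.Alg k) (i : Fin M.a) :
    (∑ j ∈ s, f j) i = ∑ j ∈ s, f j i := Finset.sum_apply i s (f : ι → Fin M.a → k[X])

instance : Mul (M.Alg k) :=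
  ⟨fun f g l => ∑ i, ∑ j, f i * g j * M.Tk k i j l⟩

theorem mul_apply (f g : M.Alg k) (l : Fin M.a) :
    (f * g) l = ∑ i, ∑ j, f i * g j * M.Tk k i j l := rfl

instance : One (M.Alg k) := ⟨fun i => if i = 0 then 1 else 0⟩

theorem one_apply (i : Fin M.a) : (1 : M.Alg k) i = if i = 0 then 1 else 0 := rfl

theorem Tk_one (j l : Fin M.a) : M.Tk k 0 j l = if j = l then 1 else 0 := by
  rw [Tk, M.T_one]; split <;> simp

theorem Tk_assoc (i j n l : Fin M.a) :
    ∑ m, M.Tk k i j m * M.Tk k m n l = ∑ m, M.Tk k j n m * M.Tk k i m l := by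
  simp only [Tk, ← Polynomial.map_mul, ← Polynomial.map_sum, M.T_assoc]

protected theorem mul_comm (f g : M.Alg k) : f * g = g * f := by
  ext1 l
  rw [mul_apply, mul_apply, Finset.sum_comm]
  refine Finset.sum_congr rfl fun i _ => Finset.sum_congr rfl fun j _ => ?_
  rw [Tk, Tk, M.T_comm]
  ring

protected theorem one_mul (f : M.Alg k) : 1 * f = f := by
  ext1 l
  simp [mul_apply, one_apply, Tk_one]

protected theorem left_distrib (f g h : M.Alg k) : f * (g + h) = f * g + f * h := by
  ext1 l
  simp [mul_apply, mul_add, add_mul, Finset.sum_add_distrib]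

protected theorem mul_assoc (f g h : M.Alg k) : f * g * h = f * (g * h) := by
  ext1 l
  calc (f * g * h) l
      = ∑ m, ∑ n, ∑ i, ∑ j, f i * g j * h n * (M.Tk k i j m * M.Tk k m n l) := by
        simp only [mul_apply, Finset.sum_mul]
        refine Finset.sum_congr rfl fun m _ => Finset.sum_congr rfl fun n _ =>
          Finset.sum_congr rfl fun i _ => Finset.sum_congr rfl fun j _ => by ring
    _ = ∑ i, ∑ j, ∑ n, f i * g j * h n * ∑ m, M.Tk k i j m * M.Tk k m n l := by
        simp only [Finset.mul_sum]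
        rw [Finset.sum_comm_cycle]
        refine Finset.sum_congr rfl fun i _ => ?_
        rw [Finset.sum_comm_cycle]
        exact Finset.sum_congr rfl fun j _ => Finset.sum_comm
    _ = ∑ i, ∑ j, ∑ n, f i * g j * h n * ∑ m, M.Tk k j n m * M.Tk k i m l := by
        simp only [Tk_assoc]
    _ = (f * (g * h)) l := by
        simp only [mul_apply, Finset.mul_sum, Finset.sum_mul]
        refine Finset.sum_congr rfl fun i _ => ?_
        rw [Finset.sum_comm_cycle]
        refine Finset.sum_congr rfl fun m _ => Finset.sum_congr rfl fun j _ =>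
          Finset.sum_congr rfl fun n _ => ?_
        ring

instance : CommRing (M.Alg k) :=
  { (inferInstance : AddCommGroup (M.Alg k)) with
    mul := (· * ·)
    one := 1
    mul_assoc := Alg.mul_assoc
    one_mul := Alg.one_mul
    mul_one := fun f => by rw [Alg.mul_comm, Alg.one_mul]
    left_distrib := Alg.left_distrib
    right_distrib := fun f g h => by
      rw [Alg.mul_comm, Alg.left_distrib, Alg.mul_comm h f, Alg.mul_comm h g]
    zero_mul := fun f => by ext1 l; simp [mul_apply]
    mul_zero := fun f => by ext1 l; simp [mul_apply]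
    mul_comm := Alg.mul_comm }

theorem smul_mul (p : k[X]) (f g : M.Alg k) : p • f * g = p • (f * g) := by
  ext1 l
  simp [mul_apply, Finset.mul_sum, mul_assoc]

instance : Algebra k[X] (M.Alg k) :=
  Algebra.ofModule smul_mul fun p f g => by
    rw [Alg.mul_comm, smul_mul, Alg.mul_comm]

instance : Algebra k (M.Alg k) :=
  ((algebraMap k[X] (M.Alg k)).comp C).toAlgebra

instance : IsScalarTower k k[X] (M.Alg k) :=
  IsScalarTower.of_algebraMap_eq fun _ => rfl

theorem smul_const_apply (c : k) (f : M.Alg k) (i : Fin M.a) : (c • f) i = C c * f i := by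
  rw [← algebraMap_smul k[X] c f, smul_apply, Polynomial.algebraMap_eq]

end Alg

/-- The monomial of degree `n`. -/
def mon (n : ℕ) : M.Alg k := fun i => if i = M.cls n then X ^ M.expo n else 0

theorem mon_apply (n : ℕ) (i : Fin M.a) :
    (M.mon n : M.Alg k) i = if i = M.cls n then X ^ M.expo n else 0 := rfl

theorem mon_zero : (M.mon 0 : M.Alg k) = 1 := by
  have h0 : M.a * 0 + M.w 0 = 0 := by simp [M.w_zero]
  ext1 i
  conv_lhs => rw [← h0]
  rw [mon_apply, Alg.one_apply, cls_add_mul, expo_add_mul, pow_zero]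

/-- The coordinate of degree `n`. -/
def coef (n : ℕ) (f : M.Alg k) : k := if M.InS n then (f (M.cls n)).coeff (M.expo n) else 0

theorem coef_of_not_inS {n : ℕ} (h : ¬ M.InS n) (f : M.Alg k) : M.coef n f = 0 := if_neg h

theorem coef_add_mul (i : Fin M.a) (t : ℕ) (f : M.Alg k) :
    M.coef (M.a * t + M.w i) f = (f i).coeff t := by
  rw [coef, if_pos (M.inS_add_mul i t), cls_add_mul, expo_add_mul]

theorem coef_add (n : ℕ) (f g : M.Alg k) : M.coef n (f + g) = M.coef n f + M.coef n g := by
  unfold coef; split <;> simp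

theorem coef_smul (n : ℕ) (c : k) (f : M.Alg k) : M.coef n (c • f) = c * M.coef n f := by
  unfold coef; split <;> simp [Alg.smul_const_apply]

/-- The coordinate as a linear map. -/
def coefₗ (n : ℕ) : M.Alg k →ₗ[k] k where
  toFun := M.coef n
  map_add' := M.coef_add n
  map_smul' := M.coef_smul n

theorem coef_zero (n : ℕ) : M.coef n (0 : M.Alg k) = 0 := (M.coefₗ n).map_zero

theorem coef_neg (n : ℕ) (f : M.Alg k) : M.coef n (-f) = -M.coef n f := (M.coefₗ n).map_neg f

theorem coef_sub (n : ℕ) (f g : M.Alg k) : M.coef n (f - g) = M.coef n f - M.coef n g :=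
  (M.coefₗ n).map_sub f g

theorem coef_sum {ι : Type*} (n : ℕ) (s : Finset ι) (f : ι → M.Alg k) :
    M.coef n (∑ i ∈ s, f i) = ∑ i ∈ s, M.coef n (f i) := map_sum (M.coefₗ n) f s

theorem ext_coef {f g : M.Alg k} (h : ∀ n, M.coef n f = M.coef n g) : f = g :=
  Alg.ext fun i => Polynomial.ext fun t => by rw [← coef_add_mul, ← coef_add_mul, h]

theorem coef_mon {m : ℕ} (hm : M.InS m) (n : ℕ) :
    M.coef n (M.mon m : M.Alg k) = if n = m then 1 else 0 := by
  by_cases hn : M.InS n
  · obtain ⟨i, t, rfl⟩ := M.inS_iff_exists.1 hn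
    obtain ⟨j, s, rfl⟩ := M.inS_iff_exists.1 hm
    rw [coef_add_mul, mon_apply, cls_add_mul, expo_add_mul]
    by_cases hij : i = j
    · subst hij
      rw [if_pos rfl, Polynomial.coeff_X_pow]
      refine if_congr ⟨fun h => by rw [h], fun h => ?_⟩ rfl rfl
      exact Nat.eq_of_mul_eq_mul_left M.a_pos (Nat.add_right_cancel h)
    · rw [if_neg hij, coeff_zero, if_neg]
      intro h
      apply hij
      have := congrArg M.cls h
      rwa [cls_add_mul, cls_add_mul] at this
  · rw [coef_of_not_inS M hn, if_neg]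
    rintro rfl
    exact hn hm

/-- The degrees occurring in `f`. -/
def supp (f : M.Alg k) : Finset ℕ :=
  (Finset.univ.biUnion fun i => (f i).support.image fun t => M.a * t + M.w i)

theorem mem_supp {f : M.Alg k} {n : ℕ} : n ∈ M.supp f ↔ M.coef n f ≠ 0 := by
  simp only [supp, Finset.mem_biUnion, Finset.mem_univ, true_and, Finset.mem_image,
    Polynomial.mem_support_iff]
  constructor
  · rintro ⟨i, t, h, rfl⟩
    rwa [coef_add_mul]
  · intro h
    have hn : M.InS n := by
      by_contra hn
      exact h (M.coef_of_not_inS hn f)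
    obtain ⟨i, t, rfl⟩ := M.inS_iff_exists.1 hn
    exact ⟨i, t, by rwa [← coef_add_mul], rfl⟩

theorem sum_supp (f : M.Alg k) : ∑ n ∈ M.supp f, M.coef n f • M.mon n = f := by
  refine M.ext_coef fun m => ?_
  rw [coef_sum]
  have h : ∀ n ∈ M.supp f, M.coef m (M.coef n f • M.mon n) = if m = n then M.coef n f else 0 := by
    intro n hn
    have hnS : M.InS n := by
      by_contra hnS
      exact mem_supp M |>.1 hn (M.coef_of_not_inS hnS f)
    rw [coef_smul, coef_mon M hnS]
    split <;> simp
  rw [Finset.sum_congr rfl h, Finset.sum_ite_eq]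
  split
  · rfl
  · next h' => exact (not_not.1 (mt (M.mem_supp).2 h')).symm

theorem mon_mul_mon {m n : ℕ} (hm : M.InS m) (hn : M.InS n) (l : Fin M.a) :
    (M.mon m * M.mon n : M.Alg k) l
      = X ^ (M.expo m + M.expo n) * M.Tk k (M.cls m) (M.cls n) l := by
  rw [Alg.mul_apply]
  simp [mon_apply, pow_add]

theorem coef_mon_mul_mon {m n p : ℕ} (hm : M.InS m) (hn : M.InS n) (hp : m + n ≤ p) :
    M.coef p (M.mon m * M.mon n : M.Alg k) = if p = m + n then 1 else 0 := by
  by_cases hpS : M.InS p
  · obtain ⟨l, s, rfl⟩ := M.inS_iff_exists.1 hpS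
    rw [coef_add_mul, mon_mul_mon M hm hn, coeff_X_pow_mul']
    have hm' := M.mul_expo_add hm
    have hn' := M.mul_expo_add hn
    set E := M.expo m + M.expo n
    have hE : M.a * E + (M.w (M.cls m) + M.w (M.cls n)) = m + n := by
      rw [Nat.mul_add]; omega
    by_cases hle : E ≤ s
    · rw [if_pos hle, Tk, coeff_map]
      have hs : M.a * s = M.a * E + M.a * (s - E) := by rw [← Nat.mul_add]; congr 1; omega
      split
      · rw [M.T_lead _ _ _ _ (by omega), map_one]
      · rw [M.T_deg _ _ _ _ (by omega), map_zero]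
    · rw [if_neg hle, if_neg]
      intro h
      have hl : l = M.cls m + M.cls n := by
        have h1 := congrArg M.cls h
        rw [cls_add_mul] at h1
        rw [h1]
        exact Fin.ext (by simp [cls, Fin.val_add, Nat.add_mod])
      have h2 := M.w_add (M.cls m) (M.cls n)
      have h3 : M.a * (s + 1) ≤ M.a * E := Nat.mul_le_mul_left _ (by omega)
      rw [← hl] at h2
      rw [Nat.mul_add, mul_one] at h3
      have := M.a_pos
      omega
  · rw [coef_of_not_inS M hpS, if_neg]
    rintro rfl
    exact hpS (InS.add M hm hn)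

/-- Coordinates above `m` vanish. -/
def Below (f : M.Alg k) (m : ℕ) : Prop := ∀ n, m < n → M.coef n f = 0

theorem Below.mono {f : M.Alg k} {m n : ℕ} (h : M.Below f m) (hmn : m ≤ n) : M.Below f n :=
  fun p hp => h p (lt_of_le_of_lt hmn hp)

theorem Below.mem_supp_le {f : M.Alg k} {m n : ℕ} (h : M.Below f m) (hn : n ∈ M.supp f) :
    n ≤ m := le_of_not_gt fun hlt => M.mem_supp.1 hn (h n hlt)

theorem coef_mul_of_below {f g : M.Alg k} {m n p : ℕ} (hf : M.Below f m) (hg : M.Below g n)
    (hp : m + n ≤ p) :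
    M.coef p (f * g) = if p = m + n then M.coef m f * M.coef n g else 0 := by
  have hS : ∀ (h : M.Alg k) (u : ℕ), u ∈ M.supp h → M.InS u := fun h u hu => by
    by_contra hc
    exact M.mem_supp.1 hu (M.coef_of_not_inS hc h)
  conv_lhs => rw [← M.sum_supp f, ← M.sum_supp g, Finset.sum_mul_sum, coef_sum]
  simp only [coef_sum, smul_mul_smul_comm, coef_smul]
  have h1 : ∀ u ∈ M.supp f, ∀ v ∈ M.supp g,
      M.coef u f * M.coef v g * M.coef p (M.mon u * M.mon v : M.Alg k)
        = if u = m then (if v = n then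
            (if p = m + n then M.coef m f * M.coef n g else 0) else 0) else 0 := by
    intro u hu v hv
    have hum := Below.mem_supp_le M hf hu
    have hvn := Below.mem_supp_le M hg hv
    rw [coef_mon_mul_mon M (hS f u hu) (hS g v hv) (by omega)]
    by_cases h : u = m ∧ v = n
    · obtain ⟨rfl, rfl⟩ := h
      simp
    · rw [if_neg (show ¬ p = u + v by omega), mul_zero]
      rcases not_and_or.1 h with h | h
      · rw [if_neg h]
      · rw [if_neg h]; simp
  rw [Finset.sum_congr rfl fun u hu => Finset.sum_congr rfl fun v hv => h1 u hu v hv]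
  simp only [Finset.sum_ite_irrel, Finset.sum_const_zero, Finset.sum_ite_eq', mem_supp]
  by_cases h1 : M.coef m f = 0
  · simp [h1]
  by_cases h2 : M.coef n g = 0
  · simp [h2]
  rw [if_pos (M.mem_supp.2 h1), if_pos (M.mem_supp.2 h2)]


theorem Below.mul {f g : M.Alg k} {m n : ℕ} (hf : M.Below f m) (hg : M.Below g n) :
    M.Below (f * g) (m + n) := fun p hp => by
  rw [coef_mul_of_below M hf hg hp.le, if_neg (by omega)]

theorem coef_mul_top {f g : M.Alg k} {m n : ℕ} (hf : M.Below f m) (hg : M.Below g n) :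
    M.coef (m + n) (f * g) = M.coef m f * M.coef n g := by
  rw [coef_mul_of_below M hf hg le_rfl, if_pos rfl]

section Map

variable {k' : Type*} [CommRing k'] [Algebra R k']

theorem Tk_map (φ : k →ₐ[R] k') (i j l : Fin M.a) :
    (M.Tk k i j l).map φ.toRingHom = M.Tk k' i j l := by
  rw [Tk, Tk, Polynomial.map_map]
  exact congrArg (fun h => Polynomial.map h _) φ.comp_algebraMap

/-- Functoriality in the coefficients. -/
def mapAlg (φ : k →ₐ[R] k') : M.Alg k →+* M.Alg k' where
  toFun f i := (f i).map φ.toRingHom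
  map_zero' := by ext1 i; simp
  map_one' := by ext1 i; simp only [Alg.one_apply]; split <;> simp
  map_add' f g := by ext1 i; simp
  map_mul' f g := by
    ext1 l
    simp only [Alg.mul_apply, Polynomial.map_sum, Polynomial.map_mul, Tk_map]

theorem mapAlg_apply (φ : k →ₐ[R] k') (f : M.Alg k) (i : Fin M.a) :
    M.mapAlg φ f i = (f i).map φ.toRingHom := rfl

theorem coef_mapAlg (φ : k →ₐ[R] k') (n : ℕ) (f : M.Alg k) :
    M.coef n (M.mapAlg φ f) = φ (M.coef n f) := by
  unfold coef
  split
  · rw [mapAlg_apply, coeff_map]; rfl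
  · rw [map_zero]

theorem mapAlg_mon (φ : k →ₐ[R] k') (n : ℕ) : M.mapAlg φ (M.mon n) = M.mon n := by
  ext1 i
  rw [mapAlg_apply, mon_apply, mon_apply]
  split <;> simp

theorem mapAlg_smul (φ : k →ₐ[R] k') (c : k) (f : M.Alg k) :
    M.mapAlg φ (c • f) = φ c • M.mapAlg φ f :=
  M.ext_coef fun n => by rw [coef_mapAlg, coef_smul, coef_smul, coef_mapAlg, map_mul]

theorem mapAlg_injective (φ : k →ₐ[R] k') (hφ : Function.Injective φ) :
    Function.Injective (M.mapAlg φ) := fun f g h => M.ext_coef fun n => hφ (by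
  rw [← coef_mapAlg, ← coef_mapAlg, h])

end Map

end Model

end FLTAgent.PicTorsion
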