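import Fermat.Agent.PicTorsion.Classes
import Mathlib.LinearAlgebra.Matrix.NonsingularInverse
import Mathlib.RingTheory.OrzechProperty
import Mathlib.RingTheory.Finiteness.Basic
import Mathlib.LinearAlgebra.Matrix.ToLin
import Mathlib.LinearAlgebra.Matrix.ToLinearEquiv

/-!
# The canonical class: exactly one class has a gap at the largest possible place
-/

set_option autoImplicit false

noncomputable section

open Polynomial

namespace FLTAgent.PicTorsion

namespace Model

variable {R : Type*} [CommRing R] {M : Model R} {k : Type*} [Field k] [Algebra R k]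

/-- The largest possible gap occurs. -/
def HasTop (J : Ideal (M.Alg k)) : Prop :=
  ∃ n, n ∉ M.degSet (M.sub J) ∧ n + 1 = M.colength J + 2 * M.genus

theorem mem_degSet_span_mul {x : M.Alg k} (hx : x ≠ 0) {J : Ideal (M.Alg k)} {n : ℕ} :
    n ∈ M.degSet (M.sub (Ideal.span {x} * J)) ↔
      ∃ m ∈ M.degSet (M.sub J), n = M.deg x + m := by
  constructor
  · rintro ⟨f, hf, hf0, rfl⟩
    obtain ⟨b, hb, rfl⟩ := Ideal.mem_span_singleton_mul.1 hf
    exact ⟨_, ⟨b, hb, right_ne_zero_of_mul hf0, rfl⟩, M.deg_mul hx (right_ne_zero_of_mul hf0)⟩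
  · rintro ⟨_, ⟨b, hb, hb0, rfl⟩, rfl⟩
    exact ⟨x * b, Ideal.mem_span_singleton_mul.2 ⟨b, hb, rfl⟩, (M.mul_ne_zero' hx hb0).1,
      M.deg_mul hx hb0⟩

theorem hasTop_span_mul [IsDedekindDomain (M.Alg k)] {x : M.Alg k} (hx : x ≠ 0)
    {J : Ideal (M.Alg k)} (hJ : J ≠ ⊥) (h : HasTop J) : HasTop (Ideal.span {x} * J) := by
  obtain ⟨n, hn, hn1⟩ := h
  refine ⟨M.deg x + n, fun hm => ?_, ?_⟩
  · obtain ⟨m, hm, he⟩ := (mem_degSet_span_mul hx).1 hm
    exact hn (Nat.add_left_cancel he ▸ hm)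
  · rw [colength_mul (by simpa using hx) hJ, M.colength_span_singleton hx]
    omega

theorem hasTop_of_span_mul [IsDedekindDomain (M.Alg k)] (hg : 0 < M.genus) {x : M.Alg k}
    (hx : x ≠ 0)
    {J : Ideal (M.Alg k)} (hJ : J ≠ ⊥) (h : HasTop (Ideal.span {x} * J)) : HasTop J := by
  obtain ⟨n, hn, hn1⟩ := h
  rw [colength_mul (by simpa using hx) hJ, M.colength_span_singleton hx] at hn1
  have hdeg : ∀ m ∈ M.degSet (M.sub J), M.deg x + m ≠ n := fun m hm he =>
    hn ((mem_degSet_span_mul hx).2 ⟨m, hm, he.symm⟩)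
  have hle : M.deg x ≤ n := by
    by_contra hlt
    push Not at hlt
    have h0 : M.colength J + 2 * M.genus = 0 := by omega
    omega
  refine ⟨n - M.deg x, fun hm => hdeg _ hm (by omega), by omega⟩

theorem hasTop_congr [IsDedekindDomain (M.Alg k)] (hg : 0 < M.genus) {J J' : Ideal (M.Alg k)} (hJ : J ≠ ⊥)
    (hJ' : J' ≠ ⊥) (hc : cl J = cl J') (h : HasTop J) : HasTop J' := by
  rw [cl_eq_mk0 hJ, cl_eq_mk0 hJ', ClassGroup.mk0_eq_mk0_iff] at hc
  obtain ⟨x, y, hx, hy, hxy⟩ := hc
  refine hasTop_of_span_mul hg hy hJ' ?_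
  have h2 : Ideal.span {y} * J' = Ideal.span {x} * J := hxy.symm
  exact h2 ▸ hasTop_span_mul hx hJ h

theorem deg_smul_le (p : k[X]) {u : M.Alg k} {n : ℕ} (hu : M.Below u n) :
    M.Below (p • u) (M.a * p.natDegree + n) ∧
      M.coef (M.a * p.natDegree + n) (p • u) = p.leadingCoeff * M.coef n u := by
  have h1 : p • u = (p • (1 : M.Alg k)) * u := by rw [smul_mul_assoc, one_mul]
  have hb : M.Below (p • (1 : M.Alg k)) (M.a * p.natDegree) := fun m hm => by
    by_contra h
    obtain ⟨i, t, rfl⟩ := M.inS_iff_exists.1 (M.inS_of_coef_ne_zero h)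
    rw [coef_add_mul, Alg.smul_apply, Alg.one_apply] at h
    rcases eq_or_ne i 0 with rfl | hi
    · rw [if_pos rfl, mul_one] at h
      have := Nat.mul_le_mul_left M.a (le_natDegree_of_ne_zero h)
      rw [M.w_zero] at hm
      omega
    · simp [hi] at h
  have hc : M.coef (M.a * p.natDegree) (p • (1 : M.Alg k)) = p.leadingCoeff := by
    have := M.coef_add_mul 0 p.natDegree (p • (1 : M.Alg k))
    rw [M.w_zero, add_zero] at this
    rw [this, Alg.smul_apply, Alg.one_apply, if_pos rfl, mul_one, leadingCoeff]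
  rw [h1]
  exact ⟨hb.mul M hu, by rw [coef_mul_top M hb hu, hc]⟩

section Basis

variable {J : Ideal (M.Alg k)} (hJ : J ≠ ⊥)

/-- A reduced element in each residue class. -/
def bas (i : Fin M.a) : M.Alg k := (M.exists_reduced (M.minDeg_spec hJ i).1).choose

theorem bas_mem (i : Fin M.a) : bas hJ i ∈ J :=
  (M.exists_reduced (M.minDeg_spec hJ i).1).choose_spec.1

theorem below_bas (i : Fin M.a) : M.Below (bas hJ i) (M.minDeg J i) :=
  (M.exists_reduced (M.minDeg_spec hJ i).1).choose_spec.2.1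

theorem coef_bas (i : Fin M.a) : M.coef (M.minDeg J i) (bas hJ i) = 1 :=
  (M.exists_reduced (M.minDeg_spec hJ i).1).choose_spec.2.2.1

/-- The coordinates with respect to the reduced elements. -/
def basMap : M.Alg k →ₗ[k[X]] M.Alg k where
  toFun h := ∑ i, h i • bas hJ i
  map_add' h h' := by simp [add_smul, Finset.sum_add_distrib]
  map_smul' p h := by simp [Finset.smul_sum, mul_smul]

theorem basMap_mem (h : M.Alg k) : basMap hJ h ∈ J :=
  show ∑ i, h i • bas hJ i ∈ J from
    sum_mem fun i _ => Submodule.smul_of_tower_mem _ _ (bas_mem hJ i)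

/-- The degree of a piece. -/
def pieceDeg (J : Ideal (M.Alg k)) (h : M.Alg k) (i : Fin M.a) : ℕ :=
  M.a * (h i).natDegree + M.minDeg J i

theorem cls_pieceDeg (hJ : J ≠ ⊥) (h : M.Alg k) (i : Fin M.a) :
    M.cls (pieceDeg J h i) = i := by
  rw [pieceDeg, cls_add, (M.minDeg_spec hJ i).2]
  have : M.cls (M.a * (h i).natDegree) = 0 := by
    have h0 := M.cls_add_mul 0 (h i).natDegree
    rwa [M.w_zero, add_zero] at h0
  rw [this, zero_add]

theorem deg_basMap {h : M.Alg k} (hh : h ≠ 0) :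
    basMap hJ h ≠ 0 ∧ ∃ i, h i ≠ 0 ∧ M.deg (basMap hJ h) = pieceDeg J h i ∧
      ∀ j, h j ≠ 0 → pieceDeg J h j ≤ pieceDeg J h i := by
  classical
  have hne : (Finset.univ.filter fun i => h i ≠ 0).Nonempty := by
    by_contra hne
    rw [Finset.not_nonempty_iff_eq_empty, Finset.filter_eq_empty_iff] at hne
    exact hh (Alg.ext fun i => not_not.1 (hne (Finset.mem_univ i)))
  obtain ⟨i, hi, hmax⟩ := Finset.exists_max_image _ (pieceDeg J h) hne
  rw [Finset.mem_filter] at hi
  have hmax' : ∀ j, h j ≠ 0 → pieceDeg J h j ≤ pieceDeg J h i := fun j hj =>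
    hmax j (Finset.mem_filter.2 ⟨Finset.mem_univ j, hj⟩)
  have hb : M.Below (basMap hJ h) (pieceDeg J h i) := by
    show ∑ j, h j • bas hJ j ∈ M.belowSub k (pieceDeg J h i)
    refine (M.belowSub k _).sum_mem fun j _ => ?_
    by_cases hj : h j = 0
    · rw [hj, zero_smul]; exact Submodule.zero_mem _
    · exact (deg_smul_le (h j) (below_bas hJ j)).1.mono M (hmax' j hj)
  have hc : M.coef (pieceDeg J h i) (basMap hJ h) ≠ 0 := by
    show M.coef _ (∑ j, h j • bas hJ j) ≠ 0
    rw [coef_sum, Finset.sum_eq_single i]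
    · rw [show pieceDeg J h i = M.a * (h i).natDegree + M.minDeg J i from rfl,
        (deg_smul_le (h i) (below_bas hJ i)).2, coef_bas, mul_one]
      exact leadingCoeff_ne_zero.2 hi.2
    · intro j _ hji
      by_cases hj : h j = 0
      · rw [hj, zero_smul, coef_zero]
      · refine (deg_smul_le (h j) (below_bas hJ j)).1 _ (lt_of_le_of_ne (hmax' j hj) fun he => hji ?_)
        have := congrArg M.cls he
        rwa [cls_pieceDeg hJ, show M.a * (h j).natDegree + M.minDeg J j = pieceDeg J h j from rfl,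
          cls_pieceDeg hJ] at this
    · exact fun h' => absurd (Finset.mem_univ i) h'
  exact ⟨M.ne_zero_of_coef hc, i, hi.2, M.deg_eq_of_coef_ne_zero hb hc, hmax'⟩

theorem exists_basMap_eq {f : M.Alg k} (hf : f ∈ J) : ∃ h, basMap hJ h = f := by
  have he : (LinearMap.range (basMap hJ)).restrictScalars k = M.sub J := by
    refine M.eq_of_le_of_degSet_subset (by rintro _ ⟨h, rfl⟩; exact basMap_mem hJ h) fun n hn => ?_
    set i := M.cls n
    have hle := M.minDeg_le hn
    have h0 : (M.mon (M.a * ((n - M.minDeg J i) / M.a) + M.w i) : M.Alg k) ≠ 0 :=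
      M.mon_ne_zero (M.inS_add_mul _ _)
    obtain ⟨hne, j, hj, hdeg, -⟩ := deg_basMap hJ h0
    refine ⟨_, ⟨_, rfl⟩, hne, ?_⟩
    rw [hdeg]
    rw [mon_apply, cls_add_mul, expo_add_mul] at hj
    have hji : j = i := by by_contra h'; exact hj (if_neg h')
    rw [hji, pieceDeg, mon_apply, cls_add_mul, expo_add_mul, if_pos rfl, natDegree_X_pow]
    have hmod : (n - M.minDeg J i) % M.a = 0 :=
      Nat.sub_mod_eq_zero_of_mod_eq (M.cls_eq_iff.1 (M.minDeg_spec hJ i).2).symm
    rw [Nat.mul_div_cancel' (Nat.dvd_of_mod_eq_zero hmod)]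
    exact Nat.sub_add_cancel hle
  exact (he.symm ▸ hf : f ∈ (LinearMap.range (basMap hJ)).restrictScalars k)

theorem basMap_injective : Function.Injective (basMap hJ) := by
  rw [← LinearMap.ker_eq_bot, LinearMap.ker_eq_bot']
  intro h hh
  by_contra h0
  exact (deg_basMap hJ h0).1 hh

/-- The coordinate map of `J`. -/
def coord : J.restrictScalars k[X] ≃ₗ[k[X]] M.Alg k :=
  (LinearEquiv.ofBijective ((basMap hJ).codRestrict (J.restrictScalars k[X]) (basMap_mem hJ))
    ⟨fun _ _ h => basMap_injective hJ (congrArg Subtype.val h), fun f => by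
      obtain ⟨h, hh⟩ := exists_basMap_eq hJ f.2
      exact ⟨h, Subtype.ext hh⟩⟩).symm

theorem basMap_coord (f : J.restrictScalars k[X]) : basMap hJ (coord hJ f) = f :=
  congrArg Subtype.val ((coord hJ).symm_apply_apply f)

/-- The dual vector of an element: the coordinates of `e j * f` in class `c`. -/
def pair (c : Fin M.a) : J.restrictScalars k[X] →ₗ[k[X]] Fin M.a → k[X] where
  toFun f j := coord hJ ⟨M.eel k j * f, J.mul_mem_left _ f.2⟩ c
  map_add' f g := by
    funext j
    have h1 : (⟨M.eel k j * ((f + g : J.restrictScalars k[X]) : M.Alg k),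
        J.mul_mem_left _ (f + g).2⟩ : J.restrictScalars k[X])
        = ⟨M.eel k j * f, J.mul_mem_left _ f.2⟩ + ⟨M.eel k j * g, J.mul_mem_left _ g.2⟩ :=
      Subtype.ext (mul_add _ _ _)
    rw [Pi.add_apply, h1, map_add]
    rfl
  map_smul' p f := by
    funext j
    have h1 : (⟨M.eel k j * ((p • f : J.restrictScalars k[X]) : M.Alg k),
        J.mul_mem_left _ (p • f).2⟩ : J.restrictScalars k[X])
        = p • ⟨M.eel k j * f, J.mul_mem_left _ f.2⟩ := Subtype.ext (mul_smul_comm p _ _)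
    rw [RingHom.id_apply, Pi.smul_apply, h1, map_smul]
    rfl

theorem pair_mul (c : Fin M.a) (b : M.Alg k) (f : J.restrictScalars k[X]) (j : Fin M.a) :
    pair hJ c ⟨b * f, J.mul_mem_left b f.2⟩ j
      = ∑ l, (M.eel k j * b) l * pair hJ c f l := by
  show coord hJ _ c = ∑ l, (M.eel k j * b) l * coord hJ _ c
  have h1 : (⟨M.eel k j * (b * (f : M.Alg k)), J.mul_mem_left _ (J.mul_mem_left b f.2)⟩ :
      J.restrictScalars k[X]) = ∑ l, (M.eel k j * b) l •
        (⟨M.eel k l * f, J.mul_mem_left _ f.2⟩ : J.restrictScalars k[X]) := by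
    apply Subtype.ext
    simp only [Submodule.coe_sum, Submodule.coe_smul, ← smul_mul_assoc, ← Finset.sum_mul,
      sum_smul_eel, mul_assoc]
  rw [h1, map_sum, Alg.sum_apply]
  exact Finset.sum_congr rfl fun l _ => by rw [map_smul]; rfl

/-- If the largest gap occurs the pairing is perfect. -/
theorem pair_bijective {n : ℕ} (hn : n ∉ M.degSet (M.sub J))
    (hn1 : n + 1 = M.colength J + 2 * M.genus) :
    Function.Bijective (pair hJ (M.cls n)) := by
  have hw : ∀ i : Fin M.a, M.w i ≤ n + M.a := fun i => by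
    by_contra hlt
    push Not at hlt
    have h1 : M.w i - M.a ∉ M.degSet (M.sub (⊤ : Ideal (M.Alg k))) := fun h => by
      have h2 := M.w_le_of_inS (M.inS_of_mem_degSet h)
      have h3 : M.cls (M.w i - M.a) = i := by
        refine Fin.ext ?_
        show (M.w i - M.a) % M.a = i
        rw [← Nat.mod_eq_sub_mod (by omega), M.w_mod]
      rw [h3] at h2
      have := M.a_pos
      omega
    have := M.not_mem_degSet_le top_ne_bot h1
    rw [M.colength_top] at this
    omega
  have hclsn : ∀ i : Fin M.a, M.cls (n + M.a - M.w i) = M.cls n - i := fun i => by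
    rw [eq_sub_iff_add_eq, ← M.cls_w i, ← cls_add, M.cls_w i, Nat.sub_add_cancel (hw i)]
    exact Fin.ext (by simp [cls])
  have hv : ∀ i : Fin M.a, M.minDeg J (M.cls n - i) + M.w i = n + M.a := by
    intro i
    have key : ∀ m, M.cls m = M.cls n - i →
        (m ∈ M.degSet (M.sub J) ↔ n < m + M.w i) := fun m hm => by
      rcases le_or_gt m n with hmn | hmn
      · rw [M.mem_degSet_iff_of_top hJ hn hn1 hmn]
        have h1 : M.cls (n - m) = i := by
          have h2 : M.cls (n - m) + M.cls m = M.cls n := by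
            rw [← cls_add, Nat.sub_add_cancel hmn]
          rw [hm, ← eq_sub_iff_add_eq, sub_sub_cancel] at h2
          exact h2
        unfold InS
        rw [h1]
        omega
      · exact iff_of_true (M.mem_degSet_of_le hJ (by omega)) (by omega)
    obtain ⟨h1, h2⟩ := M.minDeg_spec hJ (M.cls n - i)
    have h3 := (key _ h2).1 h1
    have h4 := M.minDeg_le ((key _ (hclsn i)).2 (by have := M.a_pos; have := hw i; omega))
    rw [hclsn] at h4
    have h5 := hw i
    have hmod : M.cls (M.minDeg J (M.cls n - i) + M.w i) = M.cls n := by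
      rw [cls_add, h2, cls_w, sub_add_cancel]
    rw [M.cls_eq_iff] at hmod
    have hmod' : (M.minDeg J (M.cls n - i) + M.w i - n) % M.a = 0 :=
      Nat.sub_mod_eq_zero_of_mod_eq hmod
    obtain ⟨t, ht⟩ := Nat.dvd_of_mod_eq_zero hmod'
    have ht1 : t ≠ 0 := fun h => by subst h; simp at ht; omega
    have : M.a * 1 ≤ M.a * t := Nat.mul_le_mul_left _ (by omega)
    omega
  let u : Fin M.a → J.restrictScalars k[X] := fun i => ⟨bas hJ (M.cls n - i), bas_mem hJ _⟩
  have hc : M.minDeg J (M.cls n) = n + M.a := by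
    have := hv 0
    rwa [sub_zero, M.w_zero, add_zero] at this
  -- the pairing is triangular with unit diagonal
  have hP : ∀ i j, (j ≠ i → M.w j ≤ M.w i → pair hJ (M.cls n) (u i) j = 0) ∧
      IsUnit (pair hJ (M.cls n) (u i) i) := by
    intro i
    have hdeg : ∀ j, M.deg (M.eel k j * (bas hJ (M.cls n - i))) = M.w j + M.minDeg J (M.cls n - i) ∧
        (M.eel k j * (bas hJ (M.cls n - i)) : M.Alg k) ≠ 0 := fun j => by
      have he : M.eel k j = M.mon (M.w j) := Alg.ext fun l => by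
        rw [eel_apply, mon_apply, cls_w]
        split <;> simp [expo, cls_w]
      have hb0 : bas hJ (M.cls n - i) ≠ 0 :=
        M.ne_zero_of_coef (ne_of_eq_of_ne (coef_bas hJ _) one_ne_zero)
      rw [he]
      exact ⟨by rw [M.deg_mul (M.mon_ne_zero (M.inS_w j)) hb0, M.deg_mon (M.inS_w j),
        M.deg_eq_of_coef_ne_zero (below_bas hJ _) (ne_of_eq_of_ne (coef_bas hJ _) one_ne_zero)],
        (M.mul_ne_zero' (M.mon_ne_zero (M.inS_w j)) hb0).1⟩
    have hcoord : ∀ j, ∃ h : M.Alg k, pair hJ (M.cls n) (u i) j = h (M.cls n) ∧ ∃ l, h l ≠ 0 ∧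
        pieceDeg J h l = M.w j + M.minDeg J (M.cls n - i) ∧
        ∀ l', h l' ≠ 0 → pieceDeg J h l' ≤ M.w j + M.minDeg J (M.cls n - i) := fun j => by
      set f : J.restrictScalars k[X] := ⟨M.eel k j * bas hJ (M.cls n - i),
        J.mul_mem_left _ (bas_mem hJ _)⟩
      have hh : coord hJ f ≠ 0 := fun h0 => (hdeg j).2 (by
        have h1 := basMap_coord hJ f
        rw [h0, map_zero] at h1
        exact h1.symm)
      obtain ⟨-, l, hl, hld, hmax⟩ := deg_basMap hJ hh
      rw [basMap_coord, (hdeg j).1] at hld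
      exact ⟨coord hJ f, rfl, l, hl, hld.symm, fun l' hl' => hld ▸ hmax l' hl'⟩
    refine fun j => ⟨fun hji hwle => ?_, ?_⟩
    · obtain ⟨h, hh, -, -, -, hmax⟩ := hcoord j
      rw [hh]
      by_contra h0
      have h1 := hmax _ h0
      have h2 : M.w j ≠ M.w i := fun he => hji (by rw [← M.cls_w j, he, M.cls_w])
      have := hv i
      rw [pieceDeg, hc] at h1
      omega
    · obtain ⟨h, hh, l, hl, hld, -⟩ := hcoord i
      have h1 := congrArg M.cls hld
      rw [cls_pieceDeg hJ, cls_add, cls_w, (M.minDeg_spec hJ _).2, add_sub_cancel] at h1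
      subst h1
      rw [hh]
      rw [pieceDeg, add_comm (M.w i), hv i, hc] at hld
      have h0 : (h (M.cls n)).natDegree = 0 := by
        have := M.a_pos
        exact (Nat.mul_eq_zero.1 (by omega : M.a * (h (M.cls n)).natDegree = 0)).resolve_left
          this.ne'
      rw [eq_C_of_natDegree_eq_zero h0]
      exact isUnit_C.2 (IsUnit.mk0 _ fun hz => hl (by
        rw [eq_C_of_natDegree_eq_zero h0, hz, map_zero]))
  have hsurj : Function.Surjective (pair hJ (M.cls n)) := by
    rw [← LinearMap.range_eq_top, eq_top_iff]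
    suffices ∀ N : ℕ, ∀ i, n + M.a - M.w i ≤ N →
        Pi.single i (1 : k[X]) ∈ LinearMap.range (pair hJ (M.cls n)) by
      intro v _
      rw [pi_eq_sum_univ v]
      refine Submodule.sum_mem _ fun i _ => Submodule.smul_mem _ _ ?_
      convert this _ i le_rfl using 1
      funext j
      simp [Pi.single_apply, eq_comm]
    intro N
    induction N using Nat.strong_induction_on with
    | _ N IH =>
    intro i hiN
    obtain ⟨w, hw'⟩ := (hP i i).2
    have hrow : pair hJ (M.cls n) (u i) = (w : k[X]) • Pi.single i (1 : k[X]) +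
        ∑ j ∈ Finset.univ.erase i, pair hJ (M.cls n) (u i) j • Pi.single j (1 : k[X]) := by
      conv_lhs => rw [pi_eq_sum_univ (pair hJ (M.cls n) (u i))]
      rw [← Finset.add_sum_erase _ _ (Finset.mem_univ i), hw']
      congr 1
      · congr 1; funext j; simp [Pi.single_apply, eq_comm]
      · refine Finset.sum_congr rfl fun j _ => ?_
        congr 1; funext l; simp [Pi.single_apply, eq_comm]
    have hmem : (w : k[X]) • Pi.single i (1 : k[X]) ∈ LinearMap.range (pair hJ (M.cls n)) := by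
      rw [eq_sub_of_add_eq hrow.symm]
      refine Submodule.sub_mem _ ⟨_, rfl⟩ (Submodule.sum_mem _ fun j hj => ?_)
      rcases le_or_gt (M.w j) (M.w i) with hle | hlt
      · rw [(hP i j).1 (Finset.ne_of_mem_erase hj) hle, zero_smul]
        exact Submodule.zero_mem _
      · refine Submodule.smul_mem _ _ (IH (n + M.a - M.w j) ?_ j le_rfl)
        have := hw j
        omega
    have := Submodule.smul_mem (LinearMap.range (pair hJ (M.cls n))) (↑w⁻¹ : k[X]) hmem
    rwa [smul_smul, Units.inv_mul, one_smul] at this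
  refine ⟨?_, hsurj⟩
  have h2 : Function.Injective ((pair hJ (M.cls n)).comp (coord hJ).symm.toLinearMap) :=
    OrzechProperty.injective_of_surjective_endomorphism
      (((pair hJ (M.cls n)).comp (coord hJ).symm.toLinearMap) : (Fin M.a → k[X]) →ₗ[k[X]] _)
      (hsurj.comp (coord hJ).symm.surjective)
  intro x y h
  have := @h2 (coord hJ x) (coord hJ y) (by simpa using h)
  exact (coord hJ).injective this

end Basis

theorem cl_eq_of_hasTop [IsDedekindDomain (M.Alg k)] {J J' : Ideal (M.Alg k)} (hJ : J ≠ ⊥)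
    (hJ' : J' ≠ ⊥) (h : HasTop J) (h' : HasTop J') : cl J = cl J' := by
  obtain ⟨n, hn, hn1⟩ := h
  obtain ⟨n', hn', hn1'⟩ := h'
  let G := LinearEquiv.ofBijective _ (pair_bijective hJ hn hn1)
  let G' := LinearEquiv.ofBijective _ (pair_bijective hJ' hn' hn1')
  let Ψ := G.trans G'.symm
  have hΨ : ∀ (b : M.Alg k) (f : J.restrictScalars k[X]),
      (Ψ ⟨b * f, J.mul_mem_left b f.2⟩ : M.Alg k) = b * Ψ f := by
    intro b f
    have : Ψ ⟨b * f, J.mul_mem_left b f.2⟩
        = (⟨b * (Ψ f : M.Alg k), J'.mul_mem_left b (Ψ f).2⟩ : J'.restrictScalars k[X]) := by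
      apply G'.injective
      show G' (G'.symm (G ⟨b * f, _⟩)) = _
      rw [LinearEquiv.apply_symm_apply]
      funext j
      show pair hJ (M.cls n) _ j = pair hJ' (M.cls n') _ j
      rw [pair_mul, pair_mul]
      refine Finset.sum_congr rfl fun l _ => ?_
      congr 1
      show G f l = G' (Ψ f) l
      exact (congrFun (G'.apply_symm_apply (G f)) l).symm
    exact congrArg Subtype.val this
  obtain ⟨f0, hf0, hf00⟩ := Submodule.exists_mem_ne_zero_of_ne_bot hJ
  set y0 : M.Alg k := (Ψ ⟨f0, hf0⟩ : M.Alg k) with hy0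
  have hy00 : y0 ≠ 0 := fun h0 => hf00 (by
    have h1 : Ψ ⟨f0, hf0⟩ = 0 := Subtype.ext h0
    exact congrArg Subtype.val (Ψ.map_eq_zero_iff.1 h1))
  have key : ∀ f : J.restrictScalars k[X], (f : M.Alg k) * y0 = f0 * (Ψ f : M.Alg k) := fun f => by
    rw [hy0, ← hΨ, ← hΨ]
    congr 2
    exact Subtype.ext (mul_comm _ _)
  rw [cl_eq_mk0 hJ, cl_eq_mk0 hJ', ClassGroup.mk0_eq_mk0_iff]
  refine ⟨y0, f0, hy00, hf00, le_antisymm ?_ ?_⟩
  · intro g hg
    obtain ⟨f, hf, rfl⟩ := Ideal.mem_span_singleton_mul.1 hg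
    rw [mul_comm y0 f]
    rw [show f * y0 = f0 * (Ψ ⟨f, hf⟩ : M.Alg k) from key ⟨f, hf⟩]
    exact Ideal.mem_span_singleton_mul.2 ⟨_, (Ψ ⟨f, hf⟩).2, rfl⟩
  · intro g hg
    obtain ⟨f', hf', rfl⟩ := Ideal.mem_span_singleton_mul.1 hg
    obtain ⟨f, hf⟩ := Ψ.surjective ⟨f', hf'⟩
    have h1 : f' = (Ψ f : M.Alg k) := (congrArg Subtype.val hf).symm
    rw [h1, ← key f, mul_comm (f : M.Alg k) y0]
    exact Ideal.mem_span_singleton_mul.2 ⟨_, f.2, rfl⟩

section Existence

theorem two_sum_w : 2 * ∑ i, M.w i + M.a = 2 * M.a * M.genus + M.a * M.a := by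
  have h1 : ∀ i : Fin M.a, M.w i = M.a * (M.w i / M.a) + i := fun i => by
    conv_lhs => rw [← Nat.div_add_mod (M.w i) M.a, M.w_mod]
  rw [Finset.sum_congr rfl fun i _ => h1 i, Finset.sum_add_distrib, ← Finset.mul_sum]
  have h2 : (∑ i : Fin M.a, (i : ℕ)) * 2 = M.a * (M.a - 1) := by
    rw [Fin.sum_univ_eq_sum_range (fun i => i) M.a, Finset.sum_range_id_mul_two]
  change 2 * (M.a * M.genus + ∑ i : Fin M.a, (i : ℕ)) + M.a = _
  generalize (∑ i : Fin M.a, (i : ℕ)) = S at h2 ⊢
  generalize M.genus = G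
  have := M.a_pos
  generalize M.a = a at this h2 ⊢
  obtain ⟨b, rfl⟩ : ∃ b, a = b + 1 := ⟨a - 1, by omega⟩
  rw [Nat.add_sub_cancel] at h2
  linarith

/-- The trace form `(i, j) ↦ (e j * e i) 0`. -/
def pairMatrix (M : Model R) (k : Type*) [Field k] [Algebra R k] :
    Matrix (Fin M.a) (Fin M.a) k[X] := fun j i => (M.eel k j * M.eel k i) 0

theorem pairMatrix_mulVec (b : M.Alg k) :
    Matrix.mulVec (pairMatrix M k) b = fun j => (M.eel k j * b) 0 := by
  funext j
  conv_rhs => rw [← sum_smul_eel b, Finset.mul_sum, Alg.sum_apply]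
  show ∑ i, pairMatrix M k j i * b i = _
  refine Finset.sum_congr rfl fun i _ => ?_
  rw [mul_smul_comm, Alg.smul_apply, mul_comm]
  rfl

theorem pairEntry_bound (b : M.Alg k) {m : ℕ} (hb : M.Below b m) (j : Fin M.a) :
    ((M.eel k j * b) 0 ≠ 0 → M.a * ((M.eel k j * b) 0).natDegree ≤ M.w j + m) ∧
    (M.coef m b ≠ 0 → M.cls (M.w j + m) = 0 →
      (M.eel k j * b) 0 ≠ 0 ∧ M.a * ((M.eel k j * b) 0).natDegree = M.w j + m) := by
  have he : M.eel k j = M.mon (M.w j) := Alg.ext fun l => by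
    rw [eel_apply, mon_apply, cls_w]
    split <;> simp [expo, cls_w]
  have hbe : M.Below (M.eel k j * b) (M.w j + m) := he ▸ (M.below_mon (M.inS_w j)).mul M hb
  have key : ∀ t, ((M.eel k j * b) 0).coeff t = M.coef (M.a * t) (M.eel k j * b) := fun t => by
    rw [← coef_add_mul, M.w_zero, add_zero]
  have hle : (M.eel k j * b) 0 ≠ 0 → M.a * ((M.eel k j * b) 0).natDegree ≤ M.w j + m := fun h => by
    by_contra hlt
    exact leadingCoeff_ne_zero.2 h ((key _).trans (hbe _ (not_le.1 hlt)))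
  refine ⟨hle, fun hbm hcls => ?_⟩
  obtain ⟨t, ht⟩ : M.a ∣ M.w j + m :=
    Nat.dvd_of_mod_eq_zero ((congrArg Fin.val hcls).trans (by simp))
  have h1 : ((M.eel k j * b) 0).coeff t ≠ 0 := by
    rw [key, ← ht, he, coef_mul_top M (M.below_mon (M.inS_w j)) hb, coef_mon_self M (M.inS_w j),
      one_mul]
    exact hbm
  have h0 : (M.eel k j * b) 0 ≠ 0 := fun h => h1 (by rw [h, coeff_zero])
  refine ⟨h0, le_antisymm (hle h0) ?_⟩
  rw [ht]
  exact Nat.mul_le_mul_left _ (le_natDegree_of_ne_zero h1)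

theorem det_pairMatrix_ne_zero : (pairMatrix M k).det ≠ 0 := by
  intro hdet
  obtain ⟨v, hv0, hv⟩ := Matrix.exists_mulVec_eq_zero_iff.2 hdet
  rw [pairMatrix_mulVec (v : M.Alg k)] at hv
  have hv0' : (v : M.Alg k) ≠ 0 := hv0
  obtain ⟨h, -⟩ := (pairEntry_bound (v : M.Alg k) (M.below_deg _) (-M.cls (M.deg (v : M.Alg k)))).2
    (M.coef_deg_ne_zero hv0') (by rw [cls_add, cls_w, neg_add_cancel])
  exact h (congrFun hv _)

theorem exists_hasTop (hg : 0 < M.genus) : ∃ J : Ideal (M.Alg k), J ≠ ⊥ ∧ HasTop J := by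
  set d := (pairMatrix M k).det with hd
  have hd0 : d ≠ 0 := det_pairMatrix_ne_zero
  let J : Ideal (M.Alg k) :=
    { carrier := {b | ∀ j, d ∣ (M.eel k j * b) 0}
      zero_mem' := fun j => by simp
      add_mem' := fun {b c} hb hc j => by
        rw [mul_add, Alg.add_apply]; exact dvd_add (hb j) (hc j)
      smul_mem' := fun c b hb j => by
        show d ∣ (M.eel k j * (c * b)) 0
        rw [← mul_assoc, ← sum_smul_eel (M.eel k j * c), Finset.sum_mul, Alg.sum_apply]
        refine Finset.dvd_sum fun l _ => ?_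
        rw [smul_mul_assoc, Alg.smul_apply]
        exact Dvd.dvd.mul_left (hb l) _ }
  -- the preimage of a monomial
  have hex : ∀ (j : Fin M.a) (t : ℕ), ∃ b ∈ J, b ≠ 0 ∧ M.w j + M.deg b = M.a * (d.natDegree + t) ∧
      M.cls (M.deg b) = -j := by
    intro j t
    set b : M.Alg k := Matrix.mulVec (pairMatrix M k).adjugate (Pi.single j (X ^ t)) with hb
    have hN : ∀ l, (M.eel k l * b) 0 = d * (Pi.single j (X ^ t) : Fin M.a → k[X]) l := fun l => by
      have h1 := congrFun (pairMatrix_mulVec b).symm l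
      rw [hb, Matrix.mulVec_mulVec, Matrix.mul_adjugate, Matrix.smul_mulVec,
        Matrix.one_mulVec] at h1
      exact h1
    have hb0 : b ≠ 0 := fun h0 => by
      have h1 := hN j
      rw [h0, mul_zero, Alg.zero_apply, Pi.single_eq_same] at h1
      exact mul_ne_zero hd0 (pow_ne_zero _ X_ne_zero) h1.symm
    obtain ⟨hne, heq⟩ := (pairEntry_bound b (M.below_deg b) (-M.cls (M.deg b))).2
      (M.coef_deg_ne_zero hb0) (by rw [cls_add, cls_w, neg_add_cancel])
    have hj : -M.cls (M.deg b) = j := by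
      by_contra hne'
      apply hne
      rw [hN, Pi.single_eq_of_ne hne', mul_zero]
    rw [hj, hN, Pi.single_eq_same, natDegree_mul hd0 (pow_ne_zero _ X_ne_zero),
      natDegree_X_pow] at heq
    exact ⟨b, fun l => ⟨_, hN l⟩, hb0, heq.symm, by rw [← hj, neg_neg]⟩
  have hJ : J ≠ ⊥ := by
    obtain ⟨b, hb, hb0, -, -⟩ := hex 0 0
    exact fun h => hb0 ((Submodule.mem_bot _).1 (h ▸ hb))
  have hv : ∀ i : Fin M.a, M.minDeg J i + M.w (-i) = M.a * d.natDegree := fun i => by
    refine le_antisymm ?_ ?_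
    · obtain ⟨b, hb, hb0, hdeg, hc⟩ := hex (-i) 0
      have h1 := M.minDeg_le (M.deg_mem_degSet J hb hb0)
      rw [hc, neg_neg] at h1
      rw [add_zero] at hdeg
      omega
    · obtain ⟨⟨f, hf, hf0, hfd⟩, hc⟩ := M.minDeg_spec hJ i
      obtain ⟨h0, heq⟩ := (pairEntry_bound f (M.below_deg f) (-i)).2 (M.coef_deg_ne_zero hf0)
        (by rw [cls_add, cls_w, hfd, hc, neg_add_cancel])
      have := Nat.mul_le_mul_left M.a (natDegree_le_of_dvd (hf (-i)) h0)
      omega
  have hpos : M.a ≤ M.a * d.natDegree := by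
    obtain ⟨i, -, hi⟩ := Finset.exists_ne_zero_of_sum_ne_zero hg.ne'
    have h1 := hv (-i)
    rw [neg_neg] at h1
    have h2 : M.a ≤ M.w i :=
      le_of_not_gt fun hlt => hi (Nat.div_eq_of_lt hlt)
    omega
  refine ⟨J, hJ, M.a * d.natDegree - M.a, fun h => ?_, ?_⟩
  · have h1 := M.minDeg_le h
    have h2 := hv (M.cls (M.a * d.natDegree - M.a))
    have h0 : M.cls (M.a * d.natDegree - M.a) = 0 := Fin.ext (by
      show (M.a * d.natDegree - M.a) % M.a = _
      rw [show M.a * d.natDegree - M.a = M.a * (d.natDegree - 1) by rw [Nat.mul_sub, mul_one],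
        Nat.mul_mod_right]
      simp)
    rw [h0, neg_zero, M.w_zero] at h2
    rw [h0] at h1
    have := M.a_pos
    omega
  · have h1 := M.sum_minDeg hJ
    have h2 : ∑ i, M.minDeg J i + ∑ i, M.w i = M.a * (M.a * d.natDegree) := by
      rw [← Equiv.sum_comp (Equiv.neg (Fin M.a)) M.w, ← Finset.sum_add_distrib]
      simp [hv]
    have h3 := two_sum_w (M := M)
    have h4 : M.a * (M.colength J + 2 * M.genus + M.a) = M.a * (M.a * d.natDegree + 1) := by
      rw [Nat.mul_add, Nat.mul_add, Nat.mul_add, mul_one]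
      have : M.a * (2 * M.genus) = 2 * M.a * M.genus := by ring
      omega
    have := Nat.eq_of_mul_eq_mul_left M.a_pos h4
    omega

end Existence

variable [IsDedekindDomain (M.Alg k)]

/-- Exactly one class has the largest gap. -/
theorem existsUnique_class_hasTop (hg : 0 < M.genus) :
    ∃! c : ClassGroup (M.Alg k), ∀ J, J ≠ ⊥ → cl J = c → HasTop J := by
  obtain ⟨J, hJ, h⟩ := exists_hasTop (M := M) (k := k) hg
  refine ⟨cl J, fun J' hJ' hc => hasTop_congr hg hJ hJ' hc.symm h, fun c hc => ?_⟩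
  obtain ⟨J', hJ', rfl⟩ := cl_surjective c
  exact cl_eq_of_hasTop hJ' hJ (hc J' hJ' rfl) h

end Model

end FLTAgent.PicTorsion
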