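import Mathlib.RingTheory.Jacobson.Ring
import Mathlib.RingTheory.Nullstellensatz
import Mathlib.RingTheory.Ideal.GoingUp
import Mathlib.RingTheory.Localization.Integral
import Mathlib.FieldTheory.IsAlgClosed.Basic

/-!
# Transfer of solvability of polynomial systems between algebraically closed fields
-/

set_option autoImplicit false

noncomputable section

open MvPolynomial

namespace FLTAgent.PicTorsion

universe u v

variable {R K : Type u} [CommRing R] [IsDomain R] [Field K] [IsAlgClosed K] [Algebra R K]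
  [FaithfulSMul R K] {σ ι : Type v} [Finite σ] [Finite ι]

omit [IsAlgClosed K] [Finite σ] in
/-- An algebraic solution specialises wherever the leading coefficients survive. -/
theorem exists_specialized_solution (x : σ → K) (p : σ → Polynomial R)
    (hp : ∀ j, Polynomial.aeval (x j) (p j) = 0) {b : R} (hb : b ≠ 0)
    (hdvd : ∀ j, (p j).leadingCoeff ∣ b) {Ω : Type u} [Field Ω] [IsAlgClosed Ω] [Algebra R Ω]
    (hbΩ : algebraMap R Ω b ≠ 0) (P : ι → MvPolynomial σ R) (hx : ∀ e, aeval x (P e) = 0) :
    ∃ v : σ → Ω, ∀ e, aeval v (P e) = 0 := by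
  let Rb := Localization.Away b
  have hbK : algebraMap R K b ≠ 0 := (map_ne_zero_iff _ (FaithfulSMul.algebraMap_injective R K)).2 hb
  let f : Rb →+* K := IsLocalization.Away.lift b (g := algebraMap R K) hbK.isUnit
  let g : Rb →+* Ω := IsLocalization.Away.lift b (g := algebraMap R Ω) hbΩ.isUnit
  let _ : Algebra Rb K := f.toAlgebra
  let _ : Algebra Rb Ω := g.toAlgebra
  have : IsScalarTower R Rb K :=
    IsScalarTower.of_algebraMap_eq fun r => (IsLocalization.Away.lift_eq b hbK.isUnit r).symm
  have : IsScalarTower R Rb Ω :=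
    IsScalarTower.of_algebraMap_eq fun r => (IsLocalization.Away.lift_eq b hbΩ.isUnit r).symm
  have hinj : Function.Injective (algebraMap Rb K) := by
    rw [injective_iff_map_eq_zero]
    intro z hz
    obtain ⟨⟨r, s⟩, hrs⟩ := IsLocalization.surj (Submonoid.powers b) z
    have h1 := congrArg (algebraMap Rb K) hrs
    rw [map_mul, hz, zero_mul, ← IsScalarTower.algebraMap_apply] at h1
    have hr : r = 0 := FaithfulSMul.algebraMap_injective R K (h1.symm.trans (map_zero _).symm)
    have hs : IsUnit (algebraMap R Rb (s : R)) := IsLocalization.map_units Rb s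
    simp only [hr, map_zero] at hrs
    exact hs.mul_left_eq_zero.1 hrs
  have hint : ∀ j, IsIntegral Rb (x j) := fun j => by
    have h1 : IsIntegral Rb ((p j).leadingCoeff • x j) :=
      (isIntegral_leadingCoeff_smul (p j) (x j) (hp j)).tower_top
    obtain ⟨c, hc⟩ := hdvd j
    have hu : IsUnit (algebraMap R Rb (p j).leadingCoeff) :=
      isUnit_of_mul_isUnit_left (y := algebraMap R Rb c) (by
        rw [← map_mul, ← hc]; exact IsLocalization.Away.algebraMap_isUnit b)
    obtain ⟨w, hw⟩ := hu.exists_left_inv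
    have h2 := h1.smul w
    rwa [← algebraMap_smul Rb (p j).leadingCoeff (x j), smul_smul, hw, one_smul] at h2
  let D := Algebra.adjoin Rb (Set.range x)
  have hDint : Algebra.IsIntegral Rb D := ⟨fun z => by
    refine (isIntegral_algHom_iff D.val Subtype.val_injective).1 ?_
    exact (Algebra.adjoin_le (fun y hy => by obtain ⟨j, rfl⟩ := hy; exact hint j) :
      D ≤ integralClosure Rb K) z.2⟩
  have : IsScalarTower R Rb D := inferInstance
  let q : Ideal Rb := RingHom.ker (algebraMap Rb Ω)
  have hq : q.IsPrime := RingHom.ker_isPrime _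
  obtain ⟨Q, hQ, hQq⟩ := Ideal.exists_ideal_over_prime_of_isIntegral_of_isDomain (S := D) q (by
    intro z hz
    rw [RingHom.mem_ker] at hz
    rw [show z = 0 from hinj (by rw [map_zero]; exact congrArg (fun d : D => (d : K)) hz)]
    exact zero_mem _)
  have : Q.LiesOver q := ⟨hQq.symm⟩
  let _ : Algebra (Rb ⧸ q) Ω := (RingHom.kerLift (algebraMap Rb Ω)).toAlgebra
  have : Algebra.IsAlgebraic (Rb ⧸ q) (D ⧸ Q) := by
    refine ⟨fun z => ?_⟩
    obtain ⟨d, rfl⟩ := Ideal.Quotient.mk_surjective z
    exact (((hDint.isIntegral d).map (Ideal.Quotient.mkₐ Rb Q)).tower_top).isAlgebraic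
  have hinjΩ : Function.Injective (algebraMap (Rb ⧸ q) Ω) :=
    RingHom.kerLift_injective (algebraMap Rb Ω)
  have : FaithfulSMul (Rb ⧸ q) Ω := (faithfulSMul_iff_algebraMap_injective _ _).2 hinjΩ
  have : Module.IsTorsionFree (Rb ⧸ q) Ω := inferInstance
  let ψ₀ : D ⧸ Q →ₐ[Rb ⧸ q] Ω := IsAlgClosed.lift
  have : IsScalarTower Rb (Rb ⧸ q) Ω :=
    ⟨fun r y z => by
      obtain ⟨y, rfl⟩ := Ideal.Quotient.mk_surjective y
      show algebraMap (Rb ⧸ q) Ω (Ideal.Quotient.mk q (r * y)) * z
        = algebraMap Rb Ω r * (algebraMap (Rb ⧸ q) Ω (Ideal.Quotient.mk q y) * z)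
      rw [map_mul, map_mul, mul_assoc]
      rfl⟩
  let ψ : D →ₐ[Rb] Ω := (ψ₀.restrictScalars Rb).comp (Ideal.Quotient.mkₐ Rb Q)
  refine ⟨fun j => ψ ⟨x j, Algebra.subset_adjoin ⟨j, rfl⟩⟩, fun e => ?_⟩
  have h0 : aeval (fun j => (⟨x j, Algebra.subset_adjoin ⟨j, rfl⟩⟩ : D)) (P e) = 0 := by
    apply Subtype.val_injective
    show (D.val.restrictScalars R) _ = _
    rw [← AlgHom.comp_apply, comp_aeval]
    exact hx e
  show aeval (fun j => (ψ.restrictScalars R) _) (P e) = 0
  rw [← comp_aeval, AlgHom.comp_apply, h0, map_zero]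

variable (K) in
/-- Away from one nonzero element, solvability does not depend on the field. -/
theorem exists_transfer (P : ι → MvPolynomial σ R) :
    ∃ b : R, b ≠ 0 ∧ ∀ (Ω : Type u) [Field Ω] [IsAlgClosed Ω] [Algebra R Ω],
      algebraMap R Ω b ≠ 0 →
        ((∃ v : σ → K, ∀ e, aeval v (P e) = 0) ↔ ∃ v : σ → Ω, ∀ e, aeval v (P e) = 0) := by
  classical
  have := Fintype.ofFinite ι
  have := Fintype.ofFinite σ
  let L := FractionRing R
  let _ : Algebra L K := FractionRing.liftAlgebra R K
  have hLinj : Function.Injective (algebraMap R L) := IsFractionRing.injective R L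
  let I : Ideal (MvPolynomial σ L) := Ideal.span (Set.range fun e => map (algebraMap R L) (P e))
  by_cases hI : I = ⊤
  · have h1 : (1 : MvPolynomial σ L) ∈ I := hI ▸ Submodule.mem_top
    obtain ⟨g, hg⟩ := Ideal.mem_span_range_iff_exists_fun.1 h1
    obtain ⟨b, hb⟩ := IsLocalization.exist_integer_multiples_of_finset (nonZeroDivisors R)
      ((Finset.univ : Finset ι).biUnion fun e => (g e).support.image fun m => (g e).coeff m)
    have hh : ∀ e, ∃ h : MvPolynomial σ R, map (algebraMap R L) h = (b : R) • g e := by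
      intro e
      choose c hc using fun m : (g e).support => hb ((g e).coeff m.1)
        (Finset.mem_biUnion.2 ⟨e, Finset.mem_univ e, Finset.mem_image_of_mem _ m.2⟩)
      refine ⟨∑ m, monomial m.1 (c m), ?_⟩
      conv_rhs => rw [(g e).as_sum, Finset.smul_sum, ← Finset.sum_coe_sort]
      rw [map_sum]
      refine Finset.sum_congr rfl fun m _ => ?_
      rw [map_monomial, hc m, smul_monomial]
    choose h hh using hh
    have hid : ∑ e, h e * P e = C (b : R) := by
      apply map_injective (algebraMap R L) hLinj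
      simp only [map_sum, map_mul, hh, map_C, smul_mul_assoc, ← Finset.smul_sum, hg]
      rw [Algebra.smul_def, mul_one, IsScalarTower.algebraMap_apply R L (MvPolynomial σ L)]
      rfl
    have hno : ∀ (E : Type u) [Field E] [Algebra R E], algebraMap R E (b : R) ≠ 0 →
        ¬ ∃ v : σ → E, ∀ e, aeval v (P e) = 0 := by
      intro E _ _ hbE ⟨v, hv⟩
      have := congrArg (aeval v) hid
      rw [map_sum, aeval_C] at this
      simp only [map_mul, hv, mul_zero, Finset.sum_const_zero] at this
      exact hbE this.symm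
    exact ⟨b, nonZeroDivisors.coe_ne_zero b, fun Ω _ _ _ hbΩ => iff_of_false
      (hno K ((map_ne_zero_iff _ (FaithfulSMul.algebraMap_injective R K)).2
        (nonZeroDivisors.coe_ne_zero b))) (hno Ω hbΩ)⟩
  · obtain ⟨m, hm, hIm⟩ := Ideal.exists_le_maximal I hI
    let _ : Field (MvPolynomial σ L ⧸ m) := Ideal.Quotient.field m
    have : Module.Finite L (MvPolynomial σ L ⧸ m) := finite_of_finite_type_of_isJacobsonRing L _
    let ψ : MvPolynomial σ L ⧸ m →ₐ[L] K := IsAlgClosed.lift
    let φ : MvPolynomial σ L →ₐ[L] K := ψ.comp (Ideal.Quotient.mkₐ L m)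
    set x : σ → K := fun j => φ (X j) with hx
    have hsol : ∀ e, aeval x (P e) = 0 := fun e => by
      have h1 : φ (map (algebraMap R L) (P e)) = 0 := by
        show ψ (Ideal.Quotient.mk m _) = 0
        rw [Ideal.Quotient.eq_zero_iff_mem.2 (hIm (Ideal.subset_span ⟨e, rfl⟩)), map_zero]
      rwa [aeval_unique φ, aeval_map_algebraMap] at h1
    have halg : ∀ j, IsAlgebraic R (x j) := fun j => by
      have h1 : IsAlgebraic L (Ideal.Quotient.mk m (X j)) :=
        (IsIntegral.of_finite L _).isAlgebraic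
      exact (IsFractionRing.isAlgebraic_iff R L K).2 (h1.algHom ψ)
    choose p hp0 hp using halg
    refine ⟨∏ j, (p j).leadingCoeff, Finset.prod_ne_zero_iff.2 fun j _ =>
      Polynomial.leadingCoeff_ne_zero.2 (hp0 j), fun Ω _ _ _ hbΩ => iff_of_true ⟨x, hsol⟩ ?_⟩
    exact exists_specialized_solution x p hp (Finset.prod_ne_zero_iff.2 fun j _ =>
      Polynomial.leadingCoeff_ne_zero.2 (hp0 j))
      (fun j => Finset.dvd_prod_of_mem _ (Finset.mem_univ j)) hbΩ P hsol

end FLTAgent.PicTorsion
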