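import Fermat.Agent.PicTorsion.Config
import Fermat.Agent.PicTorsion.Points
import Fermat.Agent.PicTorsion.Transfer

/-!
# Normality and torsion configurations transfer between fields
-/

set_option autoImplicit false

noncomputable section

open Polynomial

namespace FLTAgent.PicTorsion

universe u

namespace Model

variable {R : Type u} [CommRing R] {M : Model R}

section Transfer

variable [IsDomain R] {K : Type u} [Field K] [IsAlgClosed K] [Algebra R K] [FaithfulSMul R K]

variable (K) in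
/-- Transfer for equations in the algebra of the model. -/
theorem exists_transfer_alg {σ ι : Type} [Finite σ] [Finite ι]
    (E : ι → M.Alg (MvPolynomial σ R)) :
    ∃ b : R, b ≠ 0 ∧ ∀ (Ω : Type u) [Field Ω] [IsAlgClosed Ω] [Algebra R Ω],
      algebraMap R Ω b ≠ 0 →
        ((∃ v : σ → K, ∀ e, M.mapAlg (MvPolynomial.aeval v) (E e) = 0) ↔
          ∃ v : σ → Ω, ∀ e, M.mapAlg (MvPolynomial.aeval v) (E e) = 0) := by
  classical
  have key : ∀ (L : Type u) [Field L] [Algebra R L] (v : σ → L),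
      (∀ e, M.mapAlg (MvPolynomial.aeval v) (E e) = 0) ↔
        ∀ p : Σ e, ↥(M.supp (E e)), MvPolynomial.aeval v (M.coef p.2.1 (E p.1)) = 0 := by
    intro L _ _ v
    refine ⟨fun h p => by rw [← coef_mapAlg, h, coef_zero], fun h e => M.ext_coef fun n => ?_⟩
    rw [coef_mapAlg, coef_zero]
    by_cases hn : n ∈ M.supp (E e)
    · exact h ⟨e, n, hn⟩
    · rw [not_not.1 (mt M.mem_supp.2 hn), map_zero]
  obtain ⟨b, hb, h⟩ := exists_transfer K fun p : Σ e, ↥(M.supp (E e)) => M.coef p.2.1 (E p.1)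
  refine ⟨b, hb, fun Ω _ _ _ hbΩ => ?_⟩
  rw [exists_congr (key K), exists_congr (key Ω)]
  exact h Ω hbΩ

end Transfer

/-- The indices of the equations of a witness against normality. -/
abbrev NEq (M : Model R) : Type :=
  Unit ⊕ ((Fin M.a × Fin M.a) ⊕ (Unit ⊕ ((Fin M.a × Option (Fin M.a)) ⊕ Unit)))

/-- The equations of a witness with a coordinate one. -/
def normEq {k : Type*} [CommRing k] [Algebra R k] (i₀ : Fin M.a) (c : k) (η b : Fin M.a → k) :
    NEq M → k
  | Sum.inl _ => η 0 - 1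
  | Sum.inr (Sum.inl (i, j)) => η i * η j - ∑ l, (M.Tk k i j l).eval c * η l
  | Sum.inr (Sum.inr (Sum.inl _)) => ∑ i, b i * η i
  | Sum.inr (Sum.inr (Sum.inr (Sum.inl (i, some l)))) =>
      ((constVec (M := M) b * (M.eel k i - η i • 1)) l).eval c
  | Sum.inr (Sum.inr (Sum.inr (Sum.inl (i, none)))) =>
      ∑ l, (derivative ((constVec (M := M) b * (M.eel k i - η i • 1)) l)).eval c * η l
  | Sum.inr (Sum.inr (Sum.inr (Sum.inr _))) => b i₀ - 1

theorem map_normEq {k k' : Type*} [CommRing k] [Algebra R k] [CommRing k'] [Algebra R k']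
    (φ : k →ₐ[R] k') (i₀ : Fin M.a) (c : k) (η b : Fin M.a → k) (e : NEq M) :
    φ (normEq i₀ c η b e) = normEq i₀ (φ c) (fun i => φ (η i)) (fun i => φ (b i)) e := by
  have hev : ∀ p : k[X], φ (p.eval c) = (p.map φ.toRingHom).eval (φ c) := fun p =>
    (Polynomial.eval_map_apply (f := φ.toRingHom) (p := p) c).symm
  have hcv : M.mapAlg φ (constVec b) = constVec (M := M) fun i => φ (b i) :=
    Alg.ext fun i => by simp [mapAlg_apply, constVec_apply]
  have hprod : ∀ i l, ((constVec (M := M) b * (M.eel k i - η i • 1)) l).map φ.toRingHom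
      = (constVec (M := M) (fun i => φ (b i)) * (M.eel k' i - φ (η i) • 1)) l := fun i l => by
    rw [← mapAlg_apply, map_mul, map_sub, hcv, mapAlg_eel, mapAlg_smul, map_one]
  rcases e with _ | ⟨i, j⟩ | _ | ⟨i, _ | l⟩ | _ <;> simp only [normEq, map_sub, map_one]
  · simp only [map_mul, map_sum, hev, Tk_map]
  · simp only [map_mul, map_sum]
  · simp only [map_mul, map_sum, hev, ← Polynomial.derivative_map, hprod]
  · simp only [hev, hprod]

theorem not_normal_iff {k : Type*} [Field k] [Algebra R k] :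
    ¬ M.Normal k ↔ ∃ (i₀ : Fin M.a) (c : k) (η b : Fin M.a → k), ∀ e, normEq i₀ c η b e = 0 := by
  constructor
  · intro h
    simp only [Normal, not_forall] at h
    obtain ⟨p, b, hw, hb⟩ := h
    obtain ⟨i₀, hi₀⟩ := Function.ne_iff.1 hb
    set s := (b i₀)⁻¹
    refine ⟨i₀, p.c, p.η, fun i => s * b i, ?_⟩
    have hcv : constVec (M := M) (fun i => s * b i) = s • constVec (M := M) b :=
      Alg.ext fun i => by simp [constVec_apply, Alg.smul_const_apply]
    obtain ⟨h1, h2⟩ := hw
    rintro (_ | ⟨i, j⟩ | _ | ⟨i, _ | l⟩ | _)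
    · show p.η 0 - 1 = 0
      rw [p.η_zero, sub_self]
    · exact sub_eq_zero.2 (p.η_mul i j)
    · show ∑ i, s * b i * p.η i = 0
      simp only [mul_assoc, ← Finset.mul_sum, h1, mul_zero]
    · show ∑ l, _ = (0 : k)
      rw [hcv]
      simp only [smul_mul_assoc, Alg.smul_const_apply, derivative_C_mul, eval_mul, eval_C,
        mul_assoc, ← Finset.mul_sum, (h2 i).2, mul_zero]
    · show Polynomial.eval _ _ = (0 : k)
      rw [hcv]
      simp only [smul_mul_assoc, Alg.smul_const_apply, eval_mul, eval_C, (h2 i).1 l, mul_zero]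
    · show s * b i₀ - 1 = 0
      rw [inv_mul_cancel₀ hi₀, sub_self]
  · rintro ⟨i₀, c, η, b, he⟩ hN
    let p : M.Point k :=
      { c := c
        η := η
        η_zero := sub_eq_zero.1 (he (Sum.inl ()))
        η_mul := fun i j => sub_eq_zero.1 (he (Sum.inr (Sum.inl (i, j)))) }
    have hw : Witness p b := ⟨he (Sum.inr (Sum.inr (Sum.inl ()))), fun i =>
      ⟨fun l => he (Sum.inr (Sum.inr (Sum.inr (Sum.inl (i, some l))))),
        he (Sum.inr (Sum.inr (Sum.inr (Sum.inl (i, none)))))⟩⟩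
    have h1 : b i₀ - 1 = 0 := he (Sum.inr (Sum.inr (Sum.inr (Sum.inr ()))))
    rw [congrFun (hN p b hw) i₀] at h1
    simp at h1

variable [IsDomain R] {K : Type u} [Field K] [IsAlgClosed K] [Algebra R K] [FaithfulSMul R K]

variable (M K) in
theorem exists_normal_transfer :
    ∃ b : R, b ≠ 0 ∧ ∀ (Ω : Type u) [Field Ω] [IsAlgClosed Ω] [Algebra R Ω],
      algebraMap R Ω b ≠ 0 → M.Normal K → M.Normal Ω := by
  classical
  let σ : Type := Unit ⊕ (Fin M.a ⊕ Fin M.a)
  let P : Fin M.a → NEq M → MvPolynomial σ R := fun i₀ =>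
    normEq i₀ (MvPolynomial.X (Sum.inl ())) (fun i => MvPolynomial.X (Sum.inr (Sum.inl i)))
      (fun i => MvPolynomial.X (Sum.inr (Sum.inr i)))
  choose b hb h using fun i₀ => exists_transfer K (P i₀)
  refine ⟨∏ i, b i, Finset.prod_ne_zero_iff.2 fun i _ => hb i, fun Ω _ _ _ hbΩ hK => ?_⟩
  by_contra hΩ
  obtain ⟨i₀, c, η, v, he⟩ := not_normal_iff.1 hΩ
  have hne : algebraMap R Ω (b i₀) ≠ 0 := fun h0 => hbΩ (by
    rw [map_prod]
    exact Finset.prod_eq_zero (Finset.mem_univ i₀) h0)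
  obtain ⟨x, hx⟩ := (h i₀ Ω hne).2 ⟨Sum.elim (fun _ => c) (Sum.elim η v), fun e => by
    simp only [P, map_normEq, MvPolynomial.aeval_X]
    exact he e⟩
  refine not_normal_iff.2 ⟨i₀, x (Sum.inl ()), fun i => x (Sum.inr (Sum.inl i)),
    fun i => x (Sum.inr (Sum.inr i)), fun e => ?_⟩ hK
  have := hx e
  simpa only [P, map_normEq, MvPolynomial.aeval_X] using this

variable (M K) in
theorem exists_hasCfg_transfer (N m D : ℕ) :
    ∃ b : R, b ≠ 0 ∧ ∀ (Ω : Type u) [Field Ω] [IsAlgClosed Ω] [Algebra R Ω],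
      algebraMap R Ω b ≠ 0 → (M.HasCfg N m D K ↔ M.HasCfg N m D Ω) := by
  classical
  choose b hb h using fun v : CIdx N m → Fin M.a → Fin D =>
    exists_transfer_alg (M := M) K (fun e : M.CEq N m =>
      cfgEq (fun p i => (v p i : ℕ)) (fun s : M.CVar N m D => MvPolynomial.X s) e)
  refine ⟨∏ v, b v, Finset.prod_ne_zero_iff.2 fun v _ => hb v, fun Ω _ _ _ hbΩ => ?_⟩
  refine exists_congr fun v => and_congr_right fun _ => ?_
  have hne : algebraMap R Ω (b v) ≠ 0 := fun h0 => hbΩ (by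
    rw [map_prod]
    exact Finset.prod_eq_zero (Finset.mem_univ v) h0)
  have := h v Ω hne
  simpa only [mapAlg_cfgEq, MvPolynomial.aeval_X] using this

end Model

end FLTAgent.PicTorsion
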